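/-
GATE-L / L6a-BRIDGE part 1 (helper80).  A noetherian integrally closed domain `B` with its family of
height-one localisations (helper7 `GL/Alg/KrullHeightOne`) IS a Krull frame in the sense of helper46
(`GL/Local/KrullFrame.IsFrame`).

* `HtOne B` : the type of height-one primes; `V1 F 𝔭 : ValuationSubring F` the DVR `B_𝔭`;
* `algebraMap_mem_nonunits_V1_iff` : `s ∈ B` is a non-unit of `B_𝔭` iff `s ∈ 𝔭`;
* `over_V1_iff` : `KrullFrame.Over (V1 F) P 𝔭 ↔ 𝔭 ≤ P`;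
* `finite_bad_V1`, `rank_one_V1`;
* **`isFrame_heightOne : IsFrame B (V1 F)`**, so `IsFrame.exists_loc_iff`, `isDivisorial_locModule`,
  `exists_isGenAt`, `exists_move` of helper46 apply verbatim to every noetherian normal domain;
* `V1_le_of_le` : a valuation subring `W ⊇ B_𝔭`, `W ≠ ⊤`, equals `B_𝔭` (a DVR is a maximal subring).
-/
import Mathlib
import Fermat.Agent.GL.Alg.KrullHeightOne
import Fermat.Agent.GL.Local.KrullFrame

set_option autoImplicit false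

namespace Fermat.Agent.GL.Frame.HeightOne

open Fermat.Agent.GL.KrullHeightOne Fermat.Agent.GL.KrullFrame

/-- the height-one primes of `B` -/
def HtOne (B : Type*) [CommRing B] : Type _ := {𝔭 : Ideal B // 𝔭.IsPrime ∧ 𝔭.height = 1}

variable {B F : Type*} [CommRing B] [IsDomain B] [Field F] [Algebra B F] [IsFractionRing B F]
  [IsNoetherianRing B] [IsIntegrallyClosed B]

instance (𝔭 : HtOne B) : 𝔭.1.IsPrime := 𝔭.2.1

variable (F) in
/-- the discrete valuation subring `B_𝔭 ⊆ F` of a height-one prime. -/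
noncomputable def V1 (𝔭 : HtOne B) : ValuationSubring F := valSub 𝔭.1 𝔭.2.2

theorem mem_V1_iff (𝔭 : HtOne B) {x : F} :
    x ∈ V1 F 𝔭 ↔ ∃ s : B, s ∉ 𝔭.1 ∧ s • x ∈ (algebraMap B F).range :=
  mem_valSub_iff 𝔭.1 𝔭.2.2

theorem algebraMap_mem_V1 (𝔭 : HtOne B) (b : B) : algebraMap B F b ∈ V1 F 𝔭 :=
  algebraMap_mem_valSub 𝔭.1 𝔭.2.2 b

theorem inv_algebraMap_mem_V1 (𝔭 : HtOne B) {s : B} (hs : s ∉ 𝔭.1) :
    (algebraMap B F s)⁻¹ ∈ V1 F 𝔭 := by
  refine (mem_V1_iff 𝔭).2 ⟨s, hs, 1, ?_⟩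
  have h0 : algebraMap B F s ≠ 0 := KrullHeightOne.algebraMap_ne_zero_of_not_mem 𝔭.1 hs
  rw [Algebra.smul_def, map_one, mul_inv_cancel₀ h0]

theorem not_inv_algebraMap_mem_V1 (𝔭 : HtOne B) {s : B} (hs : s ∈ 𝔭.1) (hs0 : s ≠ 0) :
    (algebraMap B F s)⁻¹ ∉ V1 F 𝔭 := by
  intro h
  obtain ⟨t, ht, a, ha⟩ := (mem_V1_iff 𝔭).1 h
  apply ht
  have h0 : algebraMap B F s ≠ 0 := fun h0 =>
    hs0 ((map_eq_zero_iff _ (IsFractionRing.injective B F)).1 h0)
  have : t = s * a := by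
    apply IsFractionRing.injective B F
    rw [map_mul, ha, Algebra.smul_def]
    field_simp
  rw [this]
  exact 𝔭.1.mul_mem_right _ hs

/-- `s ∈ B` is a non-unit of `B_𝔭` iff `s ∈ 𝔭`. -/
theorem algebraMap_mem_nonunits_V1_iff (𝔭 : HtOne B) (s : B) :
    algebraMap B F s ∈ (V1 F 𝔭).nonunits ↔ s ∈ 𝔭.1 := by
  rw [ValuationSubring.mem_nonunits_iff_or]
  constructor
  · rintro (h | h)
    · rw [(map_eq_zero_iff _ (IsFractionRing.injective B F)).1 h]
      exact 𝔭.1.zero_mem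
    · by_contra hs
      exact h (inv_algebraMap_mem_V1 𝔭 hs)
  · intro hs
    by_cases hs0 : s = 0
    · left
      rw [hs0, map_zero]
    · right
      exact not_inv_algebraMap_mem_V1 𝔭 hs hs0

/-- `𝔭` lies over `P` in the sense of `KrullFrame.Over` iff `𝔭 ≤ P`. -/
theorem over_V1_iff (P : Ideal B) (𝔭 : HtOne B) : Over (V1 F) P 𝔭 ↔ 𝔭.1 ≤ P := by
  constructor
  · intro h s hs
    exact h s ((algebraMap_mem_nonunits_V1_iff 𝔭 s).2 hs)
  · intro h s hs
    exact h ((algebraMap_mem_nonunits_V1_iff 𝔭 s).1 hs)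

/-- finite character: an element of `F` lies in all but finitely many `B_𝔭`. -/
theorem finite_bad_V1 (f : F) : {𝔭 : HtOne B | f ∉ V1 F 𝔭}.Finite := by
  obtain ⟨a, s, hs, rfl⟩ := IsFractionRing.div_surjective (A := B) f
  have hs0 : s ≠ 0 := nonZeroDivisors.ne_zero hs
  have hsub : {𝔭 : HtOne B | algebraMap B F a / algebraMap B F s ∉ V1 F 𝔭} ⊆
      (fun 𝔭 : HtOne B => 𝔭.1) ⁻¹' (Ideal.span {s}).minimalPrimes := by
    intro 𝔭 h𝔭
    by_contra hmem
    apply h𝔭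
    have hs𝔭 : s ∉ 𝔭.1 := fun h =>
      hmem (mem_minimalPrimes_span_of_height_one hs0 𝔭.1 𝔭.2.2 h)
    rw [div_eq_mul_inv]
    exact (V1 F 𝔭).mul_mem _ _ (algebraMap_mem_V1 𝔭 a) (inv_algebraMap_mem_V1 𝔭 hs𝔭)
  refine Set.Finite.subset (Set.Finite.preimage ?_ (finite_minimalPrimes_span s)) hsub
  exact Set.injOn_of_injective Subtype.val_injective

/-- rank one: a power of a non-unit `s ∈ 𝔭` clears any denominator in `B_𝔭`. -/
theorem rank_one_V1 (𝔭 : HtOne B) (s : B) (hs : algebraMap B F s ∈ (V1 F 𝔭).nonunits) (f : F) :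
    ∃ n : ℕ, (algebraMap B F s) ^ n * f ∈ V1 F 𝔭 := by
  have hs𝔭 : s ∈ 𝔭.1 := (algebraMap_mem_nonunits_V1_iff 𝔭 s).1 hs
  have : IsDiscreteValuationRing (locSub F 𝔭.1) := isDiscreteValuationRing_locSub 𝔭.1 𝔭.2.2
  obtain ⟨a, b, hb, rfl⟩ := IsFractionRing.div_surjective (A := B) f
  have hb0 : b ≠ 0 := nonZeroDivisors.ne_zero hb
  obtain ⟨ϖ, hϖ⟩ := IsDiscreteValuationRing.exists_irreducible (locSub F 𝔭.1)
  have hb' : algebraMap B (locSub F 𝔭.1) b ≠ 0 := by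
    intro h0
    have h1 : algebraMap B F b = 0 := by
      rw [IsScalarTower.algebraMap_apply B (locSub F 𝔭.1) F, h0, map_zero]
    exact hb0 ((map_eq_zero_iff _ (IsFractionRing.injective B F)).1 h1)
  obtain ⟨n, hn⟩ := IsDiscreteValuationRing.associated_pow_irreducible hb' hϖ
  have hsm : algebraMap B (locSub F 𝔭.1) s ∈ IsLocalRing.maximalIdeal (locSub F 𝔭.1) :=
    (IsLocalization.AtPrime.to_map_mem_maximal_iff (locSub F 𝔭.1) 𝔭.1 s).2 hs𝔭
  rw [hϖ.maximalIdeal_eq, Ideal.mem_span_singleton] at hsm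
  have hdvd : algebraMap B (locSub F 𝔭.1) b ∣ (algebraMap B (locSub F 𝔭.1) s) ^ n :=
    hn.dvd.trans (pow_dvd_pow_of_dvd hsm n)
  obtain ⟨c, hc⟩ := hdvd
  refine ⟨n, ?_⟩
  have hbF : algebraMap B F b ≠ 0 := fun h0 =>
    hb0 ((map_eq_zero_iff _ (IsFractionRing.injective B F)).1 h0)
  have hcF : (algebraMap B F s) ^ n = algebraMap B F b * (c : F) := by
    have := congrArg (fun z : locSub F 𝔭.1 => (z : F)) hc
    simpa using this
  have : (algebraMap B F s) ^ n * (algebraMap B F a / algebraMap B F b) =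
      algebraMap B F a * (c : F) := by
    rw [hcF]
    field_simp
  rw [this]
  exact (V1 F 𝔭).mul_mem _ _ (algebraMap_mem_V1 𝔭 a) c.2

/-- **a noetherian integrally closed domain is a Krull frame** (helper46 `IsFrame`) for the family
of its height-one localisations. -/
theorem isFrame_heightOne : IsFrame B (V1 (B := B) F) where
  mem_range_iff f := by
    rw [mem_range_iff_forall_valSub]
    constructor
    · intro h v
      exact h v.1 v.2.1 v.2.2
    · intro h 𝔭 hp h1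
      exact h ⟨𝔭, hp, h1⟩
  finite_bad := finite_bad_V1
  rank_one := rank_one_V1

/-- **a DVR is a maximal proper subring**: a valuation subring `W ≠ ⊤` of `F` containing `B_𝔭`
(`𝔭` of height one) is `B_𝔭`. -/
theorem eq_V1_of_le (𝔭 : HtOne B) (W : ValuationSubring F) (hle : V1 F 𝔭 ≤ W) (hW : W ≠ ⊤) :
    W = V1 F 𝔭 := by
  refine le_antisymm ?_ hle
  intro x hxW
  by_contra hxV
  -- `x⁻¹` is a non-unit of `B_𝔭`
  have hx0 : x ≠ 0 := fun h => hxV (h ▸ (V1 F 𝔭).zero_mem)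
  have hxinv : x⁻¹ ∈ V1 F 𝔭 := ((V1 F 𝔭).mem_or_inv_mem x).resolve_left hxV
  obtain ⟨t, ht, a, ha⟩ := (mem_V1_iff 𝔭).1 hxinv
  have htF : algebraMap B F t ≠ 0 := KrullHeightOne.algebraMap_ne_zero_of_not_mem 𝔭.1 ht
  have haF : algebraMap B F a = algebraMap B F t * x⁻¹ := by rw [ha, Algebra.smul_def]
  have haF0 : algebraMap B F a ≠ 0 := by
    rw [haF]
    exact mul_ne_zero htF (inv_ne_zero hx0)
  -- `a ∈ 𝔭`, otherwise `x ∈ B_𝔭`
  have ha𝔭 : a ∈ 𝔭.1 := by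
    by_contra ha𝔭
    apply hxV
    have : x = algebraMap B F t * (algebraMap B F a)⁻¹ := by
      rw [haF]
      field_simp
    rw [this]
    exact (V1 F 𝔭).mul_mem _ _ (algebraMap_mem_V1 𝔭 t) (inv_algebraMap_mem_V1 𝔭 ha𝔭)
  -- `a⁻¹ = x t⁻¹ ∈ W`
  have hainvW : (algebraMap B F a)⁻¹ ∈ W := by
    have : (algebraMap B F a)⁻¹ = x * (algebraMap B F t)⁻¹ := by
      rw [haF]
      field_simp
    rw [this]
    exact W.mul_mem _ _ hxW (hle (inv_algebraMap_mem_V1 𝔭 ht))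
  -- every `f` lies in `W`
  apply hW
  rw [eq_top_iff]
  intro f _
  obtain ⟨n, hn⟩ := rank_one_V1 𝔭 a ((algebraMap_mem_nonunits_V1_iff 𝔭 a).2 ha𝔭) f
  have : f = ((algebraMap B F a)⁻¹) ^ n * ((algebraMap B F a) ^ n * f) := by
    rw [← mul_assoc, ← mul_pow, inv_mul_cancel₀ haF0, one_pow, one_mul]
  rw [this]
  exact W.mul_mem _ _ (pow_mem hainvW n) (hle hn)

end Fermat.Agent.GL.Frame.HeightOne
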