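/-
GATE-L / L6a-BRIDGE part 2 (helper80).  The VERTICAL height-one primes of an integral extension
`A ⊆ B` of noetherian integrally closed domains are exactly the extensions of the "Gauss" DVR
`A_(π)` (`π` a prime element of `A`; in the application `A = R[t]`, `π = q`, `B = integralClosure A F_L`).

`K = Frac A`, `L = Frac B`, `G := A_(π) ⊆ K` (`gaussRing hπ`).

* `comap_V1_eq_gaussRing` : `𝔮` a height-one prime of `B` containing `π` ⟹ `B_𝔮 ∩ K = A_(π)`
  (going-down for integrally closed domains: `𝔮 ∩ A = (π)`);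
* `exists_htOne_of_comap_eq` : conversely a valuation subring `W` of `L` with `W ∩ K = A_(π)` is
  `B_𝔮` for a height-one prime `𝔮 ∋ π` (its centre on `B`; incomparability);
* `comap_eq_gaussRing_iff` : the two together;
* **`mem_range_iff_of_forall_ext`** : if `w i` (`i : ι`) are ALL the valuation subrings of `L`
  extending `A_(π)` then `x ∈ B ↔ (∃ n, π ^ n • x ∈ B) ∧ ∀ i, x ∈ w i`;
* `exists_pow_smul_mem_range_iff_isIntegral` : the horizontal condition `∃ n, π ^ n • x ∈ B` says that
  `x` is integral over `A[1/π]` (any model `A'` of the localisation);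
* `integralClosure` instances at the end.
-/
import Mathlib
import Fermat.Agent.GL.Frame.HeightOneFrame

set_option autoImplicit false
set_option linter.unusedSectionVars false

namespace Fermat.Agent.GL.Frame.Vertical

open Fermat.Agent.GL.KrullHeightOne Fermat.Agent.GL.KrullFrame Fermat.Agent.GL.Frame.HeightOne

section Gauss

variable {A K : Type*} [CommRing A] [IsDomain A] [Field K] [Algebra A K] [IsFractionRing A K]
  [IsNoetherianRing A] [IsIntegrallyClosed A]

/-- the height-one prime `(π)` of a prime element `π`. -/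
def gaussPrime {π : A} (hπ : Prime π) : HtOne A :=
  ⟨Ideal.span {π}, (Ideal.span_singleton_prime hπ.ne_zero).2 hπ, by
    have : (Ideal.span {π}).IsPrime := (Ideal.span_singleton_prime hπ.ne_zero).2 hπ
    refine height_eq_one_of_mem_minimalPrimes_span hπ.ne_zero ?_
    rw [Ideal.minimalPrimes_eq_subsingleton_self]
    exact Set.mem_singleton _⟩

@[simp]
theorem gaussPrime_val {π : A} (hπ : Prime π) : (gaussPrime hπ).1 = Ideal.span {π} := rfl

variable (K) in
/-- the DVR `A_(π) ⊆ K` ("Gauss valuation ring"). -/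
noncomputable def gaussRing {π : A} (hπ : Prime π) : ValuationSubring K := V1 K (gaussPrime hπ)

theorem algebraMap_mem_nonunits_gaussRing_iff {π : A} (hπ : Prime π) (a : A) :
    algebraMap A K a ∈ (gaussRing K hπ).nonunits ↔ π ∣ a := by
  rw [gaussRing, algebraMap_mem_nonunits_V1_iff, gaussPrime_val, Ideal.mem_span_singleton]

theorem not_inv_mem_gaussRing {π : A} (hπ : Prime π) : (algebraMap A K π)⁻¹ ∉ gaussRing K hπ :=
  not_inv_algebraMap_mem_V1 (gaussPrime hπ) (Ideal.mem_span_singleton_self π) hπ.ne_zero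

end Gauss

section Ext

variable {A B K L : Type*} [CommRing A] [IsDomain A] [CommRing B] [IsDomain B] [Field K] [Field L]
  [Algebra A K] [IsFractionRing A K] [Algebra B L] [IsFractionRing B L]
  [Algebra A B] [Algebra K L] [Algebra A L] [IsScalarTower A K L] [IsScalarTower A B L]
  [Algebra.IsIntegral A B] [FaithfulSMul A B]
  [IsNoetherianRing A] [IsIntegrallyClosed A] [IsNoetherianRing B] [IsIntegrallyClosed B]

omit [IsDomain A] [IsDomain B] [IsFractionRing A K] [IsFractionRing B L] [Algebra.IsIntegral A B]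
  [FaithfulSMul A B] [IsNoetherianRing A] [IsIntegrallyClosed A] [IsNoetherianRing B]
  [IsIntegrallyClosed B] in
theorem algebraMap_comm (a : A) :
    algebraMap B L (algebraMap A B a) = algebraMap K L (algebraMap A K a) := by
  rw [← IsScalarTower.algebraMap_apply A B L, ← IsScalarTower.algebraMap_apply A K L]

omit [IsDomain A] [IsDomain B] [IsFractionRing A K] [IsFractionRing B L] [Algebra.IsIntegral A B]
  [FaithfulSMul A B] [IsNoetherianRing A] [IsIntegrallyClosed A] [IsNoetherianRing B]
  [IsIntegrallyClosed B] [Algebra A B] [Algebra A L] [IsScalarTower A K L] [IsScalarTower A B L]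
  [Algebra A K] [CommRing A] [CommRing B] [Algebra B L] in
/-- non-units of a comap. -/
theorem mem_nonunits_comap_iff (W : ValuationSubring L) (x : K) :
    x ∈ (W.comap (algebraMap K L)).nonunits ↔ algebraMap K L x ∈ W.nonunits := by
  rw [ValuationSubring.mem_nonunits_iff_or, ValuationSubring.mem_nonunits_iff_or,
    ValuationSubring.mem_comap, map_inv₀, map_eq_zero]

variable {π : A} (hπ : Prime π)

omit [IsIntegrallyClosed B] in
include hπ in
/-- the contraction of a vertical height-one prime is `(π)` (going-down). -/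
theorem under_eq_span (𝔮 : HtOne B) (hπ𝔮 : algebraMap A B π ∈ 𝔮.1) :
    𝔮.1.under A = Ideal.span {π} := by
  have : (Ideal.span {π}).IsPrime := (Ideal.span_singleton_prime hπ.ne_zero).2 hπ
  have hle : Ideal.span {π} ≤ 𝔮.1.under A := by
    rw [Ideal.span_singleton_le_iff_mem, Ideal.under_def, Ideal.mem_comap]
    exact hπ𝔮
  have hh : (𝔮.1.under A).height ≤ (Ideal.span {π}).height := by
    have h1 := Ideal.height_eq_height_add_of_liesOver_of_hasGoingDown (𝔮.1.under A) 𝔮.1
    have h2 : (𝔮.1.under A).height ≤ 𝔮.1.height := by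
      rw [h1]
      exact le_self_add
    rw [𝔮.2.2] at h2
    have h3 : (Ideal.span {π}).height = 1 := (gaussPrime hπ).2.2
    rw [h3]
    exact h2
  exact (Ideal.eq_of_le_of_height_le _ hle hh).symm

include hπ in
/-- **vertical height-one primes extend the Gauss valuation**: `B_𝔮 ∩ K = A_(π)`. -/
theorem comap_V1_eq_gaussRing (𝔮 : HtOne B) (hπ𝔮 : algebraMap A B π ∈ 𝔮.1) :
    (V1 L 𝔮).comap (algebraMap K L) = gaussRing K hπ := by
  have hu := under_eq_span hπ 𝔮 hπ𝔮
  have hπB0 : algebraMap A B π ≠ 0 := by
    rw [Ne, map_eq_zero_iff _ (FaithfulSMul.algebraMap_injective A B)]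
    exact hπ.ne_zero
  refine eq_V1_of_le (gaussPrime hπ) _ ?_ ?_
  · intro x hx
    obtain ⟨s, hs, a, ha⟩ := (mem_V1_iff (gaussPrime hπ)).1 hx
    rw [ValuationSubring.mem_comap]
    have hs𝔮 : algebraMap A B s ∉ 𝔮.1 := by
      intro h
      apply hs
      have : s ∈ 𝔮.1.under A := by
        rw [Ideal.under_def, Ideal.mem_comap]
        exact h
      rw [hu] at this
      exact this
    refine (mem_V1_iff 𝔮).2 ⟨algebraMap A B s, hs𝔮, algebraMap A B a, ?_⟩
    rw [Algebra.smul_def, algebraMap_comm (B := B) (K := K), algebraMap_comm (B := B) (K := K),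
      ← map_mul, ha, Algebra.smul_def]
  · intro htop
    have h1 : (algebraMap A K π)⁻¹ ∈ (V1 L 𝔮).comap (algebraMap K L) := by
      rw [htop]
      exact ValuationSubring.mem_top _
    rw [ValuationSubring.mem_comap, map_inv₀, ← algebraMap_comm (B := B) (K := K)] at h1
    exact not_inv_algebraMap_mem_V1 𝔮 hπ𝔮 hπB0 h1

omit [FaithfulSMul A B] [IsNoetherianRing B] [IsIntegrallyClosed B] [IsFractionRing B L]
  [IsDomain B] in
include hπ in
/-- a valuation subring extending `A_(π)` contains `B`. -/
theorem algebraMap_mem_of_comap_eq (W : ValuationSubring L)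
    (hW : W.comap (algebraMap K L) = gaussRing K hπ) (b : B) : algebraMap B L b ∈ W := by
  have hA : ∀ a : A, algebraMap A L a ∈ W := by
    intro a
    have h1 : algebraMap A K a ∈ W.comap (algebraMap K L) := by
      rw [hW]
      exact algebraMap_mem_V1 (gaussPrime hπ) a
    rw [ValuationSubring.mem_comap, ← IsScalarTower.algebraMap_apply A K L] at h1
    exact h1
  let φ : A →+* W := (algebraMap A L).codRestrict W.toSubring hA
  have hb : IsIntegral A (algebraMap B L b) := (Algebra.IsIntegral.isIntegral b).algebraMap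
  have hb' : IsIntegral W (algebraMap B L b) := by
    have := IsIntegral.map_of_comp_eq φ (RingHom.id L)
      (RingHom.ext fun a => rfl) hb
    simpa using this
  obtain ⟨y, hy⟩ := IsIntegrallyClosed.algebraMap_eq_of_integral (R := W) hb'
  rw [← hy]
  exact y.2

include hπ in
/-- **an extension of the Gauss valuation is a vertical height-one localisation**. -/
theorem exists_htOne_of_comap_eq (W : ValuationSubring L)
    (hW : W.comap (algebraMap K L) = gaussRing K hπ) :
    ∃ 𝔮 : HtOne B, algebraMap A B π ∈ 𝔮.1 ∧ W = V1 L 𝔮 := by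
  have hBW := algebraMap_mem_of_comap_eq hπ W hW (B := B)
  let φ : B →+* W := (algebraMap B L).codRestrict W.toSubring hBW
  let 𝔮 : Ideal B := (IsLocalRing.maximalIdeal W).comap φ
  have hmem : ∀ b : B, b ∈ 𝔮 ↔ algebraMap B L b ∈ W.nonunits := by
    intro b
    rw [Ideal.mem_comap, ← ValuationSubring.coe_mem_nonunits_iff]
    rfl
  have h𝔮p : 𝔮.IsPrime := Ideal.comap_isPrime φ _
  have hAmem : ∀ a : A, algebraMap A B a ∈ 𝔮 ↔ π ∣ a := by
    intro a
    rw [hmem, algebraMap_comm (B := B) (K := K), ← mem_nonunits_comap_iff, hW,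
      algebraMap_mem_nonunits_gaussRing_iff]
  have hunder : 𝔮.under A = Ideal.span {π} := by
    ext a
    rw [Ideal.under_def, Ideal.mem_comap, hAmem, Ideal.mem_span_singleton]
  have hπ𝔮 : algebraMap A B π ∈ 𝔮 := (hAmem π).2 dvd_rfl
  have hπB0 : algebraMap A B π ≠ 0 := by
    rw [Ne, map_eq_zero_iff _ (FaithfulSMul.algebraMap_injective A B)]
    exact hπ.ne_zero
  have hmin : 𝔮 ∈ (Ideal.span {algebraMap A B π}).minimalPrimes := by
    have h := Ideal.IsIntegral.mem_minimalPrimes_map_under (R := A) 𝔮
    rw [hunder, Ideal.map_span, Set.image_singleton] at h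
    exact h
  let 𝔮' : HtOne B := ⟨𝔮, h𝔮p, height_eq_one_of_mem_minimalPrimes_span hπB0 hmin⟩
  refine ⟨𝔮', hπ𝔮, eq_V1_of_le 𝔮' W ?_ ?_⟩
  · intro x hx
    obtain ⟨s, hs, b, hb⟩ := (mem_V1_iff 𝔮').1 hx
    have hs' : algebraMap B L s ∉ W.nonunits := fun h => hs ((hmem s).2 h)
    rw [ValuationSubring.mem_nonunits_iff_or] at hs'
    push Not at hs'
    have hx' : x = (algebraMap B L s)⁻¹ * algebraMap B L b := by
      rw [hb, Algebra.smul_def, ← mul_assoc, inv_mul_cancel₀ hs'.1, one_mul]
    rw [hx']
    exact W.mul_mem _ _ hs'.2 (hBW b)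
  · intro htop
    have h1 : (algebraMap A K π)⁻¹ ∈ W.comap (algebraMap K L) := by
      rw [htop]
      exact ValuationSubring.mem_top _
    rw [hW] at h1
    exact not_inv_mem_gaussRing hπ h1

include hπ in
/-- vertical height-one localisations of `B` = valuation subrings of `L` extending `A_(π)`. -/
theorem comap_eq_gaussRing_iff (W : ValuationSubring L) :
    W.comap (algebraMap K L) = gaussRing K hπ ↔
      ∃ 𝔮 : HtOne B, algebraMap A B π ∈ 𝔮.1 ∧ W = V1 L 𝔮 := by
  constructor
  · exact exists_htOne_of_comap_eq hπ W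
  · rintro ⟨𝔮, h𝔮, rfl⟩
    exact comap_V1_eq_gaussRing hπ 𝔮 h𝔮

include hπ in
/-- **membership in `B` from the complete list of extensions of the Gauss valuation**: if `w i`
are ALL the valuation subrings of `L` over `A_(π)`, then `x ∈ B` iff `x ∈ B[1/π]` and `x ∈ w i`
for all `i`. -/
theorem mem_range_iff_of_forall_ext {ι : Type*} (w : ι → ValuationSubring L)
    (hw : ∀ i, (w i).comap (algebraMap K L) = gaussRing K hπ)
    (hall : ∀ W : ValuationSubring L, W.comap (algebraMap K L) = gaussRing K hπ → ∃ i, W = w i)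
    (x : L) :
    x ∈ (algebraMap B L).range ↔
      (∃ n : ℕ, (algebraMap A B π) ^ n • x ∈ (algebraMap B L).range) ∧ ∀ i, x ∈ w i := by
  have hπB0 : algebraMap A B π ≠ 0 := by
    rw [Ne, map_eq_zero_iff _ (FaithfulSMul.algebraMap_injective A B)]
    exact hπ.ne_zero
  constructor
  · rintro ⟨b, rfl⟩
    refine ⟨⟨0, by rw [pow_zero, one_smul]; exact ⟨b, rfl⟩⟩, fun i => ?_⟩
    exact algebraMap_mem_of_comap_eq hπ (w i) (hw i) b
  · rintro ⟨hhor, hver⟩
    refine mem_range_of_horizontal_of_vertical hπB0 x hhor fun 𝔮 h𝔮 => ?_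
    have := h𝔮.isPrime
    let 𝔮' : HtOne B := ⟨𝔮, h𝔮.isPrime, height_eq_one_of_mem_minimalPrimes_span hπB0 h𝔮⟩
    have hπ𝔮 : algebraMap A B π ∈ 𝔮'.1 := h𝔮.1.2 (Ideal.mem_span_singleton_self _)
    obtain ⟨i, hi⟩ := hall _ (comap_V1_eq_gaussRing hπ 𝔮' hπ𝔮)
    have hx : x ∈ V1 L 𝔮' := by
      rw [hi]
      exact hver i
    exact (mem_V1_iff 𝔮').1 hx

omit [IsDomain A] [IsFractionRing A K] [FaithfulSMul A B] [IsNoetherianRing A]
  [IsIntegrallyClosed A] [IsNoetherianRing B] [IsScalarTower A K L] [Algebra K L] [Algebra A K] in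
/-- an element of `L` integral over `A` lies in `B`. -/
theorem mem_range_of_isIntegral {y : L} (hy : IsIntegral A y) : y ∈ (algebraMap B L).range := by
  have h1 : IsIntegral B y := hy.tower_top
  obtain ⟨b, hb⟩ := IsIntegrallyClosed.algebraMap_eq_of_integral h1
  exact ⟨b, hb⟩

omit [IsDomain A] [IsFractionRing A K] [FaithfulSMul A B] [IsNoetherianRing A]
  [IsIntegrallyClosed A] [IsNoetherianRing B] [IsScalarTower A K L] [Algebra K L] [Algebra A K] in
/-- **the horizontal condition**: `x ∈ B[1/π]` iff `x` is integral over `A[1/π]`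
(`A'` any model of the localisation of `A` away from `π`). -/
theorem exists_pow_smul_mem_range_iff_isIntegral (π : A) (A' : Type*) [CommRing A'] [Algebra A A']
    [IsLocalization.Away π A'] [Algebra A' L] [IsScalarTower A A' L] (x : L) :
    (∃ n : ℕ, (algebraMap A B π) ^ n • x ∈ (algebraMap B L).range) ↔ IsIntegral A' x := by
  constructor
  · rintro ⟨n, b, hb⟩
    have hu : IsUnit (algebraMap A A' (π ^ n)) :=
      IsLocalization.map_units A' (⟨π ^ n, n, rfl⟩ : Submonoid.powers π)
    obtain ⟨u, hu'⟩ := hu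
    have hbint : IsIntegral A' (algebraMap B L b) :=
      ((Algebra.IsIntegral.isIntegral (R := A) b).algebraMap (B := L)).tower_top
    have hx : x = algebraMap A' L ((u⁻¹ : A'ˣ) : A') * algebraMap B L b := by
      rw [hb, Algebra.smul_def, ← map_pow, ← IsScalarTower.algebraMap_apply A B L,
        IsScalarTower.algebraMap_apply A A' L, ← hu', ← mul_assoc, ← map_mul, Units.inv_mul,
        map_one, one_mul]
    rw [hx]
    exact isIntegral_algebraMap.mul hbint
  · intro hx
    obtain ⟨⟨m, n, hn⟩, hm⟩ :=
      IsIntegral.exists_multiple_integral_of_isLocalization (Submonoid.powers π) x hx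
    refine ⟨n, ?_⟩
    have h1 : (algebraMap A B π) ^ n • x = m • x := by
      rw [Algebra.smul_def, Algebra.smul_def, ← map_pow, ← IsScalarTower.algebraMap_apply A B L]
      simp only [← hn]
    rw [h1]
    exact mem_range_of_isIntegral (B := B) hm

end Ext

/-! ### `B = integralClosure A L` -/

section IntegralClosure

variable (A K L : Type*) [CommRing A] [IsDomain A] [IsNoetherianRing A] [IsIntegrallyClosed A]
  [Field K] [Algebra A K] [IsFractionRing A K]
  [Field L] [Algebra K L] [Algebra A L] [IsScalarTower A K L]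
  [FiniteDimensional K L] [Algebra.IsSeparable K L]

include K in
theorem faithfulSMul_integralClosure : FaithfulSMul A (integralClosure A L) := by
  rw [faithfulSMul_iff_algebraMap_injective]
  intro a b hab
  have h1 : algebraMap A L a = algebraMap A L b := by
    have := congrArg (fun z : integralClosure A L => (z : L)) hab
    simpa using this
  rw [IsScalarTower.algebraMap_apply A K L, IsScalarTower.algebraMap_apply A K L] at h1
  exact IsFractionRing.injective A K ((algebraMap K L).injective h1)

variable {A K L}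

/-- **FRAME membership criterion for the integral closure**: if `w i` are ALL the valuation
subrings of `L` extending the DVR `A_(π)`, then `x ∈ L` is integral over `A` iff `π ^ n x` is
integral over `A` for some `n` (i.e. `x` is integral over `A[1/π]`) and `x ∈ w i` for all `i`. -/
theorem isIntegral_iff_of_forall_ext {π : A} (hπ : Prime π) {ι : Type*}
    (w : ι → ValuationSubring L)
    (hw : ∀ i, (w i).comap (algebraMap K L) = gaussRing K hπ)
    (hall : ∀ W : ValuationSubring L, W.comap (algebraMap K L) = gaussRing K hπ → ∃ i, W = w i)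
    (x : L) :
    IsIntegral A x ↔ (∃ n : ℕ, IsIntegral A ((algebraMap A L π) ^ n * x)) ∧ ∀ i, x ∈ w i := by
  obtain ⟨h1, -, h3, h4⟩ := integralClosure_package A K L
  have h5 := faithfulSMul_integralClosure A K L
  have hrange : ∀ y : L, y ∈ (algebraMap (integralClosure A L) L).range ↔ IsIntegral A y := by
    intro y
    constructor
    · rintro ⟨b, rfl⟩
      exact b.2
    · intro hy
      exact ⟨⟨y, hy⟩, rfl⟩
  have key := mem_range_iff_of_forall_ext (B := integralClosure A L) hπ w hw hall x
  rw [hrange] at key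
  rw [key]
  refine and_congr_left fun _ => exists_congr fun n => ?_
  rw [hrange, Algebra.smul_def, map_pow]
  rfl

/-- the vertical height-one localisations of `integralClosure A L` are the extensions of `A_(π)`. -/
theorem comap_eq_gaussRing_iff_integralClosure {π : A} (hπ : Prime π) (W : ValuationSubring L) :
    W.comap (algebraMap K L) = gaussRing K hπ ↔
      ∃ (_ : IsNoetherianRing (integralClosure A L)) (_ : IsIntegrallyClosed (integralClosure A L))
        (_ : IsFractionRing (integralClosure A L) L) (𝔮 : HtOne (integralClosure A L)),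
        algebraMap A (integralClosure A L) π ∈ 𝔮.1 ∧ W = V1 L 𝔮 := by
  obtain ⟨h1, -, h3, h4⟩ := integralClosure_package A K L
  have h5 := faithfulSMul_integralClosure A K L
  constructor
  · intro hW
    obtain ⟨𝔮, h𝔮, hWq⟩ := exists_htOne_of_comap_eq (B := integralClosure A L) hπ W hW
    exact ⟨h1, h3, h4, 𝔮, h𝔮, hWq⟩
  · rintro ⟨_, _, _, 𝔮, h𝔮, rfl⟩
    exact comap_V1_eq_gaussRing hπ 𝔮 h𝔮

end IntegralClosure

end Fermat.Agent.GL.Frame.Vertical
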