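/-
GATE-L / FRAME-INST-A (helper80), generic ring-level instance of the FRAME.

`R` a noetherian UFD (the DVR `R₀ = A ∩ K₀`), `K = Frac R`, `F ⊇ K` a field, `t ∈ F` a chart
(transcendental over `R`), `F / K(t)` finite and separable, `q` a prime element of `R`.

Part 1 (`Chart`): `R[t] = Algebra.adjoin R {t}` is a polynomial ring: noetherian, integrally
closed, `q` is prime in it, and `K(t) = (IntermediateField.adjoin K {t})` is its fraction field.
-/
import Mathlib
import Fermat.Agent.GL.Frame.VerticalExt
import Fermat.Agent.GL.Alg.IntClosureSplit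

set_option autoImplicit false
set_option linter.unusedSectionVars false

open Polynomial IntermediateField

namespace Fermat.Agent.GL.Frame.Inst

section Chart

variable {R K F : Type*} [CommRing R] [IsDomain R] [Field K] [Field F]
  [Algebra R K] [IsFractionRing R K] [Algebra K F] [Algebra R F] [IsScalarTower R K F]
  (t : F)

/-- `R[t]` is noetherian. -/
theorem isNoetherianRing_adjoin [IsNoetherianRing R] (ht : Transcendental R t) :
    IsNoetherianRing (Algebra.adjoin R {t}) :=
  isNoetherianRing_of_ringEquiv R[X] (algEquivOfTranscendental R t ht).toRingEquiv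

/-- `R[t]` is integrally closed (a UFD). -/
theorem isIntegrallyClosed_adjoin [UniqueFactorizationMonoid R] (ht : Transcendental R t) :
    IsIntegrallyClosed (Algebra.adjoin R {t}) := by
  have := ht.uniqueFactorizationMonoid_adjoin
  infer_instance

/-- a prime of `R` stays prime in `R[t]`. -/
theorem prime_algebraMap_adjoin (ht : Transcendental R t) {q : R} (hq : Prime q) :
    Prime (algebraMap R (Algebra.adjoin R {t}) q) := by
  have h1 : Prime (C q : R[X]) := Polynomial.prime_C_iff.mpr hq
  have h3 : (algEquivOfTranscendental R t ht) (C q) =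
      algebraMap R (Algebra.adjoin R {t}) q := by
    rw [Polynomial.C_eq_algebraMap, AlgEquiv.commutes]
  rw [← h3]
  exact (MulEquiv.prime_iff (algEquivOfTranscendental R t ht)).2 h1

theorem adjoin_le_adjoinSimple :
    Algebra.adjoin R {t} ≤ ((IntermediateField.adjoin K {t}).toSubalgebra).restrictScalars R :=
  Algebra.adjoin_le (by
    intro x hx
    rw [Set.mem_singleton_iff.1 hx]
    exact IntermediateField.mem_adjoin_simple_self K t)

/-- the inclusion `R[t] → K(t)`. -/
def inclK : Algebra.adjoin R {t} →+* (IntermediateField.adjoin K {t}) where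
  toFun x := ⟨x.1, adjoin_le_adjoinSimple (R := R) (K := K) t x.2⟩
  map_one' := rfl
  map_mul' _ _ := rfl
  map_zero' := rfl
  map_add' _ _ := rfl

@[simp]
theorem coe_inclK (x : Algebra.adjoin R {t}) : ((inclK (K := K) t x : (IntermediateField.adjoin K {t})) : F) = (x : F) := rfl

theorem inclK_injective : Function.Injective (inclK (R := R) (K := K) t) := fun _ _ h =>
  Subtype.ext (congrArg (fun z : (IntermediateField.adjoin K {t}) => (z : F)) h)

/-- `K(t)` as an algebra over `R[t]`. -/
@[reducible] def algAdjoinK : Algebra (Algebra.adjoin R {t}) (IntermediateField.adjoin K {t}) := (inclK (K := K) t).toAlgebra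

attribute [local instance] algAdjoinK

theorem isScalarTower_adjoinK : IsScalarTower (Algebra.adjoin R {t}) (IntermediateField.adjoin K {t}) F :=
  IsScalarTower.of_algebraMap_eq fun _ => rfl

theorem faithfulSMul_adjoinK : FaithfulSMul (Algebra.adjoin R {t}) (IntermediateField.adjoin K {t}) :=
  (faithfulSMul_iff_algebraMap_injective _ _).2 (inclK_injective t)

/-- a polynomial over `K` evaluated at `t` is a fraction `a / d`, `a ∈ R[t]`, `0 ≠ d ∈ R`. -/
theorem exists_aeval_eq_div (r : K[X]) :
    ∃ (a : Algebra.adjoin R {t}) (d : R), d ≠ 0 ∧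
      algebraMap R F d * aeval t r = (a : F) := by
  obtain ⟨b, hb, hspec⟩ := IsLocalization.integerNormalization_spec (nonZeroDivisors R) r
  refine ⟨⟨aeval t (IsLocalization.integerNormalization (nonZeroDivisors R) r),
    ?_⟩, b, nonZeroDivisors.ne_zero hb, ?_⟩
  · rw [Algebra.adjoin_singleton_eq_range_aeval]
    exact ⟨_, rfl⟩
  · show _ = aeval t (IsLocalization.integerNormalization (nonZeroDivisors R) r)
    have h1 : aeval t ((IsLocalization.integerNormalization (nonZeroDivisors R) r).map
        (algebraMap R K)) = aeval t (IsLocalization.integerNormalization (nonZeroDivisors R) r) :=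
      aeval_map_algebraMap K t _
    rw [← h1, hspec, Algebra.smul_def, Polynomial.algebraMap_apply, map_mul, aeval_C,
      IsScalarTower.algebraMap_apply R K F]

/-- **`K(t)` is the fraction field of `R[t]`.** -/
theorem isFractionRing_adjoinK : IsFractionRing (Algebra.adjoin R {t}) (IntermediateField.adjoin K {t}) := by
  have := faithfulSMul_adjoinK (R := R) (K := K) t
  refine IsFractionRing.of_field _ _ fun z => ?_
  obtain ⟨r, s, hz⟩ := (IntermediateField.mem_adjoin_simple_iff K (z : F)).1 z.2
  obtain ⟨a, d, hd, ha⟩ := exists_aeval_eq_div (R := R) t r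
  obtain ⟨a', d', hd', ha'⟩ := exists_aeval_eq_div (R := R) t s
  have hdF : algebraMap R F d ≠ 0 := by
    rw [IsScalarTower.algebraMap_apply R K F]
    exact (_root_.map_ne_zero _).2 ((_root_.map_ne_zero_iff _ (IsFractionRing.injective R K)).2 hd)
  have hdF' : algebraMap R F d' ≠ 0 := by
    rw [IsScalarTower.algebraMap_apply R K F]
    exact (_root_.map_ne_zero _).2 ((_root_.map_ne_zero_iff _ (IsFractionRing.injective R K)).2 hd')
  refine ⟨algebraMap R _ d' * a, algebraMap R _ d * a', Subtype.ext ?_⟩
  show (z : F) = ((algebraMap R F d' * (a : F)) / (algebraMap R F d * (a' : F)))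
  rw [hz, ← ha, ← ha']
  by_cases hs : aeval t s = 0
  · simp [hs]
  · field_simp

end Chart

/-! ### Part 2: vertical height-one primes of a noetherian domain -/

section Vert

open Fermat.Agent.GL.KrullHeightOne Fermat.Agent.GL.Frame.HeightOne

variable {B : Type*} [CommRing B] [IsDomain B] [IsNoetherianRing B] [IsIntegrallyClosed B]

/-- the height-one primes containing `π ≠ 0` are finite in number. -/
theorem finite_vert {π : B} (hπ : π ≠ 0) : {p : HtOne B | π ∈ p.1}.Finite := by
  have hsub : {p : HtOne B | π ∈ p.1} ⊆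
      (fun p : HtOne B => p.1) ⁻¹' (Ideal.span {π}).minimalPrimes := by
    intro p hp
    exact mem_minimalPrimes_span_of_height_one hπ p.1 p.2.2 hp
  exact Set.Finite.subset (Set.Finite.preimage (Set.injOn_of_injective Subtype.val_injective)
    (finite_minimalPrimes_span π)) hsub

/-- **the vertical primes**: the finite set of height-one primes containing `π`. -/
noncomputable def vertFinset {π : B} (hπ : π ≠ 0) : Finset (HtOne B) := (finite_vert hπ).toFinset

@[simp]
theorem mem_vertFinset {π : B} (hπ : π ≠ 0) (p : HtOne B) : p ∈ vertFinset hπ ↔ π ∈ p.1 := by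
  unfold vertFinset
  rw [Set.Finite.mem_toFinset]
  rfl

/-- Krull's principal ideal theorem: a prime containing `π` contains a vertical height-one
prime. -/
theorem exists_mem_vertFinset_le {π : B} (hπ : π ≠ 0) (𝔫 : Ideal B) [𝔫.IsPrime] (h : π ∈ 𝔫) :
    ∃ p ∈ vertFinset hπ, p.1 ≤ 𝔫 := by
  obtain ⟨𝔮, h𝔮, hle⟩ := Ideal.exists_minimalPrimes_le
    ((Ideal.span_singleton_le_iff_mem (I := 𝔫)).2 h)
  let p : HtOne B := ⟨𝔮, h𝔮.isPrime, height_eq_one_of_mem_minimalPrimes_span hπ h𝔮⟩
  refine ⟨p, ?_, hle⟩
  rw [mem_vertFinset]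
  exact h𝔮.1.2 (Ideal.mem_span_singleton_self π)

/-- **(FR2)**: an element lying in all the vertical height-one primes is nilpotent modulo `π`. -/
theorem exists_pow_mem_span_of_forall_vert {π : B} (hπ : π ≠ 0) {z : B}
    (hz : ∀ p ∈ vertFinset hπ, z ∈ p.1) : ∃ k : ℕ, z ^ k ∈ Ideal.span {π} := by
  have h1 : z ∈ (Ideal.span {π}).radical := by
    rw [← Ideal.sInf_minimalPrimes, Ideal.mem_sInf]
    intro 𝔮 h𝔮
    let p : HtOne B := ⟨𝔮, h𝔮.isPrime, height_eq_one_of_mem_minimalPrimes_span hπ h𝔮⟩
    exact hz p ((mem_vertFinset hπ p).2 (h𝔮.1.2 (Ideal.mem_span_singleton_self π)))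
  exact h1

/-- **(FR2)**, ideal form: a power of the vertical radical lies in `(π)`. -/
theorem exists_pow_le_span {π : B} (hπ : π ≠ 0) :
    ∃ e : ℕ, (⨅ p ∈ vertFinset hπ, (p : HtOne B).1) ^ e ≤ Ideal.span {π} := by
  have hle : (⨅ p ∈ vertFinset hπ, (p : HtOne B).1) ≤ (Ideal.span {π}).radical := by
    intro z hz
    refine exists_pow_mem_span_of_forall_vert hπ fun p hp => ?_
    rw [Ideal.mem_iInf] at hz
    have := hz p
    rw [Ideal.mem_iInf] at this
    exact this hp
  obtain ⟨e, he⟩ := Ideal.exists_radical_pow_le_of_fg (Ideal.span {π})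
    (IsNoetherian.noetherian _)
  exact ⟨e, (Ideal.pow_right_mono hle e).trans he⟩

end Vert

/-! ### Part 3: integral closures of finitely generated `R`-subalgebras, as subrings of `F` -/

section IcRing

variable (R : Type*) {F : Type*} [CommRing R] [Field F] [Algebra R F]

/-- the integral closure in `F` of `R[S]`, as a subring of `F`. -/
def icRing (S : Set F) : Subring F := (integralClosure (Algebra.adjoin R S) F).toSubring

theorem mem_icRing {S : Set F} {z : F} :
    z ∈ icRing R S ↔ IsIntegral (Algebra.adjoin R S) z := Iff.rfl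

theorem adjoin_le_icRing (S : Set F) {z : F} (hz : z ∈ Algebra.adjoin R S) : z ∈ icRing R S := by
  rw [mem_icRing]
  exact isIntegral_algebraMap (R := Algebra.adjoin R S) (A := F) (x := ⟨z, hz⟩)

theorem subset_icRing (S : Set F) : S ⊆ icRing R S := fun _ hz =>
  adjoin_le_icRing R S (Algebra.subset_adjoin hz)

theorem algebraMap_mem_icRing (S : Set F) (r : R) : algebraMap R F r ∈ icRing R S :=
  adjoin_le_icRing R S (Subalgebra.algebraMap_mem _ r)

theorem icRing_mono {S T : Set F} (h : S ⊆ T) : icRing R S ≤ icRing R T := by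
  intro z hz
  rw [mem_icRing] at hz ⊢
  have := IsIntegral.map_of_comp_eq (Subalgebra.inclusion (Algebra.adjoin_mono h)).toRingHom
    (RingHom.id F) (RingHom.ext fun a => rfl) hz
  simpa using this

/-- `icRing R S` is integrally closed in `F`. -/
theorem mem_icRing_of_isIntegral (S : Set F) {z : F} (hz : IsIntegral (icRing R S) z) :
    z ∈ icRing R S := by
  rw [mem_icRing]
  have h1 : IsIntegral (integralClosure (Algebra.adjoin R S) F) z := hz
  exact isIntegral_trans z h1

/-- `icRing R S` is `m`-root closed. -/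
theorem mem_icRing_of_pow_mem (S : Set F) {m : ℕ} (hm : m ≠ 0) {y : F}
    (hy : y ^ m ∈ icRing R S) : y ∈ icRing R S := by
  apply mem_icRing_of_isIntegral
  refine ⟨Polynomial.X ^ m - Polynomial.C (⟨y ^ m, hy⟩ : icRing R S),
    Polynomial.monic_X_pow_sub_C _ hm, ?_⟩
  simp only [Polynomial.eval₂_sub, Polynomial.eval₂_pow, Polynomial.eval₂_X, Polynomial.eval₂_C]
  exact sub_self _

/-- valuation subrings containing `R` and `S` contain `icRing R S`. -/
theorem mem_valuationSubring_of_mem_icRing (S : Set F) (W : ValuationSubring F)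
    (hR : ∀ r : R, algebraMap R F r ∈ W) (hS : ∀ x ∈ S, x ∈ W) {z : F} (hz : z ∈ icRing R S) :
    z ∈ W := by
  rw [mem_icRing] at hz
  have hle : ∀ a ∈ Algebra.adjoin R S, a ∈ W := by
    intro a ha
    induction ha using Algebra.adjoin_induction with
    | mem x hx => exact hS x hx
    | algebraMap r => exact hR r
    | add x y _ _ hx hy => exact W.add_mem _ _ hx hy
    | mul x y _ _ hx hy => exact W.mul_mem _ _ hx hy
  let φ : Algebra.adjoin R S →+* W :=
    { toFun := fun a => ⟨a.1, hle a.1 a.2⟩
      map_one' := rfl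
      map_mul' := fun _ _ => rfl
      map_zero' := rfl
      map_add' := fun _ _ => rfl }
  have h1 : IsIntegral W z := by
    have := IsIntegral.map_of_comp_eq φ (RingHom.id F) (RingHom.ext fun a => rfl) hz
    simpa using this
  obtain ⟨y, hy⟩ := IsIntegrallyClosed.algebraMap_eq_of_integral (R := W) h1
  rw [← hy]
  exact y.2

/-! #### inverting an element -/

variable {R}

/-- clearing the denominators `s⁻¹` of an element of `R[S, s⁻¹]`, `s ∈ R[S]`. -/
theorem exists_pow_mul_mem_adjoin {S : Set F} {s : F} (hs : s ∈ Algebra.adjoin R S) {a : F}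
    (ha : a ∈ Algebra.adjoin R (insert s⁻¹ S)) : ∃ n : ℕ, s ^ n * a ∈ Algebra.adjoin R S := by
  induction ha using Algebra.adjoin_induction with
  | mem x hx =>
    rcases hx with rfl | hx
    · by_cases h0 : s = 0
      · exact ⟨0, by simp [h0]⟩
      · exact ⟨1, by rw [pow_one, mul_inv_cancel₀ h0]; exact one_mem _⟩
    · exact ⟨0, by simpa using Algebra.subset_adjoin hx⟩
  | algebraMap r => exact ⟨0, by simp⟩
  | add x y _ _ hx hy =>
    obtain ⟨n, hn⟩ := hx
    obtain ⟨m, hm⟩ := hy
    refine ⟨n + m, ?_⟩
    have : s ^ (n + m) * (x + y) = s ^ m * (s ^ n * x) + s ^ n * (s ^ m * y) := by ring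
    rw [this]
    exact add_mem (mul_mem (pow_mem hs m) hn) (mul_mem (pow_mem hs n) hm)
  | mul x y _ _ hx hy =>
    obtain ⟨n, hn⟩ := hx
    obtain ⟨m, hm⟩ := hy
    refine ⟨n + m, ?_⟩
    have : s ^ (n + m) * (x * y) = (s ^ n * x) * (s ^ m * y) := by ring
    rw [this]
    exact mul_mem hn hm

/-- **scaling an integral element**: if a power of `s ∈ A` clears every element of `A' ⊇ A` into
`A`, then a power of `s` makes an element integral over `A'` integral over `A`. -/
theorem exists_pow_mul_isIntegral (A A' : Subalgebra R F) (hle : A ≤ A') {s : F} (hs : s ∈ A)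
    (hclear : ∀ a ∈ A', ∃ n : ℕ, s ^ n * a ∈ A) {z : F} (hz : IsIntegral A' z) :
    ∃ n : ℕ, IsIntegral A (s ^ n * z) := by
  classical
  obtain ⟨p, hp, hpz⟩ := hz
  have hex : ∃ n : ℕ, ∀ i, s ^ n * (p.coeff i : F) ∈ A := by
    choose! f hf using fun a : A' => hclear a a.2
    refine ⟨p.support.sup (fun i => f (p.coeff i)), fun i => ?_⟩
    by_cases hi : i ∈ p.support
    · have hle' := Finset.le_sup (f := fun i => f (p.coeff i)) hi
      obtain ⟨d, hd⟩ := Nat.exists_eq_add_of_le hle'
      rw [hd, pow_add, mul_right_comm]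
      exact A.mul_mem (hf _) (pow_mem hs d)
    · rw [Polynomial.notMem_support_iff.1 hi]
      simp
  obtain ⟨n, hn⟩ := hex
  let a : A' := ⟨s ^ n, hle (pow_mem hs n)⟩
  have hPm : (scaleRoots p a).Monic := (monic_scaleRoots_iff a).2 hp
  have hP0 : eval₂ (algebraMap A' F) (s ^ n * z) (scaleRoots p a) = 0 :=
    scaleRoots_eval₂_eq_zero (algebraMap A' F) (s := a) hpz
  have hlift : scaleRoots p a ∈ lifts (Subalgebra.inclusion hle).toRingHom := by
    rw [lifts_iff_coeff_lifts]
    intro i
    rw [coeff_scaleRoots]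
    rcases lt_trichotomy i p.natDegree with h | h | h
    · obtain ⟨k, hk⟩ : ∃ k, p.natDegree - i = k + 1 := ⟨p.natDegree - i - 1, by omega⟩
      rw [hk, pow_succ]
      refine ⟨⟨(s ^ n * (p.coeff i : F)) * (s ^ n) ^ k,
        A.mul_mem (hn i) (pow_mem (pow_mem hs n) k)⟩, Subtype.ext ?_⟩
      show (s ^ n * (p.coeff i : F)) * (s ^ n) ^ k = (p.coeff i : F) * ((s ^ n) ^ k * s ^ n)
      ring
    · rw [h, Nat.sub_self, pow_zero, mul_one]
      have : p.coeff p.natDegree = 1 := hp
      rw [this]
      exact ⟨1, map_one _⟩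
    · rw [coeff_eq_zero_of_natDegree_lt h, zero_mul]
      exact ⟨0, map_zero _⟩
  obtain ⟨q, hq, -, hqm⟩ := lifts_and_natDegree_eq_and_monic hlift hPm
  refine ⟨n, q, hqm, ?_⟩
  rw [← hP0, ← hq, eval₂_map]
  rfl

/-- **`icRing R (S ∪ {s⁻¹}) = (icRing R S)[1/s]`** for `s ∈ R[S]`. -/
theorem exists_pow_mul_mem_icRing {S : Set F} {s : F} (hs : s ∈ Algebra.adjoin R S) {z : F}
    (hz : z ∈ icRing R (insert s⁻¹ S)) : ∃ n : ℕ, s ^ n * z ∈ icRing R S :=
  exists_pow_mul_isIntegral (Algebra.adjoin R S) (Algebra.adjoin R (insert s⁻¹ S))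
    (Algebra.adjoin_mono (Set.subset_insert _ _)) hs
    (fun _ ha => exists_pow_mul_mem_adjoin hs ha) hz

end IcRing

/-! ### Part 4: Gauss extensions (helper79 `IsGaussExt`) = extensions of the DVR `R[t]_(q)` -/

section GaussBridge

open Fermat.Agent.GL.KrullHeightOne Fermat.Agent.GL.Frame.HeightOne Fermat.Agent.GL.Frame.Vertical
open Fermat.Agent.GL.IntClosureSplit

variable {R K F : Type*} [CommRing R] [IsDomain R] [Field K] [Field F]
  [Algebra R K] [IsFractionRing R K] [Algebra K F] [Algebra R F] [IsScalarTower R K F]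
  [IsNoetherianRing R] [UniqueFactorizationMonoid R]
  (t : F) (ht : Transcendental R t) {q : R} (hq : Prime q)

attribute [local instance] algAdjoinK

/-- every element of `R[t]` is a polynomial in `t`. -/
theorem exists_aeval_eq (a : Algebra.adjoin R {t}) : ∃ g : R[X], aeval t g = (a : F) := by
  have h1 : (a : F) ∈ (aeval t : R[X] →ₐ[R] F).range := by
    rw [← Algebra.adjoin_singleton_eq_range_aeval]
    exact a.2
  exact h1

include ht in
/-- divisibility by `q` in `R[t]` is divisibility by `C q` of the polynomial. -/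
theorem algebraMap_dvd_iff (g : R[X]) (a : Algebra.adjoin R {t}) (hga : aeval t g = (a : F)) :
    algebraMap R (Algebra.adjoin R {t}) q ∣ a ↔ C q ∣ g := by
  constructor
  · rintro ⟨b, hb⟩
    obtain ⟨g', hg'⟩ := exists_aeval_eq t b
    refine ⟨g', ?_⟩
    apply transcendental_iff_injective.1 ht
    rw [hga, hb, map_mul, aeval_C, hg']
    rfl
  · rintro ⟨g', rfl⟩
    refine ⟨⟨aeval t g', ?_⟩, Subtype.ext ?_⟩
    · rw [Algebra.adjoin_singleton_eq_range_aeval]
      exact ⟨g', rfl⟩
    · rw [← hga, map_mul, aeval_C]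
      rfl

section

variable [IsNoetherianRing (Algebra.adjoin R {t})] [IsIntegrallyClosed (Algebra.adjoin R {t})]
  [IsFractionRing (Algebra.adjoin R {t}) (IntermediateField.adjoin K {t})]

include ht in
/-- a Gauss extension (helper79) restricts to the DVR `R[t]_(q)` on `K(t)`. -/
theorem comap_eq_gaussRing_of_isGaussExt
    (hπ : Prime (algebraMap R (Algebra.adjoin R {t}) q)) {V : ValuationSubring F}
    (hV : IsGaussExt q t V) :
    V.comap (algebraMap (IntermediateField.adjoin K {t}) F) =
      gaussRing (IntermediateField.adjoin K {t}) hπ := by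
  refine eq_V1_of_le (gaussPrime hπ) _ ?_ ?_
  · intro x hx
    obtain ⟨s, hs, a, ha⟩ := (mem_V1_iff (gaussPrime hπ)).1 hx
    rw [ValuationSubring.mem_comap]
    obtain ⟨g, hg⟩ := exists_aeval_eq t s
    obtain ⟨f, hf⟩ := exists_aeval_eq t a
    have hsV : (s : F) ∈ V := hg ▸ hV.1 g
    have haV : (a : F) ∈ V := hf ▸ hV.1 f
    have hsnu : (s : F) ∉ V.nonunits := by
      intro h
      apply hs
      rw [gaussPrime_val, Ideal.mem_span_singleton, algebraMap_dvd_iff t ht g s hg]
      rw [← hg] at h
      exact (hV.2 g).1 h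
    rw [ValuationSubring.mem_nonunits_iff_or] at hsnu
    push Not at hsnu
    have hx' : algebraMap (IntermediateField.adjoin K {t}) F x = (s : F)⁻¹ * (a : F) := by
      have h1 := congrArg (fun z : IntermediateField.adjoin K {t} => (z : F)) ha
      rw [Algebra.smul_def] at h1
      have h2 : (s : F) * (x : F) = (a : F) := h1.symm
      show (x : F) = _
      rw [← h2, ← mul_assoc, inv_mul_cancel₀ hsnu.1, one_mul]
    rw [hx']
    exact V.mul_mem _ _ hsnu.2 haV
  · intro htop
    have h1 : (algebraMap (Algebra.adjoin R {t}) (IntermediateField.adjoin K {t})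
        (algebraMap R (Algebra.adjoin R {t}) q))⁻¹ ∈
        V.comap (algebraMap (IntermediateField.adjoin K {t}) F) := by
      rw [htop]
      exact ValuationSubring.mem_top _
    rw [ValuationSubring.mem_comap, map_inv₀] at h1
    have h2 : algebraMap R F q ∈ V.nonunits := by
      have := (hV.2 (C q)).2 dvd_rfl
      rwa [aeval_C] at this
    rw [ValuationSubring.mem_nonunits_iff_or] at h2
    rcases h2 with h2 | h2
    · have hq0 : q ≠ 0 := fun h => hπ.ne_zero (by rw [h, map_zero])
      have h3 : algebraMap R F q ≠ 0 := by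
        rw [IsScalarTower.algebraMap_apply R K F]
        exact (_root_.map_ne_zero _).2
          ((_root_.map_ne_zero_iff _ (IsFractionRing.injective R K)).2 hq0)
      exact h3 h2
    · exact h2 h1

include ht in
/-- conversely an extension of the DVR `R[t]_(q)` is a Gauss extension. -/
theorem isGaussExt_of_comap_eq
    (hπ : Prime (algebraMap R (Algebra.adjoin R {t}) q)) {V : ValuationSubring F}
    (hV : V.comap (algebraMap (IntermediateField.adjoin K {t}) F) =
      gaussRing (IntermediateField.adjoin K {t}) hπ) : IsGaussExt q t V := by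
  have hmem : ∀ g : R[X], ∃ a : Algebra.adjoin R {t}, aeval t g = (a : F) := fun g =>
    ⟨⟨aeval t g, by rw [Algebra.adjoin_singleton_eq_range_aeval]; exact ⟨g, rfl⟩⟩, rfl⟩
  refine ⟨fun g => ?_, fun g => ?_⟩
  · obtain ⟨a, ha⟩ := hmem g
    have h1 : algebraMap (Algebra.adjoin R {t}) (IntermediateField.adjoin K {t}) a ∈
        V.comap (algebraMap (IntermediateField.adjoin K {t}) F) := by
      rw [hV]
      exact algebraMap_mem_V1 (gaussPrime hπ) a
    rw [ValuationSubring.mem_comap] at h1
    rw [ha]
    exact h1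
  · obtain ⟨a, ha⟩ := hmem g
    rw [← algebraMap_dvd_iff t ht g a ha, ← algebraMap_mem_nonunits_gaussRing_iff
      (K := IntermediateField.adjoin K {t}) hπ, ← hV, mem_nonunits_comap_iff, ha]
    rfl

end

end GaussBridge

/-! ### Part 5: the chart ring `B_t = icRing R {t}` -/

section ChartRing

open Fermat.Agent.GL.KrullHeightOne Fermat.Agent.GL.Frame.HeightOne Fermat.Agent.GL.Frame.Vertical
open Fermat.Agent.GL.IntClosureSplit

variable {R K F : Type*} [CommRing R] [IsDomain R] [Field K] [Field F]
  [Algebra R K] [IsFractionRing R K] [Algebra K F] [Algebra R F] [IsScalarTower R K F]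
  [IsNoetherianRing R] [UniqueFactorizationMonoid R]
  (t : F) (ht : Transcendental R t) {q : R} (hq : Prime q)

attribute [local instance] algAdjoinK

variable (R) in
/-- **the chart ring** `B_t`: the integral closure of `R[t]` in `F`, as a subring of `F`. -/
abbrev chartRing : Subring F := icRing R {t}

/-- an element of the base as an element of the chart ring. -/
def baseB (r : R) : chartRing R t := ⟨algebraMap R F r, algebraMap_mem_icRing R {t} r⟩

@[simp] theorem coe_baseB (r : R) : ((baseB t r : chartRing R t) : F) = algebraMap R F r := rfl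

omit [IsNoetherianRing R] [UniqueFactorizationMonoid R] in
include K in
theorem algebraMap_base_injective : Function.Injective (algebraMap R F) := by
  rw [IsScalarTower.algebraMap_eq R K F]
  exact (algebraMap K F).injective.comp (IsFractionRing.injective R K)

omit [IsNoetherianRing R] [UniqueFactorizationMonoid R] in
include K in
theorem baseB_ne_zero {r : R} (hr : r ≠ 0) : baseB t r ≠ 0 := by
  intro h
  apply hr
  apply algebraMap_base_injective (K := K) (F := F)
  rw [map_zero]
  exact congrArg (fun z : chartRing R t => (z : F)) h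

/-- the inclusion `R[t] → B_t`. -/
def inclB : Algebra.adjoin R {t} →+* chartRing R t where
  toFun a := ⟨a.1, adjoin_le_icRing R {t} a.2⟩
  map_one' := rfl
  map_mul' _ _ := rfl
  map_zero' := rfl
  map_add' _ _ := rfl

/-- `B_t` as an algebra over `R[t]`. -/
@[reducible] def algChartRing : Algebra (Algebra.adjoin R {t}) (chartRing R t) :=
  (inclB t).toAlgebra

attribute [local instance] algChartRing

omit [IsDomain R] [IsNoetherianRing R] [UniqueFactorizationMonoid R] in
theorem isScalarTower_chartRing : IsScalarTower (Algebra.adjoin R {t}) (chartRing R t) F :=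
  IsScalarTower.of_algebraMap_eq fun _ => rfl

omit [IsDomain R] [IsNoetherianRing R] [UniqueFactorizationMonoid R] in
theorem faithfulSMul_chartRing : FaithfulSMul (Algebra.adjoin R {t}) (chartRing R t) :=
  (faithfulSMul_iff_algebraMap_injective _ _).2 fun _ _ h =>
    Subtype.ext (congrArg (fun z : chartRing R t => (z : F)) h)

omit [IsDomain R] [IsNoetherianRing R] [UniqueFactorizationMonoid R] in
theorem isIntegral_chartRing : Algebra.IsIntegral (Algebra.adjoin R {t}) (chartRing R t) := by
  have := isScalarTower_chartRing (R := R) t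
  refine ⟨fun b => ?_⟩
  rw [← isIntegral_algebraMap_iff (B := F) Subtype.val_injective]
  exact b.2

section Package

variable [FiniteDimensional (IntermediateField.adjoin K {t}) F]
  [Algebra.IsSeparable (IntermediateField.adjoin K {t}) F]

include K ht in
/-- **(A1)** the chart ring is noetherian. -/
theorem isNoetherianRing_chartRing : IsNoetherianRing (chartRing R t) := by
  have h1 := isNoetherianRing_adjoin t ht
  have h2 := isIntegrallyClosed_adjoin t ht
  have h3 := isFractionRing_adjoinK (R := R) (K := K) t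
  have h4 := isScalarTower_adjoinK (R := R) (K := K) t
  exact (integralClosure_package (Algebra.adjoin R {t}) (IntermediateField.adjoin K {t}) F).1

include K ht in
/-- **(A1)** the chart ring is integrally closed. -/
theorem isIntegrallyClosed_chartRing : IsIntegrallyClosed (chartRing R t) := by
  have h1 := isNoetherianRing_adjoin t ht
  have h2 := isIntegrallyClosed_adjoin t ht
  have h3 := isFractionRing_adjoinK (R := R) (K := K) t
  have h4 := isScalarTower_adjoinK (R := R) (K := K) t
  exact (integralClosure_package (Algebra.adjoin R {t}) (IntermediateField.adjoin K {t}) F).2.2.1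

include K ht in
/-- **(A1)** `F` is the fraction field of the chart ring. -/
theorem isFractionRing_chartRing : IsFractionRing (chartRing R t) F := by
  have h1 := isNoetherianRing_adjoin t ht
  have h2 := isIntegrallyClosed_adjoin t ht
  have h3 := isFractionRing_adjoinK (R := R) (K := K) t
  have h4 := isScalarTower_adjoinK (R := R) (K := K) t
  exact (integralClosure_package (Algebra.adjoin R {t}) (IntermediateField.adjoin K {t}) F).2.2.2

end Package

/-! #### (A2) the vertical primes of the chart ring = the Gauss extensions -/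

section VertW

variable [IsNoetherianRing (chartRing R t)] [IsIntegrallyClosed (chartRing R t)]
  [IsFractionRing (chartRing R t) F]

omit [IsDomain R] [IsNoetherianRing R] [UniqueFactorizationMonoid R] in
/-- the constants are integral at every height-one prime of the chart ring. -/
theorem base_mem_V1 (p : HtOne (chartRing R t)) (r : R) : algebraMap R F r ∈ V1 F p :=
  algebraMap_mem_V1 p (baseB t r)

omit [IsDomain R] [IsNoetherianRing R] [UniqueFactorizationMonoid R] in
/-- the chart ring is contained in each of its height-one localisations. -/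
theorem mem_V1_of_mem_chartRing (p : HtOne (chartRing R t)) {z : F} (hz : z ∈ chartRing R t) :
    z ∈ V1 F p :=
  algebraMap_mem_V1 p (⟨z, hz⟩ : chartRing R t)

omit [IsDomain R] [IsNoetherianRing R] [UniqueFactorizationMonoid R] in
/-- `𝔭 = B ∩ 𝔪(B_𝔭)`. -/
theorem mem_htOne_iff (p : HtOne (chartRing R t)) (b : chartRing R t) :
    b ∈ p.1 ↔ (b : F) ∈ (V1 F p).nonunits :=
  (algebraMap_mem_nonunits_V1_iff p b).symm

omit [IsDomain R] [IsNoetherianRing R] [UniqueFactorizationMonoid R] in
/-- a height-one prime is determined by its valuation ring. -/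
theorem V1_injective : Function.Injective (V1 (B := chartRing R t) F) := by
  intro p p' h
  apply Subtype.ext
  ext b
  rw [mem_htOne_iff, mem_htOne_iff, h]

omit [IsDomain R] [IsNoetherianRing R] [UniqueFactorizationMonoid R] in
/-- **(A4)** at a horizontal height-one prime `q` is a unit. -/
theorem inv_base_mem_V1_of_not_mem {p : HtOne (chartRing R t)} (hp : baseB t q ∉ p.1) :
    (algebraMap R F q)⁻¹ ∈ V1 F p :=
  inv_algebraMap_mem_V1 p hp

omit [IsDomain R] [IsNoetherianRing R] [UniqueFactorizationMonoid R] in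
/-- the valuation ring of a vertical prime is not the whole field. -/
theorem V1_ne_top (p : HtOne (chartRing R t)) : V1 F p ≠ ⊤ := by
  intro htop
  have hne : p.1 ≠ ⊥ := by
    intro h
    have := p.2.2
    rw [h, Ideal.height_bot] at this
    exact zero_ne_one this
  obtain ⟨b, hb, hb0⟩ := Submodule.exists_mem_ne_zero_of_ne_bot hne
  apply not_inv_algebraMap_mem_V1 (F := F) p hb hb0
  rw [htop]
  exact ValuationSubring.mem_top _

include K ht hq in
/-- **(A2)** a vertical height-one prime of the chart ring is a Gauss extension. -/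
theorem isGaussExt_V1 {p : HtOne (chartRing R t)} (hp : baseB t q ∈ p.1) :
    IsGaussExt q t (V1 F p) := by
  have h1 := isNoetherianRing_adjoin t ht
  have h2 := isIntegrallyClosed_adjoin t ht
  have h3 := isFractionRing_adjoinK (R := R) (K := K) t
  have h4 := isScalarTower_adjoinK (R := R) (K := K) t
  have h5 := isScalarTower_chartRing (R := R) t
  have h6 := faithfulSMul_chartRing (R := R) t
  have h7 := isIntegral_chartRing (R := R) t
  have hπ := prime_algebraMap_adjoin t ht hq
  exact isGaussExt_of_comap_eq (K := K) t ht hπ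
    (comap_V1_eq_gaussRing (A := Algebra.adjoin R {t}) (B := chartRing R t)
      (K := IntermediateField.adjoin K {t}) (L := F) hπ p hp)

include K ht hq in
/-- **(A2)** a Gauss extension is the localisation of the chart ring at a vertical height-one
prime. -/
theorem exists_htOne_of_isGaussExt {V : ValuationSubring F} (hV : IsGaussExt q t V) :
    ∃ p : HtOne (chartRing R t), baseB t q ∈ p.1 ∧ V = V1 F p := by
  have h1 := isNoetherianRing_adjoin t ht
  have h2 := isIntegrallyClosed_adjoin t ht
  have h3 := isFractionRing_adjoinK (R := R) (K := K) t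
  have h4 := isScalarTower_adjoinK (R := R) (K := K) t
  have h5 := isScalarTower_chartRing (R := R) t
  have h6 := faithfulSMul_chartRing (R := R) t
  have h7 := isIntegral_chartRing (R := R) t
  have hπ := prime_algebraMap_adjoin t ht hq
  exact exists_htOne_of_comap_eq (A := Algebra.adjoin R {t}) (B := chartRing R t)
    (K := IntermediateField.adjoin K {t}) (L := F) hπ V
    (comap_eq_gaussRing_of_isGaussExt (K := K) t ht hπ hV)

/-! the list `W` of ALL the Gauss extensions (L1e: `hW` + `hnoext`) -/

variable {ι : Type*} (W : ι → ValuationSubring F) (hW : ∀ i, IsGaussExt q t (W i))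
  (hnoext : ∀ V : ValuationSubring F, IsGaussExt q t V → ∃ i, W i ≤ V)

include K ht hq hW in
/-- **(A2)** every `W i` is the localisation at a vertical height-one prime. -/
theorem exists_mem_vertFinset_eq (hqB : baseB t q ≠ 0) (i : ι) :
    ∃ p ∈ vertFinset hqB, V1 F p = W i := by
  obtain ⟨p, hp, hpW⟩ := exists_htOne_of_isGaussExt (K := K) t ht hq (hW i)
  exact ⟨p, (mem_vertFinset hqB p).2 hp, hpW.symm⟩

include K ht hq hW hnoext in
/-- **(A2)** every vertical height-one prime comes from some `W i`. -/
theorem exists_eq_of_mem_vertFinset (hqB : baseB t q ≠ 0) {p : HtOne (chartRing R t)}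
    (hp : p ∈ vertFinset hqB) : ∃ i, V1 F p = W i := by
  have hG := isGaussExt_V1 (K := K) t ht hq ((mem_vertFinset hqB p).1 hp)
  obtain ⟨i, hi⟩ := hnoext _ hG
  obtain ⟨p', -, hp'⟩ := exists_mem_vertFinset_eq (K := K) t ht hq W hW hqB i
  refine ⟨i, ?_⟩
  rw [← hp'] at hi ⊢
  exact eq_V1_of_le p' (V1 F p) hi (V1_ne_top t p)

include K ht hq hW hnoext in
/-- **(A2)**, packaged: a parametrisation `i ↦ 𝔭_i` of the vertical primes by the list `W`. -/
theorem exists_vert_param (hqB : baseB t q ≠ 0) :
    ∃ f : ι → HtOne (chartRing R t), (∀ i, V1 F (f i) = W i) ∧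
      (∀ p, p ∈ vertFinset hqB ↔ ∃ i, f i = p) ∧
      (∀ i (b : chartRing R t), b ∈ (f i).1 ↔ (b : F) ∈ (W i).nonunits) ∧
      (Function.Injective W → Function.Injective f) := by
  choose f hf1 hf2 using exists_mem_vertFinset_eq (K := K) t ht hq W hW hqB
  refine ⟨f, hf2, fun p => ⟨fun hp => ?_, ?_⟩, fun i b => ?_, fun hinj i j hij => ?_⟩
  · obtain ⟨i, hi⟩ := exists_eq_of_mem_vertFinset (K := K) t ht hq W hW hnoext hqB hp
    exact ⟨i, V1_injective t ((hf2 i).trans hi.symm)⟩
  · rintro ⟨i, rfl⟩
    exact hf1 i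
  · rw [mem_htOne_iff, hf2]
  · apply hinj
    rw [← hf2 i, ← hf2 j, hij]

include K ht hq hW hnoext in
/-- **(A2)**: the number of vertical primes. -/
theorem card_vertFinset [Fintype ι] (hqB : baseB t q ≠ 0) (hinj : Function.Injective W) :
    (vertFinset hqB).card = Fintype.card ι := by
  classical
  obtain ⟨f, -, hf2, -, hf4⟩ := exists_vert_param (K := K) t ht hq W hW hnoext hqB
  have : vertFinset hqB = Finset.univ.image f := by
    ext p
    rw [hf2, Finset.mem_image]
    simp
  rw [this, Finset.card_image_of_injective _ (hf4 hinj), Finset.card_univ]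

end VertW

/-! #### (A3) = (FR2): the vertical radical is nilpotent modulo `q` -/

section FR2

variable [IsNoetherianRing (chartRing R t)] [IsIntegrallyClosed (chartRing R t)]
  [IsFractionRing (chartRing R t) F]

omit [IsDomain R] [IsNoetherianRing R] [UniqueFactorizationMonoid R] in
/-- **(FR2)** for the chart ring (helper35 `LocToCech.hloc_radical` shape). -/
theorem exists_pow_eq_base_mul (hqB : baseB t q ≠ 0) {z : F} (hz : z ∈ chartRing R t)
    (hzv : ∀ p ∈ vertFinset hqB, z ∈ (V1 F p).nonunits) :
    ∃ k : ℕ, ∃ y ∈ chartRing R t, z ^ k = algebraMap R F q * y := by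
  obtain ⟨k, hk⟩ := exists_pow_mem_span_of_forall_vert hqB (z := (⟨z, hz⟩ : chartRing R t))
    (fun p hp => (mem_htOne_iff t p _).2 (hzv p hp))
  rw [Ideal.mem_span_singleton] at hk
  obtain ⟨y, hy⟩ := hk
  exact ⟨k, y, y.2, congrArg (fun b : chartRing R t => (b : F)) hy⟩

omit [IsNoetherianRing R] [UniqueFactorizationMonoid R] in
include ht in
/-- **(FR2)** for `B12 = B_t[1/t]`. -/
theorem exists_pow_eq_base_mul_away (hqB : baseB t q ≠ 0) (B12 : Subring F)
    (hle : chartRing R t ≤ B12) (htinv : t⁻¹ ∈ B12)
    (hclear : ∀ z ∈ B12, ∃ n : ℕ, t ^ n * z ∈ chartRing R t) {z : F} (hz : z ∈ B12)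
    (hzv : ∀ p ∈ vertFinset hqB, z ∈ (V1 F p).nonunits) :
    ∃ k : ℕ, ∃ y ∈ B12, z ^ k = algebraMap R F q * y := by
  obtain ⟨n, hn⟩ := hclear z hz
  have ht0 : t ≠ 0 := by
    intro h
    apply ht
    rw [h]
    exact ⟨X, X_ne_zero, by simp⟩
  have htB : t ∈ chartRing R t := subset_icRing R {t} rfl
  obtain ⟨k, y, hy, hk⟩ := exists_pow_eq_base_mul t hqB hn (fun p hp => by
    have htV : t ^ n ∈ V1 F p := pow_mem (mem_V1_of_mem_chartRing t p htB) n
    have h1 := hzv p hp
    rw [ValuationSubring.mem_nonunits_iff] at h1 ⊢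
    rw [map_mul]
    exact mul_lt_one_of_nonneg_of_lt_one_right
      ((ValuationSubring.valuation_le_one_iff _ _).mpr htV) zero_le h1)
  refine ⟨k, (t⁻¹) ^ (n * k) * y, B12.mul_mem (pow_mem htinv _) (hle hy), ?_⟩
  have h2 : z ^ k = (t⁻¹) ^ (n * k) * (t ^ n * z) ^ k := by
    rw [mul_pow, ← pow_mul, ← mul_assoc, ← mul_pow, inv_mul_cancel₀ ht0, one_pow, one_mul]
  rw [h2, hk]
  ring

end FR2

/-! #### (A4) horizontal height-one primes contain the constants `K` -/

section Horizontal

variable [IsNoetherianRing (chartRing R t)] [IsIntegrallyClosed (chartRing R t)]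
  [IsFractionRing (chartRing R t) F]

omit [IsNoetherianRing R] in
include hq in
/-- in a UFD whose non-units are all divisible by the prime `q`, every non-zero element is a unit
times a power of `q`. -/
theorem exists_unit_mul_pow (hgen : ∀ a : R, ¬ IsUnit a → q ∣ a) {a : R} (ha : a ≠ 0) :
    ∃ (u : Rˣ) (k : ℕ), a = u * q ^ k := by
  induction a using WfDvdMonoid.induction_on_irreducible with
  | zero => exact absurd rfl ha
  | unit u hu => exact ⟨hu.unit, 0, by simp⟩
  | mul a i ha0 hi ih =>
    obtain ⟨u, k, hk⟩ := ih ha0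
    obtain ⟨c, hc⟩ := hgen i hi.not_isUnit
    have hcu : IsUnit c := (hi.isUnit_or_isUnit hc).resolve_left hq.not_isUnit
    refine ⟨hcu.unit * u, k + 1, ?_⟩
    rw [hc, hk, Units.val_mul, IsUnit.unit_spec, pow_succ]
    ring

omit [IsNoetherianRing R] in
include K hq in
/-- **(A4)** a horizontal height-one prime (`q ∉ 𝔭`) of the chart ring gives a valuation ring
containing the constant field `K` (the binder `hK0` of helper11 `HorizHord.hord_horizontal`). -/
theorem algebraMap_mem_V1_of_not_mem (hgen : ∀ a : R, ¬ IsUnit a → q ∣ a)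
    {p : HtOne (chartRing R t)} (hp : baseB t q ∉ p.1) (c : K) : algebraMap K F c ∈ V1 F p := by
  obtain ⟨a, b, hb, rfl⟩ := IsFractionRing.div_surjective (A := R) c
  have hb0 : b ≠ 0 := nonZeroDivisors.ne_zero hb
  obtain ⟨u, k, hk⟩ := exists_unit_mul_pow hq hgen hb0
  have hq0 : algebraMap R F q ≠ 0 := fun h =>
    hq.ne_zero (algebraMap_base_injective (K := K) (F := F) (by rw [h, map_zero]))
  have hu : algebraMap R F (u : R) * algebraMap R F ((u⁻¹ : Rˣ) : R) = 1 := by
    rw [← map_mul, Units.mul_inv, map_one]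
  have hu0 : algebraMap R F (u : R) ≠ 0 := left_ne_zero_of_mul_eq_one hu
  have h1 : algebraMap K F (algebraMap R K a / algebraMap R K b) =
      algebraMap R F a * algebraMap R F ((u⁻¹ : Rˣ) : R) * ((algebraMap R F q)⁻¹) ^ k := by
    rw [map_div₀, ← IsScalarTower.algebraMap_apply, ← IsScalarTower.algebraMap_apply, hk, map_mul,
      map_pow, div_eq_iff (mul_ne_zero hu0 (pow_ne_zero _ hq0))]
    have h2 : ((algebraMap R F q)⁻¹) ^ k * (algebraMap R F q) ^ k = 1 := by
      rw [← mul_pow, inv_mul_cancel₀ hq0, one_pow]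
    calc algebraMap R F a = algebraMap R F a *
          (algebraMap R F (u : R) * algebraMap R F ((u⁻¹ : Rˣ) : R)) *
          (((algebraMap R F q)⁻¹) ^ k * (algebraMap R F q) ^ k) := by rw [hu, h2, mul_one, mul_one]
      _ = _ := by ring
  rw [h1]
  exact (V1 F p).mul_mem _ _ ((V1 F p).mul_mem _ _ (base_mem_V1 t p a) (base_mem_V1 t p _))
    (pow_mem (inv_base_mem_V1_of_not_mem t hp) k)

end Horizontal

/-! #### the overlap `B12 = icRing R {t, t⁻¹}` of the two charts `t`, `t⁻¹` -/

section Overlap

omit [IsDomain R] [IsNoetherianRing R] [UniqueFactorizationMonoid R]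

variable (R) in
/-- the overlap ring `B12`: the integral closure of `R[t, t⁻¹]` in `F`. -/
abbrev overlapRing : Subring F := icRing R {t, t⁻¹}

theorem chartRing_le_overlapRing : chartRing R t ≤ overlapRing R t :=
  icRing_mono R (by intro x hx; rw [Set.mem_singleton_iff.1 hx]; exact Set.mem_insert _ _)

theorem chartRing_inv_le_overlapRing : chartRing R t⁻¹ ≤ overlapRing R t :=
  icRing_mono R (by
    intro x hx
    rw [Set.mem_singleton_iff.1 hx]
    exact Set.mem_insert_of_mem _ rfl)

theorem mem_overlapRing : t ∈ overlapRing R t := subset_icRing R _ (Set.mem_insert _ _)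

theorem inv_mem_overlapRing : t⁻¹ ∈ overlapRing R t :=
  subset_icRing R _ (Set.mem_insert_of_mem _ rfl)

/-- `B12 = B_t[1/t]`. -/
theorem exists_pow_mul_mem_chartRing {z : F} (hz : z ∈ overlapRing R t) :
    ∃ n : ℕ, t ^ n * z ∈ chartRing R t := by
  refine exists_pow_mul_mem_icRing (S := {t}) (s := t) (Algebra.subset_adjoin rfl) ?_
  have : (insert t⁻¹ {t} : Set F) = {t, t⁻¹} := Set.pair_comm _ _
  rw [this]
  exact hz

/-- `B12 = B_{1/t}[t]`. -/
theorem exists_pow_mul_mem_chartRing_inv {z : F} (hz : z ∈ overlapRing R t) :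
    ∃ n : ℕ, (t⁻¹) ^ n * z ∈ chartRing R t⁻¹ := by
  refine exists_pow_mul_mem_icRing (S := {t⁻¹}) (s := t⁻¹) (Algebra.subset_adjoin rfl) ?_
  rw [inv_inv]
  exact hz

end Overlap

end ChartRing

end Fermat.Agent.GL.Frame.Inst
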