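/-
GATE-L / (A3) CHART-CHANGE, valuation side (helper90; helper47 board 2729 (A3); split of helper8
board 2799 (c)).  Mathlib only.

Setting: `K` a field, `A : ValuationSubring K`; `F` a field with `[Algebra K F]`;
`V : ValuationSubring F` inducing `A` on `K` (`hV : ∀ a, algebraMap K F a ∈ V ↔ a ∈ A`).

`IsGaussAt A V x` : `x ∈ V` and every polynomial over `A` with a unit coefficient takes a unit
value of `V` at `x` (elementary form of "the residue of `x` is transcendental over the residue
field of `A`", i.e. `V` induces the Gauss valuation on `K(x)`).  For `V` the localisation of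
`integralClosure R[h] F` at a vertical height-one prime `P` this is exactly `P ∩ R[h] = q R[h]`.

* `IsGaussAt.valuation_aeval`   (T1) `|f(x)|_V = |c|_V`, `c` a coefficient of maximal `|·|_A`;
* `IsGaussAt.mem_iff_mem`       (T2) two valuation subrings over `A`, both Gauss at `x`, agree on
                                `K(x) = IntermediateField.adjoin K {x}`;
* `isGaussAt_iff_transcendental`     residue-field characterisation (abstract reduction data);
* `IsGaussAt.of_rel`            (T3) `h * Q(x) = P(x)`, `P, Q ∈ A[X]` coprime over `A`, of degree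
                                `≤ n` with `P.coeff n` or `Q.coeff n` a unit:
                                Gauss at `h` ⟹ Gauss at `x`;
* `IsGaussAt.of_mul_sub_eq_one`, `IsGaussAt.of_pow_div`, `IsGaussAt.of_chart`,
  `mem_iff_mem_of_chart` : the instances used for the chart
  `h = (j₁ - t₂)^m / P₁(j₁)`, `j₁ = 1/(j - t₀)`;
* `isGaussAt_of_exists_inv` (producer adapter), `mem_iff_of_unif` (`V ∩ K = A` from `A ⊆ V`, `q`
  a non-unit of `V`).
-/
import Mathlib

set_option autoImplicit false

open Polynomial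

namespace Fermat.Agent.GL.GaussAt

variable {K F : Type*} [Field K] [Field F] [Algebra K F]

/-! ### Comparing `V` and `A` on constants -/

section Base

variable {A : ValuationSubring K} {V : ValuationSubring F}

theorem valuation_algebraMap_le_one_iff (hV : ∀ a : K, algebraMap K F a ∈ V ↔ a ∈ A) (a : K) :
    V.valuation (algebraMap K F a) ≤ 1 ↔ A.valuation a ≤ 1 := by
  rw [ValuationSubring.valuation_le_one_iff, ValuationSubring.valuation_le_one_iff]
  exact hV a

theorem valuation_algebraMap_le_iff (hV : ∀ a : K, algebraMap K F a ∈ V ↔ a ∈ A) (a b : K) :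
    V.valuation (algebraMap K F a) ≤ V.valuation (algebraMap K F b) ↔
      A.valuation a ≤ A.valuation b := by
  by_cases hb : b = 0
  · subst hb
    simp only [map_zero, le_zero_iff, map_eq_zero]
  · have hb' : algebraMap K F b ≠ 0 := (_root_.map_ne_zero _).mpr hb
    have h1 : V.valuation (algebraMap K F a) ≤ V.valuation (algebraMap K F b) ↔
        V.valuation (algebraMap K F (a / b)) ≤ 1 := by
      rw [map_div₀, map_div₀,
        div_le_one₀ (zero_lt_iff.mpr ((Valuation.ne_zero_iff _).mpr hb'))]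
    have h2 : A.valuation a ≤ A.valuation b ↔ A.valuation (a / b) ≤ 1 := by
      rw [map_div₀, div_le_one₀ (zero_lt_iff.mpr ((Valuation.ne_zero_iff _).mpr hb))]
    rw [h1, h2]
    exact valuation_algebraMap_le_one_iff hV _

theorem valuation_algebraMap_eq_one_iff (hV : ∀ a : K, algebraMap K F a ∈ V ↔ a ∈ A) (a : K) :
    V.valuation (algebraMap K F a) = 1 ↔ A.valuation a = 1 := by
  have h1 := valuation_algebraMap_le_iff hV a 1
  have h2 := valuation_algebraMap_le_iff hV 1 a
  simp only [map_one] at h1 h2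
  rw [le_antisymm_iff, le_antisymm_iff, h1, h2]

end Base

/-! ### Gauss points -/

/-- `x` is a *Gauss point* of `V` over `A`: `x ∈ V` and `f(x)` is a unit of `V` for every
`f ∈ A[X]` with a unit coefficient. -/
def IsGaussAt (A : ValuationSubring K) (V : ValuationSubring F) (x : F) : Prop :=
  x ∈ V ∧ ∀ f : A[X], (∃ i, IsUnit (f.coeff i)) →
    V.valuation (aeval x (f.map A.subtype)) = 1

section Gauss

variable {A : ValuationSubring K} {V : ValuationSubring F} {x : F}

theorem IsGaussAt.mem (hx : IsGaussAt A V x) : x ∈ V := hx.1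

/-- a polynomial over `K` with coefficients in `A` comes from `A[X]` -/
theorem exists_map_eq (f : K[X]) (hf : ∀ i, f.coeff i ∈ A) :
    ∃ g : A[X], g.map A.subtype = f ∧ ∀ i, (g.coeff i : K) = f.coeff i := by
  refine ⟨∑ i ∈ Finset.range (f.natDegree + 1), monomial i (⟨f.coeff i, hf i⟩ : A), ?_, ?_⟩
  · rw [Polynomial.map_sum]
    simp only [Polynomial.map_monomial]
    exact (f.as_sum_range' _ (Nat.lt_succ_self _)).symm
  · intro i
    rw [Polynomial.finsetSum_coeff]
    simp only [Polynomial.coeff_monomial]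
    rw [Finset.sum_ite_eq' (Finset.range (f.natDegree + 1)) i]
    split_ifs with h
    · rfl
    · rw [Finset.mem_range, not_lt] at h
      rw [Polynomial.coeff_eq_zero_of_natDegree_lt (by omega)]
      rfl

/-- `K`-polynomial form of the Gauss property -/
theorem IsGaussAt.valuation_aeval_eq_one (hx : IsGaussAt A V x) (f : K[X])
    (hf : ∀ i, f.coeff i ∈ A) (hu : ∃ i, A.valuation (f.coeff i) = 1) :
    V.valuation (aeval x f) = 1 := by
  obtain ⟨g, hg, hgc⟩ := exists_map_eq f hf
  rw [← hg]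
  refine hx.2 g ?_
  obtain ⟨i, hi⟩ := hu
  refine ⟨i, (A.valuation_eq_one_iff _).mpr ?_⟩
  rw [hgc i]; exact hi

/-- **(T1)** the valuation of `f(x)` at a Gauss point is the Gauss norm of `f`. -/
theorem IsGaussAt.valuation_aeval (hx : IsGaussAt A V x) (f : K[X]) (i : ℕ)
    (hi : ∀ j, A.valuation (f.coeff j) ≤ A.valuation (f.coeff i)) :
    V.valuation (aeval x f) = V.valuation (algebraMap K F (f.coeff i)) := by
  by_cases hc : f.coeff i = 0
  · have hf : f = 0 := by
      ext j
      have := hi j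
      rw [hc, map_zero, le_zero_iff, map_eq_zero] at this
      rw [this, coeff_zero]
    rw [hf, map_zero, coeff_zero, map_zero, map_zero, map_zero]
  · set c := f.coeff i with hcdef
    have hvc : A.valuation c ≠ 0 := (Valuation.ne_zero_iff _).mpr hc
    have h1 : V.valuation (aeval x (C c⁻¹ * f)) = 1 := by
      refine hx.valuation_aeval_eq_one _ (fun j => ?_) ⟨i, ?_⟩
      · rw [coeff_C_mul, ← ValuationSubring.valuation_le_one_iff, map_mul, map_inv₀]
        rw [inv_mul_le_iff₀ (zero_lt_iff.mpr hvc), mul_one]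
        exact hi j
      · rw [coeff_C_mul, ← hcdef, inv_mul_cancel₀ hc, map_one]
    rw [map_mul, aeval_C, map_mul, map_inv₀, map_inv₀] at h1
    have hvc' : V.valuation (algebraMap K F c) ≠ 0 :=
      (Valuation.ne_zero_iff _).mpr ((_root_.map_ne_zero _).mpr hc)
    rw [inv_mul_eq_one₀ hvc'] at h1
    exact h1.symm

/-- at a Gauss point `f(x) ≠ 0` for `f ≠ 0` (`x` is transcendental over `K`). -/
theorem IsGaussAt.aeval_ne_zero (hx : IsGaussAt A V x) {f : K[X]} (hf : f ≠ 0) :
    aeval x f ≠ 0 := by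
  classical
  have hne : f.support.Nonempty := by
    rwa [Finset.nonempty_iff_ne_empty, Ne, Polynomial.support_eq_empty]
  obtain ⟨i, hi, hmax⟩ := Finset.exists_max_image f.support
    (fun j => A.valuation (f.coeff j)) hne
  have hi' : ∀ j, A.valuation (f.coeff j) ≤ A.valuation (f.coeff i) := by
    intro j
    by_cases hj : j ∈ f.support
    · exact hmax j hj
    · rw [Polynomial.notMem_support_iff.mp hj, map_zero]; exact zero_le
  intro h0
  have := hx.valuation_aeval f i hi'
  rw [h0, map_zero] at this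
  have hc : f.coeff i ≠ 0 := Polynomial.mem_support_iff.mp hi
  exact (Valuation.ne_zero_iff _).mpr ((_root_.map_ne_zero (algebraMap K F)).mpr hc) this.symm

/-- comparison of values at a Gauss point: it only depends on `A`. -/
theorem IsGaussAt.valuation_aeval_le_iff (hV : ∀ a : K, algebraMap K F a ∈ V ↔ a ∈ A)
    (hx : IsGaussAt A V x) (f g : K[X]) (i j : ℕ)
    (hi : ∀ l, A.valuation (f.coeff l) ≤ A.valuation (f.coeff i))
    (hj : ∀ l, A.valuation (g.coeff l) ≤ A.valuation (g.coeff j)) :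
    V.valuation (aeval x f) ≤ V.valuation (aeval x g) ↔
      A.valuation (f.coeff i) ≤ A.valuation (g.coeff j) := by
  rw [hx.valuation_aeval f i hi, hx.valuation_aeval g j hj]
  exact valuation_algebraMap_le_iff hV _ _

theorem exists_max_coeff (A : ValuationSubring K) (f : K[X]) :
    ∃ i, ∀ l, A.valuation (f.coeff l) ≤ A.valuation (f.coeff i) := by
  classical
  by_cases hf : f = 0
  · exact ⟨0, fun l => by rw [hf, coeff_zero, coeff_zero]⟩
  · have hne : f.support.Nonempty := by
      rwa [Finset.nonempty_iff_ne_empty, Ne, Polynomial.support_eq_empty]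
    obtain ⟨i, _, hmax⟩ := Finset.exists_max_image f.support
      (fun j => A.valuation (f.coeff j)) hne
    refine ⟨i, fun j => ?_⟩
    by_cases hj : j ∈ f.support
    · exact hmax j hj
    · rw [Polynomial.notMem_support_iff.mp hj, map_zero]; exact zero_le

/-- **(T2)** two valuation subrings of `F` over `A` which are both Gauss at `x` agree on
`K(x)`. -/
theorem IsGaussAt.mem_iff_mem {V' : ValuationSubring F}
    (hV : ∀ a : K, algebraMap K F a ∈ V ↔ a ∈ A) (hV' : ∀ a : K, algebraMap K F a ∈ V' ↔ a ∈ A)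
    (hx : IsGaussAt A V x) (hx' : IsGaussAt A V' x) {y : F}
    (hy : y ∈ IntermediateField.adjoin K {x}) : y ∈ V ↔ y ∈ V' := by
  obtain ⟨r, s, rfl⟩ := (IntermediateField.mem_adjoin_simple_iff K y).mp hy
  by_cases hs : s = 0
  · rw [hs, map_zero, div_zero]
    exact ⟨fun _ => V'.zero_mem, fun _ => V.zero_mem⟩
  · obtain ⟨i, hi⟩ := exists_max_coeff A r
    obtain ⟨j, hj⟩ := exists_max_coeff A s
    have h0 : aeval x s ≠ 0 := hx.aeval_ne_zero hs
    have key : ∀ (W : ValuationSubring F), (∀ a : K, algebraMap K F a ∈ W ↔ a ∈ A) →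
        IsGaussAt A W x →
        (aeval x r / aeval x s ∈ W ↔ A.valuation (r.coeff i) ≤ A.valuation (s.coeff j)) := by
      intro W hW hxW
      rw [← ValuationSubring.valuation_le_one_iff, map_div₀,
        div_le_one₀ (zero_lt_iff.mpr ((Valuation.ne_zero_iff _).mpr h0))]
      exact hxW.valuation_aeval_le_iff hW r s i j hi hj
    rw [key V hV hx, key V' hV' hx']

end Gauss

/-! ### The inclusion `A → V` and evaluation inside `V` -/

section Hom

variable {A : ValuationSubring K} {V : ValuationSubring F}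

/-- the inclusion `A → V` induced by `algebraMap K F` -/
def baseHom (hV : ∀ a : K, algebraMap K F a ∈ V ↔ a ∈ A) : A →+* V :=
  ((algebraMap K F).comp A.subtype).codRestrict V (fun a => (hV a).mpr a.2)

@[simp] theorem coe_baseHom (hV : ∀ a : K, algebraMap K F a ∈ V ↔ a ∈ A) (a : A) :
    ((baseHom hV a : V) : F) = algebraMap K F a := rfl

theorem coe_eval₂_baseHom (hV : ∀ a : K, algebraMap K F a ∈ V ↔ a ∈ A) {x : F} (hx : x ∈ V)
    (f : A[X]) :
    ((f.eval₂ (baseHom hV) ⟨x, hx⟩ : V) : F) = aeval x (f.map A.subtype) := by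
  have h1 := Polynomial.hom_eval₂ f (baseHom hV) V.subtype ⟨x, hx⟩
  have h2 : V.subtype.comp (baseHom hV) = (algebraMap K F).comp A.subtype := by
    ext a; rfl
  rw [h2] at h1
  rw [aeval_def, eval₂_map]
  exact h1

theorem aeval_map_mem (hV : ∀ a : K, algebraMap K F a ∈ V ↔ a ∈ A) {x : F} (hx : x ∈ V)
    (f : A[X]) : aeval x (f.map A.subtype) ∈ V := by
  rw [← coe_eval₂_baseHom hV hx f]
  exact (f.eval₂ (baseHom hV) ⟨x, hx⟩).2

end Hom

/-! ### Residue-field characterisation -/

section Residue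

variable {A : ValuationSubring K} {V : ValuationSubring F}
variable {k κ : Type*} [Field k] [Field κ] [Algebra k κ]

theorem resV_eval₂ (hV : ∀ a : K, algebraMap K F a ∈ V ↔ a ∈ A)
    (resA : A →+* k) (resV : V →+* κ)
    (hcompat : ∀ a : A, resV (baseHom hV a) = algebraMap k κ (resA a))
    {x : F} (hx : x ∈ V) (f : A[X]) :
    resV (f.eval₂ (baseHom hV) ⟨x, hx⟩) = aeval (resV ⟨x, hx⟩) (f.map resA) := by
  rw [Polynomial.hom_eval₂, aeval_def, eval₂_map]
  congr 1
  ext a
  exact hcompat a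

/-- **residue-field form of the Gauss property**: with reduction maps `resA : A → k`,
`resV : V → κ` (kernels = non-units, `resA` onto, compatible), `x` is a Gauss point iff `x ∈ V`
and its residue is transcendental over `k`. -/
theorem isGaussAt_iff_transcendental (hV : ∀ a : K, algebraMap K F a ∈ V ↔ a ∈ A)
    (resA : A →+* k) (resV : V →+* κ) (hsurj : Function.Surjective resA)
    (hkerA : ∀ a : A, resA a = 0 ↔ ¬ IsUnit a) (hkerV : ∀ v : V, resV v = 0 ↔ ¬ IsUnit v)
    (hcompat : ∀ a : A, resV (baseHom hV a) = algebraMap k κ (resA a)) (x : F) :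
    IsGaussAt A V x ↔ ∃ hx : x ∈ V, Transcendental k (resV ⟨x, hx⟩) := by
  constructor
  · intro hG
    refine ⟨hG.1, ?_⟩
    rw [transcendental_iff]
    intro p hp
    by_contra hp0
    obtain ⟨f, rfl⟩ := Polynomial.map_surjective resA hsurj p
    obtain ⟨i, hi⟩ : ∃ i, (f.map resA).coeff i ≠ 0 := by
      by_contra hcon
      push Not at hcon
      exact hp0 (Polynomial.ext fun i => by rw [hcon i, coeff_zero])
    rw [coeff_map] at hi
    have hu : IsUnit (f.coeff i) := by
      by_contra hnu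
      exact hi ((hkerA _).mpr hnu)
    have h1 := hG.2 f ⟨i, hu⟩
    rw [← coe_eval₂_baseHom hV hG.1 f] at h1
    have h2 : IsUnit (f.eval₂ (baseHom hV) ⟨x, hG.1⟩) := (V.valuation_eq_one_iff _).mpr h1
    have h3 : resV (f.eval₂ (baseHom hV) ⟨x, hG.1⟩) ≠ 0 := fun h0 => (hkerV _).mp h0 h2
    rw [resV_eval₂ hV resA resV hcompat hG.1 f] at h3
    exact h3 hp
  · rintro ⟨hx, htr⟩
    refine ⟨hx, fun f ⟨i, hi⟩ => ?_⟩
    rw [← coe_eval₂_baseHom hV hx f]
    refine (V.valuation_eq_one_iff _).mp ?_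
    by_contra hnu
    have h0 := (hkerV _).mpr hnu
    rw [resV_eval₂ hV resA resV hcompat hx f] at h0
    have hp0 := (transcendental_iff.mp htr) _ h0
    have : (f.map resA).coeff i = 0 := by rw [hp0, coeff_zero]
    rw [coeff_map] at this
    exact (hkerA _).mp this hi

end Residue

/-! ### The canonical reduction data (residue fields) -/

section Canonical

variable {A : ValuationSubring K} {V : ValuationSubring F}

theorem isUnit_of_isUnit_baseHom (hV : ∀ a : K, algebraMap K F a ∈ V ↔ a ∈ A) {a : A}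
    (h : IsUnit (baseHom hV a)) : IsUnit a := by
  rw [V.valuation_eq_one_iff, coe_baseHom, valuation_algebraMap_eq_one_iff hV] at h
  exact (A.valuation_eq_one_iff a).mpr h

/-- the induced map of residue fields -/
noncomputable def resHom (hV : ∀ a : K, algebraMap K F a ∈ V ↔ a ∈ A) :
    IsLocalRing.ResidueField A →+* IsLocalRing.ResidueField V :=
  Ideal.Quotient.lift (IsLocalRing.maximalIdeal A) ((IsLocalRing.residue V).comp (baseHom hV))
    (fun a ha => by
      rw [RingHom.comp_apply, IsLocalRing.residue_eq_zero_iff, IsLocalRing.mem_maximalIdeal,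
        mem_nonunits_iff]
      rw [IsLocalRing.mem_maximalIdeal, mem_nonunits_iff] at ha
      exact fun h => ha (isUnit_of_isUnit_baseHom hV h))

theorem resHom_residue (hV : ∀ a : K, algebraMap K F a ∈ V ↔ a ∈ A) (a : A) :
    resHom hV (IsLocalRing.residue A a) = IsLocalRing.residue V (baseHom hV a) := rfl

theorem residue_eq_zero_iff_not_isUnit {R : Type*} [CommRing R] [IsLocalRing R] (a : R) :
    IsLocalRing.residue R a = 0 ↔ ¬ IsUnit a := by
  rw [IsLocalRing.residue_eq_zero_iff, IsLocalRing.mem_maximalIdeal, mem_nonunits_iff]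

end Canonical

/-! ### (T3) change of chart -/

section Rel

variable {A : ValuationSubring K} {V : ValuationSubring F}

/-- if `x ∉ V` then `x⁻¹ ^ n * G(x) ≡ G.coeff n` modulo the maximal ideal of `V`, for `G ∈ A[X]`
of degree `≤ n`. -/
theorem valuation_inv_pow_mul_aeval_sub_lt (hV : ∀ a : K, algebraMap K F a ∈ V ↔ a ∈ A)
    {x : F} (hx : x ∉ V) (G : A[X]) (n : ℕ) (hG : G.natDegree ≤ n) :
    V.valuation (x⁻¹ ^ n * aeval x (G.map A.subtype) - algebraMap K F (G.coeff n)) < 1 := by
  have hx0 : x ≠ 0 := fun h => hx (h ▸ V.zero_mem)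
  have hy : V.valuation x⁻¹ < 1 := by
    rw [map_inv₀]
    have h1 : ¬ V.valuation x ≤ 1 := fun h => hx ((V.valuation_le_one_iff x).mp h)
    rw [not_le] at h1
    exact inv_lt_one_of_one_lt₀ h1
  have hdeg : (G.map A.subtype).natDegree < n + 1 :=
    lt_of_le_of_lt (Polynomial.natDegree_map_le) (Nat.lt_succ_of_le hG)
  have h1 : aeval x (G.map A.subtype) =
      ∑ i ∈ Finset.range (n + 1), algebraMap K F (G.coeff i) * x ^ i := by
    rw [aeval_def, eval₂_eq_sum_range' (algebraMap K F) hdeg x]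
    refine Finset.sum_congr rfl fun i _ => ?_
    rw [coeff_map]; rfl
  have h2 : x⁻¹ ^ n * aeval x (G.map A.subtype) - algebraMap K F (G.coeff n) =
      ∑ i ∈ Finset.range n, algebraMap K F (G.coeff i) * x⁻¹ ^ (n - i) := by
    rw [h1, Finset.mul_sum, Finset.sum_range_succ]
    have h3 : x⁻¹ ^ n * (algebraMap K F (G.coeff n) * x ^ n) = algebraMap K F (G.coeff n) := by
      rw [inv_pow]; field_simp
    rw [h3, add_sub_cancel_right]
    refine Finset.sum_congr rfl fun i hi => ?_
    have hin : i ≤ n := (Finset.mem_range.mp hi).le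
    have h4 : x⁻¹ ^ n = x⁻¹ ^ (n - i) * x⁻¹ ^ i := by rw [← pow_add, Nat.sub_add_cancel hin]
    rw [h4, inv_pow x i]
    field_simp
  rw [h2]
  refine Valuation.map_sum_lt _ one_ne_zero fun i hi => ?_
  have hin : i < n := Finset.mem_range.mp hi
  rw [map_mul, map_pow]
  have h5 : V.valuation (algebraMap K F (G.coeff i)) ≤ 1 :=
    (V.valuation_le_one_iff _).mpr ((hV _).mpr (G.coeff i).2)
  have h6 : V.valuation x⁻¹ ^ (n - i) < 1 :=
    pow_lt_one₀ zero_le hy (by omega)
  calc V.valuation (algebraMap K F (G.coeff i)) * V.valuation x⁻¹ ^ (n - i)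
      ≤ 1 * V.valuation x⁻¹ ^ (n - i) := mul_le_mul' h5 le_rfl
    _ = V.valuation x⁻¹ ^ (n - i) := one_mul _
    _ < 1 := h6

/-- **(T3), first half**: `h * Q(x) = P(x)` with `h` a Gauss point and `P.coeff n` or
`Q.coeff n` a unit forces `x ∈ V`. -/
theorem IsGaussAt.mem_of_rel (hV : ∀ a : K, algebraMap K F a ∈ V ↔ a ∈ A) {h x : F}
    (hh : IsGaussAt A V h) (P Q : A[X]) (n : ℕ) (hPn : P.natDegree ≤ n) (hQn : Q.natDegree ≤ n)
    (hlead : IsUnit (P.coeff n) ∨ IsUnit (Q.coeff n))
    (hrel : h * aeval x (Q.map A.subtype) = aeval x (P.map A.subtype)) : x ∈ V := by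
  by_contra hx
  have hP := valuation_inv_pow_mul_aeval_sub_lt hV hx P n hPn
  have hQ := valuation_inv_pow_mul_aeval_sub_lt hV hx Q n hQn
  -- the linear polynomial `p_n - q_n X`
  set f : A[X] := C (P.coeff n) - X * C (Q.coeff n) with hf
  have hfu : ∃ i, IsUnit (f.coeff i) := by
    rcases hlead with hu | hu
    · refine ⟨0, ?_⟩
      have : f.coeff 0 = P.coeff n := by
        rw [hf, coeff_sub, coeff_C_zero, mul_coeff_zero, coeff_X_zero, zero_mul, sub_zero]
      rw [this]; exact hu
    · refine ⟨1, ?_⟩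
      have : f.coeff 1 = - Q.coeff n := by
        rw [hf, coeff_sub, coeff_C, if_neg one_ne_zero, coeff_X_mul, coeff_C_zero, zero_sub]
      rw [this]; exact hu.neg
  have h1 := hh.2 f hfu
  have h2 : aeval h (f.map A.subtype) =
      algebraMap K F (P.coeff n) - h * algebraMap K F (Q.coeff n) := by
    rw [hf, Polynomial.map_sub, Polynomial.map_mul, map_C, map_C, map_X, map_sub, map_mul,
      aeval_C, aeval_C, aeval_X]
    rfl
  have h3 : algebraMap K F (P.coeff n) - h * algebraMap K F (Q.coeff n) =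
      -(x⁻¹ ^ n * aeval x (P.map A.subtype) - algebraMap K F (P.coeff n)) +
        h * (x⁻¹ ^ n * aeval x (Q.map A.subtype) - algebraMap K F (Q.coeff n)) := by
    rw [← hrel]; ring
  rw [h2, h3] at h1
  have h4 : V.valuation (-(x⁻¹ ^ n * aeval x (P.map A.subtype) - algebraMap K F (P.coeff n)) +
        h * (x⁻¹ ^ n * aeval x (Q.map A.subtype) - algebraMap K F (Q.coeff n))) < 1 := by
    refine Valuation.map_add_lt _ ?_ ?_
    · rw [Valuation.map_neg]; exact hP
    · rw [map_mul]
      calc V.valuation h * _ ≤ 1 * _ := mul_le_mul' ((V.valuation_le_one_iff h).mpr hh.1) le_rfl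
        _ = _ := one_mul _
        _ < 1 := hQ
  rw [h1] at h4
  exact lt_irrefl _ h4

/-- field-level core of (T3): `h̃ * Q̃(x̃) = P̃(x̃)`, `P̃, Q̃` coprime, `h̃` transcendental ⟹ `x̃`
transcendental. -/
theorem transcendental_of_rel {k κ : Type*} [Field k] [Field κ] [Algebra k κ] {h x : κ}
    (hh : Transcendental k h) (P Q U W : k[X]) (hbez : U * P + W * Q = 1)
    (hrel : h * aeval x Q = aeval x P) : Transcendental k x := by
  intro halg
  have hint : IsIntegral k x := halg.isIntegral
  have hmem : ∀ G : k[X], IsIntegral k (aeval x G) := fun G =>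
    IsIntegral.of_mem_of_fg _ hint.fg_adjoin_singleton _ (aeval_mem_adjoin_singleton k x)
  have hQ0 : aeval x Q ≠ 0 := by
    intro h0
    have hP0 : aeval x P = 0 := by rw [← hrel, h0, mul_zero]
    have := congrArg (aeval x) hbez
    rw [map_add, map_mul, map_mul, hP0, h0, mul_zero, mul_zero, add_zero, map_one] at this
    exact zero_ne_one this
  have hh' : h = aeval x P * (aeval x Q)⁻¹ := by
    rw [← hrel, mul_assoc, mul_inv_cancel₀ hQ0, mul_one]
  apply hh
  rw [hh']
  exact ((hmem P).mul (hmem Q).inv).isAlgebraic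

/-- **(T3) change of chart**: `h * Q(x) = P(x)` with `P, Q ∈ A[X]` of degree `≤ n`, `P.coeff n`
or `Q.coeff n` a unit, `U P + W Q = 1` over `A`.  If `h` is a Gauss point of `V` then so is
`x`. -/
theorem IsGaussAt.of_rel (hV : ∀ a : K, algebraMap K F a ∈ V ↔ a ∈ A) {h x : F}
    (hh : IsGaussAt A V h) (P Q U W : A[X]) (n : ℕ) (hPn : P.natDegree ≤ n)
    (hQn : Q.natDegree ≤ n) (hlead : IsUnit (P.coeff n) ∨ IsUnit (Q.coeff n))
    (hbez : U * P + W * Q = 1)
    (hrel : h * aeval x (Q.map A.subtype) = aeval x (P.map A.subtype)) : IsGaussAt A V x := by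
  have hx : x ∈ V := hh.mem_of_rel hV P Q n hPn hQn hlead hrel
  let _ : Algebra (IsLocalRing.ResidueField A) (IsLocalRing.ResidueField V) :=
    (resHom hV).toAlgebra
  have hcompat : ∀ a : A, IsLocalRing.residue V (baseHom hV a) =
      algebraMap (IsLocalRing.ResidueField A) (IsLocalRing.ResidueField V)
        (IsLocalRing.residue A a) := fun a => rfl
  have key := fun y => isGaussAt_iff_transcendental hV (IsLocalRing.residue A)
    (IsLocalRing.residue V) IsLocalRing.residue_surjective residue_eq_zero_iff_not_isUnit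
    residue_eq_zero_iff_not_isUnit hcompat y
  obtain ⟨hhV, htr⟩ := (key h).mp hh
  refine (key x).mpr ⟨hx, ?_⟩
  refine transcendental_of_rel htr (P.map (IsLocalRing.residue A))
    (Q.map (IsLocalRing.residue A)) (U.map (IsLocalRing.residue A))
    (W.map (IsLocalRing.residue A)) ?_ ?_
  · rw [← Polynomial.map_mul, ← Polynomial.map_mul, ← Polynomial.map_add, hbez,
      Polynomial.map_one]
  · rw [← resV_eval₂ hV _ _ hcompat hx Q, ← resV_eval₂ hV _ _ hcompat hx P, ← map_mul]
    congr 1
    apply Subtype.ext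
    change h * ((Q.eval₂ (baseHom hV) ⟨x, hx⟩ : V) : F) = ((P.eval₂ (baseHom hV) ⟨x, hx⟩ : V) : F)
    rw [coe_eval₂_baseHom, coe_eval₂_baseHom]
    exact hrel

end Rel

/-! ### Instances of (T3) used for the chart of CECH-KUMMER -/

section Instances

variable {A : ValuationSubring K} {V : ValuationSubring F}

/-- (T3) with `IsCoprime`. -/
theorem IsGaussAt.of_rel_isCoprime (hV : ∀ a : K, algebraMap K F a ∈ V ↔ a ∈ A) {h x : F}
    (hh : IsGaussAt A V h) (P Q : A[X]) (n : ℕ) (hPn : P.natDegree ≤ n)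
    (hQn : Q.natDegree ≤ n) (hlead : IsUnit (P.coeff n) ∨ IsUnit (Q.coeff n))
    (hcop : IsCoprime P Q)
    (hrel : h * aeval x (Q.map A.subtype) = aeval x (P.map A.subtype)) : IsGaussAt A V x := by
  obtain ⟨U, W, hbez⟩ := hcop
  exact hh.of_rel hV P Q U W n hPn hQn hlead hbez hrel

/-- Moebius step: `h * (x - t₀) = 1`, `t₀ ∈ A`: Gauss at `h` ⟹ Gauss at `x`
(`j₁ = 1/(j - t₀)`, `h := j₁`, `x := j`). -/
theorem IsGaussAt.of_mul_sub_eq_one (hV : ∀ a : K, algebraMap K F a ∈ V ↔ a ∈ A) {h x : F}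
    (hh : IsGaussAt A V h) (t₀ : A) (hrel : h * (x - algebraMap K F t₀) = 1) :
    IsGaussAt A V x := by
  refine hh.of_rel hV (1 : A[X]) (X - C t₀) 1 0 1 ?_ ?_ (Or.inr ?_) (by ring) ?_
  · rw [natDegree_one]; exact Nat.zero_le _
  · exact (natDegree_X_sub_C_le t₀)
  · rw [coeff_sub, coeff_X_one, coeff_C, if_neg one_ne_zero, sub_zero]
    exact isUnit_one
  · rw [Polynomial.map_one, map_one, Polynomial.map_sub, map_X, map_C, map_sub, aeval_X,
      aeval_C]
    exact hrel

/-- `X - C t` is coprime to `P₁` when `P₁(t)` is a unit. -/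
theorem isCoprime_X_sub_C_of_isUnit_eval {R : Type*} [CommRing R] (P₁ : R[X]) (t : R)
    (hu : IsUnit (P₁.eval t)) : IsCoprime (X - C t) P₁ := by
  obtain ⟨S, hS⟩ := Polynomial.X_sub_C_dvd_sub_C_eval (a := t) (p := P₁)
  obtain ⟨u, hu⟩ := hu
  refine ⟨- C (↑u⁻¹ : R) * S, C (↑u⁻¹ : R), ?_⟩
  have h1 : P₁ = (X - C t) * S + C (P₁.eval t) := by rw [← hS]; ring
  have h2 : C (↑u⁻¹ : R) * C (P₁.eval t) = 1 := by
    rw [← C_mul, ← hu, Units.inv_mul, C_1]
  calc - C (↑u⁻¹ : R) * S * (X - C t) + C (↑u⁻¹ : R) * P₁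
      = - C (↑u⁻¹ : R) * S * (X - C t) + C (↑u⁻¹ : R) * ((X - C t) * S + C (P₁.eval t)) := by
        rw [← h1]
    _ = C (↑u⁻¹ : R) * C (P₁.eval t) := by ring
    _ = 1 := h2

/-- pole-divisor step: `h * P₁(x) = (x - t₂)^m`, `P₁ ∈ A[X]` of degree `≤ m`, `P₁(t₂)` a unit
of `A`: Gauss at `h` ⟹ Gauss at `x` (`h = (j₁ - t₂)^(d+1) / P₁(j₁)`). -/
theorem IsGaussAt.of_pow_div (hV : ∀ a : K, algebraMap K F a ∈ V ↔ a ∈ A) {h x : F}
    (hh : IsGaussAt A V h) (P₁ : A[X]) (t₂ : A) (hu : IsUnit (P₁.eval t₂)) (m : ℕ)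
    (hm : P₁.natDegree ≤ m)
    (hrel : h * aeval x (P₁.map A.subtype) = (x - algebraMap K F t₂) ^ m) :
    IsGaussAt A V x := by
  refine hh.of_rel_isCoprime hV ((X - C t₂) ^ m) P₁ m ?_ hm (Or.inl ?_) ?_ ?_
  · exact (natDegree_pow_le).trans (by
      calc m * (X - C t₂ : A[X]).natDegree ≤ m * 1 :=
            Nat.mul_le_mul_left _ (natDegree_X_sub_C_le t₂)
        _ = m := mul_one m)
  · have hmon : ((X - C t₂) ^ m : A[X]).Monic := (monic_X_sub_C t₂).pow m
    have hdeg : ((X - C t₂) ^ m : A[X]).natDegree = m := by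
      rw [(monic_X_sub_C t₂).natDegree_pow, natDegree_X_sub_C, mul_one]
    have : ((X - C t₂) ^ m : A[X]).coeff m = 1 := by
      have h1 := hmon.coeff_natDegree
      rwa [hdeg] at h1
    rw [this]; exact isUnit_one
  · exact (isCoprime_X_sub_C_of_isUnit_eval P₁ t₂ hu).pow_left
  · rw [hrel, Polynomial.map_pow, Polynomial.map_sub, map_X, map_C, map_pow, map_sub, aeval_X,
      aeval_C]
    rfl

/-- **the chart of (A3)**: `j₁ * (j - t₀) = 1`, `h * P₁(j₁) = (j₁ - t₂)^m`.  A valuation
subring `V` over `A` which is Gauss at `h` is Gauss at `j`. -/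
theorem IsGaussAt.of_chart (hV : ∀ a : K, algebraMap K F a ∈ V ↔ a ∈ A) {h j₁ j : F}
    (hh : IsGaussAt A V h) (P₁ : A[X]) (t₀ t₂ : A) (hu : IsUnit (P₁.eval t₂)) (m : ℕ)
    (hm : P₁.natDegree ≤ m)
    (hrel₁ : h * aeval j₁ (P₁.map A.subtype) = (j₁ - algebraMap K F t₂) ^ m)
    (hrel₀ : j₁ * (j - algebraMap K F t₀) = 1) : IsGaussAt A V j :=
  (hh.of_pow_div hV P₁ t₂ hu m hm hrel₁).of_mul_sub_eq_one hV t₀ hrel₀

/-- **(A3), consumer form**: `V` is Gauss at the chart `h`, `V'` (one of the `W i`) is Gauss at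
`j`; then `V` and `V'` induce the same valuation subring on `K(j)`. -/
theorem mem_iff_mem_of_chart {V' : ValuationSubring F}
    (hV : ∀ a : K, algebraMap K F a ∈ V ↔ a ∈ A) (hV' : ∀ a : K, algebraMap K F a ∈ V' ↔ a ∈ A)
    {h j₁ j : F} (hh : IsGaussAt A V h) (hj' : IsGaussAt A V' j)
    (P₁ : A[X]) (t₀ t₂ : A) (hu : IsUnit (P₁.eval t₂)) (m : ℕ) (hm : P₁.natDegree ≤ m)
    (hrel₁ : h * aeval j₁ (P₁.map A.subtype) = (j₁ - algebraMap K F t₂) ^ m)
    (hrel₀ : j₁ * (j - algebraMap K F t₀) = 1) {y : F}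
    (hy : y ∈ IntermediateField.adjoin K {j}) : y ∈ V ↔ y ∈ V' :=
  (hh.of_chart hV P₁ t₀ t₂ hu m hm hrel₁ hrel₀).mem_iff_mem hV hV' hj' hy

/-- `V ∩ K = A` from `A ⊆ V`, a uniformiser `q` of `A` (every non-unit of `A` is divisible by
`q`) and `q` a non-unit of `V`. -/
theorem mem_iff_of_unif {q : K} (hAV : ∀ a ∈ A, algebraMap K F a ∈ V)
    (hgen : ∀ a ∈ A.nonunits, A.valuation a ≤ A.valuation q)
    (hq : V.valuation (algebraMap K F q) < 1) (a : K) : algebraMap K F a ∈ V ↔ a ∈ A := by
  refine ⟨fun ha => ?_, hAV a⟩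
  by_contra haA
  have ha0 : a ≠ 0 := fun h => haA (h ▸ A.zero_mem)
  have h1 : a⁻¹ ∈ A.nonunits := by
    rw [ValuationSubring.mem_nonunits_iff, map_inv₀]
    have : ¬ A.valuation a ≤ 1 := fun h => haA ((A.valuation_le_one_iff a).mp h)
    rw [not_le] at this
    exact inv_lt_one_of_one_lt₀ this
  have hq0 : q ≠ 0 := by
    rintro rfl
    have := hgen _ h1
    rw [map_zero, le_zero_iff, map_eq_zero] at this
    exact inv_ne_zero ha0 this
  have h2 : a⁻¹ / q ∈ A := by
    rw [← ValuationSubring.valuation_le_one_iff, map_div₀]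
    exact div_le_one_of_le₀ (hgen _ h1) zero_le
  have h3 : V.valuation (algebraMap K F (a⁻¹ / q)) ≤ 1 :=
    (V.valuation_le_one_iff _).mpr (hAV _ h2)
  have h4 : algebraMap K F a⁻¹ = algebraMap K F (a⁻¹ / q) * algebraMap K F q := by
    rw [← map_mul, div_mul_cancel₀ _ hq0]
  have h5 : V.valuation (algebraMap K F a⁻¹) < 1 := by
    rw [h4, map_mul]
    calc V.valuation (algebraMap K F (a⁻¹ / q)) * V.valuation (algebraMap K F q)
        ≤ 1 * V.valuation (algebraMap K F q) := mul_le_mul' h3 le_rfl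
      _ = V.valuation (algebraMap K F q) := one_mul _
      _ < 1 := hq
  have h6 : V.valuation (algebraMap K F a) ≤ 1 := (V.valuation_le_one_iff _).mpr ha
  have h7 : V.valuation (algebraMap K F a) * V.valuation (algebraMap K F a⁻¹) = 1 := by
    rw [← map_mul, ← map_mul, mul_inv_cancel₀ ha0, map_one, map_one]
  have h8 : V.valuation (algebraMap K F a) * V.valuation (algebraMap K F a⁻¹) < 1 := by
    calc V.valuation (algebraMap K F a) * V.valuation (algebraMap K F a⁻¹)
        ≤ 1 * V.valuation (algebraMap K F a⁻¹) := mul_le_mul' h6 le_rfl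
      _ = V.valuation (algebraMap K F a⁻¹) := one_mul _
      _ < 1 := h5
  rw [h7] at h8
  exact lt_irrefl _ h8

end Instances

/-- adapter: the Gauss property from "`f(x)` has an inverse in `V` for every `f ∈ A[X]` with a
unit coefficient" (the form produced by a vertical height-one prime `P` of
`integralClosure R[x] F` with `P ∩ R[x] = q R[x]`: `f(x) ∉ P` is a unit of `V = B_P`). -/
theorem isGaussAt_of_exists_inv {A : ValuationSubring K} {V : ValuationSubring F}
    (hV : ∀ a : K, algebraMap K F a ∈ V ↔ a ∈ A) {x : F} (hx : x ∈ V)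
    (h : ∀ f : A[X], (∃ i, IsUnit (f.coeff i)) →
      ∃ w ∈ V, aeval x (f.map A.subtype) * w = 1) :
    IsGaussAt A V x := by
  refine ⟨hx, fun f hf => ?_⟩
  obtain ⟨w, hw, hfw⟩ := h f hf
  have h1 : V.valuation (aeval x (f.map A.subtype)) ≤ 1 :=
    (V.valuation_le_one_iff _).mpr (aeval_map_mem hV hx f)
  have h2 : V.valuation w ≤ 1 := (V.valuation_le_one_iff _).mpr hw
  have h3 : V.valuation (aeval x (f.map A.subtype)) * V.valuation w = 1 := by
    rw [← map_mul, hfw, map_one]
  refine le_antisymm h1 ?_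
  calc (1 : _) = V.valuation (aeval x (f.map A.subtype)) * V.valuation w := h3.symm
    _ ≤ V.valuation (aeval x (f.map A.subtype)) * 1 := mul_le_mul' le_rfl h2
    _ = V.valuation (aeval x (f.map A.subtype)) := mul_one _

end Fermat.Agent.GL.GaussAt
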