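/-
GATE-L / (A3)+(A2) bridge (helper90): the hypothesis
  `hnoext : ∀ V, IsGaussExt q t V → ∃ i, W i ≤ V`
of helper79's `GL/Alg/IntClosureSplit.lean` (= helper47's `hdiv` of the FRAME) for the CHART
`t = h` or `t = h⁻¹`, `h * P₁(j₁) = (j₁ - t₂)^m`, `j₁ * (j - t₀) = 1`, discharged from

* `W i₀` is a Gauss point at `j` over the DVR `A ⊂ K` (`IsGaussAt A (W i₀) j`), and
* NOEXT over `K(j)`: every valuation subring of `F` which agrees with `W i₀` on `K(j)` is one of
  the `W i` (helper75 `NoOtherExt.exists_eq_of_finrank_le` over the base `K(j)`).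

* `over_of_isGaussExt`, `isGaussAt_of_isGaussExt`, `isGaussExt_of_isGaussAt` : dictionary between
  helper79's `IsGaussExt q t V` (ring `R := A`) and `IsGaussAt A V t`;
* `exists_le_of_isGaussExt` : generic form (any chart `t` with a transfer of Gauss points to `j`);
* `exists_le_of_isGaussExt_chart`, `exists_le_of_isGaussExt_chart_inv` : the charts `h`, `h⁻¹`.
-/
import Mathlib
import Fermat.Agent.GL.Alg.IntClosureSplit
import Fermat.Agent.GL.Frame.GaussAt

set_option autoImplicit false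

open Polynomial

namespace Fermat.Agent.GL.GaussExtBridge

open Fermat.Agent.GL.GaussAt Fermat.Agent.GL.IntClosureSplit

variable {K F : Type*} [Field K] [Field F] [Algebra K F]
variable {A : ValuationSubring K} [Algebra A F] [IsScalarTower A K F]

theorem algebraMap_eq (a : A) : algebraMap A F a = algebraMap K F (a : K) :=
  IsScalarTower.algebraMap_apply A K F a

theorem aeval_map_subtype (t : F) (f : A[X]) : aeval t (f.map A.subtype) = aeval t f :=
  Polynomial.aeval_map_algebraMap K t f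

/-- `IsGaussExt q t V` (over the ring `A`) gives `V ∩ K = A`. -/
theorem over_of_isGaussExt {q : A} (hgen : ∀ a : A, ¬ IsUnit a → q ∣ a) {t : F}
    {V : ValuationSubring F} (h : IsGaussExt q t V) :
    ∀ a : K, algebraMap K F a ∈ V ↔ a ∈ A := by
  refine mem_iff_of_unif (q := (q : K)) (fun a ha => ?_) (fun a ha => ?_) ?_
  · have := h.1 (C (⟨a, ha⟩ : A))
    rwa [aeval_C, algebraMap_eq] at this
  · have haA : a ∈ A := A.nonunits_le ha
    have hnu : ¬ IsUnit (⟨a, haA⟩ : A) := by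
      rw [A.valuation_eq_one_iff]
      exact ne_of_lt ((A.mem_nonunits_iff).mp ha)
    obtain ⟨b, hb⟩ := hgen _ hnu
    have hab : a = (q : K) * (b : K) := congrArg Subtype.val hb
    rw [hab, map_mul]
    calc A.valuation (q : K) * A.valuation (b : K) ≤ A.valuation (q : K) * 1 :=
          mul_le_mul' le_rfl ((A.valuation_le_one_iff _).mpr b.2)
      _ = A.valuation (q : K) := mul_one _
  · have := (h.2 (C q)).mpr (dvd_refl _)
    rw [aeval_C, algebraMap_eq] at this
    exact (V.mem_nonunits_iff).mp this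

/-- `IsGaussExt q t V` gives a Gauss point at `t`. -/
theorem isGaussAt_of_isGaussExt {q : A} (hq : ¬ IsUnit q) {t : F} {V : ValuationSubring F}
    (h : IsGaussExt q t V) : IsGaussAt A V t := by
  refine ⟨by simpa using h.1 X, fun f ⟨i, hi⟩ => ?_⟩
  rw [aeval_map_subtype]
  have hnd : ¬ C q ∣ f := by
    intro hd
    exact hq (isUnit_of_dvd_unit ((Polynomial.C_dvd_iff_dvd_coeff q f).mp hd i) hi)
  have h1 : aeval t f ∉ V.nonunits := fun hmem => hnd ((h.2 f).mp hmem)
  have h2 : V.valuation (aeval t f) ≤ 1 := (V.valuation_le_one_iff _).mpr (h.1 f)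
  rw [V.mem_nonunits_iff, not_lt] at h1
  exact le_antisymm h2 h1

/-- conversely a Gauss point at `t` of a valuation subring over `A` is a Gauss extension. -/
theorem isGaussExt_of_isGaussAt {q : A} (hq : ¬ IsUnit q) (hgen : ∀ a : A, ¬ IsUnit a → q ∣ a)
    {t : F} {V : ValuationSubring F} (hV : ∀ a : K, algebraMap K F a ∈ V ↔ a ∈ A)
    (h : IsGaussAt A V t) : IsGaussExt q t V := by
  have hmem : ∀ g : A[X], aeval t g ∈ V := fun g => by
    rw [← aeval_map_subtype]; exact aeval_map_mem hV h.1 g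
  refine ⟨hmem, fun g => ⟨fun hg => ?_, fun hg => ?_⟩⟩
  · by_contra hnd
    rw [Polynomial.C_dvd_iff_dvd_coeff] at hnd
    push Not at hnd
    obtain ⟨i, hi⟩ := hnd
    have hu : IsUnit (g.coeff i) := by
      by_contra hnu
      exact hi (hgen _ hnu)
    have := h.2 g ⟨i, hu⟩
    rw [aeval_map_subtype] at this
    rw [V.mem_nonunits_iff, this] at hg
    exact lt_irrefl _ hg
  · obtain ⟨g', rfl⟩ := hg
    rw [map_mul, aeval_C, algebraMap_eq, V.mem_nonunits_iff, map_mul]
    have h1 : V.valuation (algebraMap K F (q : K)) < 1 := by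
      rw [← not_le]
      intro hle
      have h2 : V.valuation (algebraMap K F (q : K)) = 1 :=
        le_antisymm ((V.valuation_le_one_iff _).mpr ((hV _).mpr q.2)) hle
      rw [valuation_algebraMap_eq_one_iff hV] at h2
      exact hq ((A.valuation_eq_one_iff q).mpr h2)
    calc V.valuation (algebraMap K F (q : K)) * V.valuation (aeval t g')
        ≤ V.valuation (algebraMap K F (q : K)) * 1 :=
          mul_le_mul' le_rfl ((V.valuation_le_one_iff _).mpr (hmem g'))
      _ = V.valuation (algebraMap K F (q : K)) := mul_one _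
      _ < 1 := h1

/-- **generic form**: a chart `t` whose Gauss points are Gauss points at `j`. -/
theorem exists_le_of_isGaussExt {ι : Type*} (W : ι → ValuationSubring F) {q : A}
    (hq : ¬ IsUnit q) (hgen : ∀ a : A, ¬ IsUnit a → q ∣ a) {t j : F}
    (hchain : ∀ V : ValuationSubring F, (∀ a : K, algebraMap K F a ∈ V ↔ a ∈ A) →
      IsGaussAt A V t → IsGaussAt A V j)
    (i₀ : ι) (hW₀ : ∀ a : K, algebraMap K F a ∈ W i₀ ↔ a ∈ A) (hj : IsGaussAt A (W i₀) j)
    (hnoext : ∀ V : ValuationSubring F,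
      (∀ y ∈ IntermediateField.adjoin K {j}, y ∈ V ↔ y ∈ W i₀) → ∃ i, V = W i)
    (V : ValuationSubring F) (hV : IsGaussExt q t V) : ∃ i, W i ≤ V := by
  have hover := over_of_isGaussExt hgen hV
  have hGj : IsGaussAt A V j := hchain V hover (isGaussAt_of_isGaussExt hq hV)
  obtain ⟨i, hi⟩ := hnoext V (fun y hy => hGj.mem_iff_mem hover hW₀ hj hy)
  exact ⟨i, hi ▸ le_rfl⟩

/-- **chart `h`** (`B₁ = integralClosure R[h] F`). -/
theorem exists_le_of_isGaussExt_chart {ι : Type*} (W : ι → ValuationSubring F) {q : A}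
    (hq : ¬ IsUnit q) (hgen : ∀ a : A, ¬ IsUnit a → q ∣ a) {h j₁ j : F}
    (P₁ : A[X]) (t₀ t₂ : A) (hu : IsUnit (P₁.eval t₂)) (m : ℕ) (hm : P₁.natDegree ≤ m)
    (hrel₁ : h * aeval j₁ (P₁.map A.subtype) = (j₁ - algebraMap K F t₂) ^ m)
    (hrel₀ : j₁ * (j - algebraMap K F t₀) = 1)
    (i₀ : ι) (hW₀ : ∀ a : K, algebraMap K F a ∈ W i₀ ↔ a ∈ A) (hj : IsGaussAt A (W i₀) j)
    (hnoext : ∀ V : ValuationSubring F,
      (∀ y ∈ IntermediateField.adjoin K {j}, y ∈ V ↔ y ∈ W i₀) → ∃ i, V = W i)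
    (V : ValuationSubring F) (hV : IsGaussExt q h V) : ∃ i, W i ≤ V :=
  exists_le_of_isGaussExt W hq hgen
    (fun _ hover hG => hG.of_chart hover P₁ t₀ t₂ hu m hm hrel₁ hrel₀) i₀ hW₀ hj hnoext V hV

/-- **chart `h⁻¹`** (`B₂ = integralClosure R[h⁻¹] F`). -/
theorem exists_le_of_isGaussExt_chart_inv {ι : Type*} (W : ι → ValuationSubring F) {q : A}
    (hq : ¬ IsUnit q) (hgen : ∀ a : A, ¬ IsUnit a → q ∣ a) {h j₁ j : F} (hh0 : h ≠ 0)
    (P₁ : A[X]) (t₀ t₂ : A) (hu : IsUnit (P₁.eval t₂)) (m : ℕ) (hm : P₁.natDegree ≤ m)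
    (hrel₁ : h * aeval j₁ (P₁.map A.subtype) = (j₁ - algebraMap K F t₂) ^ m)
    (hrel₀ : j₁ * (j - algebraMap K F t₀) = 1)
    (i₀ : ι) (hW₀ : ∀ a : K, algebraMap K F a ∈ W i₀ ↔ a ∈ A) (hj : IsGaussAt A (W i₀) j)
    (hnoext : ∀ V : ValuationSubring F,
      (∀ y ∈ IntermediateField.adjoin K {j}, y ∈ V ↔ y ∈ W i₀) → ∃ i, V = W i)
    (V : ValuationSubring F) (hV : IsGaussExt q h⁻¹ V) : ∃ i, W i ≤ V :=
  exists_le_of_isGaussExt W hq hgen
    (fun _ hover hG =>
      (hG.of_mul_sub_eq_one hover (0 : A)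
        (by rw [ZeroMemClass.coe_zero, map_zero, sub_zero, inv_mul_cancel₀ hh0])).of_chart
        hover P₁ t₀ t₂ hu m hm hrel₁ hrel₀)
    i₀ hW₀ hj hnoext V hV

end Fermat.Agent.GL.GaussExtBridge
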