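/-
GATE-L / FRAME-INST-A (helper80), part 2: the generic frame instance `FrameInst.lean` fed with the
L1e list in GAUSS FORM (helper90 `IsGaussAt`, helper75 `L1eFinal` / `L1eJC` output shape).

`A : ValuationSubring K` a DVR with uniformiser `q`, `F ⊇ K`, `j ∈ F`, `W : ι → ValuationSubring F`
the complete list of valuation subrings of `F` over `A` which are Gauss at `j`:

* `hover   : ∀ i a, algebraMap K F a ∈ W i ↔ a ∈ A`
* `hG      : ∀ i, IsGaussAt A (W i) j`
* `hnoextG : ∀ V, (∀ a, algebraMap K F a ∈ V ↔ a ∈ A) → IsGaussAt A V j → ∃ i, V = W i`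

For a chart `t` (`t = j`, `t = j⁻¹`, or any `t` with a two-way transfer of Gauss points) these give
the hypotheses `hW`, `hnoext` of `FrameInst` (helper79 `IsGaussExt` language), `Transcendental A t`,
and (from `FiniteDimensional K(j) F` + `j` algebraic over `K(t)`) `FiniteDimensional K(t) F`.
`exists_frame` packages the whole FRAME instance for the chart ring `chartRing A t` in one
statement.
-/
import Mathlib
import Fermat.Agent.GL.Frame.FrameInst
import Fermat.Agent.GL.Frame.GaussExtBridge

set_option autoImplicit false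
set_option linter.unusedSectionVars false

open Polynomial IntermediateField

namespace Fermat.Agent.GL.Frame.InstVal

open Fermat.Agent.GL.GaussAt Fermat.Agent.GL.GaussExtBridge Fermat.Agent.GL.IntClosureSplit
open Fermat.Agent.GL.Frame.HeightOne Fermat.Agent.GL.Frame.Inst

variable {K F : Type*} [Field K] [Field F] [Algebra K F] {A : ValuationSubring K}

/-! ### Gauss points are transcendental -/

theorem transcendental_of_isGaussAt {V : ValuationSubring F} {t : F} (ht : IsGaussAt A V t) :
    Transcendental A t := by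
  intro halg
  obtain ⟨p, hp0, hp⟩ := halg
  have h1 : p.map A.subtype ≠ 0 := by
    rwa [Ne, Polynomial.map_eq_zero_iff A.subtype_injective]
  apply ht.aeval_ne_zero h1
  rw [aeval_map_subtype]
  exact hp

/-! ### The hypotheses `hW`, `hnoext` of `FrameInst` from the Gauss form of L1e -/

section Chain

variable {q : A} (hq : ¬ IsUnit q) (hgen : ∀ a : A, ¬ IsUnit a → q ∣ a)
  {ι : Type*} (W : ι → ValuationSubring F)
  (hover : ∀ i, ∀ a : K, algebraMap K F a ∈ W i ↔ a ∈ A)
  {j : F} (hG : ∀ i, IsGaussAt A (W i) j)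
  (hnoextG : ∀ V : ValuationSubring F, (∀ a : K, algebraMap K F a ∈ V ↔ a ∈ A) →
    IsGaussAt A V j → ∃ i, V = W i)

include hq hgen hover hG in
/-- `hW` for a chart `t` to which Gauss points at `j` transfer. -/
theorem isGaussExt_of_chain {t : F}
    (hto : ∀ V : ValuationSubring F, (∀ a : K, algebraMap K F a ∈ V ↔ a ∈ A) →
      IsGaussAt A V j → IsGaussAt A V t) (i : ι) : IsGaussExt q t (W i) :=
  isGaussExt_of_isGaussAt hq hgen (hover i) (hto _ (hover i) (hG i))

include hq hgen hnoextG in
/-- `hnoext` for a chart `t` whose Gauss points are Gauss points at `j`. -/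
theorem exists_le_of_chain {t : F}
    (hfrom : ∀ V : ValuationSubring F, (∀ a : K, algebraMap K F a ∈ V ↔ a ∈ A) →
      IsGaussAt A V t → IsGaussAt A V j)
    (V : ValuationSubring F) (hV : IsGaussExt q t V) : ∃ i, W i ≤ V := by
  have hover' := over_of_isGaussExt hgen hV
  obtain ⟨i, hi⟩ := hnoextG V hover' (hfrom V hover' (isGaussAt_of_isGaussExt hq hV))
  exact ⟨i, hi ▸ le_rfl⟩

/-- the Moebius transfer `j ↔ j⁻¹`. -/
theorem isGaussAt_inv {V : ValuationSubring F} (hV : ∀ a : K, algebraMap K F a ∈ V ↔ a ∈ A)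
    {j : F} (hj0 : j ≠ 0) (hj : IsGaussAt A V j) : IsGaussAt A V j⁻¹ :=
  hj.of_mul_sub_eq_one hV (0 : A)
    (by rw [ZeroMemClass.coe_zero, map_zero, sub_zero, mul_inv_cancel₀ hj0])

theorem isGaussAt_of_inv {V : ValuationSubring F} (hV : ∀ a : K, algebraMap K F a ∈ V ↔ a ∈ A)
    {j : F} (hj0 : j ≠ 0) (hj : IsGaussAt A V j⁻¹) : IsGaussAt A V j :=
  hj.of_mul_sub_eq_one hV (0 : A)
    (by rw [ZeroMemClass.coe_zero, map_zero, sub_zero, inv_mul_cancel₀ hj0])

end Chain

/-! ### Finiteness of `F / K(t)` -/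

section FinDim

theorem finiteDimensional_of_eq {L L' : IntermediateField K F} (h : L = L')
    [FiniteDimensional L F] : FiniteDimensional L' F := by
  subst h
  infer_instance

theorem adjoin_inv_eq (j : F) : K⟮j⁻¹⟯ = K⟮j⟯ := by
  apply le_antisymm
  · rw [adjoin_simple_le_iff]
    exact inv_mem (mem_adjoin_simple_self K j)
  · rw [adjoin_simple_le_iff]
    have := inv_mem (mem_adjoin_simple_self K j⁻¹)
    rwa [inv_inv] at this

/-- `F / K(j⁻¹)` is finite if `F / K(j)` is. -/
theorem finiteDimensional_adjoin_inv (j : F) [FiniteDimensional K⟮j⟯ F] :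
    FiniteDimensional K⟮j⁻¹⟯ F :=
  finiteDimensional_of_eq (adjoin_inv_eq (K := K) j).symm

/-- finite over a subfield ⟹ finite over a bigger subfield. -/
theorem finiteDimensional_of_le {L L' : IntermediateField K F} (h : L ≤ L')
    [FiniteDimensional L F] : FiniteDimensional L' F := by
  let _ : Algebra L L' := (IntermediateField.inclusion h).toRingHom.toAlgebra
  have : IsScalarTower L L' F := IsScalarTower.of_algebraMap_eq fun _ => rfl
  exact Module.Finite.of_restrictScalars_finite L L' F

/-- **`F / K(t)` is finite** as soon as `F / K(j)` is finite and `j` is algebraic over `K(t)`. -/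
theorem finiteDimensional_adjoin_of_isAlgebraic (t j : F) [FiniteDimensional K⟮j⟯ F]
    (hj : IsAlgebraic K⟮t⟯ j) : FiniteDimensional K⟮t⟯ F := by
  have h1 : FiniteDimensional K⟮t⟯ (K⟮t⟯⟮j⟯) := adjoin.finiteDimensional hj.isIntegral
  have h2 : FiniteDimensional (K⟮t⟯⟮j⟯) F := by
    have hle : K⟮j⟯ ≤ (K⟮t⟯⟮j⟯).restrictScalars K := by
      rw [adjoin_simple_le_iff]
      exact mem_adjoin_simple_self _ j
    have h3 : FiniteDimensional ((K⟮t⟯⟮j⟯).restrictScalars K) F :=
      finiteDimensional_of_le (K := K) hle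
    exact h3
  exact Module.Finite.trans (K⟮t⟯⟮j⟯) F

/-- a Lüroth-type relation `h * Q(x) = P(x)`, `h` transcendental, makes `x` algebraic over
`K(h)`. -/
theorem isAlgebraic_adjoin_of_rel {h x : F} (P Q : K[X]) (hrel : h * aeval x Q = aeval x P)
    (hQx : aeval x Q ≠ 0) (hh : Transcendental K h) : IsAlgebraic K⟮h⟯ x := by
  let h' : K⟮h⟯ := ⟨h, mem_adjoin_simple_self K h⟩
  refine ⟨P.map (algebraMap K K⟮h⟯) - C h' * Q.map (algebraMap K K⟮h⟯), ?_, ?_⟩
  · intro h0
    have hQ0 : Q ≠ 0 := by
      rintro rfl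
      exact hQx (by simp)
    obtain ⟨i, hi⟩ : ∃ i, Q.coeff i ≠ 0 := by
      by_contra hcon
      push Not at hcon
      exact hQ0 (Polynomial.ext fun i => by rw [hcon i, coeff_zero])
    have h1 := congrArg (fun p : K⟮h⟯[X] => p.coeff i) h0
    simp only [coeff_sub, coeff_map, coeff_C_mul, coeff_zero] at h1
    have h2 := congrArg (fun z : K⟮h⟯ => (z : F)) h1
    simp only [AddSubgroupClass.coe_sub, MulMemClass.coe_mul, ZeroMemClass.coe_zero] at h2
    have h3 : algebraMap K F (P.coeff i) = h * algebraMap K F (Q.coeff i) := by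
      have : algebraMap K F (P.coeff i) - h * algebraMap K F (Q.coeff i) = 0 := h2
      exact sub_eq_zero.1 this
    apply hh
    have h4 : h = algebraMap K F (P.coeff i / Q.coeff i) := by
      rw [map_div₀, h3, mul_div_assoc, div_self ((_root_.map_ne_zero _).2 hi), mul_one]
    rw [h4]
    exact isAlgebraic_algebraMap _
  · rw [map_sub, map_mul, aeval_C, aeval_map_algebraMap, aeval_map_algebraMap, ← hrel]
    exact sub_self _

/-- Moebius step for algebraicity: `j₁ * (j - c) = 1`. -/
theorem isAlgebraic_of_mul_sub_eq_one {L : IntermediateField K F} {j₁ j : F} (c : K)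
    (hrel : j₁ * (j - algebraMap K F c) = 1) (h : IsAlgebraic L j₁) : IsAlgebraic L j := by
  have h1 : j = j₁⁻¹ + algebraMap L F (algebraMap K L c) := by
    have hj1 : j₁ ≠ 0 := left_ne_zero_of_mul_eq_one hrel
    have : j - algebraMap K F c = j₁⁻¹ := eq_inv_of_mul_eq_one_right hrel
    rw [← this]
    show j = j - algebraMap K F c + algebraMap K F c
    ring
  rw [h1]
  exact h.inv.add (isAlgebraic_algebraMap _)

end FinDim

/-! ### The packaged FRAME instance -/

section Package

variable [IsDiscreteValuationRing A] {q : A} (hq : Irreducible q)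
  {ι : Type*} [Nonempty ι] (W : ι → ValuationSubring F)
  (hover : ∀ i, ∀ a : K, algebraMap K F a ∈ W i ↔ a ∈ A)
  {j : F} (hG : ∀ i, IsGaussAt A (W i) j)
  (hnoextG : ∀ V : ValuationSubring F, (∀ a : K, algebraMap K F a ∈ V ↔ a ∈ A) →
    IsGaussAt A V j → ∃ i, V = W i)

include hq in
/-- in a DVR every non-unit is divisible by the uniformiser. -/
theorem dvd_of_not_isUnit (a : A) (ha : ¬ IsUnit a) : q ∣ a := by
  have h1 : a ∈ IsLocalRing.maximalIdeal A := (IsLocalRing.mem_maximalIdeal a).2 ha
  rw [(IsDiscreteValuationRing.irreducible_iff_uniformizer q).1 hq,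
    Ideal.mem_span_singleton] at h1
  exact h1

include hq hover hG hnoextG in
/-- **FRAME instance, packaged**: for a chart `t` with a two-way transfer of Gauss points with `j`
and `F / K(t)` finite separable, the chart ring `B_t = chartRing A t` is a noetherian integrally
closed domain with fraction field `F`, and its vertical height-one primes are parametrised by the
L1e list `W`. -/
theorem exists_frame {t : F}
    (hto : ∀ V : ValuationSubring F, (∀ a : K, algebraMap K F a ∈ V ↔ a ∈ A) →
      IsGaussAt A V j → IsGaussAt A V t)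
    (hfrom : ∀ V : ValuationSubring F, (∀ a : K, algebraMap K F a ∈ V ↔ a ∈ A) →
      IsGaussAt A V t → IsGaussAt A V j)
    [FiniteDimensional K⟮t⟯ F] [Algebra.IsSeparable K⟮t⟯ F] :
    ∃ (_ : IsNoetherianRing (chartRing A t)) (_ : IsIntegrallyClosed (chartRing A t))
      (_ : IsFractionRing (chartRing A t) F) (hqB : baseB t q ≠ 0)
      (f : ι → HtOne (chartRing A t)),
      (∀ i, V1 F (f i) = W i) ∧ (∀ p, p ∈ vertFinset hqB ↔ ∃ i, f i = p) ∧
      (∀ i (b : chartRing A t), b ∈ (f i).1 ↔ (b : F) ∈ (W i).nonunits) ∧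
      (Function.Injective W → Function.Injective f) := by
  have hqp : Prime q := hq.prime
  have hgen := dvd_of_not_isUnit hq
  obtain ⟨i₀⟩ := ‹Nonempty ι›
  have ht : Transcendental A t := transcendental_of_isGaussAt (hto _ (hover i₀) (hG i₀))
  have h1 := isNoetherianRing_chartRing (K := K) t ht
  have h2 := isIntegrallyClosed_chartRing (K := K) t ht
  have h3 := isFractionRing_chartRing (K := K) t ht
  have hqB : baseB t q ≠ 0 := baseB_ne_zero (K := K) t hqp.ne_zero
  refine ⟨h1, h2, h3, hqB, ?_⟩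
  exact exists_vert_param (K := K) t ht hqp W
    (isGaussExt_of_chain hq.not_isUnit hgen W hover hG hto)
    (exists_le_of_chain hq.not_isUnit hgen W hnoextG hfrom) hqB

include hq hover hG hnoextG in
/-- the chart `t = j`. -/
theorem exists_frame_self [FiniteDimensional K⟮j⟯ F] [Algebra.IsSeparable K⟮j⟯ F] :
    ∃ (_ : IsNoetherianRing (chartRing A j)) (_ : IsIntegrallyClosed (chartRing A j))
      (_ : IsFractionRing (chartRing A j) F) (hqB : baseB j q ≠ 0)
      (f : ι → HtOne (chartRing A j)),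
      (∀ i, V1 F (f i) = W i) ∧ (∀ p, p ∈ vertFinset hqB ↔ ∃ i, f i = p) ∧
      (∀ i (b : chartRing A j), b ∈ (f i).1 ↔ (b : F) ∈ (W i).nonunits) ∧
      (Function.Injective W → Function.Injective f) :=
  exists_frame hq W hover hG hnoextG (fun _ _ h => h) (fun _ _ h => h)

include hq hover hG hnoextG in
/-- the chart `t = j⁻¹`. -/
theorem exists_frame_inv (hj0 : j ≠ 0) [FiniteDimensional K⟮j⁻¹⟯ F]
    [Algebra.IsSeparable K⟮j⁻¹⟯ F] :
    ∃ (_ : IsNoetherianRing (chartRing A j⁻¹)) (_ : IsIntegrallyClosed (chartRing A j⁻¹))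
      (_ : IsFractionRing (chartRing A j⁻¹) F) (hqB : baseB j⁻¹ q ≠ 0)
      (f : ι → HtOne (chartRing A j⁻¹)),
      (∀ i, V1 F (f i) = W i) ∧ (∀ p, p ∈ vertFinset hqB ↔ ∃ i, f i = p) ∧
      (∀ i (b : chartRing A j⁻¹), b ∈ (f i).1 ↔ (b : F) ∈ (W i).nonunits) ∧
      (Function.Injective W → Function.Injective f) :=
  exists_frame hq W hover hG hnoextG (fun _ hV h => isGaussAt_inv hV hj0 h)
    (fun _ hV h => isGaussAt_of_inv hV hj0 h)

/-- a valuation subring strictly between a height-one localisation and `F` does not exist. -/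
theorem eq_of_le_of_ne_top_of_V1_eq {B : Type*} [CommRing B] [IsDomain B] [Algebra B F]
    [IsFractionRing B F] [IsNoetherianRing B] [IsIntegrallyClosed B] {p : HtOne B}
    {W' V : ValuationSubring F} (hW : V1 F p = W') (hle : W' ≤ V) (hV : V ≠ ⊤) : V = W' := by
  subst hW
  exact eq_V1_of_le p V hle hV

include hq hover hG hnoextG in
/-- **one-directional variant** (charts `h`, `h⁻¹`: only the transfer Gauss at `t` ⟹ Gauss at `j`
is needed): every vertical height-one prime of the chart ring `B_t` is one of the `W i`. -/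
theorem exists_frame_from [FiniteDimensional K⟮j⟯ F] [Algebra.IsSeparable K⟮j⟯ F] {t : F}
    (ht : Transcendental A t)
    (hfrom : ∀ V : ValuationSubring F, (∀ a : K, algebraMap K F a ∈ V ↔ a ∈ A) →
      IsGaussAt A V t → IsGaussAt A V j)
    [FiniteDimensional K⟮t⟯ F] [Algebra.IsSeparable K⟮t⟯ F] :
    ∃ (_ : IsNoetherianRing (chartRing A t)) (_ : IsIntegrallyClosed (chartRing A t))
      (_ : IsFractionRing (chartRing A t) F) (hqB : baseB t q ≠ 0),
      ∀ p ∈ vertFinset hqB, ∃ i, V1 F p = W i := by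
  have hqp : Prime q := hq.prime
  have hgen := dvd_of_not_isUnit hq
  obtain ⟨hj1, hj2, hj3, -, f, hf1, -, -, -⟩ := exists_frame_self hq W hover hG hnoextG
  have h1 := isNoetherianRing_chartRing (K := K) t ht
  have h2 := isIntegrallyClosed_chartRing (K := K) t ht
  have h3 := isFractionRing_chartRing (K := K) t ht
  have hqB : baseB t q ≠ 0 := baseB_ne_zero (K := K) t hqp.ne_zero
  refine ⟨h1, h2, h3, hqB, fun p hp => ?_⟩
  have hG' := isGaussExt_V1 (K := K) t ht hqp ((mem_vertFinset hqB p).1 hp)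
  obtain ⟨i, hi⟩ := exists_le_of_chain hq.not_isUnit hgen W hnoextG hfrom (V1 F p) hG'
  exact ⟨i, eq_of_le_of_ne_top_of_V1_eq (hf1 i) hi (V1_ne_top t p)⟩

end Package

end Fermat.Agent.GL.Frame.InstVal
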