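/-
GATE-L / adapter (helper90): J1 `RedData.IsGaussChart` (`s ∈ Rw`, `red s` transcendental over
`k`) is the same thing as `GaussAt.IsGaussAt R.A R.Rw s`.  So every landed `IsGaussChart` fact
(K / J1 / L1e owners) feeds `GaussAt`, `GaussExtBridge` and `MultiVal/GaussBaseJ` directly.
-/
import Mathlib
import Fermat.Agent.GJ.J1.Defs
import Fermat.Agent.GL.Frame.GaussAt

set_option autoImplicit false

namespace Fermat.Agent.GL.GaussAtRedData

open Fermat.Agent.GJ.J1 Fermat.Agent.GL.GaussAt

variable {K F k Ft : Type*} [Field K] [Field F] [Algebra K F] [Field k] [Field Ft] [Algebra k Ft]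

/-- `R.Rw` lies over `R.A`, in the `RamFamily` / `GaussAt` orientation. -/
theorem rwOver (R : RedData K F k Ft) : ∀ a : K, algebraMap K F a ∈ R.Rw ↔ a ∈ R.A :=
  fun a => (R.mem_A_iff a).symm

theorem red_baseHom (R : RedData K F k Ft) (a : R.A) :
    R.red (baseHom (rwOver R) a) = algebraMap k Ft (R.res a) :=
  R.red_algebraMap a

theorem red_eq_zero_iff_not_isUnit (R : RedData K F k Ft) (v : R.Rw) :
    R.red v = 0 ↔ ¬ IsUnit v := by
  rw [R.red_eq_zero_iff, IsLocalRing.mem_maximalIdeal, mem_nonunits_iff]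

theorem res_eq_zero_iff_not_isUnit (R : RedData K F k Ft) (a : R.A) :
    R.res a = 0 ↔ ¬ IsUnit a := by
  have h1 : R.res a = 0 ↔ R.red (baseHom (rwOver R) a) = 0 := by
    rw [red_baseHom, map_eq_zero_iff _ (algebraMap k Ft).injective]
  rw [h1, red_eq_zero_iff_not_isUnit, not_iff_not]
  constructor
  · exact isUnit_of_isUnit_baseHom (rwOver R)
  · exact fun h => h.map (baseHom (rwOver R))

/-- **adapter**: Gauss charts of a reduction datum are Gauss points. -/
theorem isGaussAt_iff_isGaussChart (R : RedData K F k Ft) (s : F) :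
    IsGaussAt R.A R.Rw s ↔ R.IsGaussChart s :=
  isGaussAt_iff_transcendental (rwOver R) R.res R.red R.res_surjective
    (res_eq_zero_iff_not_isUnit R) (red_eq_zero_iff_not_isUnit R) (red_baseHom R) s

theorem isGaussAt_of_isGaussChart (R : RedData K F k Ft) {s : F} (h : R.IsGaussChart s) :
    IsGaussAt R.A R.Rw s :=
  (isGaussAt_iff_isGaussChart R s).mpr h

/-- two reduction data over the same base valuation subring with a common Gauss chart `s`
induce the same valuation subring on `K(s)`. -/
theorem mem_iff_mem_of_isGaussChart {k' Ft' : Type*} [Field k'] [Field Ft'] [Algebra k' Ft']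
    (R : RedData K F k Ft) (R' : RedData K F k' Ft') (hA : R.A = R'.A) {s : F}
    (h : R.IsGaussChart s) (h' : R'.IsGaussChart s) {y : F}
    (hy : y ∈ IntermediateField.adjoin K {s}) : y ∈ R.Rw ↔ y ∈ R'.Rw := by
  have h1 := isGaussAt_of_isGaussChart R h
  have h2 := isGaussAt_of_isGaussChart R' h'
  rw [← hA] at h2
  exact h1.mem_iff_mem (rwOver R) (fun a => by rw [hA]; exact rwOver R' a) h2 hy

end Fermat.Agent.GL.GaussAtRedData
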