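/-
GATE-L / FRAME-INST-A (helper80), part 3: the MODULAR instance of the frame.

`A | q` a valuation subring of `ℚ̄`, `K₀ = ℚ̄^{I_A}`, `R₀ = A ∩ K₀` (a DVR with uniformiser `q0`),
`F₀ = K₀(X₀(N)) = modularFunctionFieldFullC (K0 A) N`, `j = jK0 A N` (helper45 `OrthK0.jK0`).
The chart rings `B_j = chartRing (R0 A) j`, `B_{1/j} = chartRing (R0 A) j⁻¹` are noetherian
integrally closed domains with fraction field `F₀`, and their vertical height-one primes are
parametrised by the L1e list (helper75 `L1eFinal` / `L1eLower`):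

* top level `N = M' q²` : `W3 A h = ![w₁, w₂, w₃]` (helper75 `L1eThm`: NO hypothesis);
* `q ∥ N` : `W2 A N h = ![w₁', w₂']`;
* `q ∤ N` : `W1 A N = ![w₁'']`.

For a recipe chart `t` (`t = h`, `h⁻¹` of helper8 `ChartExists`) with the one-way Gauss transfer
`Gauss at t ⟹ Gauss at j` (helper90 `IsGaussAt.of_chart`) and `j` algebraic over `K₀(t)`:
`frame_chart_top` (three instances + every vertical height-one prime is some `w_i`).
-/
import Fermat.Agent.GL.Frame.FrameInstVal
import Fermat.Agent.GL.Val.L1eThm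
import Fermat.Agent.GL.Val.L1eLower

set_option autoImplicit false
set_option linter.unusedSectionVars false

noncomputable section

namespace Fermat.Agent.GL.Frame.InstK0

open HahnSeries ModularCurve IsLocalRing IntermediateField Module
open Fermat.Agent.GJ.J1 Fermat.Agent.GJ.J1.Val
open Fermat.Agent.GK.AL Fermat.Agent.GL.AL Fermat.Agent.GK.MultiVal
open Fermat.Agent.GL.Val.GaussK0 Fermat.Agent.GL.Val.SecondK0 Fermat.Agent.GL.Val.SecondK0Hall
open Fermat.Agent.GL.Val.RamK0 Fermat.Agent.GL.Val.OrthK0 Fermat.Agent.GL.Val.ThirdK0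
open Fermat.Agent.GL.Val.CuspK0 Fermat.Agent.GL.W3
open Fermat.Agent.GL.MultiVal Fermat.Agent.GL.MultiVal.GaussBaseJ Fermat.Agent.GL.GaussAt
open Fermat.Agent.GL.Val.L1eAsm Fermat.Agent.GL.Val.L1eAsmK0 Fermat.Agent.GL.Val.LegsK0
open Fermat.Agent.GL.Val.L1eFinal Fermat.Agent.GL.Val.L1eLower Fermat.Agent.GL.Val
open Fermat.Agent.GL.Frame.HeightOne Fermat.Agent.GL.Frame.Inst Fermat.Agent.GL.Frame.InstVal
open Fermat.Agent.Common_helper32

/-- TC shortcut: for a subring `B` of the concrete field `L(X₀(N))` the instance `Algebra B _` is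
not found within the default heartbeats (helper8, board 3239).  Same term as helper8's
`H5SideK0.instAlgebraSubringFullC` (`Algebra.ofSubsemiring B`), reducible. -/
@[reducible] def algSubringFullC {L : Type*} [Field L] {N : ℕ}
    (B : Subring (modularFunctionFieldFullC L N)) : Algebra B (modularFunctionFieldFullC L N) :=
  Algebra.ofSubsemiring B

attribute [local instance] algSubringFullC

variable (A : ValuationSubring Qb) {N : ℕ} [NeZero N] {q : ℕ}

/-! ### the base: separability and finiteness over `K₀(t)` -/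

set_option synthInstance.maxHeartbeats 400000 in
/-- `F₀ / K₀(j)` is separable (characteristic zero). -/
theorem isSeparable_jK0 :
    Algebra.IsSeparable (K0 A)⟮jK0 A N⟯ (modularFunctionFieldFullC (K0 A) N) := by
  have := finiteDimensional_jK0 A N
  infer_instance

set_option synthInstance.maxHeartbeats 400000 in
/-- `F₀ / K₀(t)` is separable as soon as it is finite. -/
theorem isSeparable_chart (t : modularFunctionFieldFullC (K0 A) N)
    [FiniteDimensional (K0 A)⟮t⟯ (modularFunctionFieldFullC (K0 A) N)] :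
    Algebra.IsSeparable (K0 A)⟮t⟯ (modularFunctionFieldFullC (K0 A) N) := by
  infer_instance

/-- `j ≠ 0` in `K₀(X₀(N))` (it is a Gauss point). -/
theorem jK0_ne_zero : jK0 A N ≠ 0 := by
  intro h0
  have ht := transcendental_of_isGaussAt (isGaussAt_Rw1K0 (N := N) A)
  apply ht
  rw [h0]
  exact ⟨Polynomial.X, Polynomial.X_ne_zero, by simp⟩

/-! ### Top level `N = M' q²` -/

section Top

variable {M' : ℕ} [NeZero M'] (hq : q.Prime) (hN : N = M' * q ^ 2) (hqM : ¬ q ∣ M')
  (hA : A.LiesOverPrime q) (h : HallDvd (q ^ 2) N)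

include hq hN hqM hA in
theorem over_W3 (i : Fin 3) : ∀ a : K0 A,
    algebraMap (K0 A) (modularFunctionFieldFullC (K0 A) N) a ∈ W3 A h i ↔ a ∈ R0 A := by
  have hq2 : q ^ 2 * 1 ∣ N := by rw [mul_one, hN]; exact dvd_mul_left _ _
  have : NeZero (q ^ 2 * 1) := ⟨by rw [mul_one]; exact pow_ne_zero 2 hq.ne_zero⟩
  exact (isRamified_W3_R0 A hq hN hqM hA h (one_dvd M') hq2 (one_dvd N) i).mem_iff

include hq hN hqM hA in
theorem noext_W3 (V : ValuationSubring (modularFunctionFieldFullC (K0 A) N))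
    (hV : ∀ a : K0 A, algebraMap (K0 A) (modularFunctionFieldFullC (K0 A) N) a ∈ V ↔ a ∈ R0 A)
    (hj : IsGaussAt (R0 A) V (jK0 A N)) : ∃ i, V = W3 A h i := by
  rcases L1eThm.exists_eq_of_isGaussAt A hq hN hqM hA h hV hj with h1 | h1 | h1
  · exact ⟨0, h1⟩
  · exact ⟨1, h1⟩
  · exact ⟨2, h1⟩

include hq hN hqM hA in
/-- **the `j`-frame at the top level**: `B_j = chartRing (R0 A) (jK0 A N)`. -/
theorem frame_j_top :
    ∃ (_ : IsNoetherianRing (chartRing (R0 A) (jK0 A N)))
      (_ : IsIntegrallyClosed (chartRing (R0 A) (jK0 A N)))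
      (_ : IsFractionRing (chartRing (R0 A) (jK0 A N)) (modularFunctionFieldFullC (K0 A) N))
      (hqB : baseB (jK0 A N) (q0 A q) ≠ 0)
      (f : Fin 3 → HtOne (chartRing (R0 A) (jK0 A N))),
      (∀ i, V1 (modularFunctionFieldFullC (K0 A) N) (f i) = W3 A h i) ∧
      (∀ p, p ∈ vertFinset hqB ↔ ∃ i, f i = p) ∧
      (∀ i (b : chartRing (R0 A) (jK0 A N)), b ∈ (f i).1 ↔
        (b : modularFunctionFieldFullC (K0 A) N) ∈ (W3 A h i).nonunits) ∧
      (Function.Injective (W3 A h) → Function.Injective f) := by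
  have := isDiscreteValuationRing_R0 A hq hA
  have := finiteDimensional_jK0 A N
  have := isSeparable_jK0 (N := N) A
  exact exists_frame_self (irreducible_q0 A hq hA) (W3 A h)
    (over_W3 A hq hN hqM hA h) (isGaussAt_W3 A h)
    (noext_W3 A hq hN hqM hA h)

include hq hN hqM hA in
/-- **the `1/j`-frame at the top level**: `B_{1/j} = chartRing (R0 A) (jK0 A N)⁻¹`. -/
theorem frame_jinv_top :
    ∃ (_ : IsNoetherianRing (chartRing (R0 A) (jK0 A N)⁻¹))
      (_ : IsIntegrallyClosed (chartRing (R0 A) (jK0 A N)⁻¹))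
      (_ : IsFractionRing (chartRing (R0 A) (jK0 A N)⁻¹) (modularFunctionFieldFullC (K0 A) N))
      (hqB : baseB (jK0 A N)⁻¹ (q0 A q) ≠ 0)
      (f : Fin 3 → HtOne (chartRing (R0 A) (jK0 A N)⁻¹)),
      (∀ i, V1 (modularFunctionFieldFullC (K0 A) N) (f i) = W3 A h i) ∧
      (∀ p, p ∈ vertFinset hqB ↔ ∃ i, f i = p) ∧
      (∀ i (b : chartRing (R0 A) (jK0 A N)⁻¹), b ∈ (f i).1 ↔
        (b : modularFunctionFieldFullC (K0 A) N) ∈ (W3 A h i).nonunits) ∧
      (Function.Injective (W3 A h) → Function.Injective f) := by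
  have := isDiscreteValuationRing_R0 A hq hA
  have := finiteDimensional_jK0 A N
  have := finiteDimensional_adjoin_inv (K := K0 A) (jK0 A N)
  have := isSeparable_chart (N := N) A (jK0 A N)⁻¹
  exact exists_frame_inv (irreducible_q0 A hq hA) (W3 A h)
    (over_W3 A hq hN hqM hA h) (isGaussAt_W3 A h)
    (noext_W3 A hq hN hqM hA h) (jK0_ne_zero A)

include hq hN hqM hA in
/-- **a recipe chart `t` at the top level** (`t = h`, `h⁻¹`): the chart ring is a noetherian
integrally closed domain with fraction field `F₀` and every vertical height-one prime is one of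
`w₁, w₂, w₃`. -/
theorem frame_chart_top {t : modularFunctionFieldFullC (K0 A) N}
    (ht : Transcendental (R0 A) t)
    (hfrom : ∀ V : ValuationSubring (modularFunctionFieldFullC (K0 A) N),
      (∀ a : K0 A, algebraMap (K0 A) (modularFunctionFieldFullC (K0 A) N) a ∈ V ↔ a ∈ R0 A) →
      IsGaussAt (R0 A) V t → IsGaussAt (R0 A) V (jK0 A N))
    (halg : IsAlgebraic (K0 A)⟮t⟯ (jK0 A N)) :
    ∃ (_ : IsNoetherianRing (chartRing (R0 A) t)) (_ : IsIntegrallyClosed (chartRing (R0 A) t))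
      (_ : IsFractionRing (chartRing (R0 A) t) (modularFunctionFieldFullC (K0 A) N))
      (hqB : baseB t (q0 A q) ≠ 0),
      ∀ p ∈ vertFinset hqB, ∃ i, V1 (modularFunctionFieldFullC (K0 A) N) p = W3 A h i := by
  have := isDiscreteValuationRing_R0 A hq hA
  have := finiteDimensional_jK0 A N
  have := isSeparable_jK0 (N := N) A
  have := finiteDimensional_adjoin_of_isAlgebraic (K := K0 A) t (jK0 A N) halg
  have := isSeparable_chart (N := N) A t
  exact exists_frame_from (irreducible_q0 A hq hA) (W3 A h)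
    (over_W3 A hq hN hqM hA h) (isGaussAt_W3 A h)
    (noext_W3 A hq hN hqM hA h) ht hfrom

end Top

/-! ### `q ∥ N` -/

section Two

variable (N) (h : ExactDvd q N) (hA : A.LiesOverPrime q)

include hA in
theorem over_W2 (i : Fin 2) : ∀ a : K0 A,
    algebraMap (K0 A) (modularFunctionFieldFullC (K0 A) N) a ∈ W2 A N h i ↔ a ∈ R0 A := by
  fin_cases i
  · exact (isRamified_Rw1K0 A N h.prime hA).mem_iff
  · exact (isRamified_Rw2K0 A N h.prime hA h).mem_iff

include hA in
theorem noext_W2 (V : ValuationSubring (modularFunctionFieldFullC (K0 A) N))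
    (hV : ∀ a : K0 A, algebraMap (K0 A) (modularFunctionFieldFullC (K0 A) N) a ∈ V ↔ a ∈ R0 A)
    (hj : IsGaussAt (R0 A) V (jK0 A N)) : ∃ i, V = W2 A N h i := by
  rcases exists_eq_W2_of_isGaussAt A N h hA hV hj with h1 | h1
  · exact ⟨0, h1⟩
  · exact ⟨1, h1⟩

include hA in
/-- **the `j`-frame at `q ∥ N`**. -/
theorem frame_j_two :
    ∃ (_ : IsNoetherianRing (chartRing (R0 A) (jK0 A N)))
      (_ : IsIntegrallyClosed (chartRing (R0 A) (jK0 A N)))
      (_ : IsFractionRing (chartRing (R0 A) (jK0 A N)) (modularFunctionFieldFullC (K0 A) N))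
      (hqB : baseB (jK0 A N) (q0 A q) ≠ 0)
      (f : Fin 2 → HtOne (chartRing (R0 A) (jK0 A N))),
      (∀ i, V1 (modularFunctionFieldFullC (K0 A) N) (f i) = W2 A N h i) ∧
      (∀ p, p ∈ vertFinset hqB ↔ ∃ i, f i = p) ∧
      (∀ i (b : chartRing (R0 A) (jK0 A N)), b ∈ (f i).1 ↔
        (b : modularFunctionFieldFullC (K0 A) N) ∈ (W2 A N h i).nonunits) ∧
      (Function.Injective (W2 A N h) → Function.Injective f) := by
  have := isDiscreteValuationRing_R0 A h.prime hA
  have := finiteDimensional_jK0 A N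
  have := isSeparable_jK0 (N := N) A
  exact exists_frame_self (irreducible_q0 A h.prime hA) (W2 A N h) (over_W2 A N h hA)
    (isGaussAt_W2 A N h) (noext_W2 A N h hA)

include hA in
/-- **the `1/j`-frame at `q ∥ N`**. -/
theorem frame_jinv_two :
    ∃ (_ : IsNoetherianRing (chartRing (R0 A) (jK0 A N)⁻¹))
      (_ : IsIntegrallyClosed (chartRing (R0 A) (jK0 A N)⁻¹))
      (_ : IsFractionRing (chartRing (R0 A) (jK0 A N)⁻¹) (modularFunctionFieldFullC (K0 A) N))
      (hqB : baseB (jK0 A N)⁻¹ (q0 A q) ≠ 0)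
      (f : Fin 2 → HtOne (chartRing (R0 A) (jK0 A N)⁻¹)),
      (∀ i, V1 (modularFunctionFieldFullC (K0 A) N) (f i) = W2 A N h i) ∧
      (∀ p, p ∈ vertFinset hqB ↔ ∃ i, f i = p) ∧
      (∀ i (b : chartRing (R0 A) (jK0 A N)⁻¹), b ∈ (f i).1 ↔
        (b : modularFunctionFieldFullC (K0 A) N) ∈ (W2 A N h i).nonunits) ∧
      (Function.Injective (W2 A N h) → Function.Injective f) := by
  have := isDiscreteValuationRing_R0 A h.prime hA
  have := finiteDimensional_jK0 A N
  have := finiteDimensional_adjoin_inv (K := K0 A) (jK0 A N)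
  have := isSeparable_chart (N := N) A (jK0 A N)⁻¹
  exact exists_frame_inv (irreducible_q0 A h.prime hA) (W2 A N h) (over_W2 A N h hA)
    (isGaussAt_W2 A N h) (noext_W2 A N h hA) (jK0_ne_zero A)

end Two

/-! ### `q ∤ N` -/

section One

variable (N) (hq : q.Prime) (hA : A.LiesOverPrime q) (hqN : ¬ q ∣ N)

include hq hA in
theorem over_W1 (i : Fin 1) : ∀ a : K0 A,
    algebraMap (K0 A) (modularFunctionFieldFullC (K0 A) N) a ∈ W1 A N i ↔ a ∈ R0 A := by
  fin_cases i
  exact (isRamified_Rw1K0 A N hq hA).mem_iff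

theorem isGaussAt_W1 (i : Fin 1) : IsGaussAt (R0 A) (W1 A N i) (jK0 A N) := by
  fin_cases i
  exact isGaussAt_Rw1K0 A

include hq hA hqN in
theorem noext_W1 (V : ValuationSubring (modularFunctionFieldFullC (K0 A) N))
    (hV : ∀ a : K0 A, algebraMap (K0 A) (modularFunctionFieldFullC (K0 A) N) a ∈ V ↔ a ∈ R0 A)
    (hj : IsGaussAt (R0 A) V (jK0 A N)) : ∃ i, V = W1 A N i :=
  ⟨0, eq_Rw1K0_of_isGaussAt A N hq hA hqN hV hj⟩

include hq hA hqN in
/-- **the `j`-frame at `q ∤ N`**. -/
theorem frame_j_one :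
    ∃ (_ : IsNoetherianRing (chartRing (R0 A) (jK0 A N)))
      (_ : IsIntegrallyClosed (chartRing (R0 A) (jK0 A N)))
      (_ : IsFractionRing (chartRing (R0 A) (jK0 A N)) (modularFunctionFieldFullC (K0 A) N))
      (hqB : baseB (jK0 A N) (q0 A q) ≠ 0)
      (f : Fin 1 → HtOne (chartRing (R0 A) (jK0 A N))),
      (∀ i, V1 (modularFunctionFieldFullC (K0 A) N) (f i) = W1 A N i) ∧
      (∀ p, p ∈ vertFinset hqB ↔ ∃ i, f i = p) ∧
      (∀ i (b : chartRing (R0 A) (jK0 A N)), b ∈ (f i).1 ↔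
        (b : modularFunctionFieldFullC (K0 A) N) ∈ (W1 A N i).nonunits) ∧
      (Function.Injective (W1 A N) → Function.Injective f) := by
  have := isDiscreteValuationRing_R0 A hq hA
  have := finiteDimensional_jK0 A N
  have := isSeparable_jK0 (N := N) A
  exact exists_frame_self (irreducible_q0 A hq hA) (W1 A N) (over_W1 A N hq hA)
    (isGaussAt_W1 A N) (noext_W1 A N hq hA hqN)

include hq hA hqN in
/-- **the `1/j`-frame at `q ∤ N`**. -/
theorem frame_jinv_one :
    ∃ (_ : IsNoetherianRing (chartRing (R0 A) (jK0 A N)⁻¹))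
      (_ : IsIntegrallyClosed (chartRing (R0 A) (jK0 A N)⁻¹))
      (_ : IsFractionRing (chartRing (R0 A) (jK0 A N)⁻¹) (modularFunctionFieldFullC (K0 A) N))
      (hqB : baseB (jK0 A N)⁻¹ (q0 A q) ≠ 0)
      (f : Fin 1 → HtOne (chartRing (R0 A) (jK0 A N)⁻¹)),
      (∀ i, V1 (modularFunctionFieldFullC (K0 A) N) (f i) = W1 A N i) ∧
      (∀ p, p ∈ vertFinset hqB ↔ ∃ i, f i = p) ∧
      (∀ i (b : chartRing (R0 A) (jK0 A N)⁻¹), b ∈ (f i).1 ↔
        (b : modularFunctionFieldFullC (K0 A) N) ∈ (W1 A N i).nonunits) ∧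
      (Function.Injective (W1 A N) → Function.Injective f) := by
  have := isDiscreteValuationRing_R0 A hq hA
  have := finiteDimensional_jK0 A N
  have := finiteDimensional_adjoin_inv (K := K0 A) (jK0 A N)
  have := isSeparable_chart (N := N) A (jK0 A N)⁻¹
  exact exists_frame_inv (irreducible_q0 A hq hA) (W1 A N) (over_W1 A N hq hA)
    (isGaussAt_W1 A N) (noext_W1 A N hq hA hqN) (jK0_ne_zero A)

end One

end Fermat.Agent.GL.Frame.InstK0
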