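/-
GATE-L / Gauss points descend along field embeddings (helper90).  Mathlib + `GaussAt` only.

`φ : F → F'`, `ι : K → K'` compatible field embeddings (e.g. `mapK0Bar : K₀(X₀(N)) → Q̄(X₀(N))`,
`ι0 : K₀ → Q̄`); `A = ι⁻¹ A'`, `V = φ⁻¹ V'` (in iff-form).  If `φ x` is a Gauss point of `V'` over
`A'` then `x` is a Gauss point of `V` over `A`.  So the landed `IsGaussChart` facts over `Q̄`
(`isGaussChart_jF_2Q`, `isGaussChart_jF_cusp`, ...) give `IsGaussAt (R0 A) W j` for the
restrictions `W` to the `K₀`-forms without any new computation.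
-/
import Mathlib
import Fermat.Agent.GL.Frame.GaussAt

set_option autoImplicit false

open Polynomial

namespace Fermat.Agent.GL.GaussAt

variable {K F K' F' : Type*} [Field K] [Field F] [Algebra K F] [Field K'] [Field F']
  [Algebra K' F']

/-- `|y|_V = 1` iff `|φ y|_{V'} = 1` when `V = φ⁻¹ V'`. -/
theorem valuation_eq_one_of_map {V : ValuationSubring F} {V' : ValuationSubring F'}
    (φ : F →+* F') (hV : ∀ y : F, y ∈ V ↔ φ y ∈ V') {y : F}
    (h : V'.valuation (φ y) = 1) : V.valuation y = 1 := by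
  have hy0 : y ≠ 0 := by
    rintro rfl
    rw [map_zero, map_zero] at h
    exact zero_ne_one h
  have h1 : V.valuation y ≤ 1 :=
    (V.valuation_le_one_iff y).mpr ((hV y).mpr ((V'.valuation_le_one_iff _).mp h.le))
  have h2 : V.valuation y⁻¹ ≤ 1 := by
    refine (V.valuation_le_one_iff _).mpr ((hV _).mpr ?_)
    rw [map_inv₀, ← V'.valuation_le_one_iff, map_inv₀, h, inv_one]
  rw [map_inv₀] at h2
  have h3 : V.valuation y ≠ 0 := (Valuation.ne_zero_iff _).mpr hy0
  exact le_antisymm h1 ((inv_le_one₀ (zero_lt_iff.mpr h3)).mp h2)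

/-- **Gauss points descend along compatible field embeddings.** -/
theorem IsGaussAt.of_map {A : ValuationSubring K} {V : ValuationSubring F}
    {A' : ValuationSubring K'} {V' : ValuationSubring F'} (φ : F →+* F') (ι : K →+* K')
    (hφι : ∀ a : K, φ (algebraMap K F a) = algebraMap K' F' (ι a))
    (hA : ∀ a : K, a ∈ A → ι a ∈ A') (hV : ∀ y : F, y ∈ V ↔ φ y ∈ V') {x : F}
    (h : IsGaussAt A' V' (φ x)) : IsGaussAt A V x := by
  refine ⟨(hV x).mpr h.1, fun f ⟨i, hi⟩ => ?_⟩
  let ιA : A →+* A' := (ι.comp A.subtype).codRestrict A' (fun a => hA a a.2)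
  have hu : ∃ i, IsUnit ((f.map ιA).coeff i) := ⟨i, by rw [coeff_map]; exact hi.map ιA⟩
  have h1 := h.2 (f.map ιA) hu
  have h2 : aeval (φ x) ((f.map ιA).map A'.subtype) = φ (aeval x (f.map A.subtype)) := by
    rw [aeval_def, aeval_def, eval₂_map, eval₂_map, eval₂_map, Polynomial.hom_eval₂]
    congr 1
    ext a
    exact (hφι a).symm
  rw [h2] at h1
  exact valuation_eq_one_of_map φ hV h1

end Fermat.Agent.GL.GaussAt
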