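/-
GATE-L / HORIZ-DIV, file 1 (helper11): **a constant-field extension is unramified**.

`K0 ⊆ Kb` an algebraic extension of fields of characteristic `0` (any separable algebraic
extension), `V` a discrete valuation ring containing `K0`, `W` a local ring receiving `V` (by a
local homomorphism) and `Kb`.  Then a uniformiser `t` of `V` stays a "uniformiser" on the subring
generated by `V` and `Kb`: every nonzero element of `V[Kb] ⊆ W` is `t ^ n * unit`.

* `exists_pow_mul_unit`  (ring form, one finite level `K1`): via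
  `Algebra.FormallyUnramified.map_maximalIdeal` applied to `(V ⊗[K0] K1)_𝔮` and Krull's
  intersection theorem.
* `exists_pow_mul_unit_of_algebraic`  (all of `Kb`, by finite levels).
* field form: `exists_zpow_mul_unit` for a valuation subring `W` of `F = Kb · F0` above a DVR
  `V` of `F0`; `exists_valuationSubring_over` (Chevalley).

Mathlib only.
-/
import Mathlib

set_option autoImplicit false
set_option linter.unusedSectionVars false

noncomputable section

namespace Fermat.Agent.GL.Frame.ConstUnram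

open IsLocalRing TensorProduct

/-! ### Ring form, one finite level -/

section RingForm

variable {K0 K1 V W : Type*} [Field K0] [Field K1] [Algebra K0 K1] [FiniteDimensional K0 K1]
  [Algebra.IsSeparable K0 K1]
  [CommRing V] [IsLocalRing V] [IsNoetherianRing V] [Algebra K0 V]
  [CommRing W] [IsLocalRing W]

/-- **Unramifiedness of `V ⊗[K0] K1` over `V`, pushed to a local ring `W`.** -/
theorem exists_pow_mul_unit (φ : V →+* W)
    (hφ : ∀ v : V, v ∈ maximalIdeal V → φ v ∈ maximalIdeal W)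
    (γ : K1 →+* W) (hγ : ∀ a : K0, φ (algebraMap K0 V a) = γ (algebraMap K0 K1 a))
    (t : V) (ht : maximalIdeal V = Ideal.span {t})
    (a : W) (ha : a ∈ Subring.closure (Set.range φ ∪ Set.range γ)) (ha0 : a ≠ 0) :
    ∃ n : ℕ, ∃ ε : Wˣ, a = φ t ^ n * ε := by
  classical
  let _ : Algebra K0 W := (φ.comp (algebraMap K0 V)).toAlgebra
  let φ' : V →ₐ[K0] W := { φ with commutes' := fun _ => rfl }
  let γ' : K1 →ₐ[K0] W := { γ with commutes' := fun a => (hγ a).symm }
  let ψ : V ⊗[K0] K1 →ₐ[K0] W := Algebra.TensorProduct.lift φ' γ' (fun _ _ => Commute.all _ _)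
  have hψ : ∀ (v : V) (c : K1), ψ (v ⊗ₜ c) = φ v * γ c := fun v c =>
    Algebra.TensorProduct.lift_tmul _ _ _ v c
  -- `a` is in the range of `ψ`
  have hrange : a ∈ ψ.toRingHom.range := by
    have hle : Subring.closure (Set.range φ ∪ Set.range γ) ≤ ψ.toRingHom.range := by
      rw [Subring.closure_le]
      rintro x (⟨v, rfl⟩ | ⟨c, rfl⟩)
      · exact ⟨v ⊗ₜ 1, by
          show ψ (v ⊗ₜ 1) = φ v
          rw [hψ, map_one, mul_one]⟩
      · exact ⟨1 ⊗ₜ c, by
          show ψ (1 ⊗ₜ c) = γ c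
          rw [hψ, map_one, one_mul]⟩
    exact hle ha
  obtain ⟨s, hs⟩ := hrange
  -- the prime `𝔮`
  let 𝔮 : Ideal (V ⊗[K0] K1) := (maximalIdeal W).comap ψ.toRingHom
  have h𝔮p : 𝔮.IsPrime := Ideal.comap_isPrime _ _
  -- the localisation and the lift
  let Sq := Localization.AtPrime 𝔮
  have hunits : ∀ y : 𝔮.primeCompl, IsUnit (ψ.toRingHom (y : V ⊗[K0] K1)) := by
    intro y
    have hy : ¬ ψ.toRingHom (y : V ⊗[K0] K1) ∈ maximalIdeal W := y.2
    rw [mem_maximalIdeal, mem_nonunits_iff, not_not] at hy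
    exact hy
  let ψq : Sq →+* W := IsLocalization.lift (M := 𝔮.primeCompl) hunits
  have hψq : ∀ y : V ⊗[K0] K1, ψq (algebraMap _ Sq y) = ψ y := fun y =>
    IsLocalization.lift_eq hunits y
  -- `V → Sq` is local
  have hlocal : IsLocalHom (algebraMap V Sq) := by
    constructor
    intro v hv
    by_contra hnu
    have h1 : v ∈ maximalIdeal V := (mem_maximalIdeal v).mpr hnu
    have h2 : φ v ∈ maximalIdeal W := hφ v h1
    have h3 : ψq (algebraMap V Sq v) = φ v := by
      rw [IsScalarTower.algebraMap_apply V (V ⊗[K0] K1) Sq, hψq,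
        Algebra.TensorProduct.algebraMap_apply, Algebra.algebraMap_self_apply, hψ, map_one,
        mul_one]
    have h4 : IsUnit (φ v) := by
      rw [← h3]
      exact hv.map ψq
    exact ((mem_maximalIdeal _).mp h2) h4
  -- unramified
  have : Algebra.FormallyUnramified K0 K1 := Algebra.FormallyUnramified.of_isSeparable K0 K1
  have hmax : (maximalIdeal V).map (algebraMap V Sq) = maximalIdeal Sq :=
    Algebra.FormallyUnramified.map_maximalIdeal
  have hmax' : maximalIdeal Sq = Ideal.span {algebraMap V Sq t} := by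
    rw [← hmax, ht, Ideal.map_span, Set.image_singleton]
  -- Krull
  have : IsNoetherianRing (V ⊗[K0] K1) := Algebra.FiniteType.isNoetherianRing V (V ⊗[K0] K1)
  have : IsNoetherianRing Sq := IsLocalization.isNoetherianRing 𝔮.primeCompl Sq inferInstance
  have hkrull : ⨅ i : ℕ, (maximalIdeal Sq) ^ i = ⊥ :=
    Ideal.iInf_pow_eq_bot_of_isLocalRing _ (maximalIdeal.isMaximal Sq).ne_top
  set y : Sq := algebraMap _ Sq s with hy
  have hy0 : y ≠ 0 := by
    intro h0
    apply ha0
    rw [← hs]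
    show ψ s = 0
    rw [← hψq, ← hy, h0, map_zero]
  -- the exponent
  have hex : ∃ n : ℕ, y ∉ (maximalIdeal Sq) ^ (n + 1) := by
    by_contra hall
    push Not at hall
    apply hy0
    have : y ∈ ⨅ i : ℕ, (maximalIdeal Sq) ^ i := by
      rw [Ideal.mem_iInf]
      intro i
      rcases i with _ | i
      · simp
      · exact hall i
    rwa [hkrull, Ideal.mem_bot] at this
  let n := Nat.find hex
  have hn1 : y ∉ (maximalIdeal Sq) ^ (n + 1) := Nat.find_spec hex
  have hn0 : y ∈ (maximalIdeal Sq) ^ n := by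
    rcases Nat.eq_zero_or_pos n with h0 | hpos
    · rw [h0, pow_zero, Ideal.one_eq_top]; trivial
    · have := Nat.find_min hex (m := n - 1) (by omega)
      rw [not_not] at this
      rwa [Nat.sub_add_cancel hpos] at this
  rw [hmax', Ideal.span_singleton_pow, Ideal.mem_span_singleton'] at hn0
  obtain ⟨y', hy'⟩ := hn0
  have hy'u : IsUnit y' := by
    by_contra hnu
    have h1 : y' ∈ maximalIdeal Sq := (mem_maximalIdeal _).mpr hnu
    apply hn1
    have hyy : y = algebraMap V Sq t ^ n * y' := by rw [← hy', mul_comm]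
    rw [pow_succ, hyy]
    refine Ideal.mul_mem_mul ?_ h1
    rw [hmax', Ideal.span_singleton_pow]
    exact Ideal.mem_span_singleton_self _
  refine ⟨n, (hy'u.map ψq).unit, ?_⟩
  have h5 : ψq (algebraMap V Sq t) = φ t := by
    rw [IsScalarTower.algebraMap_apply V (V ⊗[K0] K1) Sq, hψq,
      Algebra.TensorProduct.algebraMap_apply, Algebra.algebraMap_self_apply, hψ, map_one, mul_one]
  calc a = ψ s := hs.symm
    _ = ψq y := (hψq s).symm
    _ = ψq (y' * algebraMap V Sq t ^ n) := by rw [hy']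
    _ = φ t ^ n * ψq y' := by rw [map_mul, map_pow, h5, mul_comm]
    _ = φ t ^ n * ((hy'u.map ψq).unit : Wˣ) := by rw [IsUnit.unit_spec]

end RingForm

/-! ### Ring form, an arbitrary algebraic extension of constants (characteristic `0`) -/

section Algebraic

variable {K0 Kb V W : Type*} [Field K0] [CharZero K0] [Field Kb] [Algebra K0 Kb]
  [Algebra.IsAlgebraic K0 Kb]
  [CommRing V] [IsLocalRing V] [IsNoetherianRing V] [Algebra K0 V]
  [CommRing W] [IsLocalRing W]

/-- the generators coming from one finite level `K1 ≤ Kb` -/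
def genSet (φ : V →+* W) (γ : Kb →+* W) (K1 : IntermediateField K0 Kb) : Set W :=
  Set.range φ ∪ Set.range (γ.comp (algebraMap K1 Kb))

theorem genSet_mono (φ : V →+* W) (γ : Kb →+* W) {K1 K2 : IntermediateField K0 Kb}
    (h : K1 ≤ K2) : genSet φ γ K1 ⊆ genSet φ γ K2 := by
  rintro x (hx | ⟨c, rfl⟩)
  · exact Or.inl hx
  · exact Or.inr ⟨⟨(c : Kb), h c.2⟩, rfl⟩

/-- every element of `V[Kb]` lives at a finite level -/
theorem exists_finite_level (φ : V →+* W) (γ : Kb →+* W) {a : W}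
    (ha : a ∈ Subring.closure (Set.range φ ∪ Set.range γ)) :
    ∃ K1 : IntermediateField K0 Kb, FiniteDimensional K0 K1 ∧
      a ∈ Subring.closure (genSet φ γ K1) := by
  classical
  induction ha using Subring.closure_induction with
  | mem x hx =>
    rcases hx with hx | ⟨c, rfl⟩
    · exact ⟨⊥, inferInstance, Subring.subset_closure (Or.inl hx)⟩
    · refine ⟨IntermediateField.adjoin K0 {c}, ?_, ?_⟩
      · exact IntermediateField.adjoin.finiteDimensional (Algebra.IsIntegral.isIntegral c)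
      · exact Subring.subset_closure
          (Or.inr ⟨⟨c, IntermediateField.mem_adjoin_simple_self K0 c⟩, rfl⟩)
  | zero => exact ⟨⊥, inferInstance, Subring.zero_mem _⟩
  | one => exact ⟨⊥, inferInstance, Subring.one_mem _⟩
  | add x y _ _ hx hy =>
    obtain ⟨K1, h1, hx⟩ := hx
    obtain ⟨K2, h2, hy⟩ := hy
    refine ⟨K1 ⊔ K2, IntermediateField.finiteDimensional_sup K1 K2, ?_⟩
    exact Subring.add_mem _
      (Subring.closure_mono (genSet_mono φ γ le_sup_left) hx)
      (Subring.closure_mono (genSet_mono φ γ le_sup_right) hy)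
  | mul x y _ _ hx hy =>
    obtain ⟨K1, h1, hx⟩ := hx
    obtain ⟨K2, h2, hy⟩ := hy
    refine ⟨K1 ⊔ K2, IntermediateField.finiteDimensional_sup K1 K2, ?_⟩
    exact Subring.mul_mem _
      (Subring.closure_mono (genSet_mono φ γ le_sup_left) hx)
      (Subring.closure_mono (genSet_mono φ γ le_sup_right) hy)
  | neg x _ hx =>
    obtain ⟨K1, h1, hx⟩ := hx
    exact ⟨K1, h1, Subring.neg_mem _ hx⟩

/-- **Constant-field extensions are unramified**, ring form. -/
theorem exists_pow_mul_unit_of_algebraic (φ : V →+* W)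
    (hφ : ∀ v : V, v ∈ maximalIdeal V → φ v ∈ maximalIdeal W)
    (γ : Kb →+* W) (hγ : ∀ a : K0, φ (algebraMap K0 V a) = γ (algebraMap K0 Kb a))
    (t : V) (ht : maximalIdeal V = Ideal.span {t})
    (a : W) (ha : a ∈ Subring.closure (Set.range φ ∪ Set.range γ)) (ha0 : a ≠ 0) :
    ∃ n : ℕ, ∃ ε : Wˣ, a = φ t ^ n * ε := by
  obtain ⟨K1, hfin, ha1⟩ := exists_finite_level (K0 := K0) φ γ ha
  have : Algebra.IsSeparable K0 K1 := inferInstance
  exact exists_pow_mul_unit (K0 := K0) (K1 := K1) φ hφ (γ.comp (algebraMap K1 Kb))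
    (fun a => by rw [hγ]; rfl) t ht a ha1 ha0

end Algebraic

/-! ### Field form -/

section FieldForm

variable {K0 Kb F0 F : Type*} [Field K0] [CharZero K0] [Field Kb] [Algebra K0 Kb]
  [Algebra.IsAlgebraic K0 Kb] [Field F0] [Algebra K0 F0] [Field F] [Algebra Kb F]

/-- a valuation subring contains every element integral over a subring it contains -/
theorem mem_of_monic_root (W : ValuationSubring F) {R : Type*} [CommRing R] (ρ : R →+* F)
    (hρ : ∀ r, ρ r ∈ W) {x : F} (p : Polynomial R) (hp : p.Monic) (hx : p.eval₂ ρ x = 0) :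
    x ∈ W := by
  let ρ' : R →+* W := ρ.codRestrict W.toSubring hρ
  have hint : IsIntegral W x := by
    refine ⟨p.map ρ', hp.map _, ?_⟩
    rw [Polynomial.eval₂_map]
    have : (algebraMap W F).comp ρ' = ρ := by
      ext r
      rfl
    rw [this]
    exact hx
  obtain ⟨y, hy⟩ := IsIntegrallyClosed.isIntegral_iff.mp hint
  rw [← hy]
  exact y.2

/-- the subring `ι(F0)[Kb]` of `F` -/
def compositum (Kb : Type*) [Field Kb] [Algebra Kb F] (ι : F0 →+* F) : Subring F :=
  Subring.closure (Set.range ι ∪ Set.range (algebraMap Kb F))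

variable (ι : F0 →+* F)
  (hι : ∀ a : K0, ι (algebraMap K0 F0 a) = algebraMap Kb F (algebraMap K0 Kb a))
  (V : ValuationSubring F0) (hKV : ∀ a : K0, algebraMap K0 F0 a ∈ V)
  (W : ValuationSubring F) (hVW : ∀ x : F0, ι x ∈ W ↔ x ∈ V)

include hι hKV hVW in
/-- the constants `Kb` lie in `W` (they are integral over `K0 ⊆ V`) -/
theorem algebraMap_mem (c : Kb) : algebraMap Kb F c ∈ W := by
  have hc : IsIntegral K0 c := Algebra.IsIntegral.isIntegral c
  obtain ⟨p, hp, hpc⟩ := hc
  refine mem_of_monic_root W ((algebraMap Kb F).comp (algebraMap K0 Kb)) ?_ p hp ?_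
  · intro a
    rw [RingHom.comp_apply, ← hι]
    exact (hVW _).2 (hKV a)
  · rw [← Polynomial.hom_eval₂, hpc, map_zero]

/-- `V → W` -/
def toW : V →+* W :=
  (ι.comp V.subtype).codRestrict W.toSubring (fun v => (hVW v).2 v.2)

/-- `Kb → W` -/
def constW : Kb →+* W :=
  (algebraMap Kb F).codRestrict W.toSubring (algebraMap_mem ι hι V hKV W hVW)

theorem coe_toW (v : V) : ((toW ι V W hVW v : W) : F) = ι v := rfl

theorem coe_constW (c : Kb) : ((constW ι hι V hKV W hVW c : W) : F) = algebraMap Kb F c := rfl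

/-- `V → W` is local -/
theorem toW_mem_maximalIdeal (v : V) (hv : v ∈ maximalIdeal V) :
    toW ι V W hVW v ∈ maximalIdeal W := by
  rw [mem_maximalIdeal, mem_nonunits_iff] at hv ⊢
  intro hu
  apply hv
  by_cases hv0 : v = 0
  · exfalso
    rw [hv0, map_zero] at hu
    exact not_isUnit_zero hu
  have hvF : (v : F0) ≠ 0 := fun h => hv0 (Subtype.ext h)
  obtain ⟨w, hw⟩ := hu.exists_right_inv
  have hw' : ι v * (w : F) = 1 := congrArg Subtype.val hw
  have hιv : ι (v : F0) ≠ 0 := (map_ne_zero ι).mpr hvF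
  have h1 : ι ((v : F0)⁻¹) = (w : F) := by
    rw [map_inv₀]
    exact inv_eq_of_mul_eq_one_right hw'
  have h2 : (v : F0)⁻¹ ∈ V := (hVW _).1 (by rw [h1]; exact w.2)
  exact IsUnit.of_mul_eq_one (⟨(v : F0)⁻¹, h2⟩ : V)
    (Subtype.ext (mul_inv_cancel₀ hvF))

/-- clearing denominators: an element of `ι(F0)[Kb]` times some `ι s`, `s ∈ V ∖ 0`, lies in
`ι(V)[Kb] ⊆ W` -/
theorem exists_clear {a : F} (ha : a ∈ compositum Kb ι) :
    ∃ s : V, s ≠ 0 ∧ ∃ a' : W,
      a' ∈ Subring.closure (Set.range (toW ι V W hVW) ∪ Set.range (constW ι hι V hKV W hVW)) ∧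
      (a' : F) = a * ι s := by
  classical
  set T := Subring.closure (Set.range (toW ι V W hVW) ∪ Set.range (constW ι hι V hKV W hVW))
    with hT
  have hφT : ∀ v : V, toW ι V W hVW v ∈ T := fun v => Subring.subset_closure (Or.inl ⟨v, rfl⟩)
  have hγT : ∀ c : Kb, constW ι hι V hKV W hVW c ∈ T :=
    fun c => Subring.subset_closure (Or.inr ⟨c, rfl⟩)
  induction ha using Subring.closure_induction with
  | mem x hx =>
    rcases hx with ⟨f, rfl⟩ | ⟨c, rfl⟩
    · by_cases hf : f ∈ V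
      · exact ⟨1, one_ne_zero, toW ι V W hVW ⟨f, hf⟩, hφT _, by
          rw [coe_toW]; simp⟩
      · have hf0 : f ≠ 0 := fun h => hf (h ▸ V.zero_mem)
        have hfi : f⁻¹ ∈ V := (V.mem_or_inv_mem f).resolve_left hf
        refine ⟨⟨f⁻¹, hfi⟩, fun h => inv_ne_zero hf0 (congrArg Subtype.val h), 1, T.one_mem, ?_⟩
        show (1 : F) = ι f * ι f⁻¹
        rw [← map_mul, mul_inv_cancel₀ hf0, map_one]
    · exact ⟨1, one_ne_zero, constW ι hι V hKV W hVW c, hγT c, by
        rw [coe_constW]; simp⟩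
  | zero => exact ⟨1, one_ne_zero, 0, T.zero_mem, by simp⟩
  | one => exact ⟨1, one_ne_zero, 1, T.one_mem, by simp⟩
  | add x y _ _ hx hy =>
    obtain ⟨sx, hsx, ax, hax, ex⟩ := hx
    obtain ⟨sy, hsy, ay, hay, ey⟩ := hy
    refine ⟨sx * sy, mul_ne_zero hsx hsy,
      ax * toW ι V W hVW sy + ay * toW ι V W hVW sx,
      T.add_mem (T.mul_mem hax (hφT _)) (T.mul_mem hay (hφT _)), ?_⟩
    push_cast
    rw [ex, ey, coe_toW, coe_toW, map_mul]
    ring
  | mul x y _ _ hx hy =>
    obtain ⟨sx, hsx, ax, hax, ex⟩ := hx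
    obtain ⟨sy, hsy, ay, hay, ey⟩ := hy
    refine ⟨sx * sy, mul_ne_zero hsx hsy, ax * ay, T.mul_mem hax hay, ?_⟩
    push_cast
    rw [ex, ey, map_mul]
    ring
  | neg x _ hx =>
    obtain ⟨sx, hsx, ax, hax, ex⟩ := hx
    refine ⟨sx, hsx, -ax, T.neg_mem hax, ?_⟩
    push_cast
    rw [ex]
    ring

/-- quotients of elements of the form `π ^ n * unit` -/
theorem div_zpow_mul_unit (W : ValuationSubring F) {π : F} (hπ : π ≠ 0) {a b : F} {n1 n2 : ℤ}
    {ε1 ε2 : Wˣ} (ha : a = π ^ n1 * ((ε1 : W) : F)) (hb : b = π ^ n2 * ((ε2 : W) : F)) :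
    a / b = π ^ (n1 - n2) * (((ε1 * ε2⁻¹ : Wˣ) : W) : F) := by
  have hε2 : ((ε2 : W) : F) ≠ 0 := by
    intro h
    have : (ε2 : W) = 0 := Subtype.ext h
    exact ε2.ne_zero this
  have hinv : (((ε2⁻¹ : Wˣ) : W) : F) = ((ε2 : W) : F)⁻¹ := by
    have : ((ε2 : W) : F) * (((ε2⁻¹ : Wˣ) : W) : F) = 1 :=
      congrArg Subtype.val (ε2.mul_inv)
    exact eq_inv_of_mul_eq_one_right this
  rw [ha, hb, zpow_sub₀ hπ]
  push_cast
  rw [hinv]
  have h2 : π ^ n2 ≠ 0 := zpow_ne_zero _ hπ
  field_simp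

variable [IsNoetherianRing V]

include hι hKV hVW in
/-- **Constant-field extensions are unramified**, field form: every nonzero element of the
compositum `Frac (ι(F0)[Kb])` is `ι(t) ^ n` times a unit of `W`. -/
theorem exists_zpow_mul_unit (t : V) (ht0 : t ≠ 0) (ht : maximalIdeal V = Ideal.span {t})
    {x : F} (hx0 : x ≠ 0)
    (hx : ∃ a ∈ compositum Kb ι, ∃ b ∈ compositum Kb ι, b ≠ 0 ∧ x * b = a) :
    ∃ n : ℤ, ∃ ε : Wˣ, x = ι t ^ n * ((ε : W) : F) := by
  classical
  let _ : Algebra K0 V := ((algebraMap K0 F0).codRestrict V.toSubring hKV).toAlgebra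
  have hcompat : ∀ a : K0, toW ι V W hVW (algebraMap K0 V a) =
      constW ι hι V hKV W hVW (algebraMap K0 Kb a) := by
    intro a
    apply Subtype.ext
    rw [coe_toW, coe_constW, ← hι]
    rfl
  have htF : ι (t : F0) ≠ 0 := (map_ne_zero ι).mpr (fun h => ht0 (Subtype.ext h))
  -- every nonzero element of `ι(V)[Kb]` is `ι(t)^n * unit`
  have key : ∀ a' : W, a' ∈ Subring.closure
      (Set.range (toW ι V W hVW) ∪ Set.range (constW ι hι V hKV W hVW)) → a' ≠ 0 →
      ∃ n : ℕ, ∃ ε : Wˣ, (a' : F) = ι t ^ n * ((ε : W) : F) := by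
    intro a' ha' ha0
    obtain ⟨n, ε, h⟩ := exists_pow_mul_unit_of_algebraic (K0 := K0) (toW ι V W hVW)
      (toW_mem_maximalIdeal ι V W hVW) (constW ι hι V hKV W hVW) hcompat t ht a' ha' ha0
    refine ⟨n, ε, ?_⟩
    rw [h]
    push_cast
    rw [coe_toW]
  -- nonzero elements of the compositum
  have key2 : ∀ a : F, a ∈ compositum Kb ι → a ≠ 0 →
      ∃ n : ℤ, ∃ ε : Wˣ, a = ι t ^ n * ((ε : W) : F) := by
    intro a ha ha0
    obtain ⟨s, hs0, a', ha', e⟩ := exists_clear ι hι V hKV W hVW ha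
    have hsF : ι (s : F0) ≠ 0 := (map_ne_zero ι).mpr (fun h => hs0 (Subtype.ext h))
    have ha'0 : a' ≠ 0 := by
      intro h
      rw [h] at e
      exact mul_ne_zero ha0 hsF e.symm
    obtain ⟨n1, ε1, h1⟩ := key a' ha' ha'0
    have hs' : toW ι V W hVW s ≠ 0 := fun h => hsF (congrArg Subtype.val h)
    obtain ⟨n2, ε2, h2⟩ := key (toW ι V W hVW s) (Subring.subset_closure (Or.inl ⟨s, rfl⟩)) hs'
    rw [coe_toW] at h2
    refine ⟨(n1 : ℤ) - n2, ε1 * ε2⁻¹, ?_⟩
    have ea : a = (a' : F) / ι s := by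
      rw [e]; field_simp
    rw [ea]
    exact div_zpow_mul_unit W htF (by rw [h1, zpow_natCast]) (by rw [h2, zpow_natCast])
  obtain ⟨a, ha, b, hb, hb0, hab⟩ := hx
  have ha0 : a ≠ 0 := by
    rw [← hab]
    exact mul_ne_zero hx0 hb0
  obtain ⟨n1, ε1, h1⟩ := key2 a ha ha0
  obtain ⟨n2, ε2, h2⟩ := key2 b hb hb0
  refine ⟨n1 - n2, ε1 * ε2⁻¹, ?_⟩
  have ex : x = a / b := by
    rw [← hab]; field_simp
  rw [ex]
  exact div_zpow_mul_unit W htF h1 h2

end FieldForm

/-! ### Uniformisers, existence of `W` -/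

section Unif

variable {F : Type*} [Field F]

/-- if every nonzero element of `F` is `π ^ n * unit`, `π` a nonzero nonunit of `W`, then `π`
generates the maximal ideal of `W` -/
theorem maximalIdeal_eq_span (W : ValuationSubring F) (π : W) (hπ0 : π ≠ 0) (hπ : ¬ IsUnit π)
    (h : ∀ x : F, x ≠ 0 → ∃ n : ℤ, ∃ ε : Wˣ, x = (π : F) ^ n * ((ε : W) : F)) :
    maximalIdeal W = Ideal.span {π} := by
  have hπF : (π : F) ≠ 0 := fun h0 => hπ0 (Subtype.ext h0)
  apply le_antisymm
  · intro x hx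
    by_cases hx0 : x = 0
    · rw [hx0]; exact Ideal.zero_mem _
    have hxF : (x : F) ≠ 0 := fun h0 => hx0 (Subtype.ext h0)
    obtain ⟨n, ε, hn⟩ := h x hxF
    have hn1 : 1 ≤ n := by
      by_contra hlt
      push Not at hlt
      obtain ⟨k, hk⟩ : ∃ k : ℕ, -n = k := ⟨(-n).toNat, by omega⟩
      have h1 : x * π ^ k = ε := by
        apply Subtype.ext
        push_cast
        rw [hn, ← zpow_natCast, ← hk, mul_right_comm, ← zpow_add₀ hπF]
        simp
      have h2 : x * π ^ k ∈ maximalIdeal W := Ideal.mul_mem_right _ _ hx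
      rw [h1, mem_maximalIdeal, mem_nonunits_iff] at h2
      exact h2 ε.isUnit
    obtain ⟨k, hk⟩ : ∃ k : ℕ, n = k + 1 := ⟨(n - 1).toNat, by omega⟩
    rw [Ideal.mem_span_singleton']
    refine ⟨π ^ k * ε, ?_⟩
    apply Subtype.ext
    push_cast
    rw [hn, hk, zpow_add₀ hπF, zpow_natCast, zpow_one]
    ring
  · rw [Ideal.span_le, Set.singleton_subset_iff]
    exact (mem_maximalIdeal _).mpr hπ

theorem irreducible_of_forall (W : ValuationSubring F) (π : W) (hπ0 : π ≠ 0) (hπ : ¬ IsUnit π)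
    (h : ∀ x : F, x ≠ 0 → ∃ n : ℤ, ∃ ε : Wˣ, x = (π : F) ^ n * ((ε : W) : F)) :
    Irreducible π :=
  IsDiscreteValuationRing.irreducible_of_span_eq_maximalIdeal π hπ0
    (maximalIdeal_eq_span W π hπ0 hπ h)

end Unif

section Exists

variable {F0 F : Type*} [Field F0] [Field F] (ι : F0 →+* F) (V : ValuationSubring F0)

/-- **Chevalley**: a valuation subring of `F` above a valuation subring `V` of `F0` whose maximal
ideal is generated by `t`. -/
theorem exists_valuationSubring_over (t : V) (ht : maximalIdeal V = Ideal.span {t}) :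
    ∃ W : ValuationSubring F, ∀ x : F0, ι x ∈ W ↔ x ∈ V := by
  classical
  set A : Subring F := V.toSubring.map ι with hA
  have hιV : ∀ v : V, ι v ∈ A := fun v => ⟨v, v.2, rfl⟩
  set I : Ideal A := Ideal.span {⟨ι t, hιV t⟩} with hI
  have htnu : ¬ IsUnit t := by
    have : t ∈ maximalIdeal V := by rw [ht]; exact Ideal.mem_span_singleton_self t
    exact (mem_maximalIdeal _).mp this
  have hItop : I ≠ ⊤ := by
    intro htop
    have h1 : (1 : A) ∈ I := by rw [htop]; trivial
    rw [hI, Ideal.mem_span_singleton'] at h1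
    obtain ⟨⟨a, v, hv, rfl⟩, ha⟩ := h1
    have h2 : ι v * ι t = 1 := congrArg Subtype.val ha
    rw [← map_mul, ← map_one ι] at h2
    have h3 : v * (t : F0) = 1 := ι.injective h2
    exact htnu (IsUnit.of_mul_eq_one (⟨v, hv⟩ : V) (by
      apply Subtype.ext
      push_cast
      rw [mul_comm]; exact h3))
  obtain ⟨W, hAW, hnon⟩ := Ideal.image_subset_nonunits_valuationSubring I hItop
  have htW : ι t ∈ W.nonunits :=
    hnon ⟨⟨ι t, hιV t⟩, Ideal.mem_span_singleton_self _, rfl⟩
  refine ⟨W, fun x => ⟨fun hx => ?_, fun hx => hAW (hιV ⟨x, hx⟩)⟩⟩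
  by_contra hxV
  have hx0 : x ≠ 0 := fun h => hxV (h ▸ V.zero_mem)
  have hxi : x⁻¹ ∈ V := (V.mem_or_inv_mem x).resolve_left hxV
  have hnu : (⟨x⁻¹, hxi⟩ : V) ∈ maximalIdeal V := by
    rw [mem_maximalIdeal, mem_nonunits_iff]
    intro hu
    obtain ⟨w, hw⟩ := hu.exists_right_inv
    have hw' : x⁻¹ * (w : F0) = 1 := congrArg Subtype.val hw
    have : (w : F0) = x := by
      field_simp at hw'
      exact hw'
    exact hxV (this ▸ w.2)
  rw [ht, Ideal.mem_span_singleton'] at hnu
  obtain ⟨v, hv⟩ := hnu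
  have hv' : (v : F0) * t = x⁻¹ := congrArg Subtype.val hv
  -- `1 = ι x * ι v * ι t` is a nonunit of `W`
  have h1 : ι x * ι v * ι t = 1 := by
    rw [mul_assoc, ← map_mul ι (v : F0), hv', ← map_mul, mul_inv_cancel₀ hx0, map_one]
  have h2 : W.valuation (ι x * ι v * ι t) < 1 := by
    rw [map_mul]
    have ha : W.valuation (ι x * ι v) ≤ 1 :=
      (W.valuation_le_one_iff _).mpr (W.mul_mem _ _ hx (hAW (hιV v)))
    have hb : W.valuation (ι t) < 1 := htW
    calc W.valuation (ι x * ι v) * W.valuation (ι t) ≤ 1 * W.valuation (ι t) :=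
          mul_le_mul' ha le_rfl
      _ = W.valuation (ι t) := one_mul _
      _ < 1 := hb
  rw [h1, map_one] at h2
  exact lt_irrefl _ h2

end Exists

/-! ### Summary -/

section Summary

variable {K0 Kb F0 F : Type*} [Field K0] [CharZero K0] [Field Kb] [Algebra K0 Kb]
  [Algebra.IsAlgebraic K0 Kb] [Field F0] [Algebra K0 F0] [Field F] [Algebra Kb F]

/-- **Constant-field extensions are unramified** (summary).  `V` a noetherian valuation subring of
`F0 ⊇ K0` with maximal ideal `(t)`, `t ≠ 0` (a DVR); `F` the compositum of `ι(F0)` and `Kb`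
(`Kb/K0` algebraic, characteristic `0`).  Then there is a valuation subring `W ≠ ⊤` of `F` above
`V`, containing `Kb`, in which `ι t` is irreducible and every nonzero element of `F` is
`ι(t) ^ n * unit`. -/
theorem exists_unramified_over (ι : F0 →+* F)
    (hι : ∀ a : K0, ι (algebraMap K0 F0 a) = algebraMap Kb F (algebraMap K0 Kb a))
    (V : ValuationSubring F0) (hKV : ∀ a : K0, algebraMap K0 F0 a ∈ V) [IsNoetherianRing V]
    (t : V) (ht0 : t ≠ 0) (ht : maximalIdeal V = Ideal.span {t})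
    (hgen : ∀ x : F, ∃ a ∈ compositum Kb ι, ∃ b ∈ compositum Kb ι, b ≠ 0 ∧ x * b = a) :
    ∃ W : ValuationSubring F, (∀ x : F0, ι x ∈ W ↔ x ∈ V) ∧
      (∀ c : Kb, algebraMap Kb F c ∈ W) ∧ W ≠ ⊤ ∧
      ∃ π : W, (π : F) = ι t ∧ Irreducible π ∧
        ∀ x : F, x ≠ 0 → ∃ n : ℤ, ∃ ε : Wˣ, x = ι t ^ n * ((ε : W) : F) := by
  obtain ⟨W, hVW⟩ := exists_valuationSubring_over ι V t ht
  have hall : ∀ x : F, x ≠ 0 → ∃ n : ℤ, ∃ ε : Wˣ, x = ι t ^ n * ((ε : W) : F) :=
    fun x hx0 => exists_zpow_mul_unit ι hι V hKV W hVW t ht0 ht hx0 (hgen x)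
  have htnu : ¬ IsUnit t := by
    have : t ∈ maximalIdeal V := by rw [ht]; exact Ideal.mem_span_singleton_self t
    exact (mem_maximalIdeal _).mp this
  set π : W := toW ι V W hVW t with hπ
  have hπF : (π : F) = ι t := rfl
  have hπ0 : π ≠ 0 := by
    intro h
    have h1 : ι (t : F0) = 0 := congrArg Subtype.val h
    exact ht0 (Subtype.ext ((map_eq_zero ι).mp h1))
  have hπnu : ¬ IsUnit π := by
    have := toW_mem_maximalIdeal ι V W hVW t ((mem_maximalIdeal _).mpr htnu)
    exact (mem_maximalIdeal _).mp this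
  refine ⟨W, hVW, algebraMap_mem ι hι V hKV W hVW, ?_, π, hπF, ?_, hall⟩
  · intro htop
    have htF : (t : F0) ≠ 0 := fun h => ht0 (Subtype.ext h)
    have h1 : ι ((t : F0)⁻¹) ∈ W := by rw [htop]; trivial
    have h2 : (t : F0)⁻¹ ∈ V := (hVW _).1 h1
    exact htnu (IsUnit.of_mul_eq_one (⟨(t : F0)⁻¹, h2⟩ : V)
      (Subtype.ext (mul_inv_cancel₀ htF)))
  · exact irreducible_of_forall W π hπ0 hπnu (fun x hx => by rw [hπF]; exact hall x hx)

end Summary

end Fermat.Agent.GL.Frame.ConstUnram
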