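/-
GATE-L / HORIZ-DIV, file 2 (helper11): **the Kummer condition descends to the horizontal places
over the unramified base**.

`K₀ = ℚ̄^{I_A}` (helper26/helper45 `K0 A`), `F_L = K₀(X₀(N))`, `F = F_N = ℚ̄(X₀(N))`,
`mapK0Bar : F_L →+* F_N`.  The Kummer condition `u ∈ pDivUnits ℚ̄ F_N m` is about the prelude places
of `F_N / ℚ̄`; the local rings `O_𝔫` of `B2 = integralClosure R[1/h] F_L` have HORIZONTAL height-one
primes `π` whose localisations are DVRs `V` of `F_L` containing `K₀`.  Since a constant-field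
extension is unramified (`ConstUnram`), `m ∣ ord_V(u₀)`:

* `hgen` : `F_N` is the compositum of `mapK0Bar (F_L)` and `ℚ̄`;
* `exists_place_over` : a prelude place `P` of `F_N / ℚ̄` above `V` with `P.ord (mapK0Bar f) = n`
  whenever `f = t ^ n * unit`;
* `exists_eq_zpow_mul_unit_of_mem_pDivUnits` : `mapK0Bar u₀ ∈ pDivUnits ℚ̄ F_N m` ⟹
  `u₀ = t ^ (m * n) * ε`, `ε ∈ Vˣ`, for EVERY noetherian valuation subring `V ⊇ K₀` of `F_L` with
  maximal ideal `(t)`, `t ≠ 0`;  `_dvr` : the same for `[IsDiscreteValuationRing V]`, `Irreducible t`;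
  `valuation_eq_of_mem_pDivUnits` : `V.valuation u₀ = V.valuation t ^ (m * n)`.
-/
import Fermat.Agent.GL.Frame.ConstUnram
import Fermat.Agent.GL.Val.SecondK0
import Fermat.Agent.GJ.FF.ValRing
import Fermat.Agent.GJ.J2.EigIface
import Fermat.Agent.S24_helper62.CuspFibre

set_option autoImplicit false

noncomputable section

namespace Fermat.Agent.GL.Frame.HorizDiv

open HahnSeries ModularCurve IsLocalRing AlgebraicCurve
open Fermat.Agent.S24 Fermat.Agent.S24_helper62
open Fermat.Agent.GK.AL Fermat.Agent.GK.Val.GaussBase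
open Fermat.Agent.GL.Val.GaussK0 Fermat.Agent.GL.Val.SecondK0
open Fermat.Agent.GJ.KumGroup Fermat.Agent.GJ.FF
open Fermat.Agent.GL.Frame.ConstUnram
open Fermat.Agent.Common_helper32

variable (A : ValuationSubring Qb) (N : ℕ) [NeZero N]

/-! ### `K₀ → ℚ̄` as an algebra -/

/-- `ℚ̄` as a `K₀`-algebra (through helper45's `ι0`) -/
@[reducible] def algK0Qb : Algebra (K0 A) Qb := (ι0 A).toAlgebra

attribute [local instance] algK0Qb

theorem algebraMap_K0_Qb (c : K0 A) : algebraMap (K0 A) Qb c = ι0 A c := rfl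

theorem mapK0Bar_algebraMap' (N : ℕ) [NeZero N] (c : K0 A) :
    mapK0Bar A N (algebraMap (K0 A) (modularFunctionFieldFullC (K0 A) N) c) =
      algebraMap Kbar (FN N) (algebraMap (K0 A) Kbar c) :=
  mapK0Bar_algebraMap A N c

instance isAlgebraic_K0_Qb : Algebra.IsAlgebraic (K0 A) Qb := by
  constructor
  intro x
  have hx : IsAlgebraic ℚ x := Algebra.IsAlgebraic.isAlgebraic x
  obtain ⟨p, hp0, hpx⟩ := hx
  refine ⟨p.map (algebraMap ℚ (K0 A)), ?_, ?_⟩
  · exact (Polynomial.map_ne_zero_iff (algebraMap ℚ (K0 A)).injective).mpr hp0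
  · rw [Polynomial.aeval_def, Polynomial.eval₂_map]
    have : (algebraMap (K0 A) Qb).comp (algebraMap ℚ (K0 A)) = algebraMap ℚ Qb :=
      RingHom.ext fun r => by simp
    rw [this]
    exact hpx

/-! ### `F_N` is the compositum of `F_L` and `ℚ̄` -/

/-- `F_N = ℚ̄(j(q^d) : d ∣ N)` inside `F_N` -/
theorem adjoin_range_gen_eq_top : IntermediateField.adjoin Kbar (Set.range (gen N)) = ⊤ := by
  apply IntermediateField.map_injective (modularFunctionFieldBar N).val
  rw [IntermediateField.adjoin_map]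
  have h2 : (⊤ : IntermediateField Kbar (FN N)).map (modularFunctionFieldBar N).val =
      modularFunctionFieldBar N := by
    rw [← AlgHom.fieldRange_eq_map, IntermediateField.fieldRange_val]
  rw [h2]
  have h1 : ((modularFunctionFieldBar N).val '' Set.range (gen N) : Set (LaurentSeries Kbar))
      = Set.range (jFam Kbar N) := by
    rw [← Set.range_comp]
    rfl
  rw [h1]
  exact (Fermat.Agent.S24_helper82.FN_eq_adjoin N).symm

/-- **`F_N` is the compositum of `mapK0Bar (F_L)` and `ℚ̄`** -/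
theorem hgen (x : FN N) :
    ∃ a ∈ compositum Kbar (mapK0Bar A N), ∃ b ∈ compositum Kbar (mapK0Bar A N),
      b ≠ 0 ∧ x * b = a := by
  have hx : x ∈ IntermediateField.adjoin Kbar (Set.range (gen N)) := by
    rw [adjoin_range_gen_eq_top]; trivial
  obtain ⟨r, hr, s, hs, rfl⟩ := IntermediateField.mem_adjoin_iff_div.mp hx
  have hle : (Algebra.adjoin Kbar (Set.range (gen N))).toSubring ≤
      compositum Kbar (mapK0Bar A N) := by
    rw [Algebra.adjoin_eq_ring_closure]
    apply Subring.closure_mono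
    rintro y (hy | ⟨d, rfl⟩)
    · exact Or.inr hy
    · exact Or.inl ⟨genC (K0 A) (R0 A) N d.2, mapK0Bar_genC A N d⟩
  by_cases hs0 : s = 0
  · refine ⟨0, Subring.zero_mem _, 1, Subring.one_mem _, one_ne_zero, ?_⟩
    rw [hs0, div_zero, zero_mul]
  · exact ⟨r, hle hr, s, hle hs, hs0, div_mul_cancel₀ r hs0⟩

/-! ### The place above a horizontal DVR -/

section Place

variable (V : ValuationSubring (modularFunctionFieldFullC (K0 A) N))
  (hKV : ∀ c : K0 A, algebraMap (K0 A) (modularFunctionFieldFullC (K0 A) N) c ∈ V)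
  [IsNoetherianRing V] (t : V) (ht0 : t ≠ 0) (ht : maximalIdeal V = Ideal.span {t})

include hKV ht0 ht in
/-- **a place of `F_N/ℚ̄` above `V`, unramified**: `P.ord (mapK0Bar t) = 1`, and `P` restricts to
`V` -/
theorem exists_place_over :
    ∃ P : Place Kb (FK N),
      (∀ f : modularFunctionFieldFullC (K0 A) N,
        mapK0Bar A N f ∈ P.toValuationSubring ↔ f ∈ V) ∧
      P.ord (mapK0Bar A N (t : modularFunctionFieldFullC (K0 A) N)) = 1 ∧
      ∀ x : FK N, x ≠ 0 → ∃ ε : P.toValuationSubringˣ,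
        x = mapK0Bar A N (t : modularFunctionFieldFullC (K0 A) N) ^ (P.ord x) *
          ((ε : P.toValuationSubring) : FK N) := by
  obtain ⟨W, hVW, hKb, hWtop, π, hπF, hπ, hall⟩ :=
    exists_unramified_over (K0 := K0 A) (Kb := Kbar) (mapK0Bar A N)
      (mapK0Bar_algebraMap' A N) V hKV t ht0 ht (hgen A N)
  have : IsGen Kbar (jF N) := isGen_jF N
  let P : Place Kb (FK N) := placeOf (jF N) W hKb hWtop
  have hord : ∀ x : FK N, x ≠ 0 → ∀ n : ℤ, ∀ ε : Wˣ,
      x = mapK0Bar A N (t : modularFunctionFieldFullC (K0 A) N) ^ n * ((ε : W) : FK N) →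
      P.ord x = n := by
    intro x _ n ε hx
    rw [hx, mul_comm, ← hπF]
    exact P.ord_unit_smul_zpow ε hπ n
  refine ⟨P, hVW, ?_, ?_⟩
  · have h1 := P.ord_coe_irreducible hπ
    rwa [hπF] at h1
  · intro x hx0
    obtain ⟨n, ε, hx⟩ := hall x hx0
    refine ⟨ε, ?_⟩
    rw [hord x hx0 n ε hx]
    exact hx

end Place

/-! ### The Kummer condition at horizontal DVRs -/

section Kummer

variable (m : ℕ) (u₀ : (modularFunctionFieldFullC (K0 A) N)ˣ)
  (hu : Units.map (mapK0Bar A N : _ →* FK N) u₀ ∈ pDivUnits Kb (FK N) m)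
  (V : ValuationSubring (modularFunctionFieldFullC (K0 A) N))
  (hKV : ∀ c : K0 A, algebraMap (K0 A) (modularFunctionFieldFullC (K0 A) N) c ∈ V)

include hu hKV in
/-- **HORIZ-DIV**: an `m`-divisible unit of `F_N = ℚ̄(X₀(N))` that is rational over `K₀` has order
divisible by `m` at every discrete valuation ring `V ⊇ K₀` of `K₀(X₀(N))`. -/
theorem exists_eq_zpow_mul_unit_of_mem_pDivUnits [IsNoetherianRing V] (t : V) (ht0 : t ≠ 0)
    (ht : maximalIdeal V = Ideal.span {t}) :
    ∃ n : ℤ, ∃ ε : Vˣ, ((u₀ : modularFunctionFieldFullC (K0 A) N)) =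
      (t : modularFunctionFieldFullC (K0 A) N) ^ ((m : ℤ) * n) *
        ((ε : V) : modularFunctionFieldFullC (K0 A) N) := by
  obtain ⟨P, hVP, hP1, hPall⟩ := exists_place_over A N V hKV t ht0 ht
  set ι := mapK0Bar A N with hι
  have hu0 : ι (u₀ : modularFunctionFieldFullC (K0 A) N) ≠ 0 :=
    (map_ne_zero ι).mpr u₀.ne_zero
  obtain ⟨n, hn⟩ : (m : ℤ) ∣ P.ord (ι (u₀ : modularFunctionFieldFullC (K0 A) N)) := hu P
  obtain ⟨ε, hε⟩ := hPall _ hu0
  rw [hn] at hε
  have htF : (t : modularFunctionFieldFullC (K0 A) N) ≠ 0 := fun h => ht0 (Subtype.ext h)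
  -- the unit `e = u₀ / t ^ (m n)` of `V`
  set e : modularFunctionFieldFullC (K0 A) N :=
    (u₀ : modularFunctionFieldFullC (K0 A) N) /
      (t : modularFunctionFieldFullC (K0 A) N) ^ ((m : ℤ) * n) with he
  have hιt : ι (t : modularFunctionFieldFullC (K0 A) N) ≠ 0 := (map_ne_zero ι).mpr htF
  have hιe : ι e = ((ε : P.toValuationSubring) : FK N) := by
    rw [he, map_div₀, map_zpow₀, hε]
    field_simp
  have heV : e ∈ V := (hVP e).1 (by rw [hιe]; exact (ε : P.toValuationSubring).2)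
  have heiV : e⁻¹ ∈ V := by
    refine (hVP e⁻¹).1 ?_
    rw [map_inv₀, hιe]
    have h1 : ((ε : P.toValuationSubring) : FK N) *
        (((ε⁻¹ : P.toValuationSubringˣ) : P.toValuationSubring) : FK N) = 1 :=
      congrArg Subtype.val ε.mul_inv
    rw [← eq_inv_of_mul_eq_one_right h1]
    exact ((ε⁻¹ : P.toValuationSubringˣ) : P.toValuationSubring).2
  have he0 : e ≠ 0 := by
    rw [he]
    exact div_ne_zero u₀.ne_zero (zpow_ne_zero _ htF)
  refine ⟨n, ⟨⟨e, heV⟩, ⟨e⁻¹, heiV⟩, Subtype.ext (mul_inv_cancel₀ he0),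
    Subtype.ext (inv_mul_cancel₀ he0)⟩, ?_⟩
  show (u₀ : modularFunctionFieldFullC (K0 A) N) = _ * e
  rw [he]
  field_simp

include hu hKV in
/-- the same for a discrete valuation ring and an irreducible element -/
theorem exists_eq_zpow_mul_unit_of_mem_pDivUnits_dvr [IsDiscreteValuationRing V] (t : V)
    (ht : Irreducible t) :
    ∃ n : ℤ, ∃ ε : Vˣ, ((u₀ : modularFunctionFieldFullC (K0 A) N)) =
      (t : modularFunctionFieldFullC (K0 A) N) ^ ((m : ℤ) * n) *
        ((ε : V) : modularFunctionFieldFullC (K0 A) N) :=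
  exists_eq_zpow_mul_unit_of_mem_pDivUnits A N m u₀ hu V hKV t ht.ne_zero
    ((IsDiscreteValuationRing.irreducible_iff_uniformizer t).mp ht)

include hu hKV in
/-- valuation form -/
theorem valuation_eq_of_mem_pDivUnits [IsNoetherianRing V] (t : V) (ht0 : t ≠ 0)
    (ht : maximalIdeal V = Ideal.span {t}) :
    ∃ n : ℤ, V.valuation (u₀ : modularFunctionFieldFullC (K0 A) N) =
      V.valuation (t : modularFunctionFieldFullC (K0 A) N) ^ ((m : ℤ) * n) := by
  obtain ⟨n, ε, h⟩ := exists_eq_zpow_mul_unit_of_mem_pDivUnits A N m u₀ hu V hKV t ht0 ht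
  refine ⟨n, ?_⟩
  rw [h, map_mul, map_zpow₀, ValuationSubring.valuation_unit, mul_one]

end Kummer

end Fermat.Agent.GL.Frame.HorizDiv
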