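/-
GATE-L / L6a FRAME, abstract part 3 (helper47): the LOCAL KUMMER DATUM `(LOC-gen)` from regularity.

`B` a noetherian integrally closed domain (the chart ring `B2`), `F = Frac B`, `x` a prime
(closed point of the fibre), `u ∈ Fˣ` with "`m ∣ div u` at `x`" (for every height-one prime
`𝔭 ≤ x`, `u` is a unit times an `m`-th power in the DVR `B_𝔭`: horizontal primes: `m ∣ ord_P u`,
vertical primes: `w_i(u) = 0`).  If every height-one prime `𝔭 ≤ x` is PRINCIPAL AT `x`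
(`IsGenAtPrime`: REG = `O_x` factorial) then

  `∃ g ≠ 0, ∃ c s ∈ B ∖ x, g ^ m * u * s = c`,

i.e. `u` is an `m`-th power times a unit of `O_x`.  This is the hypothesis of helper46
`KummerMove.kummer_move` and the input (a) of (LOC)-GLUE.

* `UnitAt`, closure properties;
* `IsGenAtPrime`, `not_mem_of_isGenAtPrime` (a local generator of `𝔭` is a unit at the other
  height-one primes through `x`), `exists_zpow_unitAt` (it is a uniformiser of `B_𝔭`);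
* `exists_kummer_datum` : the statement above;
* `isGenAtPrime_of_ufd` : `IsGenAtPrime` from `UniqueFactorizationMonoid (Localization.AtPrime x)`.
-/
import Mathlib
import Fermat.Agent.GL.Frame.HeightOneFrame

set_option autoImplicit false
set_option linter.unusedSectionVars false

namespace Fermat.Agent.GL.Frame.Kummer

open Fermat.Agent.GL.KrullHeightOne Fermat.Agent.GL.KrullFrame Fermat.Agent.GL.Frame.HeightOne

variable {B F : Type*} [CommRing B] [IsDomain B] [Field F] [Algebra B F] [IsFractionRing B F]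
  [IsNoetherianRing B] [IsIntegrallyClosed B]

/-- `f` is a unit of the DVR `B_𝔭`. -/
def UnitAt (𝔭 : HtOne B) (f : F) : Prop := f ∈ V1 F 𝔭 ∧ f⁻¹ ∈ V1 F 𝔭

theorem UnitAt.one (𝔭 : HtOne B) : UnitAt 𝔭 (1 : F) :=
  ⟨(V1 F 𝔭).one_mem, by rw [inv_one]; exact (V1 F 𝔭).one_mem⟩

theorem UnitAt.mul {𝔭 : HtOne B} {f g : F} (hf : UnitAt 𝔭 f) (hg : UnitAt 𝔭 g) :
    UnitAt 𝔭 (f * g) :=
  ⟨(V1 F 𝔭).mul_mem _ _ hf.1 hg.1, by rw [mul_inv]; exact (V1 F 𝔭).mul_mem _ _ hf.2 hg.2⟩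

theorem UnitAt.inv {𝔭 : HtOne B} {f : F} (hf : UnitAt 𝔭 f) : UnitAt 𝔭 f⁻¹ :=
  ⟨hf.2, by rw [inv_inv]; exact hf.1⟩

theorem UnitAt.pow {𝔭 : HtOne B} {f : F} (hf : UnitAt 𝔭 f) (n : ℕ) : UnitAt 𝔭 (f ^ n) := by
  induction n with
  | zero => rw [pow_zero]; exact UnitAt.one 𝔭
  | succ n ih => rw [pow_succ]; exact ih.mul hf

theorem UnitAt.zpow {𝔭 : HtOne B} {f : F} (hf : UnitAt 𝔭 f) (n : ℤ) : UnitAt 𝔭 (f ^ n) := by
  cases n with
  | ofNat n => rw [Int.ofNat_eq_natCast, zpow_natCast]; exact hf.pow n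
  | negSucc n => rw [zpow_negSucc]; exact (hf.pow (n + 1)).inv

theorem UnitAt.prod {𝔭 : HtOne B} {α : Type*} (s : Finset α) (f : α → F)
    (hf : ∀ a ∈ s, UnitAt 𝔭 (f a)) : UnitAt 𝔭 (∏ a ∈ s, f a) := by
  classical
  induction s using Finset.induction_on with
  | empty => rw [Finset.prod_empty]; exact UnitAt.one 𝔭
  | insert a s ha ih =>
    rw [Finset.prod_insert ha]
    exact (hf a (Finset.mem_insert_self a s)).mul
      (ih fun b hb => hf b (Finset.mem_insert_of_mem hb))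

/-- elements of `B` outside `𝔭` are units of `B_𝔭`. -/
theorem unitAt_algebraMap {𝔭 : HtOne B} {s : B} (hs : s ∉ 𝔭.1) : UnitAt 𝔭 (algebraMap B F s) :=
  ⟨algebraMap_mem_V1 𝔭 s, inv_algebraMap_mem_V1 𝔭 hs⟩

/-- `𝔭` is principal at `x`, generated by `π` (fraction-free form). -/
def IsGenAtPrime (x 𝔭 : Ideal B) (π : B) : Prop :=
  π ∈ 𝔭 ∧ ∀ b ∈ 𝔭, ∃ s : B, s ∉ x ∧ ∃ b' : B, s * b = π * b'

/-- two comparable height-one primes are equal. -/
theorem HtOne.eq_of_le {𝔭 𝔭' : HtOne B} (h : 𝔭.1 ≤ 𝔭'.1) : 𝔭 = 𝔭' := by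
  apply Subtype.ext
  have : 𝔭.1.FiniteHeight := 𝔭.1.finiteHeight_iff.mpr (Or.inr (by rw [𝔭.2.2]; exact ENat.one_ne_top))
  have hh : 𝔭'.1.height ≤ 𝔭.1.height := by rw [𝔭.2.2, 𝔭'.2.2]
  exact Ideal.eq_of_le_of_height_le (I := 𝔭.1) h hh

/-- a local generator of `𝔭` at `x` does not lie in any other height-one prime through `x`. -/
theorem not_mem_of_isGenAtPrime {x : Ideal B} {𝔭 𝔭' : HtOne B} {π : B}
    (hπ : IsGenAtPrime x 𝔭.1 π) (h' : 𝔭'.1 ≤ x) (hne : 𝔭 ≠ 𝔭') : π ∉ 𝔭'.1 := by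
  intro hmem
  apply hne
  apply HtOne.eq_of_le
  intro b hb
  obtain ⟨s, hs, b', hb'⟩ := hπ.2 b hb
  have h1 : s * b ∈ 𝔭'.1 := by
    rw [hb']
    exact 𝔭'.1.mul_mem_right _ hmem
  exact (𝔭'.2.1.mem_or_mem h1).resolve_left fun hs' => hs (h' hs')

/-- a local generator of a height-one prime is nonzero. -/
theorem ne_zero_of_isGenAtPrime {x : Ideal B} [x.IsPrime] {𝔭 : HtOne B} {π : B}
    (hπ : IsGenAtPrime x 𝔭.1 π) : π ≠ 0 := by
  rintro rfl
  have hbot : 𝔭.1 = ⊥ := by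
    rw [eq_bot_iff]
    intro b hb
    obtain ⟨s, hs, b', hb'⟩ := hπ.2 b hb
    rw [zero_mul] at hb'
    have hs0 : s ≠ 0 := fun h => hs (h ▸ x.zero_mem)
    exact (mul_eq_zero.mp hb').resolve_left hs0
  have h1 := 𝔭.2.2
  rw [hbot, Ideal.height_bot] at h1
  exact zero_ne_one h1

/-- a local generator `π` of `𝔭` at `x` is a uniformiser of the DVR `B_𝔭`:
every `f ≠ 0` is a unit of `B_𝔭` times an integral power of `π`. -/
theorem exists_zpow_unitAt {x : Ideal B} {𝔭 : HtOne B} {π : B} (h𝔭x : 𝔭.1 ≤ x)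
    (hπ : IsGenAtPrime x 𝔭.1 π) {f : F} (hf : f ≠ 0) :
    ∃ n : ℤ, UnitAt 𝔭 (f * (algebraMap B F π) ^ n) := by
  have hdvr : IsDiscreteValuationRing (locSub F 𝔭.1) := isDiscreteValuationRing_locSub 𝔭.1 𝔭.2.2
  set L := locSub F 𝔭.1 with hL
  set ϖ : L := algebraMap B L π with hϖ
  have hϖF : (ϖ : F) = algebraMap B F π := rfl
  -- the maximal ideal of `B_𝔭` is generated by `ϖ`
  have hmax : IsLocalRing.maximalIdeal L = Ideal.span {ϖ} := by
    rw [← IsLocalization.AtPrime.map_eq_maximalIdeal 𝔭.1 L]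
    apply le_antisymm
    · rw [Ideal.map_le_iff_le_comap]
      intro b hb
      obtain ⟨s, hs, b', hb'⟩ := hπ.2 b hb
      have hs𝔭 : s ∉ 𝔭.1 := fun h => hs (h𝔭x h)
      have hsu : IsUnit (algebraMap B L s) :=
        IsLocalization.map_units L (⟨s, hs𝔭⟩ : 𝔭.1.primeCompl)
      rw [Ideal.mem_comap, Ideal.mem_span_singleton]
      have h1 : algebraMap B L s * algebraMap B L b = ϖ * algebraMap B L b' := by
        rw [← map_mul, hb', map_mul]
      obtain ⟨v, hv⟩ := hsu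
      refine ⟨algebraMap B L b' * ↑v⁻¹, ?_⟩
      have : algebraMap B L b = ↑v⁻¹ * (algebraMap B L s * algebraMap B L b) := by
        rw [← hv, ← mul_assoc, Units.inv_mul, one_mul]
      rw [this, h1]
      ring
    · rw [Ideal.span_singleton_le_iff_mem]
      exact Ideal.mem_map_of_mem _ hπ.1
  have hirr : Irreducible ϖ := (IsDiscreteValuationRing.irreducible_iff_uniformizer ϖ).2 hmax
  -- a nonzero element of `B_𝔭` is a unit times a power of `ϖ`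
  have key : ∀ y : L, y ≠ 0 → ∃ n : ℕ, UnitAt 𝔭 ((y : F) * ((algebraMap B F π) ^ n)⁻¹) := by
    intro y hy
    obtain ⟨n, v, hv⟩ := IsDiscreteValuationRing.eq_unit_mul_pow_irreducible hy hirr
    refine ⟨n, ?_⟩
    have hπ0 : algebraMap B F π ≠ 0 := by
      intro h0
      apply hirr.ne_zero
      apply Subtype.ext
      rw [hϖF, h0]
      rfl
    have h1 : (y : F) = ((v : L) : F) * (algebraMap B F π) ^ n := by
      have := congrArg (fun z : L => (z : F)) hv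
      simpa [hϖF] using this
    have h2 : (y : F) * ((algebraMap B F π) ^ n)⁻¹ = ((v : L) : F) := by
      rw [h1, mul_assoc, mul_inv_cancel₀ (pow_ne_zero n hπ0), mul_one]
    rw [h2]
    refine ⟨(v : L).2, ?_⟩
    have h3 : (((v⁻¹ : Lˣ) : L) : F) = (((v : L) : F))⁻¹ := by
      have h4 : ((v : L) : F) * (((v⁻¹ : Lˣ) : L) : F) = 1 := by
        have h5 : ((v : L) * ((v⁻¹ : Lˣ) : L) : L) = 1 := Units.mul_inv v
        have h6 := congrArg (fun z : L => (z : F)) h5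
        exact h6
      exact eq_inv_of_mul_eq_one_right h4
    rw [← h3]
    exact ((v⁻¹ : Lˣ) : L).2
  rcases (V1 F 𝔭).mem_or_inv_mem f with hfm | hfm
  · obtain ⟨n, hn⟩ := key ⟨f, hfm⟩ (fun h => hf (congrArg Subtype.val h))
    refine ⟨-(n : ℤ), ?_⟩
    rw [zpow_neg, zpow_natCast]
    exact hn
  · obtain ⟨n, hn⟩ := key ⟨f⁻¹, hfm⟩ (fun h => inv_ne_zero hf (congrArg Subtype.val h))
    refine ⟨(n : ℤ), ?_⟩
    rw [zpow_natCast]
    have := hn.inv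
    rwa [mul_inv, inv_inv, inv_inv] at this

/-- **the local Kummer datum (LOC-gen).**  If every height-one prime through `x` is principal at
`x` and `u` is, at each of them, a unit times an `m`-th power, then `u` is an `m`-th power times a
unit of `O_x`: `g ^ m * u * s = c` with `c, s ∈ B ∖ x`. -/
theorem exists_kummer_datum (x : Ideal B) [hx : x.IsPrime] (m : ℕ) (u : F) (hu : u ≠ 0)
    (hprin : ∀ 𝔭 : HtOne B, 𝔭.1 ≤ x → ∃ π : B, IsGenAtPrime x 𝔭.1 π)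
    (hord : ∀ 𝔭 : HtOne B, 𝔭.1 ≤ x → ∃ z : F, z ≠ 0 ∧ UnitAt 𝔭 (u * z ^ m)) :
    ∃ g : F, ∃ c s : B, c ∉ x ∧ s ∉ x ∧
      g ^ m * u * algebraMap B F s = algebraMap B F c := by
  classical
  -- local generators and exponents
  have hdata : ∀ 𝔭 : HtOne B, ∃ (π : B) (e : ℤ), 𝔭.1 ≤ x →
      (IsGenAtPrime x 𝔭.1 π ∧ UnitAt 𝔭 (u * ((algebraMap B F π) ^ e) ^ m)) := by
    intro 𝔭
    by_cases h𝔭 : 𝔭.1 ≤ x
    · obtain ⟨π, hπ⟩ := hprin 𝔭 h𝔭
      obtain ⟨z, hz0, hz⟩ := hord 𝔭 h𝔭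
      obtain ⟨n, hn⟩ := exists_zpow_unitAt (F := F) h𝔭 hπ hz0
      refine ⟨π, -n, fun _ => ⟨hπ, ?_⟩⟩
      have h1 : u * ((algebraMap B F π) ^ (-n)) ^ m =
          (u * z ^ m) * ((z * (algebraMap B F π) ^ n) ^ m)⁻¹ := by
        rw [zpow_neg, mul_pow, mul_inv, inv_pow]
        have hzm : z ^ m ≠ 0 := pow_ne_zero m hz0
        field_simp
      rw [h1]
      exact hz.mul (hn.pow m).inv
    · exact ⟨0, 0, fun h => absurd h h𝔭⟩
  choose π e hπe using hdata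
  -- the finitely many primes through `x` where `u` is not a unit
  have hfin : ({𝔭 : HtOne B | u ∉ V1 F 𝔭} ∪ {𝔭 : HtOne B | u⁻¹ ∉ V1 F 𝔭}).Finite :=
    (finite_bad_V1 u).union (finite_bad_V1 u⁻¹)
  set T : Finset (HtOne B) := hfin.toFinset.filter (fun 𝔭 => 𝔭.1 ≤ x) with hT
  have hTx : ∀ 𝔭 ∈ T, 𝔭.1 ≤ x := fun 𝔭 h𝔭 => (Finset.mem_filter.mp h𝔭).2
  have hnotT : ∀ 𝔭 : HtOne B, 𝔭.1 ≤ x → 𝔭 ∉ T → UnitAt 𝔭 u := by
    intro 𝔭 h𝔭 hn
    by_contra hcon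
    apply hn
    rw [hT, Finset.mem_filter]
    refine ⟨?_, h𝔭⟩
    rw [Set.Finite.mem_toFinset]
    by_cases h1 : u ∈ V1 F 𝔭
    · right
      intro h2
      exact hcon ⟨h1, h2⟩
    · left
      exact h1
  set g : F := ∏ 𝔭 ∈ T, (algebraMap B F (π 𝔭)) ^ (e 𝔭) with hg
  -- the other generators are units at `𝔭0`
  have hother : ∀ 𝔭0 : HtOne B, 𝔭0.1 ≤ x → ∀ 𝔭 ∈ T, 𝔭 ≠ 𝔭0 →
      UnitAt 𝔭0 ((algebraMap B F (π 𝔭)) ^ (e 𝔭)) := by
    intro 𝔭0 h0 𝔭 h𝔭 hne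
    have h1 : π 𝔭 ∉ 𝔭0.1 := not_mem_of_isGenAtPrime (hπe 𝔭 (hTx 𝔭 h𝔭)).1 h0 hne
    exact (unitAt_algebraMap h1).zpow _
  have hunit : ∀ 𝔭0 : HtOne B, 𝔭0.1 ≤ x → UnitAt 𝔭0 (g ^ m * u) := by
    intro 𝔭0 h0
    by_cases hmem : 𝔭0 ∈ T
    · have h1 : g = (algebraMap B F (π 𝔭0)) ^ (e 𝔭0) *
          ∏ 𝔭 ∈ T.erase 𝔭0, (algebraMap B F (π 𝔭)) ^ (e 𝔭) := by
        rw [hg]
        exact (Finset.mul_prod_erase T (fun 𝔭 => (algebraMap B F (π 𝔭)) ^ (e 𝔭)) hmem).symm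
      have h2 : UnitAt 𝔭0 (∏ 𝔭 ∈ T.erase 𝔭0, (algebraMap B F (π 𝔭)) ^ (e 𝔭)) :=
        UnitAt.prod _ _ fun 𝔭 h𝔭 =>
          hother 𝔭0 h0 𝔭 (Finset.mem_of_mem_erase h𝔭) (Finset.ne_of_mem_erase h𝔭)
      have h3 : g ^ m * u = (u * ((algebraMap B F (π 𝔭0)) ^ (e 𝔭0)) ^ m) *
          (∏ 𝔭 ∈ T.erase 𝔭0, (algebraMap B F (π 𝔭)) ^ (e 𝔭)) ^ m := by
        rw [h1, mul_pow]
        ring
      rw [h3]
      exact (hπe 𝔭0 h0).2.mul (h2.pow m)
    · have h2 : UnitAt 𝔭0 g :=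
        UnitAt.prod _ _ fun 𝔭 h𝔭 => hother 𝔭0 h0 𝔭 h𝔭 (fun h => hmem (h ▸ h𝔭))
      exact (h2.pow m).mul (hnotT 𝔭0 h0 hmem)
  -- back to `B` through the frame
  have hframe := isFrame_heightOne (B := B) (F := F)
  have hin : ∀ v : HtOne B, Over (V1 (B := B) F) x v → g ^ m * u ∈ V1 F v :=
    fun v hv => (hunit v ((over_V1_iff x v).1 hv)).1
  have hin' : ∀ v : HtOne B, Over (V1 (B := B) F) x v → (g ^ m * u)⁻¹ ∈ V1 F v :=
    fun v hv => (hunit v ((over_V1_iff x v).1 hv)).2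
  obtain ⟨a, s, hs, has⟩ := (hframe.exists_loc_iff x (g ^ m * u)).2 hin
  obtain ⟨a', s', hs', has'⟩ := (hframe.exists_loc_iff x (g ^ m * u)⁻¹).2 hin'
  refine ⟨g, a, s, ?_, hs, ?_⟩
  · -- `a * a' = s * s' ∉ x`
    intro ha
    have hs0 : algebraMap B F s ≠ 0 := KrullFrame.algebraMap_ne_zero_of_not_mem hs
    have hs0' : algebraMap B F s' ≠ 0 := KrullFrame.algebraMap_ne_zero_of_not_mem hs'
    have hg0 : g ≠ 0 := by
      rw [hg, Finset.prod_ne_zero_iff]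
      intro 𝔭 h𝔭
      apply zpow_ne_zero
      intro h0
      exact ne_zero_of_isGenAtPrime (hπe 𝔭 (hTx 𝔭 h𝔭)).1
        ((map_eq_zero_iff _ (IsFractionRing.injective B F)).1 h0)
    have hf0 : g ^ m * u ≠ 0 := mul_ne_zero (pow_ne_zero m hg0) hu
    have hprod : algebraMap B F (a * a') = algebraMap B F (s * s') := by
      rw [map_mul, map_mul, ← has, ← has']
      field_simp
    have heq : a * a' = s * s' := IsFractionRing.injective B F hprod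
    have : s * s' ∈ x := heq ▸ x.mul_mem_right _ ha
    rcases hx.mem_or_mem this with h | h
    · exact hs h
    · exact hs' h
  · rw [mul_comm]
    exact has

/-- **REG ⟹ principal height-one primes**: if the local ring `O = B_x` is factorial then every
height-one prime of `B` through `x` is principal at `x`. -/
theorem isGenAtPrime_of_ufd (x : Ideal B) [hx : x.IsPrime] (O : Type*) [CommRing O] [IsDomain O]
    [Algebra B O] [IsLocalization.AtPrime O x] [UniqueFactorizationMonoid O]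
    (𝔭 : HtOne B) (h𝔭 : 𝔭.1 ≤ x) : ∃ π : B, IsGenAtPrime x 𝔭.1 π := by
  have hinj : Function.Injective (algebraMap B O) :=
    IsLocalization.injective O (M := x.primeCompl)
      (fun s hs => mem_nonZeroDivisors_of_ne_zero fun h => hs (h ▸ x.zero_mem))
  have hdisj : Disjoint (x.primeCompl : Set B) (𝔭.1 : Set B) := by
    rw [Set.disjoint_left]
    intro s hs hs𝔭
    exact hs (h𝔭 hs𝔭)
  have hPprime : (𝔭.1.map (algebraMap B O)).IsPrime :=
    IsLocalization.isPrime_of_isPrime_disjoint x.primeCompl O 𝔭.1 𝔭.2.1 hdisj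
  have hcomap : (𝔭.1.map (algebraMap B O)).comap (algebraMap B O) = 𝔭.1 :=
    IsLocalization.under_map_of_isPrime_disjoint x.primeCompl O 𝔭.2.1 hdisj
  -- `𝔭 ≠ ⊥`
  have h𝔭bot : 𝔭.1 ≠ ⊥ := by
    intro h
    have h1 := 𝔭.2.2
    rw [h, Ideal.height_bot] at h1
    exact zero_ne_one h1
  have hPbot : 𝔭.1.map (algebraMap B O) ≠ ⊥ := by
    intro h
    apply h𝔭bot
    rw [eq_bot_iff]
    intro b hb
    have : algebraMap B O b ∈ 𝔭.1.map (algebraMap B O) := Ideal.mem_map_of_mem _ hb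
    rw [h, Ideal.mem_bot] at this
    exact (map_eq_zero_iff _ hinj).1 this
  obtain ⟨ρ, hρmem, hρ⟩ := hPprime.exists_mem_prime_of_ne_bot hPbot
  obtain ⟨⟨b0, s0⟩, hb0⟩ := IsLocalization.surj x.primeCompl ρ
  have hb0' : ρ * algebraMap B O (s0 : B) = algebraMap B O b0 := hb0
  have hs0u : IsUnit (algebraMap B O (s0 : B)) := IsLocalization.map_units O s0
  -- `algebraMap b0` is a prime element of `O` lying in `𝔭 O`
  have hprime0 : Prime (algebraMap B O b0) := by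
    rw [← hb0']
    obtain ⟨v, hv⟩ := hs0u
    rw [← hv]
    exact (Associated.prime_iff ⟨v, rfl⟩).1 hρ
  have hmem0 : algebraMap B O b0 ∈ 𝔭.1.map (algebraMap B O) := by
    rw [← hb0']
    exact Ideal.mul_mem_right _ _ hρmem
  have hb0𝔭 : b0 ∈ 𝔭.1 := by
    rw [← hcomap]
    exact hmem0
  -- the contraction of `(algebraMap b0)` is a nonzero prime inside `𝔭`, hence equals `𝔭`
  set 𝔮 : Ideal B := (Ideal.span {algebraMap B O b0}).comap (algebraMap B O) with h𝔮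
  have h𝔮prime : 𝔮.IsPrime := by
    have : (Ideal.span {algebraMap B O b0}).IsPrime :=
      (Ideal.span_singleton_prime hprime0.ne_zero).2 hprime0
    exact Ideal.comap_isPrime _ _
  have h𝔮le : 𝔮 ≤ 𝔭.1 := by
    rw [← hcomap]
    apply Ideal.comap_mono
    rw [Ideal.span_singleton_le_iff_mem]
    exact hmem0
  have hb0𝔮 : b0 ∈ 𝔮 := by
    rw [h𝔮, Ideal.mem_comap]
    exact Ideal.mem_span_singleton_self _
  have hb00 : b0 ≠ 0 := by
    rintro rfl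
    rw [map_zero] at hprime0
    exact hprime0.ne_zero rfl
  have h𝔮bot : 𝔮 ≠ ⊥ := fun h => hb00 (by rw [h] at hb0𝔮; exact hb0𝔮)
  have h𝔮eq : 𝔮 = 𝔭.1 := by
    have hfh : 𝔮.FiniteHeight := 𝔮.finiteHeight_iff.mpr (Or.inr (by
      intro htop
      have := Ideal.height_mono h𝔮le
      rw [htop, 𝔭.2.2] at this
      exact absurd this (by simp)))
    apply Ideal.eq_of_le_of_height_le (I := 𝔮) h𝔮le
    rw [𝔭.2.2]
    have hlt : (⊥ : Ideal B) < 𝔮 := bot_lt_iff_ne_bot.mpr h𝔮bot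
    have hbp : (⊥ : Ideal B).IsPrime := Ideal.isPrime_bot
    have := Ideal.height_strict_mono_of_isPrime_of_isPrime hlt
    rw [Ideal.height_bot] at this
    exact Order.one_le_iff_pos.mpr this
  refine ⟨b0, hb0𝔭, ?_⟩
  intro b hb
  have hb𝔮 : b ∈ 𝔮 := h𝔮eq ▸ hb
  rw [h𝔮, Ideal.mem_comap, Ideal.mem_span_singleton] at hb𝔮
  obtain ⟨o, ho⟩ := hb𝔮
  obtain ⟨⟨b', s⟩, hbs⟩ := IsLocalization.surj x.primeCompl o
  have hbs' : o * algebraMap B O (s : B) = algebraMap B O b' := hbs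
  refine ⟨s, s.2, b', ?_⟩
  apply hinj
  rw [map_mul, map_mul, ho, ← hbs']
  ring

/-- **(LOC-gen) from REG**: `O_x` factorial and `m ∣ div u` at `x` ⟹ `g ^ m * u * s = c` with
`c, s ∈ B ∖ x`. -/
theorem exists_kummer_datum_of_ufd (x : Ideal B) [x.IsPrime] (O : Type*) [CommRing O] [IsDomain O]
    [Algebra B O] [IsLocalization.AtPrime O x] [UniqueFactorizationMonoid O]
    (m : ℕ) (u : F) (hu : u ≠ 0)
    (hord : ∀ 𝔭 : HtOne B, 𝔭.1 ≤ x → ∃ z : F, z ≠ 0 ∧ UnitAt 𝔭 (u * z ^ m)) :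
    ∃ g : F, ∃ c s : B, c ∉ x ∧ s ∉ x ∧
      g ^ m * u * algebraMap B F s = algebraMap B F c :=
  exists_kummer_datum x m u hu (fun 𝔭 h𝔭 => isGenAtPrime_of_ufd x O 𝔭 h𝔭) hord

/-- the hypothesis `hord` at a prime where `u` is a unit (vertical primes: `w_i(u) = 0`). -/
theorem hord_of_unitAt {𝔭 : HtOne B} {u : F} (m : ℕ) (hu : UnitAt 𝔭 u) :
    ∃ z : F, z ≠ 0 ∧ UnitAt 𝔭 (u * z ^ m) :=
  ⟨1, one_ne_zero, by rw [one_pow, mul_one]; exact hu⟩

/-- the hypothesis `hord` from a uniformiser `ϖ` and `u = ε ϖ ^ (m * n)` (horizontal primes: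
`m ∣ ord_P u`). -/
theorem hord_of_zpow {𝔭 : HtOne B} {u ϖ : F} (hϖ : ϖ ≠ 0) (m : ℕ) (n : ℤ)
    (hu : UnitAt 𝔭 (u * (ϖ ^ n) ^ m)) : ∃ z : F, z ≠ 0 ∧ UnitAt 𝔭 (u * z ^ m) :=
  ⟨ϖ ^ n, zpow_ne_zero n hϖ, hu⟩

end Fermat.Agent.GL.Frame.Kummer
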