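/-
GATE-L / HORIZ-DIV, file 3 (helper11): **the `hord` hypothesis of helper47's
`Kummer.exists_kummer_datum` at the HORIZONTAL height-one primes**.

`B` a noetherian integrally closed domain with fraction field `F_L = K₀(X₀(N))` (the chart ring
`B2 = integralClosure R[1/h] F_L`), `𝔭` a height-one prime of `B` with `K₀ ⊆ B_𝔭` (horizontal:
`q ∉ 𝔭`), `u₀ ∈ F_Lˣ` whose image in `F_N = ℚ̄(X₀(N))` is `m`-divisible.  Then
`∃ z ≠ 0, UnitAt 𝔭 (u₀ * z ^ m)` — exactly the binder `hord` of `exists_kummer_datum` /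
`exists_kummer_datum_of_ufd` at `𝔭`.

* `isDiscreteValuationRing_V1` : `V1 F 𝔭 = B_𝔭` is a DVR (as a `ValuationSubring`);
* `hord_horizontal` : the statement above;
* `algebraMap_K0_mem_of_baseRing` : `K₀ ⊆ W` as soon as `R = A ∩ K₀ ⊆ W` and `q⁻¹ ∈ W`.
-/
import Fermat.Agent.GL.Frame.HorizDiv
import Fermat.Agent.GL.Frame.KummerDatum

set_option autoImplicit false

noncomputable section

namespace Fermat.Agent.GL.Frame.HorizHord

open ModularCurve IsLocalRing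
open Fermat.Agent.GL.KrullHeightOne Fermat.Agent.GL.Frame.HeightOne Fermat.Agent.GL.Frame.Kummer
open Fermat.Agent.GL.Val.GaussK0 Fermat.Agent.GL.Val.SecondK0
open Fermat.Agent.GL.Local.InertiaField
open Fermat.Agent.GJ.KumGroup
open Fermat.Agent.GL.Frame.HorizDiv
open Fermat.Agent.Common_helper32

/-! ### `V1 F 𝔭` is a DVR -/

section DVR

variable {B F : Type*} [CommRing B] [IsDomain B] [Field F] [Algebra B F] [IsFractionRing B F]
  [IsNoetherianRing B] [IsIntegrallyClosed B]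

/-- `B_𝔭` as a subalgebra and as a valuation subring: the same ring -/
def locSubEquivV1 (𝔭 : HtOne B) : ↥(locSub F 𝔭.1) ≃+* ↥(V1 F 𝔭) where
  toFun x := ⟨x.1, x.2⟩
  invFun y := ⟨y.1, y.2⟩
  left_inv _ := rfl
  right_inv _ := rfl
  map_mul' _ _ := rfl
  map_add' _ _ := rfl

/-- **`V1 F 𝔭` is a discrete valuation ring** -/
theorem isDiscreteValuationRing_V1 (𝔭 : HtOne B) : IsDiscreteValuationRing ↥(V1 F 𝔭) := by
  have := isDiscreteValuationRing_locSub (F := F) 𝔭.1 𝔭.2.2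
  exact IsDiscreteValuationRing.RingEquivClass.isDiscreteValuationRing (locSubEquivV1 (F := F) 𝔭)

end DVR

/-! ### `K₀ ⊆ W` from `R ⊆ W` and `q⁻¹ ∈ W` -/

section Base

variable (A : ValuationSubring Qb) {q : ℕ} (hq : q.Prime) (hA : (q : Qb) ∈ A.nonunits)
  {F : Type*} [Field F] (ρ : K0 A →+* F) (W : ValuationSubring F)

include hq hA in
/-- a valuation subring containing `R = A ∩ K₀` and `q⁻¹` contains `K₀` -/
theorem algebraMap_K0_mem_of_baseRing (hR : ∀ c : K0 A, c ∈ R0 A → ρ c ∈ W)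
    (hqinv : ((q : F))⁻¹ ∈ W) (c : K0 A) : ρ c ∈ W := by
  by_cases hc : c ∈ R0 A
  · exact hR c hc
  have hc0 : c ≠ 0 := fun h => hc (h ▸ (R0 A).zero_mem)
  have hci : c⁻¹ ∈ R0 A := ((R0 A).mem_or_inv_mem c).resolve_left hc
  have hx0 : (⟨c⁻¹, hci⟩ : R0 A) ≠ 0 := fun h => inv_ne_zero hc0 (congrArg Subtype.val h)
  have hdvr : IsDiscreteValuationRing (R0 A) := isDiscreteValuationRing_R0 A hq hA
  obtain ⟨k, u, hx⟩ := IsDiscreteValuationRing.eq_unit_mul_pow_irreducible hx0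
    (irreducible_q0 A hq hA)
  -- `c = q^{-k} * u⁻¹`
  have hq0c : ((q0 A q : R0 A) : K0 A) = (q : K0 A) := by
    apply ι0_injective A
    rw [ι0_q0, map_natCast]
  have h1 : (c⁻¹ : K0 A) = ((u : R0 A) : K0 A) * (q : K0 A) ^ k := by
    have := congrArg (Subtype.val) hx
    rw [← hq0c]
    exact this
  have h2 : ((u : R0 A) : K0 A) * (((u⁻¹ : (R0 A)ˣ) : R0 A) : K0 A) = 1 :=
    congrArg Subtype.val u.mul_inv
  have h3 : c = ((q : K0 A) ^ k)⁻¹ * (((u⁻¹ : (R0 A)ˣ) : R0 A) : K0 A) := by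
    have hcinv : c = (c⁻¹)⁻¹ := (inv_inv c).symm
    rw [hcinv, h1, mul_inv, ← eq_inv_of_mul_eq_one_right h2, mul_comm]
  rw [h3, map_mul, map_inv₀, map_pow, map_natCast, ← inv_pow]
  exact W.mul_mem _ _ (W.pow_mem hqinv k) (hR _ ((u⁻¹ : (R0 A)ˣ) : R0 A).2)

end Base

/-! ### The `hord` hypothesis at horizontal primes -/

section Hord

variable (A : ValuationSubring Qb) (N : ℕ) [NeZero N]
  {B : Type*} [CommRing B] [IsDomain B] [Algebra B (modularFunctionFieldFullC (K0 A) N)]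
  [IsFractionRing B (modularFunctionFieldFullC (K0 A) N)] [IsNoetherianRing B]
  [IsIntegrallyClosed B]

/-- **the `hord` binder of `Kummer.exists_kummer_datum` at a horizontal height-one prime**:
if `mapK0Bar u₀` is an `m`-divisible unit of `F_N = ℚ̄(X₀(N))` and `K₀ ⊆ B_𝔭`, then `u₀` is a unit
of `B_𝔭` times an `m`-th power. -/
theorem hord_horizontal (m : ℕ) (u₀ : (modularFunctionFieldFullC (K0 A) N)ˣ)
    (hu : Units.map (mapK0Bar A N : _ →* FK N) u₀ ∈ pDivUnits Kb (FK N) m)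
    (𝔭 : HtOne B)
    (hK0 : ∀ c : K0 A, algebraMap (K0 A) (modularFunctionFieldFullC (K0 A) N) c ∈
      V1 (modularFunctionFieldFullC (K0 A) N) 𝔭) :
    ∃ z : modularFunctionFieldFullC (K0 A) N, z ≠ 0 ∧
      UnitAt 𝔭 ((u₀ : modularFunctionFieldFullC (K0 A) N) * z ^ m) := by
  have hdvr := isDiscreteValuationRing_V1 (F := modularFunctionFieldFullC (K0 A) N) 𝔭
  obtain ⟨t, ht⟩ := IsDiscreteValuationRing.exists_irreducible
    ↥(V1 (modularFunctionFieldFullC (K0 A) N) 𝔭)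
  obtain ⟨n, ε, h⟩ := exists_eq_zpow_mul_unit_of_mem_pDivUnits_dvr A N m u₀ hu
    (V1 (modularFunctionFieldFullC (K0 A) N) 𝔭) hK0 t ht
  have htF : (t : modularFunctionFieldFullC (K0 A) N) ≠ 0 :=
    fun h0 => ht.ne_zero (Subtype.ext h0)
  refine ⟨(t : modularFunctionFieldFullC (K0 A) N) ^ (-n), zpow_ne_zero _ htF, ?_⟩
  have h1 : (u₀ : modularFunctionFieldFullC (K0 A) N) *
      ((t : modularFunctionFieldFullC (K0 A) N) ^ (-n)) ^ m =
      ((ε : V1 (modularFunctionFieldFullC (K0 A) N) 𝔭) : modularFunctionFieldFullC (K0 A) N) := by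
    rw [h, ← zpow_natCast, ← zpow_mul, mul_comm (-n) (m : ℤ), mul_right_comm, ← zpow_add₀ htF]
    simp
  rw [h1]
  refine ⟨(ε : V1 (modularFunctionFieldFullC (K0 A) N) 𝔭).2, ?_⟩
  have h2 : ((ε : V1 (modularFunctionFieldFullC (K0 A) N) 𝔭) :
      modularFunctionFieldFullC (K0 A) N) *
      (((ε⁻¹ : (V1 (modularFunctionFieldFullC (K0 A) N) 𝔭)ˣ) :
        V1 (modularFunctionFieldFullC (K0 A) N) 𝔭) : modularFunctionFieldFullC (K0 A) N) = 1 :=
    congrArg Subtype.val ε.mul_inv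
  rw [← eq_inv_of_mul_eq_one_right h2]
  exact ((ε⁻¹ : (V1 (modularFunctionFieldFullC (K0 A) N) 𝔭)ˣ) :
    V1 (modularFunctionFieldFullC (K0 A) N) 𝔭).2

end Hord

end Fermat.Agent.GL.Frame.HorizHord
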