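/-
GATE-L / ARITH-INT (helper87): input (A) of helper84's `GL/Frame/OldCopies.lean` and of helper47's
remark 2972 (3)(i).

For EVERY level `N` and every `d ∣ N`, inside `F_N = ℚ̄(X₀(N))`:

* `isIntegral_closure_jF_jdF`  : `j_d = j(q^d)` is integral over `ℤ[j]` (`Subring.closure {j}`);
* `isIntegral_closure_jdF_jF`  : `j` is integral over `ℤ[j_d]`;
* `isIntegral_closure_jdF_jdF` : `j_d` is integral over `ℤ[j_{d'}]` for all `d, d' ∣ N`;
* `isIntegral_of_jdF_mem`      : the same over ANY subring `T ∋ j_{d'}` (e.g. `R[j_{d'}]`).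

No valuation theory, no "NOEXT", no modular polynomial:

(1) `P(X) = ∏_c (X - σ_c(j_d))` (`σ_c` the `ψ(N)` cusp expansions of helper62) has coefficients of
the form `p_m(j)(t^N)` with `p_m ∈ ℚ̄[X]` (`cuspSigma_sym`); all the `σ_c(j_d)` are Hermite series
`j(ξ t^e)` with coefficients in `ℤ[ζ_N]` (helper18 `hermiteSer_mem_coeffSubring`); the q-expansion
principle for polynomials in `j` (`S28.PolyDescent`) gives `p_m ∈ ℤ[ζ_N][X]`; `j_d` is a root of the
pulled-back polynomial, so it is integral over `ℤ[ζ_N][j]`, hence over `ℤ[j]`.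
(2) at level `d`, the Atkin–Lehner automorphism `W_d` (helper54 `wAutQ` at the Hall divisor `d ∥ d`)
swaps `j` and `j_d`; transport (1), then include `F_d → F_N`.
-/
import Mathlib
import Fermat.Agent.S28.PolyDescent
import Fermat.Agent.GL.Table.CuspRestrict
import Fermat.Agent.GL.AL.WHallAut
import Fermat.Agent.GL.Val.CuspCoeff

set_option autoImplicit false

noncomputable section

namespace Fermat.Agent.GL.Frame.ArithInt

open Polynomial

/-! ### Generic algebra -/

section Generic

variable {F : Type*} [Field F]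

/-- integrality over a subring only gets easier when the subring grows -/
theorem isIntegral_mono {T T' : Subring F} (h : T ≤ T') {z : F} (hz : IsIntegral T z) :
    IsIntegral T' z := by
  obtain ⟨p, hp, hpz⟩ := hz
  refine ⟨p.map (Subring.inclusion h), hp.map _, ?_⟩
  rw [eval₂_map]
  exact hpz

/-- a root of a monic polynomial whose coefficients are integral over `T` is integral over `T` -/
theorem isIntegral_of_monic_of_coeff_isIntegral (T : Subring F) (P : F[X]) (hP : P.Monic)
    (hc : ∀ i, IsIntegral T (P.coeff i)) {z : F} (hz : P.eval z = 0) : IsIntegral T z := by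
  set C : Subalgebra T F := integralClosure T F with hC
  have hsub : (↑P.coeffs : Set F) ⊆ C.toSubring := by
    intro x hx
    obtain ⟨i, -, rfl⟩ := Polynomial.mem_coeffs_iff.mp (Finset.mem_coe.mp hx)
    exact hc i
  have hQmonic : (P.toSubring C.toSubring hsub).Monic :=
    (Polynomial.monic_toSubring P C.toSubring hsub).mpr hP
  have hzC : IsIntegral C z := by
    refine ⟨P.toSubring C.toSubring hsub, hQmonic, ?_⟩
    have : eval₂ (algebraMap C F) z (P.toSubring C.toSubring hsub) =
        eval₂ (C.toSubring.subtype) z (P.toSubring C.toSubring hsub) := rfl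
    rw [this, ← eval_map, Polynomial.map_toSubring P C.toSubring hsub]
    exact hz
  exact isIntegral_trans (A := C) z hzC

/-- the coefficients of `∏ (X - C (s i))` lie in every subring containing the `s i` -/
theorem coeff_prod_X_sub_C_mem {Λ : Type*} [CommRing Λ] (S : Subring Λ) {ι : Type*}
    (t : Finset ι) (s : ι → Λ) (hs : ∀ i, s i ∈ S) (m : ℕ) :
    (∏ i ∈ t, (X - C (s i))).coeff m ∈ S := by
  have h : (∏ i ∈ t, (X - C (s i))) = (∏ i ∈ t, (X - C (⟨s i, hs i⟩ : S))).map S.subtype := by
    rw [Polynomial.map_prod]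
    refine Finset.prod_congr rfl fun i _ => ?_
    rw [Polynomial.map_sub, Polynomial.map_X, Polynomial.map_C]
    rfl
  rw [h, Polynomial.coeff_map]
  exact (Subtype.property _)

end Generic

/-! ### Integral relations `G(a, z) = 0`, `G ∈ ℤ[X][Y]` monic in `Y` -/

section IntRel

/-- evaluation `ℤ[X] → F`, `X ↦ a` -/
def evalInt {F : Type*} [CommRing F] (a : F) : ℤ[X] →+* F := eval₂RingHom (Int.castRingHom F) a

@[simp] theorem evalInt_X {F : Type*} [CommRing F] (a : F) : evalInt a X = a := eval₂_X _ _

theorem comp_evalInt {F F' : Type*} [CommRing F] [CommRing F'] (φ : F →+* F') (a : F) :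
    φ.comp (evalInt a) = evalInt (φ a) := by
  apply Polynomial.ringHom_ext'
  · exact RingHom.ext_int _ _
  · rw [RingHom.comp_apply, evalInt_X, evalInt_X]

/-- **`z` is integral over `ℤ[a]`, in "modular equation" form**: there is `G ∈ ℤ[X][Y]`, monic in
`Y`, with `G(a, z) = 0`.  This form is transported by EVERY ring homomorphism and reflected by
every injective one, whatever the base rings. -/
def IntRel {F : Type*} [CommRing F] (a z : F) : Prop :=
  ∃ G : ℤ[X][X], G.Monic ∧ eval₂ (evalInt a) z G = 0

theorem IntRel.map {F F' : Type*} [CommRing F] [CommRing F'] (φ : F →+* F') {a z : F}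
    (h : IntRel a z) : IntRel (φ a) (φ z) := by
  obtain ⟨G, hG, hGz⟩ := h
  refine ⟨G, hG, ?_⟩
  rw [← comp_evalInt, ← Polynomial.hom_eval₂, hGz, map_zero]

theorem IntRel.of_map {F F' : Type*} [CommRing F] [CommRing F'] (φ : F →+* F')
    (hφ : Function.Injective φ) {a z : F} (h : IntRel (φ a) (φ z)) : IntRel a z := by
  obtain ⟨G, hG, hGz⟩ := h
  refine ⟨G, hG, hφ ?_⟩
  rw [map_zero, Polynomial.hom_eval₂, comp_evalInt]
  exact hGz

/-- an integral relation gives integrality over every subring containing `a` -/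
theorem IntRel.isIntegral {F : Type*} [Field F] {a z : F} (h : IntRel a z) (T : Subring F)
    (ha : a ∈ T) : IsIntegral T z := by
  obtain ⟨G, hG, hGz⟩ := h
  refine ⟨G.map (evalInt (⟨a, ha⟩ : T)), hG.map _, ?_⟩
  rw [eval₂_map]
  have : (algebraMap T F).comp (evalInt (⟨a, ha⟩ : T)) = evalInt a := comp_evalInt _ _
  rw [this]
  exact hGz

/-- the subring `ℤ[a]` is the range of `evalInt a` -/
theorem exists_evalInt_eq_of_mem_closure {F : Type*} [CommRing F] (a : F) {c : F}
    (hc : c ∈ Subring.closure {a}) : ∃ g : ℤ[X], evalInt a g = c := by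
  have hle : Subring.closure {a} ≤ (evalInt a).range := by
    rw [Subring.closure_le]
    rintro x hx
    rw [Set.mem_singleton_iff] at hx
    exact ⟨X, by rw [evalInt_X, hx]⟩
  exact hle hc

/-- integrality over `ℤ[a]` gives an integral relation -/
theorem intRel_of_isIntegral {F : Type*} [Field F] {a z : F}
    (h : IsIntegral (Subring.closure {a}) z) : IntRel a z := by
  classical
  obtain ⟨p, hp, hpz⟩ := h
  have hex : ∀ i, ∃ g : ℤ[X], evalInt a g = (p.coeff i : F) :=
    fun i => exists_evalInt_eq_of_mem_closure a (p.coeff i).2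
  choose g hg using hex
  set n := p.natDegree with hn
  set G : ℤ[X][X] := X ^ n + ∑ i ∈ Finset.range n, C (g i) * X ^ i with hGdef
  have hdeg : (∑ i ∈ Finset.range n, C (g i) * X ^ i : ℤ[X][X]).degree < (n : WithBot ℕ) := by
    rw [Polynomial.degree_lt_iff_coeff_zero]
    intro m hm
    rw [Polynomial.finsetSum_coeff]
    refine Finset.sum_eq_zero fun i hi => ?_
    rw [Polynomial.coeff_C_mul_X_pow, if_neg]
    have := Finset.mem_range.mp hi
    omega
  refine ⟨G, Polynomial.monic_X_pow_add hdeg, ?_⟩
  rw [hGdef, eval₂_add, eval₂_pow, eval₂_X, Polynomial.eval₂_finsetSum]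
  have h2 : eval₂ (algebraMap (Subring.closure {a}) F) z p =
      z ^ n + ∑ i ∈ Finset.range n, ((p.coeff i : Subring.closure {a}) : F) * z ^ i := by
    rw [Polynomial.eval₂_eq_sum_range, Finset.sum_range_succ, ← hn, add_comm]
    congr 1
    rw [hn, hp.coeff_natDegree]
    simp
  rw [hpz] at h2
  rw [h2]
  congr 1
  refine Finset.sum_congr rfl fun i _ => ?_
  rw [eval₂_mul, eval₂_C, eval₂_pow, eval₂_X, hg]

/-- transitivity of integral relations -/
theorem IntRel.trans {F : Type*} [Field F] {a b c : F} (hab : IntRel a b) (hbc : IntRel b c) :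
    IntRel a c := by
  apply intRel_of_isIntegral
  -- `ℤ[b]` is integral over `ℤ[a]`
  have hb : IsIntegral (Subring.closure {a}) b := hab.isIntegral _ (Subring.subset_closure rfl)
  have hle : Subring.closure {b} ≤ (integralClosure (Subring.closure {a}) F).toSubring := by
    rw [Subring.closure_le]
    rintro x hx
    rw [Set.mem_singleton_iff] at hx
    rw [hx]
    exact hb
  obtain ⟨p, hp, hpc⟩ := hbc.isIntegral (Subring.closure {b}) (Subring.subset_closure rfl)
  refine isIntegral_of_monic_of_coeff_isIntegral _ (p.map (algebraMap _ F)) (hp.map _)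
    (fun i => ?_) ?_
  · rw [Polynomial.coeff_map]
    exact hle (p.coeff i).2
  · rw [Polynomial.eval_map]
    exact hpc

/-- transitivity of integrality for subrings of a field, elementwise form -/
theorem isIntegral_trans_subring {F : Type*} [Field F] {T T' : Subring F}
    (hT : ∀ x ∈ T, IsIntegral T' x) {z : F} (hz : IsIntegral T z) : IsIntegral T' z := by
  obtain ⟨p, hp, hpz⟩ := hz
  refine isIntegral_of_monic_of_coeff_isIntegral _ (p.map (algebraMap _ F)) (hp.map _)
    (fun i => ?_) ?_
  · rw [Polynomial.coeff_map]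
    exact hT _ (p.coeff i).2
  · rw [Polynomial.eval_map]
    exact hpz

/-- **same integral closure**: if `a`, `b` are integral over `ℤ[b]`, `ℤ[a]` respectively, then for
every set `R₀` of constants the rings `R₀[a]` and `R₀[b]` have the same integral closure in `F`
(elementwise form) -/
theorem isIntegral_closure_union_iff {F : Type*} [Field F] (R₀ : Set F) {a b : F}
    (hab : IntRel a b) (hba : IntRel b a) (z : F) :
    IsIntegral (Subring.closure (R₀ ∪ {a})) z ↔ IsIntegral (Subring.closure (R₀ ∪ {b})) z := by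
  have key : ∀ {a b : F}, IntRel b a → IsIntegral (Subring.closure (R₀ ∪ {a})) z →
      IsIntegral (Subring.closure (R₀ ∪ {b})) z := by
    intro a b hba hz
    refine isIntegral_trans_subring (fun x hx => ?_) hz
    have hle : Subring.closure (R₀ ∪ {a}) ≤
        (integralClosure (Subring.closure (R₀ ∪ {b})) F).toSubring := by
      rw [Subring.closure_le]
      rintro y (hy | hy)
      · exact isIntegral_algebraMap (R := Subring.closure (R₀ ∪ {b}))
          (x := ⟨y, Subring.subset_closure (Or.inl hy)⟩)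
      · rw [Set.mem_singleton_iff] at hy
        rw [hy]
        exact hba.isIntegral _ (Subring.subset_closure (Or.inr rfl))
    exact hle hx
  exact ⟨key hba, key hab⟩

/-- the same for `Algebra.adjoin R {a}` over an arbitrary base ring `R` -/
theorem isIntegral_adjoin_iff {R F : Type*} [CommRing R] [Field F] [Algebra R F] {a b : F}
    (hab : IntRel a b) (hba : IntRel b a) (z : F) :
    IsIntegral (Algebra.adjoin R {a}) z ↔ IsIntegral (Algebra.adjoin R {b}) z := by
  have key : ∀ {a b : F}, IntRel b a → IsIntegral (Algebra.adjoin R {a}) z →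
      IsIntegral (Algebra.adjoin R {b}) z := by
    intro a b hba hz
    have h1 : IsIntegral (Algebra.adjoin R {a}).toSubring z := hz
    have h2 : IsIntegral (Algebra.adjoin R {b}).toSubring z := by
      refine isIntegral_trans_subring (fun x hx => ?_) h1
      have hle : Algebra.adjoin R {a} ≤
          (integralClosure (Algebra.adjoin R {b}) F).restrictScalars R := by
        apply Algebra.adjoin_le
        rintro y hy
        rw [Set.mem_singleton_iff] at hy
        rw [hy]
        exact hba.isIntegral (Algebra.adjoin R {b}).toSubring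
          (Algebra.subset_adjoin (Set.mem_singleton b))
      exact hle hx
    exact h2
  exact ⟨key hba, key hab⟩

theorem IntRel.refl {F : Type*} [CommRing F] [Nontrivial F] (a : F) : IntRel a a := by
  refine ⟨X - C X, Polynomial.monic_X_sub_C _, ?_⟩
  rw [eval₂_sub, eval₂_X, eval₂_C, evalInt_X, sub_self]

end IntRel

/-! ### Part 1: integrality of elements with integral cusp expansions -/

section Part1

open ModularCurve
open Fermat.Agent.S24 Fermat.Agent.S24_helper62 Fermat.Agent.S24.Degree
open Fermat.Agent.GK.Val Fermat.Agent.GL.CuspVal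

variable (N : ℕ) [NeZero N]

/-- **Integrality from the cusp expansions.**  An element `a` of `ℚ̄[j_d : d ∣ N]` all of whose
cusp expansions have coefficients in a subring `S` of `ℚ̄` is a root of a monic polynomial whose
coefficients are polynomials in `j` with coefficients in `S`. -/
theorem exists_monic_of_cuspSigma_mem (a : FN N) (ha : a ∈ Degree.RN N) (S : Subring Kbar)
    (hS : ∀ c : I0 N, cuspSigma N c a ∈ coeffSubring S) :
    ∃ P : (FN N)[X], P.Monic ∧ P.eval a = 0 ∧
      ∀ m, ∃ p : Kbar[X], (∀ i, p.coeff i ∈ S) ∧ P.coeff m = aeval (jF N) p := by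
  classical
  set Pi0 : (LaurentSeries Kbar)[X] := ∏ c : I0 N, (X - C (cuspSigma N c a)) with hPi
  -- the coefficients of `Pi0` are `p_m(j)(t^N)`
  have hsym : ∀ m, ∃ p : Kbar[X], qExpand Kbar N (aeval (jqModC Kbar) p) = Pi0.coeff m := by
    intro m
    obtain ⟨y, hy, hym⟩ := cuspSigma_sym N a ha m
    rw [SetLike.mem_coe, Algebra.adjoin_singleton_eq_range_aeval] at hy
    obtain ⟨p, rfl⟩ := hy
    exact ⟨p, hym⟩
  choose p hp using hsym
  -- the coefficients of `Pi0` have coefficients in `S`
  have hPiS : ∀ m, Pi0.coeff m ∈ coeffSubring S :=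
    fun m => coeff_prod_X_sub_C_mem (coeffSubring S) Finset.univ _ hS m
  -- descent
  have hpS : ∀ m i, (p m).coeff i ∈ S := by
    intro m i
    obtain ⟨Q, hQ⟩ := Fermat.Agent.S28.PolyDescent.exists_map_eq_of_coeff_qExpand_mem_range
      S.subtype N (p m) (fun k => by
        rw [hp m]
        exact ⟨⟨_, hPiS m k⟩, rfl⟩)
    rw [← hQ, Polynomial.coeff_map]
    exact (Q.coeff i).2
  -- the pulled-back polynomial
  set D := Pi0.natDegree with hD
  set P : (FN N)[X] := ∑ m ∈ Finset.range (D + 1), monomial m (aeval (jF N) (p m)) with hPdef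
  let σ : FN N →+* LaurentSeries Kbar := (cuspSigma N (i0 N)).toRingHom
  have hσinj : Function.Injective σ := σ.injective
  have hσp : ∀ m, σ (aeval (jF N) (p m)) = Pi0.coeff m := by
    intro m
    have h1 : σ (aeval (jF N) (p m)) = aeval (cuspSigma N (i0 N) (jF N)) (p m) :=
      (Polynomial.aeval_algHom_apply (cuspSigma N (i0 N)) (jF N) (p m)).symm
    rw [h1, cuspSigma_jF, ← hp m]
    exact Polynomial.aeval_algHom_apply (qExpandAlgHomC Kbar N) (jqModC Kbar) (p m)
  have hPmap : P.map σ = Pi0 := by
    rw [hPdef, Polynomial.map_sum]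
    conv_rhs => rw [Polynomial.as_sum_range Pi0]
    refine Finset.sum_congr rfl fun m _ => ?_
    rw [Polynomial.map_monomial, hσp]
  have hPmonic : P.Monic := by
    apply Polynomial.monic_of_injective hσinj
    rw [hPmap, hPi]
    exact Polynomial.monic_prod_of_monic _ _ fun c _ => Polynomial.monic_X_sub_C _
  refine ⟨P, hPmonic, ?_, ?_⟩
  · apply hσinj
    rw [map_zero, ← Polynomial.eval_map_apply, hPmap, hPi, Polynomial.eval_prod]
    refine Finset.prod_eq_zero (Finset.mem_univ (i0 N)) ?_
    rw [Polynomial.eval_sub, Polynomial.eval_X, Polynomial.eval_C]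
    exact sub_self _
  · intro m
    by_cases hm : m ∈ Finset.range (D + 1)
    · refine ⟨p m, hpS m, ?_⟩
      rw [hPdef, Polynomial.finsetSum_coeff, Finset.sum_eq_single_of_mem m hm]
      · rw [Polynomial.coeff_monomial, if_pos rfl]
      · intro b _ hb
        rw [Polynomial.coeff_monomial, if_neg hb]
    · refine ⟨0, fun i => by rw [Polynomial.coeff_zero]; exact zero_mem _, ?_⟩
      rw [map_zero, hPdef, Polynomial.finsetSum_coeff]
      refine Finset.sum_eq_zero fun b hb => ?_
      rw [Polynomial.coeff_monomial, if_neg]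
      rintro rfl
      exact hm hb

/-- instance shortcut (the generic search through the `IntermediateField` structure of `F_N`
times out) -/
local instance (priority := 2000) instAlgSubringFN (T : Subring (FN N)) : Algebra T (FN N) :=
  Algebra.ofSubsemiring T

/-- constants integral over `ℤ` are integral over every subring of `F_N` -/
theorem isIntegral_algebraMap_of_int (T : Subring (FN N)) {c : Kbar} (hc : IsIntegral ℤ c) :
    IsIntegral T (algebraMap Kbar (FN N) c) := by
  obtain ⟨q, hq, hqc⟩ := hc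
  refine ⟨q.map (Int.castRingHom T), hq.map _, ?_⟩
  rw [eval₂_map]
  have h1 : (algebraMap T (FN N)).comp (Int.castRingHom T) =
      (algebraMap Kbar (FN N)).comp (algebraMap ℤ Kbar) := RingHom.ext_int _ _
  rw [h1, ← Polynomial.hom_eval₂, hqc, map_zero]

/-- **an element of `ℚ̄[j_d : d ∣ N]` whose cusp expansions have coefficients integral over `ℤ`
is integral over `ℤ[j]`** -/
theorem isIntegral_closure_jF_of_cuspSigma_mem (a : FN N) (ha : a ∈ Degree.RN N) (S : Subring Kbar)
    (hSint : ∀ c ∈ S, IsIntegral ℤ c)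
    (hS : ∀ c : I0 N, cuspSigma N c a ∈ coeffSubring S) :
    IsIntegral (Subring.closure {jF N}) a := by
  obtain ⟨P, hP, hPa, hPc⟩ := exists_monic_of_cuspSigma_mem N a ha S hS
  refine isIntegral_of_monic_of_coeff_isIntegral _ P hP (fun m => ?_) hPa
  obtain ⟨p, hpS, hpm⟩ := hPc m
  rw [hpm, Polynomial.aeval_eq_sum_range]
  refine IsIntegral.sum _ fun i _ => ?_
  rw [Algebra.smul_def]
  refine IsIntegral.mul (isIntegral_algebraMap_of_int N _ (hSint _ (hpS i))) (IsIntegral.pow ?_ i)
  exact isIntegral_algebraMap (R := Subring.closure {jF N})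
    (x := ⟨jF N, Subring.subset_closure rfl⟩)

/-- the elements of `ℤ[ζ_N]` are integral over `ℤ` -/
theorem isIntegral_of_mem_zetaRing {c : Kbar} (hc : c ∈ zetaRing N) : IsIntegral ℤ c := by
  have hle : Algebra.adjoin ℤ
      ({((zetaBar N : Kbarˣ) : Kbar), (((zetaBar N)⁻¹ : Kbarˣ) : Kbar)} : Set Kbar) ≤
      integralClosure ℤ Kbar := by
    apply Algebra.adjoin_le
    rintro x (rfl | rfl)
    · exact isIntegral_zetaBar N
    · exact isIntegral_zetaBar_inv N
  exact hle hc

/-- **ARITH-INT, first half: `j_d` is integral over `ℤ[j]`.** -/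
theorem isIntegral_closure_jF_jdF {d : ℕ} [NeZero d] (hd : d ∣ N) :
    IsIntegral (Subring.closure {jF N}) (jdF N d hd) := by
  refine isIntegral_closure_jF_of_cuspSigma_mem N _
    (genSet_subset_RN N (jdF_mem_genSet N d hd)) (zetaRing N)
    (fun c hc => isIntegral_of_mem_zetaRing N hc) (fun c => ?_)
  rw [cuspSigma_jdF]
  exact hermiteSer_mem_coeffSubring N _

/-- first half, in relation form: `Φ(j, j_d) = 0` with `Φ ∈ ℤ[X][Y]` monic in `Y` -/
theorem intRel_jF_jdF {d : ℕ} [NeZero d] (hd : d ∣ N) : IntRel (jF N) (jdF N d hd) :=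
  intRel_of_isIntegral (isIntegral_closure_jF_jdF N hd)

end Part1

/-! ### Part 2: the symmetric statement, by Atkin–Lehner at level `d` -/

section Part2

open ModularCurve
open Fermat.Agent.S24 Fermat.Agent.S24_helper62 Fermat.Agent.S24.Degree
open Fermat.Agent.GK.AL Fermat.Agent.GL.AL Fermat.Agent.GL.Table

theorem jdF_congr (N : ℕ) [NeZero N] {d d' : ℕ} [NeZero d] [NeZero d'] (h : d = d') (hd : d ∣ N)
    (hd' : d' ∣ N) : jdF N d hd = jdF N d' hd' := by
  subst h
  rfl

/-- `d` is a Hall divisor of `d` -/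
theorem hallDvd_self (d : ℕ) [NeZero d] : HallDvd d d :=
  ⟨Nat.pos_of_ne_zero (NeZero.ne d), dvd_rfl, by
    rw [Nat.div_self (Nat.pos_of_ne_zero (NeZero.ne d))]
    exact Nat.coprime_one_right d⟩

/-- `W_d j = j_d` at level `d` -/
theorem wAutQ_self_jF (d : ℕ) [NeZero d] :
    wAutQ (hallDvd_self d) (jF d) = jdF d d dvd_rfl := by
  have h1 : jF d = gen d ⟨1, one_dvd d⟩ := (gen_eq_jdF (⟨1, one_dvd d⟩ : DivIdx d)).symm
  rw [h1, wAutQ_gen, gen_eq_jdF]
  refine jdF_congr d ?_ _ _
  have := swapHall_val_of_eq (hallDvd_self d) (⟨1, one_dvd d⟩ : DivIdx d) (Q₁ := 1) (Q₂ := d)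
    (d' := 1) (one_mul d) (one_dvd _) (one_mul 1).symm
  rw [this, mul_one]

/-- `W_d j_d = j` at level `d` -/
theorem wAutQ_self_jdF (d : ℕ) [NeZero d] :
    wAutQ (hallDvd_self d) (jdF d d dvd_rfl) = jF d := by
  rw [← wAutQ_self_jF, wAutQ_wAutQ]

/-- **`j` is integral over `ℤ[j_d]` at level `d`** -/
theorem intRel_jdF_jF_self (d : ℕ) [NeZero d] : IntRel (jdF d d dvd_rfl) (jF d) := by
  have h := (intRel_jF_jdF d (dvd_refl d)).map
    ((wAutQ (hallDvd_self d) : FN d ≃ₐ[Kbar] FN d) : FN d →+* FN d)
  have e1 : ((wAutQ (hallDvd_self d) : FN d ≃ₐ[Kbar] FN d) : FN d →+* FN d) (jF d) =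
      jdF d d dvd_rfl := wAutQ_self_jF d
  have e2 : ((wAutQ (hallDvd_self d) : FN d ≃ₐ[Kbar] FN d) : FN d →+* FN d) (jdF d d dvd_rfl) =
      jF d := wAutQ_self_jdF d
  rw [e1, e2] at h
  exact h

variable (N : ℕ) [NeZero N]

/-- **ARITH-INT, second half: `j` is integral over `ℤ[j_d]`**, relation form -/
theorem intRel_jdF_jF {d : ℕ} [NeZero d] (hd : d ∣ N) : IntRel (jdF N d hd) (jF N) := by
  have h := (intRel_jdF_jF_self d).map ((inclFN hd : FN d →ₐ[Kbar] FN N) : FN d →+* FN N)
  have e1 : ((inclFN hd : FN d →ₐ[Kbar] FN N) : FN d →+* FN N) (jdF d d dvd_rfl) = jdF N d hd :=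
    inclFN_jdF hd dvd_rfl
  have e2 : ((inclFN hd : FN d →ₐ[Kbar] FN N) : FN d →+* FN N) (jF d) = jF N :=
    inclFN_jdF hd (one_dvd d)
  rw [e1, e2] at h
  exact h

/-- **ARITH-INT: `j_d` is integral over `ℤ[j_{d'}]`** for all `d, d' ∣ N`, relation form -/
theorem intRel_jdF_jdF {d d' : ℕ} [NeZero d] [NeZero d'] (hd : d ∣ N) (hd' : d' ∣ N) :
    IntRel (jdF N d' hd') (jdF N d hd) :=
  (intRel_jdF_jF N hd').trans (intRel_jF_jdF N hd)

/-- instance shortcut, as in Part 1 -/
local instance (priority := 2000) instAlgSubringFN' (T : Subring (FN N)) : Algebra T (FN N) :=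
  Algebra.ofSubsemiring T

/-- **ARITH-INT over any subring**: `j_d` is integral over every subring of `F_N` containing
`j_{d'}` (e.g. `R[j_{d'}]`) -/
theorem isIntegral_jdF_of_mem {d d' : ℕ} [NeZero d] [NeZero d'] (hd : d ∣ N) (hd' : d' ∣ N)
    (T : Subring (FN N)) (h : jdF N d' hd' ∈ T) : IsIntegral T (jdF N d hd) :=
  (intRel_jdF_jdF N hd hd').isIntegral T h

theorem isIntegral_closure_jdF_jF {d : ℕ} [NeZero d] (hd : d ∣ N) :
    IsIntegral (Subring.closure {jdF N d hd}) (jF N) :=
  (intRel_jdF_jF N hd).isIntegral _ (Subring.subset_closure rfl)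

theorem isIntegral_closure_jdF_jdF {d d' : ℕ} [NeZero d] [NeZero d'] (hd : d ∣ N) (hd' : d' ∣ N) :
    IsIntegral (Subring.closure {jdF N d' hd'}) (jdF N d hd) :=
  (intRel_jdF_jdF N hd hd').isIntegral _ (Subring.subset_closure rfl)

end Part2

/-! ### Part 3: over an arbitrary constant field of characteristic `0` -/

section Part3

open ModularCurve
open Fermat.Agent.S24 Fermat.Agent.S24_helper62
open Fermat.Agent.GK.Val.GaussBase Fermat.Agent.GK.Val.BaseChange Fermat.Agent.GL.Val.CuspCoeff

variable (N : ℕ) [NeZero N]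

theorem toFN_genC {L : Type*} [Field L] (ι₀ : L →+* Kbar) (A : ValuationSubring L) {d : ℕ}
    [NeZero d] (hd : d ∣ N) : toFN N ι₀ (genC L A N hd) = jdF N d hd := by
  apply Subtype.ext
  rw [coe_toFN, coe_genC, coeffMap_qExpand, coeffMap_jqModC]
  exact (Fermat.Agent.S24.Degree.jdSeries_eq d).symm

/-- **ARITH-INT over `ℚ`** -/
theorem intRel_genC_rat {d d' : ℕ} [NeZero d] [NeZero d'] (hd : d ∣ N) (hd' : d' ∣ N)
    (A : ValuationSubring ℚ) : IntRel (genC ℚ A N hd') (genC ℚ A N hd) := by
  apply IntRel.of_map (toFN N (algebraMap ℚ Kbar)) (toFN N (algebraMap ℚ Kbar)).injective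
  rw [toFN_genC, toFN_genC]
  exact intRel_jdF_jdF N hd hd'

/-- **ARITH-INT over every constant field `L` of characteristic `0`**: in
`L(X₀(N)) = modularFunctionFieldFullC L N`, the generator `j_d` is integral over `ℤ[j_{d'}]`
(relation form), for all `d, d' ∣ N`. -/
theorem intRel_genC {L : Type*} [Field L] [CharZero L] (A : ValuationSubring L) {d d' : ℕ}
    [NeZero d] [NeZero d'] (hd : d ∣ N) (hd' : d' ∣ N) :
    IntRel (genC L A N hd') (genC L A N hd) := by
  have h := (intRel_genC_rat N hd hd' ⊤).map (mapC (algebraMap ℚ L) N)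
  rw [mapC_genC (algebraMap ℚ L) ⊤ A N hd, mapC_genC (algebraMap ℚ L) ⊤ A N hd'] at h
  exact h

/-- instance shortcut -/
local instance (priority := 2000) instAlgSubringFullC {L : Type*} [Field L]
    (T : Subring (modularFunctionFieldFullC L N)) : Algebra T (modularFunctionFieldFullC L N) :=
  Algebra.ofSubsemiring T

/-- **ARITH-INT in helper84's `OldContraction` shape** (`hA1`, `hA2` of
`exists_chart_le_locSubring`): for every base subring `R` of `L(X₀(N))`, the generator `j_d` is
integral over `R[j_{d'}]`. -/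
theorem isIntegral_closure_union_genC {L : Type*} [Field L] [CharZero L] (A : ValuationSubring L)
    {d d' : ℕ} [NeZero d] [NeZero d'] (hd : d ∣ N) (hd' : d' ∣ N)
    (R : Subring (modularFunctionFieldFullC L N)) :
    IsIntegral (Subring.closure ((R : Set (modularFunctionFieldFullC L N)) ∪ {genC L A N hd'}))
      (genC L A N hd) :=
  (intRel_genC N A hd hd').isIntegral _ (Subring.subset_closure (Or.inr rfl))

/-- the same over every subring containing `j_{d'}` -/
theorem isIntegral_genC_of_mem {L : Type*} [Field L] [CharZero L] (A : ValuationSubring L)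
    {d d' : ℕ} [NeZero d] [NeZero d'] (hd : d ∣ N) (hd' : d' ∣ N)
    (T : Subring (modularFunctionFieldFullC L N)) (h : genC L A N hd' ∈ T) :
    IsIntegral T (genC L A N hd) :=
  (intRel_genC N A hd hd').isIntegral T h

/-- **same normal model**: `R[j_d]` and `R[j_{d'}]` have the same integral closure in `L(X₀(N))`,
for every base ring `R` (elementwise form; `Algebra.adjoin` version) -/
theorem isIntegral_adjoin_genC_iff {L : Type*} [Field L] [CharZero L] (A : ValuationSubring L)
    {d d' : ℕ} [NeZero d] [NeZero d'] (hd : d ∣ N) (hd' : d' ∣ N)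
    (R : Type*) [CommRing R] [Algebra R (modularFunctionFieldFullC L N)]
    (z : modularFunctionFieldFullC L N) :
    IsIntegral (Algebra.adjoin R {genC L A N hd}) z ↔
      IsIntegral (Algebra.adjoin R {genC L A N hd'}) z :=
  isIntegral_adjoin_iff (intRel_genC N A hd' hd) (intRel_genC N A hd hd') z

/-- `Subring.closure` version -/
theorem isIntegral_closure_union_genC_iff {L : Type*} [Field L] [CharZero L]
    (A : ValuationSubring L) {d d' : ℕ} [NeZero d] [NeZero d'] (hd : d ∣ N) (hd' : d' ∣ N)
    (R₀ : Set (modularFunctionFieldFullC L N)) (z : modularFunctionFieldFullC L N) :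
    IsIntegral (Subring.closure (R₀ ∪ {genC L A N hd})) z ↔
      IsIntegral (Subring.closure (R₀ ∪ {genC L A N hd'})) z :=
  isIntegral_closure_union_iff R₀ (intRel_genC N A hd' hd) (intRel_genC N A hd hd') z

end Part3

end Fermat.Agent.GL.Frame.ArithInt
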