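/-
GATE-L / ARITH-INT at the CUSPS = input (I2) of helper47's `GL/Frame/CuspPoints.atMostOne_of_cusp`
(helper87).

For EVERY level `N` and every `d ∣ N`: **`j_d · (1/j)^d` is integral over `ℤ[1/j]`** — in
`F_N = ℚ̄(X₀(N))` and in `L(X₀(N))` for every constant field `L` of characteristic `0`.

Proof (helper47's sketch, no modular polynomial): `Π(X) = ∏_c (X - σ_c(j_d))` has coefficients
`p_m(j)(t^N)` with `p_m ∈ ℤ[ζ_N][X]` (`ArithInt`, Part 1).  Every cusp expansion `σ_c(j_d)` has
order `-(N/d) gcd(c₁₀,d)² ≥ -N d` (`GL/Cusp/CuspOrd.expo_herm`), so scaling the roots by `t^{N d}`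
gives a polynomial without polar parts (`Polynomial.scaleRoots`), whence `deg p_m ≤ d (n - m)`.
Multiplying the relation `Σ p_m(j) j_d^m = 0` by `(1/j)^{d n}` gives the monic relation
`Σ [p_m(j) (1/j)^{d(n-m)}] (j_d/j^d)^m = 0` whose coefficients are the REFLECTED polynomials
`(reflect (d (n-m)) p_m)(1/j) ∈ ℤ[ζ_N][1/j]`.
-/
import Mathlib
import Fermat.Agent.GL.Frame.ArithInt
import Fermat.Agent.GL.Cusp.CuspOrd

set_option autoImplicit false

noncomputable section

namespace Fermat.Agent.GL.Frame.ArithInf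

open Polynomial
open Fermat.Agent.GL.Frame.ArithInt

/-! ### Laurent series without polar part -/

section Low

variable (K : Type*) [CommRing K]

/-- Laurent series all of whose coefficients of negative index vanish -/
def lowSubring : Subring (LaurentSeries K) where
  carrier := {x | ∀ n : ℤ, n < 0 → x.coeff n = 0}
  mul_mem' := by
    intro x y hx hy n hn
    rw [HahnSeries.coeff_mul]
    refine Finset.sum_eq_zero fun ij hij => ?_
    rw [Finset.mem_antidiagonal] at hij
    obtain ⟨-, -, h3⟩ := hij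
    by_cases h1 : ij.1 < 0
    · rw [hx _ h1, zero_mul]
    · have h2 : ij.2 < 0 := by omega
      rw [hy _ h2, mul_zero]
  one_mem' := by
    intro n hn
    have h : (1 : LaurentSeries K) = HahnSeries.single 0 1 := rfl
    rw [h, HahnSeries.coeff_single, if_neg hn.ne]
  add_mem' := by
    intro x y hx hy n hn
    rw [HahnSeries.coeff_add, hx n hn, hy n hn, add_zero]
  zero_mem' := by
    intro n _
    rw [HahnSeries.coeff_zero]
  neg_mem' := by
    intro x hx n hn
    rw [HahnSeries.coeff_neg, hx n hn, neg_zero]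

variable {K}

theorem mem_lowSubring {x : LaurentSeries K} :
    x ∈ lowSubring K ↔ ∀ n : ℤ, n < 0 → x.coeff n = 0 := Iff.rfl

/-- multiplying by `t^b` shifts the coefficients -/
theorem coeff_mul_single_one (x : LaurentSeries K) (b k : ℤ) :
    (x * HahnSeries.single b (1 : K)).coeff k = x.coeff (k - b) := by
  have h := HahnSeries.coeff_mul_single_add (r := (1 : K)) (x := x) (a := k - b) (b := b)
  rw [sub_add_cancel, mul_one] at h
  exact h

/-- a series whose coefficients vanish below `-b`, times `t^b`, has no polar part -/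
theorem mul_single_mem_lowSubring {x : LaurentSeries K} {b : ℤ}
    (hx : ∀ k : ℤ, k < -b → x.coeff k = 0) : x * HahnSeries.single b (1 : K) ∈ lowSubring K := by
  intro n hn
  rw [coeff_mul_single_one]
  exact hx _ (by omega)

theorem coeff_eq_zero_of_mul_single_mem {x : LaurentSeries K} {b : ℤ}
    (hx : x * HahnSeries.single b (1 : K) ∈ lowSubring K) {k : ℤ} (hk : k < -b) :
    x.coeff k = 0 := by
  have h := hx (k + b) (by omega)
  rw [coeff_mul_single_one, add_sub_cancel_right] at h
  exact h

end Low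

/-! ### The characteristic polynomial over the cusps, with degree bounds -/

section Char

open ModularCurve
open Fermat.Agent.S24 Fermat.Agent.S24_helper62 Fermat.Agent.S24.Degree
open Fermat.Agent.S28 Fermat.Agent.S28.CuspExp Fermat.Agent.S28.Assemble
open Fermat.Agent.GK.Val Fermat.Agent.GL.CuspVal

variable (N : ℕ) [NeZero N]

/-- the number of cusps `ψ(N)` -/
abbrev nCusp : ℕ := Fintype.card (I0 N)

/-- **the characteristic polynomial with a pole bound.**  `a ∈ ℚ̄[j_d : d ∣ N]` with all cusp
expansions in `S((t))` and vanishing below `-N D`: then `a` is a root of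
`X^n + Σ_{m<n} p_m(j) X^m` with `p_m ∈ S[X]` of degree `≤ D (n - m)`. -/
theorem exists_coeffs_natDegree_le (a : FN N) (ha : a ∈ Degree.RN N) (S : Subring Kbar)
    (hS : ∀ c : I0 N, cuspSigma N c a ∈ coeffSubring S) (D : ℕ)
    (hD : ∀ (c : I0 N) (k : ℤ), k < -((N * D : ℕ) : ℤ) → (cuspSigma N c a).coeff k = 0) :
    ∃ p : ℕ → Kbar[X], (∀ m i, (p m).coeff i ∈ S) ∧
      (∀ m, m ≤ nCusp N → (p m).natDegree ≤ D * (nCusp N - m)) ∧
      aeval (jF N) (p (nCusp N)) = 1 ∧
      ∑ m ∈ Finset.range (nCusp N + 1), aeval (jF N) (p m) * a ^ m = 0 := by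
  classical
  set Pi0 : (LaurentSeries Kbar)[X] := ∏ c : I0 N, (X - Polynomial.C (cuspSigma N c a)) with hPi
  have hPimonic : Pi0.Monic :=
    Polynomial.monic_prod_of_monic _ _ fun c _ => Polynomial.monic_X_sub_C _
  have hPideg : Pi0.natDegree = nCusp N := by
    rw [hPi, Polynomial.natDegree_prod_of_monic _ _ fun c _ => Polynomial.monic_X_sub_C _]
    simp [nCusp]
  -- the coefficients of `Pi0` are `p_m(j)(t^N)`
  have hsym : ∀ m, ∃ p : Kbar[X], qExpand Kbar N (aeval (jqModC Kbar) p) = Pi0.coeff m := by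
    intro m
    obtain ⟨y, hy, hym⟩ := cuspSigma_sym N a ha m
    rw [SetLike.mem_coe, Algebra.adjoin_singleton_eq_range_aeval] at hy
    obtain ⟨p, rfl⟩ := hy
    exact ⟨p, hym⟩
  choose p hp using hsym
  have hPiS : ∀ m, Pi0.coeff m ∈ coeffSubring S :=
    fun m => coeff_prod_X_sub_C_mem (coeffSubring S) Finset.univ _ hS m
  have hpS : ∀ m i, (p m).coeff i ∈ S := by
    intro m i
    obtain ⟨Q, hQ⟩ := Fermat.Agent.S28.PolyDescent.exists_map_eq_of_coeff_qExpand_mem_range
      S.subtype N (p m) (fun k => by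
        rw [hp m]
        exact ⟨⟨_, hPiS m k⟩, rfl⟩)
    rw [← hQ, Polynomial.coeff_map]
    exact (Q.coeff i).2
  let σ : FN N →+* LaurentSeries Kbar := (cuspSigma N (i0 N)).toRingHom
  have hσinj : Function.Injective σ := σ.injective
  have hσp : ∀ m, σ (aeval (jF N) (p m)) = Pi0.coeff m := by
    intro m
    have h1 : σ (aeval (jF N) (p m)) = aeval (cuspSigma N (i0 N) (jF N)) (p m) :=
      (Polynomial.aeval_algHom_apply (cuspSigma N (i0 N)) (jF N) (p m)).symm
    rw [h1, cuspSigma_jF, ← hp m]
    exact Polynomial.aeval_algHom_apply (qExpandAlgHomC Kbar N) (jqModC Kbar) (p m)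
  -- scaling the roots by `u = t^{N D}`
  set u : LaurentSeries Kbar := HahnSeries.single ((N * D : ℕ) : ℤ) (1 : Kbar) with hu
  have hscale : Pi0.scaleRoots u = ∏ c : I0 N, (X - Polynomial.C (cuspSigma N c a * u)) := by
    rw [hPi]
    have key : ∀ t : Finset (I0 N),
        (∏ c ∈ t, (X - Polynomial.C (cuspSigma N c a))).scaleRoots u =
          ∏ c ∈ t, (X - Polynomial.C (cuspSigma N c a * u)) := by
      intro t
      induction t using Finset.induction_on with
      | empty => simp
      | insert c t hc ih =>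
        rw [Finset.prod_insert hc, Finset.prod_insert hc,
          Polynomial.mul_scaleRoots_of_noZeroDivisors, ih, Polynomial.X_sub_C_scaleRoots]
    exact key Finset.univ
  have hlow : ∀ m, (Pi0.scaleRoots u).coeff m ∈ lowSubring Kbar := by
    intro m
    rw [hscale]
    exact coeff_prod_X_sub_C_mem (lowSubring Kbar) Finset.univ _
      (fun c => mul_single_mem_lowSubring (hD c)) m
  refine ⟨p, hpS, ?_, ?_, ?_⟩
  · -- the degree bound
    intro m hm
    by_contra hcon
    rw [not_le] at hcon
    have h0 : p m ≠ 0 := by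
      rintro h0
      rw [h0, Polynomial.natDegree_zero] at hcon
      exact Nat.not_lt_zero _ hcon
    -- the coefficient of `Pi0.coeff m` at `-N deg` is the leading coefficient
    have h1 : (Pi0.coeff m).coeff ((N : ℤ) * (-((p m).natDegree : ℤ))) = (p m).leadingCoeff := by
      rw [← hp m, qExpand_coeff_mul,
        Fermat.Agent.S28.PolyDescent.coeff_aeval_jqModC_neg_natDegree]
    -- but it vanishes
    have h2 := hlow m
    rw [Polynomial.coeff_scaleRoots, hPideg, hu, HahnSeries.single_pow, one_pow] at h2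
    have h3 := coeff_eq_zero_of_mul_single_mem h2
      (k := (N : ℤ) * (-((p m).natDegree : ℤ))) (by
        rw [nsmul_eq_mul]
        push_cast
        have hN : (0 : ℤ) < N := by exact_mod_cast Nat.pos_of_ne_zero (NeZero.ne N)
        have h4 : ((D * (nCusp N - m) : ℕ) : ℤ) < ((p m).natDegree : ℤ) := by exact_mod_cast hcon
        have h5 : (((nCusp N - m : ℕ) : ℤ)) * ((N : ℤ) * (D : ℤ)) =
            (N : ℤ) * ((D * (nCusp N - m) : ℕ) : ℤ) := by push_cast; ring
        rw [h5]
        nlinarith)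
    rw [h1] at h3
    exact h0 (Polynomial.leadingCoeff_eq_zero.mp h3)
  · apply hσinj
    rw [hσp, ← hPideg, map_one]
    exact hPimonic.coeff_natDegree
  · apply hσinj
    rw [map_zero, map_sum]
    have h1 : ∀ m, σ (aeval (jF N) (p m) * a ^ m) = Pi0.coeff m * (σ a) ^ m := by
      intro m
      rw [map_mul, map_pow, hσp]
    simp only [h1]
    have h2 : Pi0.eval (σ a) = 0 := by
      rw [hPi, Polynomial.eval_prod]
      refine Finset.prod_eq_zero (Finset.mem_univ (i0 N)) ?_
      rw [Polynomial.eval_sub, Polynomial.eval_X, Polynomial.eval_C]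
      exact sub_self _
    rw [Polynomial.eval_eq_sum_range, hPideg] at h2
    exact h2

/-- instance shortcut, as in `ArithInt` -/
local instance (priority := 2000) instAlgSubringFNInf (T : Subring (FN N)) : Algebra T (FN N) :=
  Algebra.ofSubsemiring T

/-- **integrality at the cusps from the cusp expansions.**  `a ∈ ℚ̄[j_d : d ∣ N]` whose cusp
expansions have coefficients integral over `ℤ` and pole orders `≤ N D`: then `a · (1/j)^D` is
integral over `ℤ[1/j]`. -/
theorem isIntegral_closure_inv_jF_of_cuspSigma (a : FN N) (ha : a ∈ Degree.RN N)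
    (S : Subring Kbar) (hSint : ∀ c ∈ S, IsIntegral ℤ c)
    (hS : ∀ c : I0 N, cuspSigma N c a ∈ coeffSubring S) (D : ℕ)
    (hD : ∀ (c : I0 N) (k : ℤ), k < -((N * D : ℕ) : ℤ) → (cuspSigma N c a).coeff k = 0) :
    IsIntegral (Subring.closure {(jF N)⁻¹}) (a * (jF N)⁻¹ ^ D) := by
  classical
  obtain ⟨p, hpS, hpdeg, hpone, hprel⟩ := exists_coeffs_natDegree_le N a ha S hS D hD
  set n := nCusp N with hn
  set w : FN N := (jF N)⁻¹ with hw
  have hj0 : jF N ≠ 0 := by
    intro h0
    have h1 := cuspSigma_jF N (i0 N)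
    rw [h0, map_zero] at h1
    have h2 : jqModC Kbar = 0 := by
      apply qExpand_injective (R := Kbar) N
      rw [← h1, map_zero]
    exact jqModC_ne_zero_of_nontrivial Kbar h2
  have hjw : jF N * w = 1 := mul_inv_cancel₀ hj0
  -- the coefficients `p_m(j) w^{D(n-m)}` are polynomials in `w`
  have hcoef : ∀ m, m ≤ n → aeval (jF N) (p m) * w ^ (D * (n - m)) =
      aeval w ((p m).reflect (D * (n - m))) := by
    intro m hm
    let _ : Invertible (jF N) := invertibleOfNonzero hj0
    have h1 := Polynomial.eval₂_reflect_mul_pow (algebraMap Kbar (FN N)) (jF N)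
      (D * (n - m)) (p m) (hpdeg m hm)
    rw [invOf_eq_inv] at h1
    rw [Polynomial.aeval_def, Polynomial.aeval_def, ← h1, mul_assoc, ← mul_pow, hjw, one_pow,
      mul_one]
  -- the monic polynomial
  set Q : (FN N)[X] := ∑ m ∈ Finset.range (n + 1),
    monomial m (aeval (jF N) (p m) * w ^ (D * (n - m))) with hQ
  have hQcoeff : ∀ m, Q.coeff m = if m ≤ n then aeval (jF N) (p m) * w ^ (D * (n - m)) else 0 := by
    intro m
    rw [hQ, Polynomial.finsetSum_coeff]
    by_cases hm : m ≤ n
    · rw [if_pos hm, Finset.sum_eq_single_of_mem m (Finset.mem_range.mpr (Nat.lt_succ_of_le hm))]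
      · rw [Polynomial.coeff_monomial, if_pos rfl]
      · intro b _ hb
        rw [Polynomial.coeff_monomial, if_neg hb]
    · rw [if_neg hm]
      refine Finset.sum_eq_zero fun b hb => ?_
      rw [Polynomial.coeff_monomial, if_neg]
      rintro rfl
      exact hm (Nat.lt_succ_iff.mp (Finset.mem_range.mp hb))
  have hQmonic : Q.Monic := by
    refine Polynomial.monic_of_natDegree_le_of_coeff_eq_one n ?_ ?_
    · rw [Polynomial.natDegree_le_iff_coeff_eq_zero]
      intro m hm
      rw [hQcoeff, if_neg (not_le.mpr hm)]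
    · rw [hQcoeff, if_pos le_rfl, Nat.sub_self, mul_zero, pow_zero, mul_one, hpone]
  have hQroot : Q.eval (a * w ^ D) = 0 := by
    rw [hQ, Polynomial.eval_finsetSum]
    have h1 : ∀ m ∈ Finset.range (n + 1),
        (monomial m (aeval (jF N) (p m) * w ^ (D * (n - m)))).eval (a * w ^ D) =
          w ^ (D * n) * (aeval (jF N) (p m) * a ^ m) := by
      intro m hm
      have hmn : m ≤ n := Nat.lt_succ_iff.mp (Finset.mem_range.mp hm)
      rw [Polynomial.eval_monomial, mul_pow, ← pow_mul]
      have h2 : D * n = D * (n - m) + D * m := by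
        rw [← Nat.mul_add, Nat.sub_add_cancel hmn]
      rw [h2, pow_add]
      ring
    rw [Finset.sum_congr rfl h1, ← Finset.mul_sum, hprel, mul_zero]
  refine isIntegral_of_monic_of_coeff_isIntegral _ Q hQmonic (fun m => ?_) hQroot
  rw [hQcoeff]
  split_ifs with hm
  · rw [hcoef m hm, Polynomial.aeval_eq_sum_range]
    refine IsIntegral.sum _ fun i _ => ?_
    rw [Algebra.smul_def]
    refine IsIntegral.mul (isIntegral_algebraMap_of_int N _ (hSint _ ?_)) (IsIntegral.pow ?_ i)
    · rw [Polynomial.coeff_reflect]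
      exact hpS m _
    · exact isIntegral_algebraMap (R := Subring.closure {w}) (x := ⟨w, Subring.subset_closure rfl⟩)
  · exact isIntegral_zero

/-- the pole order of `j_d` at every cusp is at most `N d` -/
theorem coeff_cuspSigma_jdF_eq_zero {d : ℕ} [NeZero d] (hd : d ∣ N) (c : I0 N) {k : ℤ}
    (hk : k < -((N * d : ℕ) : ℤ)) : (cuspSigma N c (jdF N d hd)).coeff k = 0 := by
  rw [cuspSigma_jdF, hermiteSer]
  have hne : NeZero ((herm N c ⟨d, hd⟩).expo N) :=
    neZero_expo N (Nat.pos_of_ne_zero (NeZero.ne N)) hd _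
  refine jCusp_coeff_of_lt _ _ (lt_of_lt_of_le hk ?_)
  rw [neg_le_neg_iff, Fermat.Agent.GL.CuspOrd.expo_herm]
  have hg : Fermat.Agent.GL.CuspOrd.cuspGcd N c d ≤ d :=
    Nat.le_of_dvd (Nat.pos_of_ne_zero (NeZero.ne d)) (Fermat.Agent.GL.CuspOrd.cuspGcd_dvd N c d)
  have h1 : N / d * Fermat.Agent.GL.CuspOrd.cuspGcd N c d ^ 2 ≤ N / d * d ^ 2 :=
    Nat.mul_le_mul_left _ (Nat.pow_le_pow_left hg 2)
  have h2 : N / d * d ^ 2 = N * d := by
    rw [pow_two, ← mul_assoc, Nat.div_mul_cancel hd]
  exact_mod_cast h1.trans h2.le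

/-- **(I2): `j_d · (1/j)^d` is integral over `ℤ[1/j]`**, for every `d ∣ N` -/
theorem isIntegral_closure_inv_jF_jdF {d : ℕ} [NeZero d] (hd : d ∣ N) :
    IsIntegral (Subring.closure {(jF N)⁻¹}) (jdF N d hd * (jF N)⁻¹ ^ d) := by
  refine isIntegral_closure_inv_jF_of_cuspSigma N _
    (genSet_subset_RN N (jdF_mem_genSet N d hd)) (zetaRing N)
    (fun c hc => isIntegral_of_mem_zetaRing N hc) (fun c => ?_) d
    (fun c k hk => coeff_cuspSigma_jdF_eq_zero N hd c hk)
  rw [cuspSigma_jdF]
  exact hermiteSer_mem_coeffSubring N _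

/-- the same in relation form -/
theorem intRel_inv_jF_jdF {d : ℕ} [NeZero d] (hd : d ∣ N) :
    IntRel (jF N)⁻¹ (jdF N d hd * (jF N)⁻¹ ^ d) :=
  intRel_of_isIntegral (isIntegral_closure_inv_jF_jdF N hd)

end Char

/-! ### Over an arbitrary constant field of characteristic `0` -/

section OverL

open ModularCurve
open Fermat.Agent.S24 Fermat.Agent.S24_helper62
open Fermat.Agent.GK.Val.GaussBase Fermat.Agent.GK.Val.BaseChange Fermat.Agent.GL.Val.CuspCoeff

variable (N : ℕ) [NeZero N]

/-- (I2) over `ℚ` -/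
theorem intRel_inv_genC_rat {d : ℕ} [NeZero d] (hd : d ∣ N) (A : ValuationSubring ℚ) :
    IntRel (genC ℚ A N (one_dvd N))⁻¹ (genC ℚ A N hd * (genC ℚ A N (one_dvd N))⁻¹ ^ d) := by
  apply IntRel.of_map (toFN N (algebraMap ℚ Kbar)) (toFN N (algebraMap ℚ Kbar)).injective
  rw [map_mul, map_pow, map_inv₀, toFN_genC, toFN_genC]
  exact intRel_inv_jF_jdF N hd

/-- **(I2) over every constant field `L` of characteristic `0`**, relation form:
`j_d · (1/j)^d` is integral over `ℤ[1/j]` in `L(X₀(N))` -/
theorem intRel_inv_genC {L : Type*} [Field L] [CharZero L] (A : ValuationSubring L) {d : ℕ}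
    [NeZero d] (hd : d ∣ N) :
    IntRel (genC L A N (one_dvd N))⁻¹ (genC L A N hd * (genC L A N (one_dvd N))⁻¹ ^ d) := by
  have h := (intRel_inv_genC_rat N hd ⊤).map (mapC (algebraMap ℚ L) N)
  rw [map_mul, map_pow, map_inv₀, mapC_genC (algebraMap ℚ L) ⊤ A N hd,
    mapC_genC (algebraMap ℚ L) ⊤ A N (one_dvd N)] at h
  exact h

/-- instance shortcut -/
local instance (priority := 2000) instAlgSubringFullCInf {L : Type*} [Field L]
    (T : Subring (modularFunctionFieldFullC L N)) : Algebra T (modularFunctionFieldFullC L N) :=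
  Algebra.ofSubsemiring T

/-- **(I2) in helper47's `CuspPoints.atMostOne_of_cusp` shape** (`hI2`): for every base subring
`R'` of `L(X₀(N))`, `j_d · (1/j)^d` is integral over `R'[1/j]`. -/
theorem isIntegral_closure_union_inv_genC {L : Type*} [Field L] [CharZero L]
    (A : ValuationSubring L) {d : ℕ} [NeZero d] (hd : d ∣ N)
    (R' : Subring (modularFunctionFieldFullC L N)) :
    IsIntegral
      (Subring.closure ((R' : Set (modularFunctionFieldFullC L N)) ∪
        {(genC L A N (one_dvd N))⁻¹}))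
      (genC L A N hd * (genC L A N (one_dvd N))⁻¹ ^ d) :=
  (intRel_inv_genC N A hd).isIntegral _ (Subring.subset_closure (Or.inr rfl))

/-- the same over every subring containing `1/j` -/
theorem isIntegral_inv_genC_of_mem {L : Type*} [Field L] [CharZero L]
    (A : ValuationSubring L) {d : ℕ} [NeZero d] (hd : d ∣ N)
    (T : Subring (modularFunctionFieldFullC L N)) (h : (genC L A N (one_dvd N))⁻¹ ∈ T) :
    IsIntegral T (genC L A N hd * (genC L A N (one_dvd N))⁻¹ ^ d) :=
  (intRel_inv_genC N A hd).isIntegral T h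

end OverL

end Fermat.Agent.GL.Frame.ArithInf
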