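import Fermat.Agent.GL.Thick.NodesSS
import Fermat.Agent.GL.Red.BRingK0

/-!
# GATE-L / (C3) of the (A1) classification (helper65): two-branch points = supersingular points,
at level `N' ℓ` over `R₀`

Setting: `ℓ ∥ N = N' ℓ`, `A` over `ℓ`, `K₀ = ℚ̄^{I_A}`, `R₀ = A ∩ K₀`, `B' = BRingK0 N' ℓ A h`
(helper96: the `K₀`-rational functions of level `N' ℓ`, integral over `K₀[j]`, `w₁, w₂ ≥ 0`
`=` the integral closure of `R₀[j]`), `C = CRing N' A`, `red_i = redC_iK0 : B' → C`,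
`P'₁ = ker red₁` (`P1K0`), `P'₂ = ker red₂` (`P2K0`), `pH = ssPolyAll ℓ k`.

* `aeval_pow_ssPolyAll` : `pH ∈ 𝔽_ℓ[X]` : `pH(y ^ ℓ) = pH(y) ^ ℓ` in every `k`-algebra;
* `psiC_ssPolyAll : Ψ (pH(j~)) = pH(j~) ^ ℓ`;
* `cstK0 : R₀ →+* B'`, `jK0B : B'`, `resR0 : R₀ →+* k`, `redC1K0_eval₂`, `redC2K0_eval₂`,
  `exists_lift_ssPolyAll` : the supersingular element `s' = p̃(j)`, `p̃ ∈ R₀[X]` a lift of `pH`, has
  `red₁ s' = pH(j~)`, `red₂ s' = pH(j~) ^ ℓ`;
* **`ss_mem_of_le`** (`hnode_ss` of helper47 `ClassifySS`) : a prime `x' ⊇ P'₁ + P'₂` contains `s'`;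
* **`le_of_ss_mem`** (`hss_node`) : a prime `x'` containing `s'` and one of `P'₁, P'₂` contains both;
* the `C`-level twin `comap_psiC_le_iff` : `Ψ⁻¹(J') ≤ P ↔ J' ≤ P` for primes `P` of `C`
  (the nodes seen from the second branch are the same points).
-/

set_option autoImplicit false
set_option linter.unusedSectionVars false
set_option linter.style.haveILetI false

noncomputable section

namespace Fermat.Agent.GL.Thick

open HahnSeries ModularCurve IsLocalRing Polynomial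
open Fermat.Agent.S24 Fermat.Agent.GJ.J1 Fermat.Agent.GJ.J1.Val Fermat.Agent.S28
open Fermat.Agent.GK.AL Fermat.Agent.GK.QS Fermat.Agent.GK.FrobGlue Fermat.Agent.GL.Eta
open Fermat.Agent.GL.SmallQ
open Fermat.Agent.GL.Val.GaussK0 Fermat.Agent.GL.Val.SecondK0 Fermat.Agent.GL.Val.DegBase
open Fermat.Agent.GL.BRingK0

/-! ### `pH` has coefficients in `𝔽_ℓ` -/

section Frob

variable (q : ℕ) [Fact q.Prime] [NeZero q] (k : Type*) [Field k] [CharP k q]

/-- `(aeval y f) ^ q = aeval (y ^ q) (f.map frob)` in every `k`-algebra -/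
theorem aeval_pow_char {C : Type*} [CommRing C] [Algebra k C] (f : k[X]) (y : C) :
    aeval y f ^ q = aeval (y ^ q) (f.map (frobenius k q)) := by
  rw [← map_pow, ← map_frobenius_expand, map_expand, expand_aeval]

/-- coefficientwise maps commute with evaluation of polynomials at Laurent series -/
theorem coeffMap_aeval_ssK0 {R S : Type*} [Field R] [Field S] (f : R →+* S) (p : R[X])
    (x : LaurentSeries R) :
    coeffMap f (aeval x p) = aeval (coeffMap f x) (p.map f) := by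
  rw [aeval_def, aeval_def, hom_eval₂, eval₂_map]
  congr 1
  refine RingHom.ext fun a => ?_
  simp only [RingHom.comp_apply]
  rw [algebraMap_laurentSeries_eq_single, algebraMap_laurentSeries_eq_single, coeffMap_single]

/-- **`pH ∈ 𝔽_q[X]`** -/
theorem ssPolyAll_map_frobenius : (ssPolyAll q k).map (frobenius k q) = ssPolyAll q k := by
  have h1 : aeval (jqModC k) ((ssPolyAll q k).map (frobenius k q)) =
      aeval (jqModC k) (ssPolyAll q k) := by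
    have h2 := coeffMap_aeval_ssK0 (frobenius k q) (ssPolyAll q k) (jqModC k)
    rw [coeffMap_jqModC, ← uInvS_eq_ssPolyAll q k, coeffMap_uInvS] at h2
    rw [← h2, uInvS_eq_ssPolyAll q k]
  have htr := transcendental_jqModC k
  rw [transcendental_iff_injective] at htr
  exact htr h1

/-- **`pH(y ^ q) = pH(y) ^ q`** in every `k`-algebra -/
theorem aeval_pow_ssPolyAll {C : Type*} [CommRing C] [Algebra k C] (y : C) :
    aeval (y ^ q) (ssPolyAll q k) = aeval y (ssPolyAll q k) ^ q := by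
  rw [aeval_pow_char q k, ssPolyAll_map_frobenius]

end Frob

variable {N' : ℕ} [NeZero N'] {ℓ : ℕ} [Fact ℓ.Prime] [NeZero ℓ]
variable {A : ValuationSubring Kbar} {h : ExactDvd ℓ (N' * ℓ)}
variable (hℓN : ¬ ℓ ∣ N') (hA : A.LiesOverPrime ℓ)

local notation "kA" => IsLocalRing.ResidueField A
local notation "F0" => modularFunctionFieldFullC (K0 A) (N' * ℓ)

/-! ### `Ψ` and the supersingular polynomial -/

theorem psiC_jtC : psiC N' ℓ A hℓN hA (jtC N' A) = jtC N' A ^ ℓ := by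
  apply Subtype.ext
  rw [coe_psiC]
  show psiF N' ℓ A hℓN hA (Fermat.Agent.GK.QS.jt N' A) = _
  rw [psiF_jt]
  rfl

/-- **`Ψ (pH(j~)) = pH(j~) ^ ℓ`** -/
theorem psiC_ssPolyAll :
    psiC N' ℓ A hℓN hA
        (aeval (jtC N' A) (@ssPolyAll ℓ _ kA _ (charP_residue A Fact.out hA))) =
      aeval (jtC N' A) (@ssPolyAll ℓ _ kA _ (charP_residue A Fact.out hA)) ^ ℓ := by
  have : CharP kA ℓ := charP_residue A Fact.out hA
  rw [← aeval_algHom_apply, psiC_jtC, aeval_pow_ssPolyAll ℓ kA]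

/-- **the nodes seen from the second branch**: for a prime `P` of `C`,
`Ψ⁻¹(J') ≤ P ↔ J' ≤ P` -/
theorem comap_psiC_le_iff {J' : Ideal (CRing N' A)}
    (hJ : fixIdeal (psiC N' ℓ A hℓN hA) ≤ J')
    (hJ' : BT N' ℓ A h = gluedAlg (psiC N' ℓ A hℓN hA) J')
    (P : Ideal (CRing N' A)) [hP : P.IsPrime] :
    J'.comap (psiC N' ℓ A hℓN hA).toRingHom ≤ P ↔ J' ≤ P := by
  have : CharP kA ℓ := charP_residue A Fact.out hA
  constructor
  · intro hle
    -- `pH(j~) ∈ Ψ⁻¹(J')` since `Ψ (pH(j~)) = pH(j~)^ℓ ∈ J'`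
    rw [le_prime_iff_ssPolyAll_mem hℓN hA hJ' P]
    apply hle
    rw [Ideal.mem_comap]
    show psiC N' ℓ A hℓN hA _ ∈ J'
    rw [psiC_ssPolyAll]
    exact Ideal.pow_mem_of_mem _ (ssPolyAll_mem_ideal hℓN hA hJ') _ (Fact.out : ℓ.Prime).pos
  · intro hle c hc
    rw [Ideal.mem_comap] at hc
    have hc' : psiC N' ℓ A hℓN hA c ∈ J' := hc
    obtain ⟨n, d, hd⟩ := exists_pow_mem_span_ssPolyAll hℓN hA hJ' hc'
    -- apply `Ψ`
    have h1 : psiC N' ℓ A hℓN hA (psiC N' ℓ A hℓN hA c) ^ n =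
        aeval (jtC N' A) (ssPolyAll ℓ kA) ^ ℓ * psiC N' ℓ A hℓN hA d := by
      rw [← map_pow, hd, map_mul, psiC_ssPolyAll]
    have h2 : psiC N' ℓ A hℓN hA (psiC N' ℓ A hℓN hA c) ∈ P := by
      apply hP.mem_of_pow_mem n
      rw [h1]
      exact Ideal.mul_mem_right _ _
        (Ideal.pow_mem_of_mem _ (hle (ssPolyAll_mem_ideal hℓN hA hJ')) _
          (Fact.out : ℓ.Prime).pos)
    have h3 : c - psiC N' ℓ A hℓN hA (psiC N' ℓ A hℓN hA c) ∈ P :=
      hle (hJ (sub_mem_fixIdeal _ c))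
    have := P.add_mem h3 h2
    rwa [sub_add_cancel] at this

/-! ### constants and `j` in `B'` -/

variable (N' ℓ A h) in
/-- the constants `R₀ → B'` -/
def cstK0 : R0 A →+* BRingK0 N' ℓ A h :=
  ((algebraMap (K0 A) F0).comp (R0 A).subtype).codRestrict (BRingK0 N' ℓ A h)
    (fun a => algebraMap_mem_BRingK0 N' ℓ A h a)

variable (N' ℓ A h) in
/-- `j` as an element of `B'` -/
def jK0B : BRingK0 N' ℓ A h := ⟨jC (N' * ℓ) (K0 A), jC_mem_BRingK0 N' ℓ A h⟩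

variable (A) in
/-- the residue map `R₀ → k` -/
def resR0 : R0 A →+* kA := (resMapK0 A).comp (IsLocalRing.residue (R0 A))

theorem resR0_surjective (hA : A.LiesOverPrime ℓ) : Function.Surjective (resR0 A) := by
  have hq : ℓ.Prime := Fact.out
  exact (resMapK0_bijective A hq hA).2.comp IsLocalRing.residue_surjective

/-! ### reductions of constants, of `j`, and of polynomials in `j` -/

theorem rho1_jF (hB : jF (N' * ℓ) ∈ BRing N' ℓ A h) :
    rho1 N' ℓ A h ⟨jF (N' * ℓ), hB⟩ = jqModC kA := by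
  rw [rho1_apply]
  exact Fermat.Agent.GK.Val.Degrees.coe_red_jF' (N' * ℓ) A hB.2.1

theorem rho2_jF (hA : A.LiesOverPrime ℓ) (hB : jF (N' * ℓ) ∈ BRing N' ℓ A h) :
    rho2 N' ℓ A h ⟨jF (N' * ℓ), hB⟩ = jqModC kA ^ ℓ := by
  have : CharP kA ℓ := charP_residue A Fact.out hA
  have hq : jdF (N' * ℓ) ℓ (dvd_mul_left ℓ N') ∈ (redDataBar (N' * ℓ) A).Rw :=
    Fermat.Agent.GK.Val.Degrees.jdF_mem_Rw (N' * ℓ) A _
  rw [rho2_apply, Fermat.Agent.GK.Val.TwoVal.red2_jF N' ℓ A h hB.2.2 hq,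
    Fermat.Agent.GK.Val.Degrees.coe_red_jdF]
  exact Fermat.Agent.GJ.J3.QS.qExpand_jqModC_char ℓ

theorem toBRing_jK0B :
    toBRing N' ℓ A h (jK0B N' ℓ A h) =
      ⟨jF (N' * ℓ), (Fermat.Agent.GL.RatBRing.mapK0Bar_jC A (N' * ℓ)) ▸
        (toBRing N' ℓ A h (jK0B N' ℓ A h)).2⟩ :=
  Subtype.ext (Fermat.Agent.GL.RatBRing.mapK0Bar_jC A (N' * ℓ))

theorem redC1K0_jK0B : redC1K0 h hℓN hA (jK0B N' ℓ A h) = jtC N' A := by
  apply cVal_injective N' A
  rw [cVal_redC1K0, cVal_jtC, toBRing_jK0B, rho1_jF]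

theorem redC2K0_jK0B : redC2K0 h hℓN hA (jK0B N' ℓ A h) = jtC N' A ^ ℓ := by
  apply cVal_injective N' A
  rw [cVal_redC2K0, map_pow, cVal_jtC, toBRing_jK0B, rho2_jF hA]

theorem toBRing_cstK0 (a : R0 A) :
    toBRing N' ℓ A h (cstK0 N' ℓ A h a) =
      ⟨algebraMap Kbar (FN (N' * ℓ))
          ((Fermat.Agent.GK.Val.BaseChange.ιA (ι0 A) (R0 A) A (hA0 A) a : A) : Kbar),
        algebraMap_mem_BRing _⟩ :=
  Subtype.ext (mapK0Bar_algebraMap A (N' * ℓ) (a : K0 A))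

theorem redC1K0_cstK0 (a : R0 A) :
    redC1K0 h hℓN hA (cstK0 N' ℓ A h a) = algebraMap kA (CRing N' A) (resR0 A a) := by
  apply cVal_injective N' A
  rw [cVal_redC1K0, toBRing_cstK0, rho1_algebraMap, AlgHom.commutes]
  rfl

theorem redC2K0_cstK0 (a : R0 A) :
    redC2K0 h hℓN hA (cstK0 N' ℓ A h a) = algebraMap kA (CRing N' A) (resR0 A a) := by
  apply cVal_injective N' A
  rw [cVal_redC2K0, toBRing_cstK0, rho2_algebraMap, AlgHom.commutes]
  rfl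

/-- `red₁ (p̃(j)) = p(j~)`, `p = p̃ mod 𝔪` -/
theorem redC1K0_eval₂ (p : (R0 A)[X]) :
    redC1K0 h hℓN hA (p.eval₂ (cstK0 N' ℓ A h) (jK0B N' ℓ A h)) =
      aeval (jtC N' A) (p.map (resR0 A)) := by
  rw [hom_eval₂, redC1K0_jK0B, aeval_def, eval₂_map]
  congr 1
  exact RingHom.ext fun a => redC1K0_cstK0 hℓN hA a

/-- `red₂ (p̃(j)) = p(j~ ^ ℓ)` -/
theorem redC2K0_eval₂ (p : (R0 A)[X]) :
    redC2K0 h hℓN hA (p.eval₂ (cstK0 N' ℓ A h) (jK0B N' ℓ A h)) =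
      aeval (jtC N' A ^ ℓ) (p.map (resR0 A)) := by
  rw [hom_eval₂, redC2K0_jK0B, aeval_def, eval₂_map]
  congr 1
  exact RingHom.ext fun a => redC2K0_cstK0 hℓN hA a

/-- the supersingular polynomial lifts to `R₀[X]` -/
theorem exists_lift_ssPolyAll (hA : A.LiesOverPrime ℓ) :
    ∃ p : (R0 A)[X], p.map (resR0 A) =
      @ssPolyAll ℓ _ kA _ (charP_residue A Fact.out hA) :=
  Polynomial.map_surjective _ (resR0_surjective hA) _

/-- **the supersingular element of `B'`**: `s' = p̃(j)` has `red₁ s' = pH(j~)`,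
`red₂ s' = pH(j~) ^ ℓ` -/
theorem redC_ssLift {p : (R0 A)[X]}
    (hp : p.map (resR0 A) = @ssPolyAll ℓ _ kA _ (charP_residue A Fact.out hA)) :
    redC1K0 h hℓN hA (p.eval₂ (cstK0 N' ℓ A h) (jK0B N' ℓ A h)) =
        aeval (jtC N' A) (@ssPolyAll ℓ _ kA _ (charP_residue A Fact.out hA)) ∧
      redC2K0 h hℓN hA (p.eval₂ (cstK0 N' ℓ A h) (jK0B N' ℓ A h)) =
        aeval (jtC N' A) (@ssPolyAll ℓ _ kA _ (charP_residue A Fact.out hA)) ^ ℓ := by
  have : CharP kA ℓ := charP_residue A Fact.out hA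
  refine ⟨by rw [redC1K0_eval₂, hp], ?_⟩
  rw [redC2K0_eval₂, hp, aeval_pow_ssPolyAll ℓ kA]

/-! ### (C3) : two-branch points = supersingular points -/

/-- the vertical prime `P'₁ = {w₁ > 0}` of `B'` -/
def P1K0 : Ideal (BRingK0 N' ℓ A h) := RingHom.ker (redC1K0 h hℓN hA)

theorem redC2K0_surjective (h2 : ℓ = 2 → 3 ∣ N') (h3 : ℓ = 3 → 2 ∣ N') :
    Function.Surjective (redC2K0 h hℓN hA) := by
  intro b
  obtain ⟨x0, -, e2⟩ := exists_pairK0_eq_of_mem_BT h hℓN hA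
    (right_mem_BT N' ℓ A h hℓN hA h2 h3 b)
  exact ⟨x0, e2⟩

/-- membership in an ideal containing the kernel is tested on the image -/
theorem mem_of_map_mem {R S : Type*} [CommRing R] [CommRing S] (f : R →+* S)
    (hf : Function.Surjective f) {I : Ideal R} (hk : RingHom.ker f ≤ I) {x : R}
    (hx : f x ∈ I.map f) : x ∈ I := by
  obtain ⟨z, hz, hzx⟩ := (Ideal.mem_map_iff_of_surjective f hf).1 hx
  have : x - z ∈ I := hk (by rw [RingHom.mem_ker, map_sub, hzx, sub_self])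
  have := I.add_mem this hz
  rwa [sub_add_cancel] at this

/-- **`hnode_ss`**: a prime of `B'` containing both vertical primes contains the supersingular
element (any `s'` with `red₁ s' = pH(j~)`) -/
theorem ss_mem_of_le (h2 : ℓ = 2 → 3 ∣ N') (h3 : ℓ = 3 → 2 ∣ N') {J' : Ideal (CRing N' A)}
    (hJ' : BT N' ℓ A h = gluedAlg (psiC N' ℓ A hℓN hA) J') {s' : BRingK0 N' ℓ A h}
    (hs1 : redC1K0 h hℓN hA s' =
      aeval (jtC N' A) (@ssPolyAll ℓ _ kA _ (charP_residue A Fact.out hA)))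
    (x' : Ideal (BRingK0 N' ℓ A h))
    (h1 : P1K0 (h := h) hℓN hA ≤ x') (h2' : P2K0 h hℓN hA ≤ x') : s' ∈ x' := by
  apply mem_of_map_mem (redC1K0 h hℓN hA) (redC1K0_surjective h hℓN hA h2 h3) h1
  have hle : J' ≤ x'.map (redC1K0 h hℓN hA) := by
    rw [← map_P2K0_eq h hℓN hA hJ']
    exact Ideal.map_mono h2'
  rw [hs1]
  exact hle (ssPolyAll_mem_ideal hℓN hA hJ')

/-- **`hss_node`**: a prime of `B'` containing the supersingular element `s'` and ONE of the two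
vertical primes contains BOTH -/
theorem le_of_ss_mem (h2 : ℓ = 2 → 3 ∣ N') (h3 : ℓ = 3 → 2 ∣ N') {J' : Ideal (CRing N' A)}
    (hJ : fixIdeal (psiC N' ℓ A hℓN hA) ≤ J')
    (hJ' : BT N' ℓ A h = gluedAlg (psiC N' ℓ A hℓN hA) J') {s' : BRingK0 N' ℓ A h}
    (hs1 : redC1K0 h hℓN hA s' =
      aeval (jtC N' A) (@ssPolyAll ℓ _ kA _ (charP_residue A Fact.out hA)))
    (hs2 : redC2K0 h hℓN hA s' =
      aeval (jtC N' A) (@ssPolyAll ℓ _ kA _ (charP_residue A Fact.out hA)) ^ ℓ)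
    (x' : Ideal (BRingK0 N' ℓ A h)) [hx' : x'.IsPrime]
    (hor : P1K0 (h := h) hℓN hA ≤ x' ∨ P2K0 h hℓN hA ≤ x') (hs : s' ∈ x') :
    P1K0 (h := h) hℓN hA ≤ x' ∧ P2K0 h hℓN hA ≤ x' := by
  have hsurj1 := redC1K0_surjective h hℓN hA h2 h3
  have hsurj2 := redC2K0_surjective (h := h) hℓN hA h2 h3
  rcases hor with h1 | h2'
  · refine ⟨h1, ?_⟩
    -- `P := red₁ (x')` is a prime of `C` containing `pH(j~)`
    haveI : (x'.map (redC1K0 h hℓN hA)).IsPrime := Ideal.map_isPrime_of_surjective hsurj1 h1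
    have hP : J' ≤ x'.map (redC1K0 h hℓN hA) := by
      rw [le_prime_iff_ssPolyAll_mem hℓN hA hJ', ← hs1]
      exact Ideal.mem_map_of_mem _ hs
    intro y hy
    exact mem_of_map_mem _ hsurj1 h1 (hP (redC1K0_mem_of_mem_P2K0 h hℓN hA hJ' hy))
  · refine ⟨?_, h2'⟩
    have hk : RingHom.ker (redC2K0 h hℓN hA) ≤ x' := h2'
    haveI hPp : (x'.map (redC2K0 h hℓN hA)).IsPrime := Ideal.map_isPrime_of_surjective hsurj2 hk
    have hP : J' ≤ x'.map (redC2K0 h hℓN hA) := by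
      rw [le_prime_iff_ssPolyAll_mem hℓN hA hJ']
      apply hPp.mem_of_pow_mem ℓ
      rw [← hs2]
      exact Ideal.mem_map_of_mem _ hs
    intro y hy
    -- `c := red₂ y` has `Ψ c ∈ J'`
    have hy1 : redC1K0 h hℓN hA y = 0 := hy
    have hc : redC2K0 h hℓN hA y ∈ J'.comap (psiC N' ℓ A hℓN hA).toRingHom := by
      rw [Ideal.mem_comap]
      have := sub_psi_mem_K0 h hℓN hA hJ' y
      rw [hy1, zero_sub] at this
      exact (Ideal.neg_mem_iff _).1 this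
    have hcP := (comap_psiC_le_iff hℓN hA hJ hJ' (x'.map (redC2K0 h hℓN hA))).2 hP hc
    exact mem_of_map_mem _ hsurj2 hk hcP

/-- **(C3) packaged** for the concrete supersingular element `s' = p̃(j)`: for a prime `x'` of `B'`
with `P'₁ ≤ x'` or `P'₂ ≤ x'`:  `s' ∈ x' ↔ P'₁ ≤ x' ∧ P'₂ ≤ x'`. -/
theorem ssLift_mem_iff (h2 : ℓ = 2 → 3 ∣ N') (h3 : ℓ = 3 → 2 ∣ N') {J' : Ideal (CRing N' A)}
    (hJ : fixIdeal (psiC N' ℓ A hℓN hA) ≤ J')
    (hJ' : BT N' ℓ A h = gluedAlg (psiC N' ℓ A hℓN hA) J') {p : (R0 A)[X]}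
    (hp : p.map (resR0 A) = @ssPolyAll ℓ _ kA _ (charP_residue A Fact.out hA))
    (x' : Ideal (BRingK0 N' ℓ A h)) [x'.IsPrime]
    (hor : P1K0 (h := h) hℓN hA ≤ x' ∨ P2K0 h hℓN hA ≤ x') :
    p.eval₂ (cstK0 N' ℓ A h) (jK0B N' ℓ A h) ∈ x' ↔
      P1K0 (h := h) hℓN hA ≤ x' ∧ P2K0 h hℓN hA ≤ x' := by
  obtain ⟨hs1, hs2⟩ := redC_ssLift (h := h) hℓN hA hp
  exact ⟨le_of_ss_mem hℓN hA h2 h3 hJ hJ' hs1 hs2 x' hor,
    fun ⟨h1, h2'⟩ => ss_mem_of_le hℓN hA h2 h3 hJ' hs1 x' h1 h2'⟩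

end Fermat.Agent.GL.Thick
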