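/-
GATE-L / L5-I + L5-II abstract (helper84; board 2746): TYPE I / TYPE II points are REGULAR in the
consumable form `KrullFrame.DivPrincipal O_P F`.

`A` a domain with a Krull frame `V : 𝒱 → ValuationSubring F` (helper46 `KrullFrame.IsFrame`),
`P` a prime of `A`, `O = A_P`.  Let `v0` be an index over `P` (the VERTICAL component through the
closed point `P`) and `π ∈ A` such that

* (i)   `π` generates the maximal ideal of `V v0`  (`hgen`);
* (ii)  no OTHER index `v` over `P` has `π ∈ 𝔪_v`  (`hother`: "`div π` has no other component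
        through `P`").

Then `π O = 𝔭₀ O` where `𝔭₀ = A ∩ 𝔪_{v0}` (`dvd_iff_mem_nonunits`), `π` is a PRIME element of `O`
(`prime_algebraMap`), and if the local ring of the component at `P` is a valuation ring
(`hval`, elementwise form; `hval_of_isDedekindDomain` derives it from
`IsDedekindDomain (A ⧸ 𝔭₀)`), then `O ⧸ (π)` is a valuation ring and every finitely generated
divisorial `O`-submodule of `F` is principal (`divPrincipal`).

Producers of `hval`: `hval_of_surjective` (a reduction map `rd : A ↠ D` with kernel `𝔭₀` and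
`D_{P̄}` a valuation ring), `hval_of_isDedekindDomain` (`D` Dedekind, J1-SURJ output).
`(RES)` of STACK RULING 2 (board 2764) = `exists_sub_mem_nonunits_of_pow`: the component is
`m`-root closed at `P` (residue form: `exists_mul_eq_of_pow_eq`).

TYPE I  (a closed point on exactly one of `C₁, C₂`): `π := q`, (i) is `e_i = 1`.
TYPE II (a point of `C₃` only): `π := y_t`, (i) is `w₃(y_t) = 1/(q-1)`, (ii) is REG3
        (`y_t^(q-1) / q` is a unit at `P`).
-/
import Fermat.Agent.GL.Local.KrullFrame

set_option autoImplicit false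
set_option linter.unusedSectionVars false

namespace Fermat.Agent.GL.Frame.VertPrime

open Fermat.Agent.GL.KrullFrame Fermat.Agent.GL

variable {A F : Type*} [CommRing A] [IsDomain A] [Field F] [Algebra A F] [IsFractionRing A F]
variable {𝒱 : Type*} {V : 𝒱 → ValuationSubring F}

/-! ### the centre of a valuation of the frame -/

/-- the centre `A ∩ 𝔪_v` of the valuation `V v` on `A` -/
def centre (hV : IsFrame A V) (v : 𝒱) : Ideal A where
  carrier := {a | algebraMap A F a ∈ (V v).nonunits}
  zero_mem' := by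
    show algebraMap A F 0 ∈ (V v).nonunits
    rw [map_zero]; exact (V v).nonunits.zero_mem
  add_mem' := by
    intro a b ha hb
    show algebraMap A F (a + b) ∈ (V v).nonunits
    rw [map_add, ValuationSubring.mem_nonunits_iff]
    exact Valuation.map_add_lt _ ha hb
  smul_mem' := by
    intro c a ha
    show algebraMap A F (c • a) ∈ (V v).nonunits
    rw [smul_eq_mul, map_mul, ValuationSubring.mem_nonunits_iff, map_mul]
    have h1 : (V v).valuation (algebraMap A F c) ≤ 1 :=
      (ValuationSubring.valuation_le_one_iff _ _).mpr (hV.algebraMap_mem c v)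
    exact mul_lt_one_of_nonneg_of_lt_one_right h1 zero_le ha

theorem mem_centre {hV : IsFrame A V} {v : 𝒱} {a : A} :
    a ∈ centre hV v ↔ algebraMap A F a ∈ (V v).nonunits := Iff.rfl

theorem over_iff_centre_le (hV : IsFrame A V) (P : Ideal A) (v : 𝒱) :
    Over V P v ↔ centre hV v ≤ P := Iff.rfl

instance centre_isPrime (hV : IsFrame A V) (v : 𝒱) : (centre hV v).IsPrime := by
  refine ⟨?_, ?_⟩
  · intro h
    have h1 : (1 : A) ∈ centre hV v := h ▸ Submodule.mem_top
    rw [mem_centre, map_one] at h1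
    rw [ValuationSubring.mem_nonunits_iff, map_one] at h1
    exact lt_irrefl _ h1
  · intro a b hab
    rw [mem_centre, map_mul] at hab
    by_contra hcon
    push Not at hcon
    obtain ⟨ha, hb⟩ := hcon
    rw [mem_centre] at ha hb
    have ha' := inv_mem_of_not_mem_nonunits ha
    have hb' := inv_mem_of_not_mem_nonunits hb
    rw [ValuationSubring.mem_nonunits_iff_or] at hab
    rcases hab with h0 | h0
    · rcases mul_eq_zero.mp h0 with h | h
      · exact ha (h ▸ (V v).nonunits.zero_mem)
      · exact hb (h ▸ (V v).nonunits.zero_mem)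
    · apply h0
      rw [mul_inv]
      exact (V v).mul_mem _ _ ha' hb'

/-! ### the vertical uniformiser is a prime element of the local ring -/

section Prime

variable (hV : IsFrame A V) (P : Ideal A) [P.IsPrime]
variable {v0 : 𝒱} {π : A}

/-- **clearing**: an element of the centre of `v0` is, up to a denominator outside `P`, a multiple
of `π`. -/
theorem exists_mul_eq_mul_of_mem_centre (hπne : π ≠ 0)
    (hgen : ∀ f : F, f ∈ (V v0).nonunits → f / algebraMap A F π ∈ V v0)
    (hother : ∀ v, v ≠ v0 → Over V P v → algebraMap A F π ∉ (V v).nonunits)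
    {f : A} (hf : f ∈ centre hV v0) : ∃ s : A, s ∉ P ∧ ∃ c : A, s * f = c * π := by
  have hπF : algebraMap A F π ≠ 0 := fun h =>
    hπne ((map_eq_zero_iff _ (IsFractionRing.injective A F)).1 h)
  have hgood : ∀ v, Over V P v → algebraMap A F f / algebraMap A F π ∈ V v := by
    intro v hv
    by_cases hvv : v = v0
    · subst hvv
      exact hgen _ hf
    · rw [div_eq_mul_inv]
      exact (V v).mul_mem _ _ (hV.algebraMap_mem f v)
        (inv_mem_of_not_mem_nonunits (hother v hvv hv))
  obtain ⟨s, hs, hsf⟩ := hV.exists_clear P (fun _ => algebraMap A F f / algebraMap A F π)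
    (hV.finite_bad _) hgood
  obtain ⟨c, hc⟩ := (hV.mem_range_iff _).mpr hsf
  refine ⟨s, hs, c, ?_⟩
  apply IsFractionRing.injective A F
  rw [map_mul, map_mul, hc]
  field_simp

end Prime

/-! ### the local ring `O = A_P` -/

section Loc

variable (hV : IsFrame A V) (P : Ideal A) [P.IsPrime]
variable (O : Type*) [CommRing O] [IsDomain O] [Algebra A O] [IsLocalization.AtPrime O P]
  [Algebra O F] [IsScalarTower A O F] [IsFractionRing O F]
variable {v0 : 𝒱} {π : A}

/-- every element of `O` is `a / t` with `t ∉ P`, inside `F` -/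
theorem exists_algebraMap_eq_div (x : O) :
    ∃ a t : A, t ∉ P ∧ algebraMap A O t * x = algebraMap A O a := by
  obtain ⟨⟨a, t⟩, hmk⟩ := IsLocalization.mk'_surjective P.primeCompl x
  have hmk' : IsLocalization.mk' O a t = x := hmk
  refine ⟨a, t, t.2, ?_⟩
  rw [← hmk', mul_comm]
  exact IsLocalization.mk'_spec O a t

/-- elements outside `P` are units of `O` -/
theorem isUnit_algebraMap_of_not_mem {t : A} (ht : t ∉ P) : IsUnit (algebraMap A O t) :=
  IsLocalization.map_units O (⟨t, ht⟩ : P.primeCompl)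

include hV in
/-- **`π O = 𝔭₀ O`**: an element of `O` is a non-unit at `v0` iff it is divisible by `π`. -/
theorem dvd_iff_mem_nonunits (hπne : π ≠ 0) (hv0 : Over V P v0)
    (hπ0 : algebraMap A F π ∈ (V v0).nonunits)
    (hgen : ∀ f : F, f ∈ (V v0).nonunits → f / algebraMap A F π ∈ V v0)
    (hother : ∀ v, v ≠ v0 → Over V P v → algebraMap A F π ∉ (V v).nonunits) (x : O) :
    algebraMap A O π ∣ x ↔ algebraMap O F x ∈ (V v0).nonunits := by
  constructor
  · rintro ⟨y, rfl⟩
    rw [map_mul, ← IsScalarTower.algebraMap_apply]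
    have hy : algebraMap O F y ∈ V v0 := hV.algebraMap_loc_mem P O y hv0
    rw [ValuationSubring.mem_nonunits_iff, map_mul]
    exact mul_lt_one_of_lt_of_le hπ0 ((ValuationSubring.valuation_le_one_iff _ _).mpr hy)
  · intro hx
    obtain ⟨a, t, ht, hat⟩ := exists_algebraMap_eq_div P O x
    -- `a = t x` is in the centre of `v0`
    have ha : a ∈ centre hV v0 := by
      rw [mem_centre, IsScalarTower.algebraMap_apply A O F, ← hat, map_mul,
        ← IsScalarTower.algebraMap_apply, ValuationSubring.mem_nonunits_iff, map_mul]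
      exact mul_lt_one_of_nonneg_of_lt_one_right
        ((ValuationSubring.valuation_le_one_iff _ _).mpr (hV.algebraMap_mem t v0)) zero_le hx
    obtain ⟨s, hs, c, hc⟩ := exists_mul_eq_mul_of_mem_centre hV P hπne hgen hother ha
    -- `s t x = c π` in `O`
    have hu : IsUnit (algebraMap A O (s * t)) :=
      isUnit_algebraMap_of_not_mem P O (fun h => (Ideal.IsPrime.mem_or_mem ‹_› h).elim hs ht)
    have h1 : algebraMap A O (s * t) * x = algebraMap A O c * algebraMap A O π := by
      rw [map_mul, mul_assoc, hat, ← map_mul, hc, map_mul]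
    obtain ⟨u, hu'⟩ := hu
    refine ⟨↑u⁻¹ * algebraMap A O c, ?_⟩
    have : x = ↑u⁻¹ * (algebraMap A O (s * t) * x) := by
      rw [← hu', ← mul_assoc, Units.inv_mul, one_mul]
    rw [this, h1]
    ring

include hV in
/-- **the vertical uniformiser `π` is a prime element of `O = A_P`.** -/
theorem prime_algebraMap (hπne : π ≠ 0) (hv0 : Over V P v0)
    (hπ0 : algebraMap A F π ∈ (V v0).nonunits)
    (hgen : ∀ f : F, f ∈ (V v0).nonunits → f / algebraMap A F π ∈ V v0)
    (hother : ∀ v, v ≠ v0 → Over V P v → algebraMap A F π ∉ (V v).nonunits) :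
    Prime (algebraMap A O π) := by
  have hiff := dvd_iff_mem_nonunits hV P O hπne hv0 hπ0 hgen hother
  refine ⟨?_, ?_, ?_⟩
  · intro h
    apply hπne
    have h2 : algebraMap A F π = 0 := by
      rw [IsScalarTower.algebraMap_apply A O F, h, map_zero]
    exact (map_eq_zero_iff _ (IsFractionRing.injective A F)).1 h2
  · intro hu
    have h1 : algebraMap A O π ∣ 1 := hu.dvd
    rw [hiff, map_one, ValuationSubring.mem_nonunits_iff, map_one] at h1
    exact lt_irrefl _ h1
  · intro x y hxy
    rw [hiff, map_mul] at hxy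
    rw [hiff, hiff]
    by_contra hcon
    push Not at hcon
    obtain ⟨hx, hy⟩ := hcon
    have hx' := inv_mem_of_not_mem_nonunits hx
    have hy' := inv_mem_of_not_mem_nonunits hy
    rw [ValuationSubring.mem_nonunits_iff_or] at hxy
    rcases hxy with h0 | h0
    · rcases mul_eq_zero.mp h0 with h | h
      · exact hx (h ▸ (V v0).nonunits.zero_mem)
      · exact hy (h ▸ (V v0).nonunits.zero_mem)
    · apply h0
      rw [mul_inv]
      exact (V v0).mul_mem _ _ hx' hy'

end Loc

/-! ### the quotient `O ⧸ (π)` is the local ring of the component: valuation ring -/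

section Quot

variable (hV : IsFrame A V) (P : Ideal A) [P.IsPrime]
variable (O : Type*) [CommRing O] [IsDomain O] [Algebra A O] [IsLocalization.AtPrime O P]
  [Algebra O F] [IsScalarTower A O F] [IsFractionRing O F]
variable {v0 : 𝒱} {π : A}

include hV in
/-- `O ⧸ (π)` is a domain -/
theorem isDomain_quotient (hπne : π ≠ 0) (hv0 : Over V P v0)
    (hπ0 : algebraMap A F π ∈ (V v0).nonunits)
    (hgen : ∀ f : F, f ∈ (V v0).nonunits → f / algebraMap A F π ∈ V v0)
    (hother : ∀ v, v ≠ v0 → Over V P v → algebraMap A F π ∉ (V v).nonunits) :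
    IsDomain (O ⧸ Ideal.span {algebraMap A O π}) := by
  have hprime := prime_algebraMap hV P O hπne hv0 hπ0 hgen hother
  have hIp : (Ideal.span {algebraMap A O π}).IsPrime :=
    (Ideal.span_singleton_prime hprime.ne_zero).mpr hprime
  exact Ideal.Quotient.isDomain _

/-- cancel two units: `U (W x) = C (W y)` with `U, W` units gives `y ∣ x` -/
theorem exists_mul_eq_of_isUnit_mul_eq {Q : Type*} [CommRing Q] {x y U W C : Q} (hU : IsUnit U)
    (hW : IsUnit W) (h : U * (W * x) = C * (W * y)) : ∃ c : Q, y * c = x := by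
  obtain ⟨u, rfl⟩ := hU
  refine ⟨↑u⁻¹ * C, ?_⟩
  apply (u.isUnit.mul hW).mul_left_cancel
  calc (u : Q) * W * (y * (↑u⁻¹ * C)) = ((u : Q) * ↑u⁻¹) * (C * (W * y)) := by ring
    _ = (u : Q) * W * x := by rw [Units.mul_inv, one_mul, ← h]; ring

include hV in
/-- **`O ⧸ (π)` is a valuation ring** as soon as the local ring of the component `A ⧸ 𝔭₀` at `P`
is one (elementwise form `hval`). -/
theorem valuationRing_quotient (hπne : π ≠ 0) (hv0 : Over V P v0)
    (hπ0 : algebraMap A F π ∈ (V v0).nonunits)
    (hgen : ∀ f : F, f ∈ (V v0).nonunits → f / algebraMap A F π ∈ V v0)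
    (hother : ∀ v, v ≠ v0 → Over V P v → algebraMap A F π ∉ (V v).nonunits)
    (hval : ∀ a b : A, ∃ c s : A, s ∉ P ∧
      (s * a - c * b ∈ centre hV v0 ∨ s * b - c * a ∈ centre hV v0))
    [IsDomain (O ⧸ Ideal.span {algebraMap A O π})] :
    ValuationRing (O ⧸ Ideal.span {algebraMap A O π}) := by
  have hiff := dvd_iff_mem_nonunits hV P O hπne hv0 hπ0 hgen hother
  refine { cond' := ?_ }
  intro xb yb
  obtain ⟨x, rfl⟩ := Ideal.Quotient.mk_surjective xb
  obtain ⟨y, rfl⟩ := Ideal.Quotient.mk_surjective yb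
  obtain ⟨a, t, ht, hat⟩ := exists_algebraMap_eq_div P O x
  obtain ⟨b, t', ht', hbt⟩ := exists_algebraMap_eq_div P O y
  -- common denominator
  obtain ⟨c, s, hs, hcs⟩ := hval (a * t') (b * t)
  -- elements of the centre map into `(π)`
  have hmem : ∀ z : A, z ∈ centre hV v0 → algebraMap A O z ∈ Ideal.span {algebraMap A O π} := by
    intro z hz
    rw [Ideal.mem_span_singleton, hiff, ← IsScalarTower.algebraMap_apply]
    exact hz
  set mk := Ideal.Quotient.mk (Ideal.span {algebraMap A O π}) with hmk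
  have hu : ∀ {r : A}, r ∉ P → IsUnit (mk (algebraMap A O r)) :=
    fun hr => (isUnit_algebraMap_of_not_mem P O hr).map _
  have hU : IsUnit (mk (algebraMap A O s)) := hu hs
  have hW : IsUnit (mk (algebraMap A O (t * t'))) :=
    hu (fun h => (Ideal.IsPrime.mem_or_mem ‹_› h).elim ht ht')
  rcases hcs with h | h
  · -- `s a t' ≡ c b t`, i.e. `x = y * (c / s)`
    have hO : algebraMap A O (s * (a * t') - c * (b * t)) =
        algebraMap A O s * (algebraMap A O (t * t') * x) -
          algebraMap A O c * (algebraMap A O (t * t') * y) := by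
      simp only [map_sub, map_mul]
      rw [← hat, ← hbt]; ring
    have h1 := (Ideal.Quotient.eq_zero_iff_mem).mpr (hmem _ h)
    rw [hO, map_sub, sub_eq_zero, map_mul mk, map_mul mk, map_mul mk, map_mul mk] at h1
    obtain ⟨d, hd⟩ := exists_mul_eq_of_isUnit_mul_eq hU hW h1
    exact ⟨d, Or.inr hd⟩
  · have hO : algebraMap A O (s * (b * t) - c * (a * t')) =
        algebraMap A O s * (algebraMap A O (t * t') * y) -
          algebraMap A O c * (algebraMap A O (t * t') * x) := by
      simp only [map_sub, map_mul]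
      rw [← hat, ← hbt]; ring
    have h1 := (Ideal.Quotient.eq_zero_iff_mem).mpr (hmem _ h)
    rw [hO, map_sub, sub_eq_zero, map_mul mk, map_mul mk, map_mul mk, map_mul mk] at h1
    obtain ⟨d, hd⟩ := exists_mul_eq_of_isUnit_mul_eq hU hW h1
    exact ⟨d, Or.inl hd⟩

end Quot

/-! ### REG at a type I / type II point -/

section Reg

variable (hV : IsFrame A V) (P : Ideal A) [P.IsPrime]
variable (O : Type*) [CommRing O] [IsDomain O] [Algebra A O] [IsLocalization.AtPrime O P]
  [Algebra O F] [IsScalarTower A O F] [IsFractionRing O F]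
variable {v0 : 𝒱} {π : A}

include hV in
/-- **REG at a type I / II point**: if the vertical uniformiser `π` of the only component `v0`
through `P` has no other zero through `P` and the local ring of the component at `P` is a valuation
ring, then every finitely generated divisorial `O_P`-submodule of `F` is principal. -/
theorem divPrincipal [IsNoetherianRing A] (hπne : π ≠ 0) (hv0 : Over V P v0)
    (hπ0 : algebraMap A F π ∈ (V v0).nonunits)
    (hgen : ∀ f : F, f ∈ (V v0).nonunits → f / algebraMap A F π ∈ V v0)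
    (hother : ∀ v, v ≠ v0 → Over V P v → algebraMap A F π ∉ (V v).nonunits)
    (hval : ∀ a b : A, ∃ c s : A, s ∉ P ∧
      (s * a - c * b ∈ centre hV v0 ∨ s * b - c * a ∈ centre hV v0)) :
    DivPrincipal O F := by
  have : IsLocalRing O := IsLocalization.AtPrime.isLocalRing O P
  have : IsNoetherianRing O := IsLocalization.isNoetherianRing P.primeCompl O inferInstance
  have hprime := prime_algebraMap hV P O hπne hv0 hπ0 hgen hother
  have := isDomain_quotient hV P O hπne hv0 hπ0 hgen hother
  have := valuationRing_quotient hV P O hπne hv0 hπ0 hgen hother hval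
  exact divPrincipal_of_prime hprime

end Reg

/-! ### producers of `hval` -/

section Hval

variable (hV : IsFrame A V) (P : Ideal A) [P.IsPrime] {v0 : 𝒱}

/-- `hval` from a reduction map `rd : A → D` onto a domain with kernel the centre of `v0`, when
the localisation of `D` at a prime `P̄ ⊇ rd P` is a valuation ring. -/
theorem hval_of_surjective {D : Type*} [CommRing D] [IsDomain D] (rd : A →+* D)
    (hsurj : Function.Surjective rd) (hker : ∀ a, rd a = 0 ↔ a ∈ centre hV v0)
    (Pbar : Ideal D) [Pbar.IsPrime] (hP : ∀ s ∈ P, rd s ∈ Pbar)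
    (L : Type*) [CommRing L] [IsDomain L] [Algebra D L] [IsLocalization.AtPrime L Pbar]
    [ValuationRing L] (a b : A) :
    ∃ c s : A, s ∉ P ∧ (s * a - c * b ∈ centre hV v0 ∨ s * b - c * a ∈ centre hV v0) := by
  have hinj : Function.Injective (algebraMap D L) :=
    IsLocalization.injective L (Ideal.primeCompl_le_nonZeroDivisors Pbar)
  obtain ⟨x, hx⟩ := ValuationRing.cond (algebraMap D L (rd a)) (algebraMap D L (rd b))
  obtain ⟨⟨cb, sb⟩, hmk⟩ := IsLocalization.mk'_surjective Pbar.primeCompl x
  have hmk' : IsLocalization.mk' L cb sb = x := hmk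
  have hspec : x * algebraMap D L sb = algebraMap D L cb := by
    rw [← hmk']; exact IsLocalization.mk'_spec L cb sb
  obtain ⟨c, rfl⟩ := hsurj cb
  obtain ⟨s, hs⟩ := hsurj (sb : D)
  have hsP : s ∉ P := fun h => sb.2 (hs ▸ hP s h)
  refine ⟨c, s, hsP, ?_⟩
  rcases hx with h | h
  · -- `rd a * rd c = rd b * rd s`
    right
    rw [← hker, map_sub, map_mul, map_mul, sub_eq_zero]
    apply hinj
    rw [map_mul, map_mul, hs, ← hspec, ← h]; ring
  · left
    rw [← hker, map_sub, map_mul, map_mul, sub_eq_zero]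
    apply hinj
    rw [map_mul, map_mul, hs, ← hspec, ← h]; ring

/-- **`hval` from `rd : A ↠ D` with `D` a Dedekind domain** and kernel the centre of `v0`
(J1-SURJ: the reduction of `B2` along the component is the full coordinate ring of the smooth
affine curve). -/
theorem hval_of_isDedekindDomain {D : Type*} [CommRing D] [IsDedekindDomain D] (rd : A →+* D)
    (hsurj : Function.Surjective rd) (hker : ∀ a, rd a = 0 ↔ a ∈ centre hV v0)
    (hv0 : Over V P v0) (a b : A) :
    ∃ c s : A, s ∉ P ∧ (s * a - c * b ∈ centre hV v0 ∨ s * b - c * a ∈ centre hV v0) := by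
  have hkP : RingHom.ker rd ≤ P := fun x hx =>
    (over_iff_centre_le hV P v0).mp hv0 ((hker x).mp ((RingHom.mem_ker).mp hx))
  have : (P.map rd).IsPrime := Ideal.map_isPrime_of_surjective hsurj hkP
  by_cases hbot : P.map rd = ⊥
  · -- the generic point of the component: the local ring is the function field
    by_cases hb : rd b = 0
    · refine ⟨0, 1, fun h => Ideal.IsPrime.ne_top ‹_› ((Ideal.eq_top_iff_one _).mpr h), Or.inr ?_⟩
      rw [one_mul, zero_mul, sub_zero]
      exact (hker b).mp hb
    · refine ⟨a, b, fun h => hb ?_, Or.inl ?_⟩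
      · have : rd b ∈ P.map rd := Ideal.mem_map_of_mem rd h
        rw [hbot] at this
        exact this
      · rw [mul_comm b a, sub_self]
        exact (centre hV v0).zero_mem
  · have : IsDiscreteValuationRing (Localization.AtPrime (P.map rd)) :=
      IsLocalization.AtPrime.isDiscreteValuationRing_of_dedekind_domain D hbot _
    exact hval_of_surjective hV P rd hsurj hker (P.map rd)
      (fun s hs => Ideal.mem_map_of_mem rd hs) (Localization.AtPrime (P.map rd)) a b

end Hval

/-! ### the component is `m`-root closed at `P`  (`(RES)` of STACK RULING 2, board 2764) -/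

section Res

/-- **root closedness, residue form.**  `ρ : A → κ` any ring hom to a domain whose kernel is
inside `P`, with the valuation-ring property at `P` (`hvalρ`).  If `ζ = ρ a₁ / ρ s₁` satisfies
`ρ c · ζ ^ m = ρ d` with `c, d ∉ P`, then `ρ a · ζ = ρ b` with `a, b ∉ P`. -/
theorem exists_mul_eq_of_pow_eq {κ : Type*} [CommRing κ] [IsDomain κ] (P : Ideal A) [P.IsPrime]
    (ρ : A →+* κ) (hkerP : ∀ a, ρ a = 0 → a ∈ P)
    (hvalρ : ∀ a b : A, ∃ c s : A, s ∉ P ∧ (ρ s * ρ a = ρ c * ρ b ∨ ρ s * ρ b = ρ c * ρ a))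
    {m : ℕ} (hm : m ≠ 0) {ζ : κ} {a₁ s₁ : A} (hs₁ : ρ s₁ ≠ 0) (hζ : ρ s₁ * ζ = ρ a₁)
    {c d : A} (hc : c ∉ P) (hd : d ∉ P) (h : ρ c * ζ ^ m = ρ d) :
    ∃ a b : A, a ∉ P ∧ b ∉ P ∧ ρ a * ζ = ρ b := by
  have hpowP : ∀ {x : A}, x ∉ P → x ^ m ∉ P := fun hx hxm =>
    hx (Ideal.IsPrime.mem_of_pow_mem ‹_› m hxm)
  have hmulP : ∀ {x y : A}, x ∉ P → y ∉ P → x * y ∉ P := fun hx hy hxy =>
    (Ideal.IsPrime.mem_or_mem ‹_› hxy).elim hx hy
  obtain ⟨c', s', hs', hcs⟩ := hvalρ a₁ s₁
  rcases hcs with h1 | h1
  · -- `ρ s' ζ = ρ c'`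
    have h2 : ρ s' * ζ = ρ c' := by
      apply mul_left_cancel₀ hs₁
      rw [← hζ] at h1
      calc ρ s₁ * (ρ s' * ζ) = ρ s' * (ρ s₁ * ζ) := by ring
        _ = ρ c' * ρ s₁ := h1
        _ = ρ s₁ * ρ c' := by ring
    refine ⟨s', c', hs', ?_, h2⟩
    intro hc'
    -- `s' ^ m d - c c' ^ m ∈ ker ρ ⊆ P`
    have h3 : ρ (s' ^ m * d - c * c' ^ m) = 0 := by
      rw [map_sub, map_mul, map_mul, map_pow, map_pow, ← h2, ← h, mul_pow]; ring
    have h4 := hkerP _ h3
    have h5 : c * c' ^ m ∈ P := P.mul_mem_left c (P.pow_mem_of_mem hc' m (Nat.pos_of_ne_zero hm))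
    have h6 : s' ^ m * d ∈ P := by
      have := P.add_mem h4 h5
      rwa [sub_add_cancel] at this
    exact hmulP (hpowP hs') hd h6
  · -- `ρ s' = ρ c' ζ`
    have h2 : ρ c' * ζ = ρ s' := by
      apply mul_left_cancel₀ hs₁
      rw [← hζ] at h1
      calc ρ s₁ * (ρ c' * ζ) = ρ c' * (ρ s₁ * ζ) := by ring
        _ = ρ s' * ρ s₁ := h1.symm
        _ = ρ s₁ * ρ s' := by ring
    refine ⟨c', s', ?_, hs', h2⟩
    intro hc'
    have h3 : ρ (c * s' ^ m - c' ^ m * d) = 0 := by
      rw [map_sub, map_mul, map_mul, map_pow, map_pow, ← h2, ← h, mul_pow]; ring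
    have h4 := hkerP _ h3
    have h5 : c' ^ m * d ∈ P :=
      P.mul_mem_right d (P.pow_mem_of_mem hc' m (Nat.pos_of_ne_zero hm))
    have h6 : c * s' ^ m ∈ P := by
      have := P.add_mem h4 h5
      rwa [sub_add_cancel] at this
    exact hmulP hc (hpowP hs') h6

variable (hV : IsFrame A V) (P : Ideal A) [P.IsPrime] {v0 : 𝒱}

/-- the reduction `A → κ(v0)` to the residue field of `V v0` -/
noncomputable def rdHom (v0 : 𝒱) : A →+* IsLocalRing.ResidueField (V v0) :=
  (IsLocalRing.residue (V v0)).comp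
    ((algebraMap A F).codRestrict (V v0).toSubring (fun a => hV.algebraMap_mem a v0))

theorem rdHom_eq_zero_iff (a : A) : rdHom hV v0 a = 0 ↔ a ∈ centre hV v0 := by
  rw [rdHom, RingHom.comp_apply, IsLocalRing.residue_eq_zero_iff, mem_centre,
    ← ValuationSubring.coe_mem_nonunits_iff]
  rfl

/-- **(RES)** of STACK RULING 2 (board 2764): at a point `P` of the component `v0` whose local ring
is a valuation ring (`hval`) and with `V v0 = A_{𝔭₀}` (`hloc0`: true for the height-one frame),
an element `z` of `V v0` whose `m`-th power is, modulo `𝔪_{v0}`, a unit fraction at `P` is itself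
one. -/
theorem exists_sub_mem_nonunits_of_pow (hv0 : Over V P v0)
    (hloc0 : ∀ z ∈ V v0, ∃ s a : A, s ∉ centre hV v0 ∧ algebraMap A F s * z = algebraMap A F a)
    (hval : ∀ a b : A, ∃ c s : A, s ∉ P ∧
      (s * a - c * b ∈ centre hV v0 ∨ s * b - c * a ∈ centre hV v0))
    {m : ℕ} (hm : m ≠ 0) {z : F} (hz : z ∈ V v0) {c d : A} (hc : c ∉ P) (hd : d ∉ P)
    (h : algebraMap A F c * z ^ m - algebraMap A F d ∈ (V v0).nonunits) :
    ∃ a b : A, a ∉ P ∧ b ∉ P ∧ algebraMap A F a * z - algebraMap A F b ∈ (V v0).nonunits := by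
  set ρ := rdHom hV v0 with hρ
  set ι : A →+* (V v0) :=
    (algebraMap A F).codRestrict (V v0).toSubring (fun a => hV.algebraMap_mem a v0) with hι
  have hρι : ∀ a, ρ a = IsLocalRing.residue (V v0) (ι a) := fun a => rfl
  have hιc : ∀ a, ((ι a : V v0) : F) = algebraMap A F a := fun a => rfl
  let z' : V v0 := ⟨z, hz⟩
  set ζ := IsLocalRing.residue (V v0) z' with hζdef
  -- translation: membership in the nonunits ↔ vanishing in the residue field
  have htr : ∀ (a b : A) (k : ℕ), algebraMap A F a * z ^ k - algebraMap A F b ∈ (V v0).nonunits ↔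
      ρ a * ζ ^ k = ρ b := by
    intro a b k
    have : algebraMap A F a * z ^ k - algebraMap A F b = ((ι a * z' ^ k - ι b : V v0) : F) := by
      push_cast; rfl
    rw [this, ValuationSubring.coe_mem_nonunits_iff, ← IsLocalRing.residue_eq_zero_iff, map_sub,
      map_mul, map_pow, sub_eq_zero]
    rfl
  have hkerP : ∀ a, ρ a = 0 → a ∈ P := fun a ha =>
    (over_iff_centre_le hV P v0).mp hv0 ((rdHom_eq_zero_iff hV a).mp ha)
  have hvalρ : ∀ a b : A, ∃ c s : A, s ∉ P ∧
      (ρ s * ρ a = ρ c * ρ b ∨ ρ s * ρ b = ρ c * ρ a) := by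
    intro a b
    obtain ⟨c, s, hs, hcs⟩ := hval a b
    refine ⟨c, s, hs, ?_⟩
    rcases hcs with h1 | h1
    · left
      have := (rdHom_eq_zero_iff hV _).mpr h1
      rwa [map_sub, map_mul, map_mul, sub_eq_zero] at this
    · right
      have := (rdHom_eq_zero_iff hV _).mpr h1
      rwa [map_sub, map_mul, map_mul, sub_eq_zero] at this
  obtain ⟨s₁, a₁, hs₁, hsa⟩ := hloc0 z hz
  have hs₁' : ρ s₁ ≠ 0 := fun h0 => hs₁ ((rdHom_eq_zero_iff hV _).mp h0)
  have hζ : ρ s₁ * ζ = ρ a₁ := by
    have h0 : ι s₁ * z' = ι a₁ := Subtype.ext hsa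
    rw [hρι, hρι, ← h0, map_mul]
  have h' : ρ c * ζ ^ m = ρ d := (htr c d m).mp h
  obtain ⟨a, b, ha, hb, hab⟩ := exists_mul_eq_of_pow_eq P ρ hkerP hvalρ hm hs₁' hζ hc hd h'
  refine ⟨a, b, ha, hb, ?_⟩
  have := (htr a b 1).mpr (by rw [pow_one]; exact hab)
  rwa [pow_one] at this

end Res

end Fermat.Agent.GL.Frame.VertPrime
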