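/-
GATE-L / L5-I + L5-II (helper84): `GL/Frame/VertPrime.lean` INSTANTIATED at the height-one frame
of a noetherian integrally closed domain (helper80 `HeightOneFrame.isFrame_heightOne`).

`B` noetherian integrally closed, `F = Frac B`, `P` a prime of `B`, `O = B_P`, `𝔭₀` a height-one
prime `≤ P` (the vertical component through the point `P`), `π ∈ 𝔭₀` with

* `hgen`   : `π` generates `𝔭₀ B_{𝔭₀}`  (`∀ f ∈ 𝔭₀, ∃ s ∉ 𝔭₀, π ∣ s f`);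
* `hother` : no OTHER height-one prime `𝔮 ≤ P` contains `π`  (or `hmin`: `𝔭₀` is the only minimal
             prime of `(π)` inside `P`).

Then `π` is a prime element of `O` (`prime_algebraMap_htOne`), `𝔭₀ O = π O`
(`dvd_iff_mem_htOne`); if moreover `(B ⧸ 𝔭₀)` is a valuation ring at `P` (`hval`; e.g.
`B ⧸ 𝔭₀ ≃ D` Dedekind: `..._of_isDedekindDomain`) then every f.g. divisorial `O`-submodule of `F`
is principal (`divPrincipal_htOne`) and the component is `m`-root closed at `P` (`res_htOne`,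
the `(RES)` hypothesis of helper35 `LocGlue.loc_unibranch`).
-/
import Fermat.Agent.GL.Frame.VertPrime
import Fermat.Agent.GL.Frame.HeightOneFrame

set_option autoImplicit false
set_option linter.unusedSectionVars false

namespace Fermat.Agent.GL.Frame.VertPrimeHtOne

open Fermat.Agent.GL.KrullFrame Fermat.Agent.GL.KrullHeightOne Fermat.Agent.GL.Frame.HeightOne
  Fermat.Agent.GL.Frame.VertPrime

variable {B F : Type*} [CommRing B] [IsDomain B] [Field F] [Algebra B F] [IsFractionRing B F]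
  [IsNoetherianRing B] [IsIntegrallyClosed B]

/-- the centre of `B_𝔭` on `B` is `𝔭` -/
theorem centre_V1 (𝔭 : HtOne B) :
    centre (isFrame_heightOne (B := B) (F := F)) 𝔭 = 𝔭.1 := by
  ext a
  rw [mem_centre, algebraMap_mem_nonunits_V1_iff]

/-- `V1 𝔭 = B_𝔭`: the `hloc0` hypothesis of `VertPrime.exists_sub_mem_nonunits_of_pow` -/
theorem hloc0_V1 (𝔭 : HtOne B) (z : F) (hz : z ∈ V1 F 𝔭) :
    ∃ s a : B, s ∉ centre (isFrame_heightOne (B := B) (F := F)) 𝔭 ∧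
      algebraMap B F s * z = algebraMap B F a := by
  obtain ⟨s, hs, a, ha⟩ := (mem_V1_iff 𝔭).1 hz
  refine ⟨s, a, ?_, ?_⟩
  · rw [centre_V1]; exact hs
  · rw [ha, Algebra.smul_def]

/-- `π` generates the maximal ideal of `B_𝔭`, frame form -/
theorem hgen_V1 (𝔭 : HtOne B) {π : B} (hπne : π ≠ 0)
    (hgen : ∀ f ∈ 𝔭.1, ∃ s : B, s ∉ 𝔭.1 ∧ π ∣ s * f) (f : F) (hf : f ∈ (V1 F 𝔭).nonunits) :
    f / algebraMap B F π ∈ V1 F 𝔭 := by
  have hπF : algebraMap B F π ≠ 0 := fun h =>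
    hπne ((map_eq_zero_iff _ (IsFractionRing.injective B F)).1 h)
  have hfV : f ∈ V1 F 𝔭 := ValuationSubring.nonunits_subset hf
  obtain ⟨t, ht, b, hb⟩ := (mem_V1_iff 𝔭).1 hfV
  have htF : algebraMap B F t ≠ 0 := KrullHeightOne.algebraMap_ne_zero_of_not_mem 𝔭.1 ht
  have hb' : algebraMap B F b = algebraMap B F t * f := by rw [hb, Algebra.smul_def]
  -- `b = t f ∈ 𝔭`
  have hb𝔭 : b ∈ 𝔭.1 := by
    rw [← algebraMap_mem_nonunits_V1_iff (F := F), hb', ValuationSubring.mem_nonunits_iff, map_mul]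
    exact mul_lt_one_of_nonneg_of_lt_one_right
      ((ValuationSubring.valuation_le_one_iff _ _).mpr (algebraMap_mem_V1 𝔭 t)) zero_le hf
  obtain ⟨s, hs, c, hc⟩ := hgen b hb𝔭
  have hsF : algebraMap B F s ≠ 0 := KrullHeightOne.algebraMap_ne_zero_of_not_mem 𝔭.1 hs
  -- `f / π = c / (s t)`
  have hst : s * t ∉ 𝔭.1 := fun h => (Ideal.IsPrime.mem_or_mem 𝔭.2.1 h).elim hs ht
  have hc' : algebraMap B F s * algebraMap B F b = algebraMap B F π * algebraMap B F c := by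
    rw [← map_mul, hc, map_mul]
  have : f / algebraMap B F π = algebraMap B F c * (algebraMap B F (s * t))⁻¹ := by
    rw [map_mul, div_eq_iff hπF, eq_comm]
    calc algebraMap B F c * (algebraMap B F s * algebraMap B F t)⁻¹ * algebraMap B F π
        = (algebraMap B F π * algebraMap B F c) * (algebraMap B F s * algebraMap B F t)⁻¹ := by
          ring
      _ = (algebraMap B F s * (algebraMap B F t * f)) *
            (algebraMap B F s * algebraMap B F t)⁻¹ := by rw [← hc', hb']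
      _ = f := by field_simp
  rw [this]
  exact (V1 F 𝔭).mul_mem _ _ (algebraMap_mem_V1 𝔭 c) (inv_algebraMap_mem_V1 𝔭 hst)

section Point

variable (P : Ideal B) [P.IsPrime]
variable (O : Type*) [CommRing O] [IsDomain O] [Algebra B O] [IsLocalization.AtPrime O P]
  [Algebra O F] [IsScalarTower B O F] [IsFractionRing O F]
variable {𝔭₀ : HtOne B} {π : B}

/-- `hother` from: `𝔭₀` is the only minimal prime of `(π)` inside `P` -/
theorem hother_of_minimalPrimes (hπne : π ≠ 0)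
    (hmin : ∀ 𝔮 ∈ (Ideal.span {π}).minimalPrimes, 𝔮 ≤ P → 𝔮 = 𝔭₀.1) (𝔮 : HtOne B)
    (h𝔮 : 𝔮 ≠ 𝔭₀) (h𝔮P : 𝔮.1 ≤ P) : π ∉ 𝔮.1 := by
  intro hπ𝔮
  have h1 := mem_minimalPrimes_span_of_height_one hπne 𝔮.1 𝔮.2.2 hπ𝔮
  exact h𝔮 (Subtype.ext (hmin 𝔮.1 h1 h𝔮P))

/-- the frame form of `hother` -/
theorem hother_V1 (hother : ∀ 𝔮 : HtOne B, 𝔮 ≠ 𝔭₀ → 𝔮.1 ≤ P → π ∉ 𝔮.1) (v : HtOne B)
    (hv : v ≠ 𝔭₀) (hvP : Over (V1 (B := B) F) P v) : algebraMap B F π ∉ (V1 F v).nonunits := by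
  rw [algebraMap_mem_nonunits_V1_iff]
  exact hother v hv ((over_V1_iff P v).1 hvP)

/-- **`𝔭₀ O = π O`** -/
theorem dvd_iff_mem_htOne (hπne : π ≠ 0) (h𝔭P : 𝔭₀.1 ≤ P) (hπ0 : π ∈ 𝔭₀.1)
    (hgen : ∀ f ∈ 𝔭₀.1, ∃ s : B, s ∉ 𝔭₀.1 ∧ π ∣ s * f)
    (hother : ∀ 𝔮 : HtOne B, 𝔮 ≠ 𝔭₀ → 𝔮.1 ≤ P → π ∉ 𝔮.1) (x : O) :
    algebraMap B O π ∣ x ↔ algebraMap O F x ∈ (V1 F 𝔭₀).nonunits :=
  dvd_iff_mem_nonunits isFrame_heightOne P O hπne ((over_V1_iff P 𝔭₀).2 h𝔭P)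
    ((algebraMap_mem_nonunits_V1_iff 𝔭₀ π).2 hπ0) (hgen_V1 𝔭₀ hπne hgen)
    (hother_V1 P hother) x

include F in
/-- **the vertical uniformiser is a prime element of `O = B_P`** -/
theorem prime_algebraMap_htOne (hπne : π ≠ 0) (h𝔭P : 𝔭₀.1 ≤ P) (hπ0 : π ∈ 𝔭₀.1)
    (hgen : ∀ f ∈ 𝔭₀.1, ∃ s : B, s ∉ 𝔭₀.1 ∧ π ∣ s * f)
    (hother : ∀ 𝔮 : HtOne B, 𝔮 ≠ 𝔭₀ → 𝔮.1 ≤ P → π ∉ 𝔮.1) :
    Prime (algebraMap B O π) :=
  prime_algebraMap (F := F) isFrame_heightOne P O hπne ((over_V1_iff P 𝔭₀).2 h𝔭P)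
    ((algebraMap_mem_nonunits_V1_iff 𝔭₀ π).2 hπ0) (hgen_V1 𝔭₀ hπne hgen)
    (hother_V1 P hother)

/-- the frame form of `hval` -/
theorem hval_V1 (hval : ∀ a b : B, ∃ c s : B, s ∉ P ∧
      (s * a - c * b ∈ 𝔭₀.1 ∨ s * b - c * a ∈ 𝔭₀.1)) (a b : B) :
    ∃ c s : B, s ∉ P ∧ (s * a - c * b ∈ centre (isFrame_heightOne (B := B) (F := F)) 𝔭₀ ∨
      s * b - c * a ∈ centre (isFrame_heightOne (B := B) (F := F)) 𝔭₀) := by
  rw [centre_V1]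
  exact hval a b

/-- **REG at a type I / II point of a noetherian normal domain**: every finitely generated
divisorial `B_P`-submodule of `F` is principal. -/
theorem divPrincipal_htOne (hπne : π ≠ 0) (h𝔭P : 𝔭₀.1 ≤ P) (hπ0 : π ∈ 𝔭₀.1)
    (hgen : ∀ f ∈ 𝔭₀.1, ∃ s : B, s ∉ 𝔭₀.1 ∧ π ∣ s * f)
    (hother : ∀ 𝔮 : HtOne B, 𝔮 ≠ 𝔭₀ → 𝔮.1 ≤ P → π ∉ 𝔮.1)
    (hval : ∀ a b : B, ∃ c s : B, s ∉ P ∧
      (s * a - c * b ∈ 𝔭₀.1 ∨ s * b - c * a ∈ 𝔭₀.1)) :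
    DivPrincipal O F :=
  divPrincipal isFrame_heightOne P O hπne ((over_V1_iff P 𝔭₀).2 h𝔭P)
    ((algebraMap_mem_nonunits_V1_iff 𝔭₀ π).2 hπ0) (hgen_V1 𝔭₀ hπne hgen)
    (hother_V1 P hother) (hval_V1 P hval)

/-- `hval` from a surjection `rd : B ↠ D` onto a Dedekind domain with kernel `𝔭₀` -/
theorem hval_of_isDedekindDomain_htOne {D : Type*} [CommRing D] [IsDedekindDomain D]
    (rd : B →+* D) (hsurj : Function.Surjective rd) (hker : ∀ a, rd a = 0 ↔ a ∈ 𝔭₀.1)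
    (h𝔭P : 𝔭₀.1 ≤ P) (a b : B) :
    ∃ c s : B, s ∉ P ∧ (s * a - c * b ∈ 𝔭₀.1 ∨ s * b - c * a ∈ 𝔭₀.1) := by
  have h := hval_of_isDedekindDomain (isFrame_heightOne (B := B) (F := FractionRing B)) P
    (v0 := 𝔭₀) rd hsurj
    (fun a => by rw [centre_V1]; exact hker a) ((over_V1_iff P 𝔭₀).2 h𝔭P) a b
  rwa [centre_V1] at h

/-- **REG at a type I / II point, Dedekind component form.** -/
theorem divPrincipal_of_isDedekindDomain {D : Type*} [CommRing D] [IsDedekindDomain D]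
    (rd : B →+* D) (hsurj : Function.Surjective rd) (hker : ∀ a, rd a = 0 ↔ a ∈ 𝔭₀.1)
    (hπne : π ≠ 0) (h𝔭P : 𝔭₀.1 ≤ P) (hπ0 : π ∈ 𝔭₀.1)
    (hgen : ∀ f ∈ 𝔭₀.1, ∃ s : B, s ∉ 𝔭₀.1 ∧ π ∣ s * f)
    (hother : ∀ 𝔮 : HtOne B, 𝔮 ≠ 𝔭₀ → 𝔮.1 ≤ P → π ∉ 𝔮.1) :
    DivPrincipal O F :=
  divPrincipal_htOne P O hπne h𝔭P hπ0 hgen hother
    (hval_of_isDedekindDomain_htOne P rd hsurj hker h𝔭P)

/-- **(RES)** at a point of the component `𝔭₀` whose local ring is a valuation ring: the exact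
hypothesis `(RES)` of helper35 `LocGlue.loc_unibranch` (with `c = 1`) and of STACK RULING 2. -/
theorem res_htOne (h𝔭P : 𝔭₀.1 ≤ P)
    (hval : ∀ a b : B, ∃ c s : B, s ∉ P ∧
      (s * a - c * b ∈ 𝔭₀.1 ∨ s * b - c * a ∈ 𝔭₀.1))
    {m : ℕ} (hm : m ≠ 0) {z : F} (hz : z ∈ V1 F 𝔭₀) {c d : B} (hc : c ∉ P) (hd : d ∉ P)
    (h : algebraMap B F c * z ^ m - algebraMap B F d ∈ (V1 F 𝔭₀).nonunits) :
    ∃ a b : B, a ∉ P ∧ b ∉ P ∧ algebraMap B F a * z - algebraMap B F b ∈ (V1 F 𝔭₀).nonunits :=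
  exists_sub_mem_nonunits_of_pow isFrame_heightOne P ((over_V1_iff P 𝔭₀).2 h𝔭P)
    (hloc0_V1 𝔭₀) (hval_V1 P hval) hm hz hc hd h

end Point

end Fermat.Agent.GL.Frame.VertPrimeHtOne
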