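/-
GATE-L / (LOC-I/II) ASSEMBLY (helper47; contract = helper48 STACK RULING 2, board 2764 (2)).

The complete local step at a closed point `𝔫` of the chart `B2` lying on exactly ONE vertical
component `𝔭₀` (type I: a point of `C₁` or `C₂` only, `π = q`; type II: a point of `C₃` only,
`π = y_t`), as ONE theorem composing

* helper84 `VertPrimeHtOne` (`π` is a prime element of `O_𝔫`, `O_𝔫 ⧸ (π)` a valuation ring),
* helper93 `RegTwo.ufd_of_quotient_dvr` (⟹ `O_𝔫` is a UFD),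
* helper47 `Kummer.exists_kummer_datum_of_ufd` (⟹ the local generator `g ^ m * u = c ∉ 𝔫`),
* helper35 `LocGlue.loc_unibranch` with `hres := VertPrimeHtOne.res_htOne`.

Output: `∃ g ∈ B12, g ^ m * u ∈ B2 ∧ LocGlue.LocAt (V1 F) B2 B12 vert 𝔫 g`, i.e. the conjunct of
`CechKummer.exists_section.hloc` at `𝔫`.

After this file a type I/II point costs its owner only the four inputs `(π, hgen, hother, hval)`
of helper84 and `hord` at the HORIZONTAL height-one primes through `𝔫` (helper11 HORIZ-DIV).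
-/
import Fermat.Agent.GL.Frame.KummerDatum
import Fermat.Agent.GL.Frame.VertPrimeHtOne
import Fermat.Agent.GL.Alg.RegTwoQuot
import Fermat.Agent.GL.Loc.LocGlue

set_option autoImplicit false
set_option linter.unusedSectionVars false

namespace Fermat.Agent.GL.Frame.LocTypeI

open Fermat.Agent.GL Fermat.Agent.GL.KrullFrame Fermat.Agent.GL.Frame.HeightOne
  Fermat.Agent.GL.Frame.Kummer Fermat.Agent.GL.LocGlue IsLocalRing

/-! ### `O ⧸ (x)` a valuation ring ⟹ `O` factorial -/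

section UFD

variable {O : Type*} [CommRing O] [IsDomain O] [IsLocalRing O] [IsNoetherianRing O]

/-- a noetherian local domain `O` with a prime element `x` such that `O ⧸ (x)` is a valuation ring
(a DVR or a field) is a UFD. -/
theorem ufd_of_prime_valuationRing {x : O} (hx : Prime x)
    [IsDomain (O ⧸ Ideal.span {x})] [ValuationRing (O ⧸ Ideal.span {x})] :
    UniqueFactorizationMonoid O := by
  by_cases hfield : IsField (O ⧸ Ideal.span {x})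
  · have hmax : (Ideal.span {x}).IsMaximal := Ideal.Quotient.maximal_of_isField _ hfield
    have hm : maximalIdeal O = Ideal.span {x} := (IsLocalRing.eq_maximalIdeal hmax).symm
    have hprin : (maximalIdeal O).IsPrincipal := ⟨⟨x, hm⟩⟩
    have : IsPrincipalIdealRing O :=
      ((tfae_of_isNoetherianRing_of_isLocalRing_of_isDomain O).out 4 0).mp hprin
    infer_instance
  · have hvr : ValuationRing (O ⧸ Ideal.span {x}) := inferInstance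
    have : IsDiscreteValuationRing (O ⧸ Ideal.span {x}) :=
      ((IsDiscreteValuationRing.TFAE (O ⧸ Ideal.span {x}) hfield).out 0 1).mpr hvr
    exact RegTwo.ufd_of_quotient_dvr x hx.ne_zero

end UFD

/-! ### the local step at a point on exactly one vertical component -/

section Point

variable {F : Type*} [Field F] {B2 : Subring F} [IsFractionRing B2 F]
  [IsNoetherianRing B2] [IsIntegrallyClosed B2]

/-- the local ring `O_𝔫` of a type I/II point is factorial. -/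
theorem ufd_localization (𝔫 : Ideal B2) [𝔫.IsPrime]
    {𝔭₀ : HtOne B2} (h𝔭𝔫 : 𝔭₀.1 ≤ 𝔫) {π : B2} (hπne : π ≠ 0) (hπ0 : π ∈ 𝔭₀.1)
    (hgen : ∀ f ∈ 𝔭₀.1, ∃ s : B2, s ∉ 𝔭₀.1 ∧ π ∣ s * f)
    (hother : ∀ 𝔮 : HtOne B2, 𝔮 ≠ 𝔭₀ → 𝔮.1 ≤ 𝔫 → π ∉ 𝔮.1)
    (hval : ∀ a b : B2, ∃ c s : B2, s ∉ 𝔫 ∧ (s * a - c * b ∈ 𝔭₀.1 ∨ s * b - c * a ∈ 𝔭₀.1)) :
    UniqueFactorizationMonoid (Localization.AtPrime 𝔫) := by
  have hunits : ∀ s : 𝔫.primeCompl, IsUnit (algebraMap B2 F (s : B2)) := fun s => by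
    have h0 : (s : B2) ≠ 0 := fun h => s.2 (h ▸ 𝔫.zero_mem)
    exact ((map_ne_zero_iff _ (IsFractionRing.injective B2 F)).mpr h0).isUnit
  let algOF : Algebra (Localization.AtPrime 𝔫) F :=
    (IsLocalization.lift (M := 𝔫.primeCompl) (S := Localization.AtPrime 𝔫) hunits).toAlgebra
  have : IsScalarTower B2 (Localization.AtPrime 𝔫) F :=
    IsScalarTower.of_algebraMap_eq fun b => (IsLocalization.lift_eq hunits b).symm
  have : IsFractionRing (Localization.AtPrime 𝔫) F :=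
    IsFractionRing.isFractionRing_of_isDomain_of_isLocalization 𝔫.primeCompl
      (Localization.AtPrime 𝔫) F
  have : IsNoetherianRing (Localization.AtPrime 𝔫) :=
    IsLocalization.isNoetherianRing 𝔫.primeCompl _ inferInstance
  have hprime := VertPrimeHtOne.prime_algebraMap_htOne (F := F) 𝔫 (Localization.AtPrime 𝔫)
    hπne h𝔭𝔫 hπ0 hgen hother
  have hfr := isFrame_heightOne (B := B2) (F := F)
  have := VertPrime.isDomain_quotient hfr 𝔫 (Localization.AtPrime 𝔫) hπne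
    ((over_V1_iff 𝔫 𝔭₀).2 h𝔭𝔫) ((algebraMap_mem_nonunits_V1_iff 𝔭₀ π).2 hπ0)
    (VertPrimeHtOne.hgen_V1 𝔭₀ hπne hgen) (VertPrimeHtOne.hother_V1 𝔫 hother)
  have := VertPrime.valuationRing_quotient hfr 𝔫 (Localization.AtPrime 𝔫) hπne
    ((over_V1_iff 𝔫 𝔭₀).2 h𝔭𝔫) ((algebraMap_mem_nonunits_V1_iff 𝔭₀ π).2 hπ0)
    (VertPrimeHtOne.hgen_V1 𝔭₀ hπne hgen) (VertPrimeHtOne.hother_V1 𝔫 hother)
    (VertPrimeHtOne.hval_V1 𝔫 hval)
  exact ufd_of_prime_valuationRing hprime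

/-- **(LOC-I/II), complete.**  `𝔫` a prime of the noetherian normal chart `B2` lying on exactly
one vertical height-one prime `𝔭₀ ∈ vert`; helper84's inputs `(π, hgen, hother, hval)` at
`(𝔫, 𝔭₀)`; `u ≡ 1` at the vertical primes, `u⁻¹ ∈ B12`, `B12` `m`-root closed; `m ∣ ord_𝔭 u` at the
horizontal height-one primes through `𝔫` (`hord`).  Then there is a local generator
`g ∈ B12`, `g ^ m * u = c ∈ B2 ∖ 𝔫`, satisfying (LOC) at `𝔫`. -/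
theorem exists_locAt (B12 : Subring F) (hle : B2 ≤ B12) (vert : Finset (HtOne B2))
    (𝔫 : Ideal B2) [𝔫.IsPrime]
    {𝔭₀ : HtOne B2} (h𝔭₀ : 𝔭₀ ∈ vert) (h𝔭𝔫 : 𝔭₀.1 ≤ 𝔫)
    (hbr : ∀ j ∈ vert, j ≠ 𝔭₀ → ¬ j.1 ≤ 𝔫)
    {π : B2} (hπne : π ≠ 0) (hπ0 : π ∈ 𝔭₀.1)
    (hgen : ∀ f ∈ 𝔭₀.1, ∃ s : B2, s ∉ 𝔭₀.1 ∧ π ∣ s * f)
    (hother : ∀ 𝔮 : HtOne B2, 𝔮 ≠ 𝔭₀ → 𝔮.1 ≤ 𝔫 → π ∉ 𝔮.1)
    (hval : ∀ a b : B2, ∃ c s : B2, s ∉ 𝔫 ∧ (s * a - c * b ∈ 𝔭₀.1 ∨ s * b - c * a ∈ 𝔭₀.1))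
    {m : ℕ} (hm : m ≠ 0) {u : F}
    (hu : ∀ j ∈ vert, u - 1 ∈ (V1 F j).nonunits)
    (hu12 : u⁻¹ ∈ B12) (hrc : ∀ y : F, y ^ m ∈ B12 → y ∈ B12)
    (hord : ∀ 𝔭 : HtOne B2, 𝔭 ∉ vert → 𝔭.1 ≤ 𝔫 → ∃ z : F, z ≠ 0 ∧ UnitAt 𝔭 (u * z ^ m)) :
    ∃ g ∈ B12, (∃ c : B2, c ∉ 𝔫 ∧ g ^ m * u = c) ∧
      LocAt (V1 (B := B2) F) B2 B12 vert 𝔫 g := by
  classical
  have hufd := ufd_localization (F := F) 𝔫 h𝔭𝔫 hπne hπ0 hgen hother hval
  have hu0 : u ≠ 0 := ne_zero_of_sub_one_mem (hu 𝔭₀ h𝔭₀)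
  -- the Kummer datum at `𝔫`
  obtain ⟨g0, c, s, hc, hs, hgc⟩ :=
    exists_kummer_datum_of_ufd (F := F) 𝔫 (Localization.AtPrime 𝔫) m u hu0 (fun 𝔭 h𝔭 => by
      by_cases hv : 𝔭 ∈ vert
      · exact hord_of_unitAt m (inv_mem_of_sub_one_mem (hu 𝔭 hv))
      · exact hord 𝔭 hv h𝔭)
  -- normalise: `g := s g0`, `g ^ m u = s ^ (m - 1) c`
  have hgc' : ((s : F) * g0) ^ m * u = ((s ^ (m - 1) * c : B2) : F) := by
    have h1 : ((s ^ (m - 1) * c : B2) : F) = (s : F) ^ (m - 1) * (c : F) := by push_cast; rfl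
    have h2 : (c : F) = g0 ^ m * u * (s : F) := hgc.symm
    rw [h1, h2, mul_pow, ← pow_sub_one_mul hm (s : F)]
    ring
  have hc' : s ^ (m - 1) * c ∉ 𝔫 := fun h =>
    (Ideal.IsPrime.mem_or_mem ‹_› h).elim (fun h1 => hs (Ideal.IsPrime.mem_of_pow_mem ‹_› _ h1)) hc
  have hgB : (s : F) * g0 ∈ B12 := by
    apply hrc
    have : ((s : F) * g0) ^ m = ((s ^ (m - 1) * c : B2) : F) * u⁻¹ := by
      rw [← hgc', mul_assoc, mul_inv_cancel₀ hu0, mul_one]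
    rw [this]
    exact B12.mul_mem (hle (s ^ (m - 1) * c).2) hu12
  refine ⟨(s : F) * g0, hgB, ⟨s ^ (m - 1) * c, hc', hgc'⟩, ?_⟩
  refine loc_unibranch (isFrame_heightOne (B := B2) (F := F)) B12 hle vert 𝔫 h𝔭₀
    (fun j hj hne h => hbr j hj hne ((over_V1_iff 𝔫 j).1 h)) hm hu ?_ hgB hc' hgc'
  rintro z hz ⟨d, hd, hzd⟩
  have h1 : (1 : B2) ∉ 𝔫 := fun h => (Ideal.IsPrime.ne_top ‹_›) ((Ideal.eq_top_iff_one 𝔫).mpr h)
  have h2 : algebraMap B2 F 1 * z ^ m - algebraMap B2 F d ∈ (V1 F 𝔭₀).nonunits := by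
    rw [map_one, one_mul]
    exact hzd
  exact VertPrimeHtOne.res_htOne 𝔫 h𝔭𝔫 hval hm hz h1 hd h2

/-- **(LOC-I/II), Dedekind component form**: `hval` discharged from a surjection
`rd : B2 ↠ D` onto a Dedekind domain with kernel `𝔭₀` (J1-SURJ: `rd_i(B2) = D_i`). -/
theorem exists_locAt_of_isDedekindDomain (B12 : Subring F) (hle : B2 ≤ B12)
    (vert : Finset (HtOne B2)) (𝔫 : Ideal B2) [𝔫.IsPrime]
    {𝔭₀ : HtOne B2} (h𝔭₀ : 𝔭₀ ∈ vert) (h𝔭𝔫 : 𝔭₀.1 ≤ 𝔫)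
    (hbr : ∀ j ∈ vert, j ≠ 𝔭₀ → ¬ j.1 ≤ 𝔫)
    {π : B2} (hπne : π ≠ 0) (hπ0 : π ∈ 𝔭₀.1)
    (hgen : ∀ f ∈ 𝔭₀.1, ∃ s : B2, s ∉ 𝔭₀.1 ∧ π ∣ s * f)
    (hother : ∀ 𝔮 : HtOne B2, 𝔮 ≠ 𝔭₀ → 𝔮.1 ≤ 𝔫 → π ∉ 𝔮.1)
    {D : Type*} [CommRing D] [IsDedekindDomain D] (rd : B2 →+* D)
    (hsurj : Function.Surjective rd) (hker : ∀ a, rd a = 0 ↔ a ∈ 𝔭₀.1)
    {m : ℕ} (hm : m ≠ 0) {u : F}
    (hu : ∀ j ∈ vert, u - 1 ∈ (V1 F j).nonunits)
    (hu12 : u⁻¹ ∈ B12) (hrc : ∀ y : F, y ^ m ∈ B12 → y ∈ B12)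
    (hord : ∀ 𝔭 : HtOne B2, 𝔭 ∉ vert → 𝔭.1 ≤ 𝔫 → ∃ z : F, z ≠ 0 ∧ UnitAt 𝔭 (u * z ^ m)) :
    ∃ g ∈ B12, (∃ c : B2, c ∉ 𝔫 ∧ g ^ m * u = c) ∧
      LocAt (V1 (B := B2) F) B2 B12 vert 𝔫 g :=
  exists_locAt B12 hle vert 𝔫 h𝔭₀ h𝔭𝔫 hbr hπne hπ0 hgen hother
    (VertPrimeHtOne.hval_of_isDedekindDomain_htOne 𝔫 rd hsurj hker h𝔭𝔫) hm hu hu12 hrc hord

/-- `B12` is `m`-root closed as soon as it is integrally closed in `F`. -/
theorem rootClosed_of_integrallyClosed (B12 : Subring F)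
    (hic : ∀ y : F, IsIntegral B12 y → y ∈ B12) {m : ℕ} (hm : m ≠ 0) (y : F)
    (hy : y ^ m ∈ B12) : y ∈ B12 := by
  apply hic
  refine ⟨Polynomial.X ^ m - Polynomial.C (⟨y ^ m, hy⟩ : B12),
    Polynomial.monic_X_pow_sub_C _ hm, ?_⟩
  simp only [Polynomial.eval₂_sub, Polynomial.eval₂_pow, Polynomial.eval₂_X, Polynomial.eval₂_C]
  exact sub_self _

end Point

end Fermat.Agent.GL.Frame.LocTypeI
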