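/-
GATE-L / (LOC-I) with `π = q` (helper47): the type I corollary of `LocTypeI.exists_locAt`.

At a point `𝔫` of the special fibre lying on exactly one vertical component `𝔭₀` which is
UNRAMIFIED (`e = 1`: `q` generates the maximal ideal of the DVR `V1 F 𝔭₀ = W_i`, `i = 1, 2`),
the inputs `hgen`, `hother` of helper84's contract are automatic:

* `hgen_of_unif` : `e = 1` in valuation form (`f ∈ 𝔪_{W} → f / q ∈ W`) ⟹ `hgen` for `π = q`;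
* `hother_of_hbr` : every height-one prime containing `q` is in `vert` and no other element of
  `vert` passes through `𝔫` ⟹ `hother` for `π = q`;
* `exists_locAt_q` : (LOC) at `𝔫` from `hunif`, `hval` (helper84 `VertPrimeOld`: (OLD_i,𝔫)) and
  `hord` at the horizontal primes (helper11 `HorizHord`).
-/
import Fermat.Agent.GL.Frame.LocTypeI

set_option autoImplicit false
set_option linter.unusedSectionVars false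

namespace Fermat.Agent.GL.Frame.LocTypeI

open Fermat.Agent.GL Fermat.Agent.GL.KrullFrame Fermat.Agent.GL.Frame.HeightOne
  Fermat.Agent.GL.Frame.Kummer Fermat.Agent.GL.LocGlue

section Gen

variable {B F : Type*} [CommRing B] [IsDomain B] [Field F] [Algebra B F] [IsFractionRing B F]
  [IsNoetherianRing B] [IsIntegrallyClosed B]

/-- `e = 1` in valuation form gives helper84's `hgen` for `π = q`. -/
theorem hgen_of_unif {𝔭₀ : HtOne B} {q : B} (hq0 : q ≠ 0)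
    (hunif : ∀ f : F, f ∈ (V1 F 𝔭₀).nonunits → f / algebraMap B F q ∈ V1 F 𝔭₀)
    (f : B) (hf : f ∈ 𝔭₀.1) : ∃ s : B, s ∉ 𝔭₀.1 ∧ q ∣ s * f := by
  have hqF : algebraMap B F q ≠ 0 := fun h =>
    hq0 ((map_eq_zero_iff _ (IsFractionRing.injective B F)).1 h)
  have h1 := hunif _ ((algebraMap_mem_nonunits_V1_iff 𝔭₀ f).2 hf)
  obtain ⟨s, hs, b, hb⟩ := (mem_V1_iff 𝔭₀).1 h1
  refine ⟨s, hs, b, ?_⟩
  apply IsFractionRing.injective B F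
  rw [map_mul, map_mul, hb, Algebra.smul_def]
  field_simp

/-- no other height-one prime through `𝔫` contains `q`. -/
theorem hother_of_hbr (vert : Finset (HtOne B)) {q : B}
    (hvert : ∀ 𝔭 : HtOne B, q ∈ 𝔭.1 → 𝔭 ∈ vert) (𝔫 : Ideal B) {𝔭₀ : HtOne B}
    (hbr : ∀ j ∈ vert, j ≠ 𝔭₀ → ¬ j.1 ≤ 𝔫) (𝔮 : HtOne B) (h𝔮 : 𝔮 ≠ 𝔭₀) (h𝔮𝔫 : 𝔮.1 ≤ 𝔫) :
    q ∉ 𝔮.1 := fun hq => hbr 𝔮 (hvert 𝔮 hq) h𝔮 h𝔮𝔫

end Gen

section Point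

variable {F : Type*} [Field F] {B2 : Subring F} [IsFractionRing B2 F]
  [IsNoetherianRing B2] [IsIntegrallyClosed B2]

/-- **(LOC-I), `π = q`.** -/
theorem exists_locAt_q (B12 : Subring F) (hle : B2 ≤ B12) (vert : Finset (HtOne B2))
    {q : B2} (hq0 : q ≠ 0) (hvert : ∀ 𝔭 : HtOne B2, q ∈ 𝔭.1 → 𝔭 ∈ vert)
    (𝔫 : Ideal B2) [𝔫.IsPrime]
    {𝔭₀ : HtOne B2} (h𝔭₀ : 𝔭₀ ∈ vert) (hq𝔭₀ : q ∈ 𝔭₀.1) (h𝔭𝔫 : 𝔭₀.1 ≤ 𝔫)
    (hbr : ∀ j ∈ vert, j ≠ 𝔭₀ → ¬ j.1 ≤ 𝔫)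
    (hunif : ∀ f : F, f ∈ (V1 F 𝔭₀).nonunits → f / (q : F) ∈ V1 F 𝔭₀)
    (hval : ∀ a b : B2, ∃ c s : B2, s ∉ 𝔫 ∧ (s * a - c * b ∈ 𝔭₀.1 ∨ s * b - c * a ∈ 𝔭₀.1))
    {m : ℕ} (hm : m ≠ 0) {u : F}
    (hu : ∀ j ∈ vert, u - 1 ∈ (V1 F j).nonunits)
    (hu12 : u⁻¹ ∈ B12) (hrc : ∀ y : F, y ^ m ∈ B12 → y ∈ B12)
    (hord : ∀ 𝔭 : HtOne B2, 𝔭 ∉ vert → 𝔭.1 ≤ 𝔫 → ∃ z : F, z ≠ 0 ∧ UnitAt 𝔭 (u * z ^ m)) :
    ∃ g ∈ B12, (∃ c : B2, c ∉ 𝔫 ∧ g ^ m * u = c) ∧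
      LocAt (V1 (B := B2) F) B2 B12 vert 𝔫 g :=
  exists_locAt B12 hle vert 𝔫 h𝔭₀ h𝔭𝔫 hbr hq0 hq𝔭₀
    (hgen_of_unif (F := F) hq0 hunif) (hother_of_hbr vert hvert 𝔫 hbr) hval hm hu hu12 hrc hord

end Point

end Fermat.Agent.GL.Frame.LocTypeI
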