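/-
GATE-L / BRANCH-POINT constructor, abstract (helper90).  Mathlib only.

`B` a commutative ring (a chart ring), `ρ : B →+* κ` a ring hom to a field (the reduction `rd_i`
restricted to `B`), `χ : B →+* k` a ring hom to a field (the residue character of a closed point
`n = ker χ`), with `ker ρ ⊆ ker χ` (the point lies on the component `i`).

* `locSub ρ χ : Subring κ`          := `ρ(B)` localised at `ρ(ker χ)`:
                                       `{y | ∃ a s, χ s ≠ 0 ∧ y * ρ s = ρ a}`;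
* `ev ρ χ : κ → k`                    := `ρ a / ρ s ↦ χ a / χ s` (junk outside `locSub`);
* `locVal ρ χ hval : ValuationSubring κ` when `locSub ρ χ` is a valuation subring (`hval`; in the
  application `ρ(B)` is a Dedekind domain with fraction field `κ`);
* `evalHom ρ χ hker hval : locVal ρ χ hval →+* k`;
* `inv_mem_of_ev_ne_zero` (`heu`), `map_mem`, `ev_map` (`hB`, `hχ`);
* functoriality along `φ : B' →+* B`, `j : κ' →+* κ` with `ρ ∘ φ = j ∘ ρ'`, `χ ∘ φ = χ'`: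
  `mem_iff_map_mem` (`y ∈ U' ↔ j y ∈ U`) and `ev_map_hom` (`e (j y) = e' y`)
  = the compatibilities `c11 … c23e'` of `H4OfXi.TripleSetup`.
-/
import Mathlib

set_option autoImplicit false

namespace Fermat.Agent.GL.BranchPoint

variable {B κ k : Type*} [CommRing B] [Field κ] [Field k]

/-- `ρ(B)` localised at `ρ(ker χ)`, inside `κ` -/
def locSub (ρ : B →+* κ) (χ : B →+* k) : Subring κ where
  carrier := {y | ∃ a s : B, χ s ≠ 0 ∧ y * ρ s = ρ a}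
  mul_mem' := by
    rintro y₁ y₂ ⟨a₁, s₁, h₁, e₁⟩ ⟨a₂, s₂, h₂, e₂⟩
    refine ⟨a₁ * a₂, s₁ * s₂, ?_, ?_⟩
    · rw [map_mul]; exact mul_ne_zero h₁ h₂
    · rw [map_mul, map_mul, ← e₁, ← e₂]; ring
  one_mem' := ⟨1, 1, by rw [map_one]; exact one_ne_zero, by rw [map_one, mul_one]⟩
  add_mem' := by
    rintro y₁ y₂ ⟨a₁, s₁, h₁, e₁⟩ ⟨a₂, s₂, h₂, e₂⟩
    refine ⟨a₁ * s₂ + a₂ * s₁, s₁ * s₂, ?_, ?_⟩
    · rw [map_mul]; exact mul_ne_zero h₁ h₂
    · rw [map_mul, map_add, map_mul, map_mul, ← e₁, ← e₂]; ring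
  zero_mem' := ⟨0, 1, by rw [map_one]; exact one_ne_zero, by rw [map_zero, zero_mul]⟩
  neg_mem' := by
    rintro y ⟨a, s, h, e⟩
    exact ⟨-a, s, h, by rw [map_neg, ← e]; ring⟩

theorem mem_locSub {ρ : B →+* κ} {χ : B →+* k} {y : κ} :
    y ∈ locSub ρ χ ↔ ∃ a s : B, χ s ≠ 0 ∧ y * ρ s = ρ a := Iff.rfl

/-- `ρ(B) ⊆ locSub ρ χ` -/
theorem map_mem (ρ : B →+* κ) (χ : B →+* k) (b : B) : ρ b ∈ locSub ρ χ :=
  ⟨b, 1, by rw [map_one]; exact one_ne_zero, by rw [map_one, mul_one]⟩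

open Classical in
/-- the evaluation `ρ a / ρ s ↦ χ a / χ s` (junk outside `locSub ρ χ`) -/
noncomputable def ev (ρ : B →+* κ) (χ : B →+* k) (y : κ) : k :=
  if h : ∃ a s : B, χ s ≠ 0 ∧ y * ρ s = ρ a then χ h.choose / χ h.choose_spec.choose else 0

section Ev

variable {ρ : B →+* κ} {χ : B →+* k} (hker : ∀ b, ρ b = 0 → χ b = 0)

include hker

theorem rho_ne_zero {s : B} (hs : χ s ≠ 0) : ρ s ≠ 0 := fun h => hs (hker s h)

/-- the evaluation does not depend on the representation -/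
theorem ev_eq {y : κ} {a s : B} (hs : χ s ≠ 0) (h : y * ρ s = ρ a) : ev ρ χ y = χ a / χ s := by
  have hex : ∃ a s : B, χ s ≠ 0 ∧ y * ρ s = ρ a := ⟨a, s, hs, h⟩
  rw [ev, dif_pos hex]
  obtain ⟨hs', h'⟩ := hex.choose_spec.choose_spec
  set a' := hex.choose
  set s' := hex.choose_spec.choose
  rw [div_eq_div_iff hs' hs]
  have h1 : ρ (a' * s - a * s') = 0 := by
    rw [map_sub, map_mul, map_mul, ← h', ← h]; ring
  have h2 := hker _ h1
  rw [map_sub, map_mul, map_mul, sub_eq_zero] at h2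
  exact h2

theorem ev_map (b : B) : ev ρ χ (ρ b) = χ b := by
  rw [ev_eq hker (s := 1) (a := b) (by rw [map_one]; exact one_ne_zero)
    (by rw [map_one, mul_one]), map_one, div_one]

theorem ev_one : ev ρ χ (1 : κ) = 1 := by
  have := ev_map hker (1 : B)
  rwa [map_one, map_one] at this

theorem ev_zero : ev ρ χ (0 : κ) = 0 := by
  have := ev_map hker (0 : B)
  rwa [map_zero, map_zero] at this

theorem ev_mul {y₁ y₂ : κ} (h₁ : y₁ ∈ locSub ρ χ) (h₂ : y₂ ∈ locSub ρ χ) :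
    ev ρ χ (y₁ * y₂) = ev ρ χ y₁ * ev ρ χ y₂ := by
  obtain ⟨a₁, s₁, hs₁, e₁⟩ := h₁
  obtain ⟨a₂, s₂, hs₂, e₂⟩ := h₂
  have hs : χ (s₁ * s₂) ≠ 0 := by rw [map_mul]; exact mul_ne_zero hs₁ hs₂
  have e : y₁ * y₂ * ρ (s₁ * s₂) = ρ (a₁ * a₂) := by
    rw [map_mul, map_mul, ← e₁, ← e₂]; ring
  rw [ev_eq hker hs e, ev_eq hker hs₁ e₁, ev_eq hker hs₂ e₂, map_mul, map_mul,
    div_mul_div_comm]

theorem ev_add {y₁ y₂ : κ} (h₁ : y₁ ∈ locSub ρ χ) (h₂ : y₂ ∈ locSub ρ χ) :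
    ev ρ χ (y₁ + y₂) = ev ρ χ y₁ + ev ρ χ y₂ := by
  obtain ⟨a₁, s₁, hs₁, e₁⟩ := h₁
  obtain ⟨a₂, s₂, hs₂, e₂⟩ := h₂
  have hs : χ (s₁ * s₂) ≠ 0 := by rw [map_mul]; exact mul_ne_zero hs₁ hs₂
  have e : (y₁ + y₂) * ρ (s₁ * s₂) = ρ (a₁ * s₂ + a₂ * s₁) := by
    rw [map_mul, map_add, map_mul, map_mul, ← e₁, ← e₂]; ring
  rw [ev_eq hker hs e, ev_eq hker hs₁ e₁, ev_eq hker hs₂ e₂, map_mul, map_add, map_mul, map_mul,
    div_add_div _ _ hs₁ hs₂, mul_comm (χ s₁) (χ a₂)]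

/-- **`heu`**: an element with non-zero value is a unit of `locSub ρ χ`. -/
theorem inv_mem_of_ev_ne_zero {y : κ} (hy : y ∈ locSub ρ χ) (h : ev ρ χ y ≠ 0) :
    y⁻¹ ∈ locSub ρ χ := by
  obtain ⟨a, s, hs, e⟩ := hy
  rw [ev_eq hker hs e] at h
  have ha : χ a ≠ 0 := fun h0 => h (by rw [h0, zero_div])
  have hρs : ρ s ≠ 0 := rho_ne_zero hker hs
  have hy0 : y ≠ 0 := by
    rintro rfl
    rw [zero_mul] at e
    exact ha (hker a e.symm)
  refine ⟨s, a, ha, ?_⟩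
  rw [← e]
  field_simp

/-- the value of a non-unit is `0`. -/
theorem ev_eq_zero_of_inv_not_mem {y : κ} (hy : y ∈ locSub ρ χ) (h : y⁻¹ ∉ locSub ρ χ) :
    ev ρ χ y = 0 := by
  by_contra h0
  exact h (inv_mem_of_ev_ne_zero hker hy h0)

end Ev

/-! ### The valuation subring and the evaluation homomorphism -/

/-- `locSub ρ χ` as a valuation subring of `κ` -/
def locVal (ρ : B →+* κ) (χ : B →+* k) (hval : ∀ y : κ, y ∈ locSub ρ χ ∨ y⁻¹ ∈ locSub ρ χ) :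
    ValuationSubring κ :=
  { locSub ρ χ with mem_or_inv_mem' := hval }

theorem mem_locVal {ρ : B →+* κ} {χ : B →+* k}
    {hval : ∀ y : κ, y ∈ locSub ρ χ ∨ y⁻¹ ∈ locSub ρ χ} {y : κ} :
    y ∈ locVal ρ χ hval ↔ y ∈ locSub ρ χ := Iff.rfl

/-- the evaluation homomorphism `locVal ρ χ hval →+* k` -/
noncomputable def evalHom (ρ : B →+* κ) (χ : B →+* k) (hker : ∀ b, ρ b = 0 → χ b = 0)
    (hval : ∀ y : κ, y ∈ locSub ρ χ ∨ y⁻¹ ∈ locSub ρ χ) : locVal ρ χ hval →+* k where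
  toFun y := ev ρ χ (y : κ)
  map_one' := ev_one hker
  map_mul' y₁ y₂ := ev_mul hker y₁.2 y₂.2
  map_zero' := ev_zero hker
  map_add' y₁ y₂ := ev_add hker y₁.2 y₂.2

@[simp] theorem evalHom_apply (ρ : B →+* κ) (χ : B →+* k) (hker : ∀ b, ρ b = 0 → χ b = 0)
    (hval : ∀ y : κ, y ∈ locSub ρ χ ∨ y⁻¹ ∈ locSub ρ χ) (y : locVal ρ χ hval) :
    evalHom ρ χ hker hval y = ev ρ χ (y : κ) := rfl

/-! ### Functoriality -/

section Functorial

variable {B' κ' : Type*} [CommRing B'] [Field κ']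
  {ρ : B →+* κ} {χ : B →+* k} {ρ' : B' →+* κ'} {χ' : B' →+* k}
  (φ : B' →+* B) (j : κ' →+* κ) (hρ : ∀ b, ρ (φ b) = j (ρ' b)) (hχ : ∀ b, χ (φ b) = χ' b)

include hρ hχ

theorem map_hom_mem {y : κ'} (hy : y ∈ locSub ρ' χ') : j y ∈ locSub ρ χ := by
  obtain ⟨a, s, hs, e⟩ := hy
  refine ⟨φ a, φ s, by rw [hχ]; exact hs, ?_⟩
  rw [hρ, hρ, ← map_mul, e]

/-- **`c**e`**: the evaluations are compatible. -/
theorem ev_map_hom (hker : ∀ b, ρ b = 0 → χ b = 0) (hker' : ∀ b, ρ' b = 0 → χ' b = 0) {y : κ'}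
    (hy : y ∈ locSub ρ' χ') : ev ρ χ (j y) = ev ρ' χ' y := by
  obtain ⟨a, s, hs, e⟩ := hy
  have e' : j y * ρ (φ s) = ρ (φ a) := by rw [hρ, hρ, ← map_mul, e]
  rw [ev_eq hker (by rw [hχ]; exact hs) e', ev_eq hker' hs e, hχ, hχ]

/-- **`c**`**: `y ∈ U' ↔ j y ∈ U` as soon as `U'` is a valuation subring. -/
theorem mem_iff_map_mem (hker : ∀ b, ρ b = 0 → χ b = 0) (hker' : ∀ b, ρ' b = 0 → χ' b = 0)
    (hval' : ∀ y : κ', y ∈ locSub ρ' χ' ∨ y⁻¹ ∈ locSub ρ' χ') (y : κ') :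
    y ∈ locSub ρ' χ' ↔ j y ∈ locSub ρ χ := by
  refine ⟨map_hom_mem φ j hρ hχ, fun h => ?_⟩
  by_contra hy
  have hyi : y⁻¹ ∈ locSub ρ' χ' := (hval' y).resolve_left hy
  have hy0 : y ≠ 0 := by
    rintro rfl
    exact hy (Subring.zero_mem _)
  have h1 : ev ρ' χ' y⁻¹ = 0 :=
    ev_eq_zero_of_inv_not_mem hker' hyi (by rwa [inv_inv])
  have h2 : ev ρ χ (j y⁻¹) = 0 := by rw [ev_map_hom φ j hρ hχ hker hker' hyi, h1]
  have h3 : ev ρ χ (j y * j y⁻¹) = 1 := by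
    rw [← map_mul, mul_inv_cancel₀ hy0, map_one]
    exact ev_one hker
  rw [ev_mul hker h (map_hom_mem φ j hρ hχ hyi), h2, mul_zero] at h3
  exact zero_ne_one h3

end Functorial

end Fermat.Agent.GL.BranchPoint
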