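/-
GATE-L / RES-CHAR (helper31): residue characters of a chart ring at the closed points of its
special fibre.

`R0` a commutative ring with a surjective `res : R0 →+* k` onto an ALGEBRAICALLY CLOSED field
(`R0 = R0 A`, `k = k0 A`), `B` an `R0`-algebra which is integral over `R0[t]` for one element
`t : B` (`B = Bj`, the integral closure of `R0[j]` in `K0(X0(N))`, `t = j`), `n` a maximal ideal
of `B` on the special fibre (`ker res ⊆ n ∩ R0`).

* `exists_char` : there is a ring hom `χ : B →+* k` with kernel `n`, surjective, restricting to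
  `res` on `R0`  (the fields `χ`, `hχker`, `hχsurj` of `H4OfXi.TripleSetup`; the node characters
  `χ'` of `H4Arm`).
* `char_unique` : such a character is unique.
* `char_comp` : functoriality along a ring hom `φ : B' →+* B` over `R0`:
  `χ_n ∘ φ = χ'_{n'}` whenever `ker χ' = φ⁻¹ n`  (`hχ` of `BranchPoint` functoriality; the
  definition of `p1`, `p2`).
* `exists_lift_of_char` : every value of `χ` is attained on `R0` modulo `n`
  (`∀ b, ∃ r, b - algebraMap r ∈ n`): the residue field of `n` is `k`.

Mathlib only.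
-/
import Mathlib

set_option autoImplicit false
set_option linter.style.haveILetI false

namespace Fermat.Agent.GL.Frame.ResChar

open Polynomial

section Alg

variable {k K : Type*} [Field k] [Field K] [Algebra k K]

/-- a field which is integral over a one-generator `k`-subalgebra is integral over `k`
(Zariski's lemma in one variable). -/
theorem isIntegral_of_integral_over_adjoin (tb : K)
    (h : ∀ x : K, IsIntegral (Algebra.adjoin k {tb}) x) : Algebra.IsIntegral k K := by
  classical
  set S : Subalgebra k K := Algebra.adjoin k {tb} with hS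
  have : Algebra.IsIntegral S K := ⟨h⟩
  have hSf : IsField S :=
    isField_of_isIntegral_of_isField (R := S) (S := K) Subtype.val_injective
      (Field.toIsField K)
  have htS : tb ∈ S := Algebra.subset_adjoin rfl
  -- `tb` is algebraic over `k`
  have htb : IsIntegral k tb := by
    by_cases h0 : tb = 0
    · rw [h0]; exact isIntegral_zero
    · have hne : (⟨tb, htS⟩ : S) ≠ 0 := fun h' => h0 (congrArg Subtype.val h')
      obtain ⟨y, hy⟩ := hSf.mul_inv_cancel hne
      have hyS : (y : K) ∈ Algebra.adjoin k {tb} := y.2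
      rw [Algebra.adjoin_singleton_eq_range_aeval] at hyS
      obtain ⟨p, hp⟩ := hyS
      have hp' : aeval tb p = (y : K) := hp
      have hmul : tb * (y : K) = 1 := congrArg Subtype.val hy
      have hroot : aeval tb (X * p - 1) = 0 := by
        rw [map_sub, map_mul, aeval_X, map_one, hp', hmul, sub_self]
      have hne0 : (X * p - 1 : k[X]) ≠ 0 := by
        intro h1
        have := congrArg (fun f : k[X] => f.coeff 0) h1
        simp at this
      exact IsAlgebraic.isIntegral ⟨X * p - 1, hne0, hroot⟩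
  have : Algebra.IsIntegral k S := Algebra.IsIntegral.adjoin (by
    intro x hx
    rw [Set.mem_singleton_iff] at hx
    rw [hx]; exact htb)
  exact Algebra.IsIntegral.trans (R := k) (A := S) (B := K)

end Alg

variable {R0 k B : Type*} [CommRing R0] [Field k] [IsAlgClosed k] [CommRing B] [Algebra R0 B]

/-- **the residue character at a closed point of the special fibre.** -/
theorem exists_char (res : R0 →+* k) (hres : Function.Surjective res) (t : B)
    (hint : ∀ b : B, IsIntegral (Algebra.adjoin R0 {t}) b)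
    (n : Ideal B) [hn : n.IsMaximal]
    (hker : ∀ r : R0, res r = 0 → algebraMap R0 B r ∈ n) :
    ∃ χ : B →+* k, (∀ b, χ b = 0 ↔ b ∈ n) ∧ Function.Surjective χ ∧
      ∀ r, χ (algebraMap R0 B r) = res r := by
  classical
  letI : Field (B ⧸ n) := Ideal.Quotient.field n
  set mk : B →+* B ⧸ n := Ideal.Quotient.mk n with hmk
  set g : R0 →+* B ⧸ n := mk.comp (algebraMap R0 B) with hg
  have hgker : RingHom.ker res ≤ RingHom.ker g := by
    intro r hr
    rw [RingHom.mem_ker] at hr ⊢
    exact Ideal.Quotient.eq_zero_iff_mem.mpr (hker r hr)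
  set φ : k →+* B ⧸ n := RingHom.liftOfSurjective res hres ⟨g, hgker⟩ with hφdef
  have hφ : ∀ r, φ (res r) = g r := fun r =>
    RingHom.liftOfRightInverse_comp_apply res _ _ ⟨g, hgker⟩ r
  letI : Algebra k (B ⧸ n) := φ.toAlgebra
  have halg : ∀ a : k, algebraMap k (B ⧸ n) a = φ a := fun a => rfl
  -- `B ⧸ n` is integral over `k[mk t]`
  set S : Subalgebra k (B ⧸ n) := Algebra.adjoin k {mk t} with hS
  have hmem : ∀ a : Algebra.adjoin R0 {t}, mk (a : B) ∈ S := by
    rintro ⟨a, ha⟩
    induction ha using Algebra.adjoin_induction with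
    | mem x hx =>
      rw [Set.mem_singleton_iff] at hx
      subst hx
      exact Algebra.subset_adjoin rfl
    | algebraMap r =>
      have : mk (algebraMap R0 B r) = algebraMap k (B ⧸ n) (res r) := by
        rw [halg, hφ]; rfl
      change mk (algebraMap R0 B r) ∈ S
      rw [this]
      exact S.algebraMap_mem _
    | add x y _ _ hx hy =>
      change mk (x + y) ∈ S
      rw [map_add]
      exact S.add_mem hx hy
    | mul x y _ _ hx hy =>
      change mk (x * y) ∈ S
      rw [map_mul]
      exact S.mul_mem hx hy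
  let ψ : Algebra.adjoin R0 {t} →+* S :=
    RingHom.codRestrict (mk.comp (algebraMap (Algebra.adjoin R0 {t}) B)) S (fun a => hmem a)
  have hψ : ∀ a, ((ψ a : S) : B ⧸ n) = mk (a : B) := fun a => rfl
  have hintS : ∀ x : B ⧸ n, IsIntegral S x := by
    intro x
    obtain ⟨b, rfl⟩ := Ideal.Quotient.mk_surjective x
    obtain ⟨p, hpm, hp⟩ := hint b
    refine ⟨p.map ψ, hpm.map ψ, ?_⟩
    rw [eval₂_map]
    have hcomp : (algebraMap S (B ⧸ n)).comp ψ =
        mk.comp (algebraMap (Algebra.adjoin R0 {t}) B) := by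
      ext a
      rfl
    rw [hcomp]
    have := congrArg mk hp
    rw [map_zero, hom_eval₂] at this
    exact this
  have : Algebra.IsIntegral k (B ⧸ n) := isIntegral_of_integral_over_adjoin (mk t) hintS
  have hbij : Function.Bijective φ :=
    IsAlgClosed.algebraMap_bijective_of_isIntegral (k := k) (K := B ⧸ n)
  let e : k ≃+* B ⧸ n := RingEquiv.ofBijective φ hbij
  have he : ∀ a, e a = φ a := fun a => rfl
  refine ⟨(e.symm : B ⧸ n →+* k).comp mk, ?_, ?_, ?_⟩
  · intro b
    rw [RingHom.comp_apply, RingHom.coe_coe, map_eq_zero_iff e.symm e.symm.injective]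
    exact Ideal.Quotient.eq_zero_iff_mem
  · intro a
    obtain ⟨b, hb⟩ := Ideal.Quotient.mk_surjective (e a)
    refine ⟨b, ?_⟩
    rw [RingHom.comp_apply, RingHom.coe_coe]
    change e.symm (mk b) = a
    rw [hmk, hb, RingEquiv.symm_apply_apply]
  · intro r
    rw [RingHom.comp_apply, RingHom.coe_coe]
    have : mk (algebraMap R0 B r) = e (res r) := by
      rw [he, hφ]; rfl
    rw [this, RingEquiv.symm_apply_apply]

omit [IsAlgClosed k] in
/-- every element of `B` is congruent modulo `n` to a constant. -/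
theorem exists_lift_of_char (res : R0 →+* k) (hres : Function.Surjective res)
    (n : Ideal B) (χ : B →+* k) (hχ : ∀ b, χ b = 0 ↔ b ∈ n)
    (hχr : ∀ r, χ (algebraMap R0 B r) = res r) (b : B) :
    ∃ r : R0, b - algebraMap R0 B r ∈ n := by
  obtain ⟨r, hr⟩ := hres (χ b)
  refine ⟨r, (hχ _).mp ?_⟩
  rw [map_sub, hχr, hr, sub_self]

omit [IsAlgClosed k] in
/-- the residue character is unique. -/
theorem char_unique (res : R0 →+* k) (hres : Function.Surjective res)
    (n : Ideal B) (χ₁ χ₂ : B →+* k) (h₁ : ∀ b, χ₁ b = 0 ↔ b ∈ n) (h₂ : ∀ b, b ∈ n → χ₂ b = 0)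
    (hr₁ : ∀ r, χ₁ (algebraMap R0 B r) = res r) (hr₂ : ∀ r, χ₂ (algebraMap R0 B r) = res r) :
    χ₁ = χ₂ := by
  ext b
  obtain ⟨r, hr⟩ := exists_lift_of_char res hres n χ₁ h₁ hr₁ b
  have e1 : χ₁ b = res r := by
    have := (h₁ _).mpr hr
    rw [map_sub, hr₁, sub_eq_zero] at this
    exact this
  have e2 : χ₂ b = res r := by
    have := h₂ _ hr
    rw [map_sub, hr₂, sub_eq_zero] at this
    exact this
  rw [e1, e2]

omit [IsAlgClosed k] in
/-- **functoriality**: along a ring hom `φ : B' →+* B` over `R0`, the character of `n` restricts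
to the character of `φ⁻¹ n`. -/
theorem char_comp {B' : Type*} [CommRing B'] [Algebra R0 B'] (res : R0 →+* k)
    (hres : Function.Surjective res) (φ : B' →+* B)
    (hφ : ∀ r, φ (algebraMap R0 B' r) = algebraMap R0 B r)
    (n : Ideal B) (χ : B →+* k) (hχ : ∀ b, χ b = 0 ↔ b ∈ n)
    (hχr : ∀ r, χ (algebraMap R0 B r) = res r)
    (n' : Ideal B') (χ' : B' →+* k) (hχ' : ∀ b, χ' b = 0 ↔ b ∈ n')
    (hχr' : ∀ r, χ' (algebraMap R0 B' r) = res r) (hn' : n' = n.comap φ) :
    χ.comp φ = χ' := by
  refine (char_unique res hres n' χ' (χ.comp φ) hχ' ?_ hχr' ?_).symm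
  · intro b hb
    rw [RingHom.comp_apply, hχ]
    rw [hn'] at hb
    exact hb
  · intro r
    rw [RingHom.comp_apply, hφ, hχr]

omit [IsAlgClosed k] in
/-- the contraction of the kernel of a character along a ring hom over `R0` is again the kernel
of a character: `χ ∘ φ` is THE character of `φ⁻¹ n`; in particular `φ⁻¹ n` is maximal. -/
theorem comap_isMaximal {B' : Type*} [CommRing B'] [Algebra R0 B'] (res : R0 →+* k)
    (hres : Function.Surjective res) (φ : B' →+* B)
    (hφ : ∀ r, φ (algebraMap R0 B' r) = algebraMap R0 B r)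
    (n : Ideal B) (χ : B →+* k) (hχ : ∀ b, χ b = 0 ↔ b ∈ n)
    (hχr : ∀ r, χ (algebraMap R0 B r) = res r) :
    (n.comap φ).IsMaximal ∧ (∀ b, (χ.comp φ) b = 0 ↔ b ∈ n.comap φ) ∧
      Function.Surjective (χ.comp φ) ∧ ∀ r, (χ.comp φ) (algebraMap R0 B' r) = res r := by
  have hr : ∀ r, (χ.comp φ) (algebraMap R0 B' r) = res r := by
    intro r
    rw [RingHom.comp_apply, hφ, hχr]
  have hs : Function.Surjective (χ.comp φ) := by
    intro a
    obtain ⟨r, rfl⟩ := hres a
    exact ⟨algebraMap R0 B' r, hr r⟩
  have hk : ∀ b, (χ.comp φ) b = 0 ↔ b ∈ n.comap φ := by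
    intro b
    rw [RingHom.comp_apply, hχ]
    rfl
  refine ⟨?_, hk, hs, hr⟩
  have : n.comap φ = RingHom.ker (χ.comp φ) := by
    ext b
    rw [RingHom.mem_ker, hk]
  rw [this]
  exact RingHom.ker_isMaximal_of_surjective _ hs

end Fermat.Agent.GL.Frame.ResChar
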