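/-
GATE-L / RES-CHAR-FIN (helper31): finiteness of the set of closed points of a chart ring on the
special fibre cut out by one monic polynomial in the chart coordinate.

`R0` a commutative ring, `m0` a prime (maximal) ideal of `R0` (`m0 = ker res`), `B` an `R0`-algebra
which is a FINITE module over `R0[t]` (`t : B`; in ring-hom form: `(aeval t).toRingHom.Finite`),
`s : R0[X]` MONIC (`s` = a monic lift of the supersingular polynomial, `t = j`).

* `finite_quotient` : `B ⧸ (s(t))` is a finite `R0`-module.
* `finite_points` : the set of prime ideals `n` of `B` with `n ∩ R0 = m0` and `s(t) ∈ n` is finite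
  (`[Finite T]` of `H4OfXi.h4_of_xi`, `T` = the triple points = the closed points of `Bj` over the
  supersingular values).
* `finite_maximal_points` : the same for maximal ideals `n` with `m0 ⊆ n ∩ R0` (`m0` maximal).

Mathlib only.
-/
import Mathlib

set_option autoImplicit false
set_option linter.style.haveILetI false

namespace Fermat.Agent.GL.Frame.ResChar

open Polynomial

variable {R0 B : Type*} [CommRing R0] [CommRing B] [Algebra R0 B]

/-- `B ⧸ (s(t))` is a finite `R0`-module when `B` is finite over `R0[t]` and `s` is monic. -/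
theorem finite_quotient (t : B) (hfin : (aeval (R := R0) t).toRingHom.Finite)
    (s : R0[X]) (hs : s.Monic) :
    Module.Finite R0 (B ⧸ Ideal.span {aeval t s}) := by
  classical
  letI algPB : Algebra R0[X] B := (aeval (R := R0) t).toRingHom.toAlgebra
  have hPB : ∀ p : R0[X], algebraMap R0[X] B p = aeval t p := fun p => rfl
  haveI : IsScalarTower R0 R0[X] B := IsScalarTower.of_algebraMap_eq (fun r => by
    rw [hPB, Polynomial.algebraMap_apply, Algebra.algebraMap_self_apply, aeval_C])
  haveI : Module.Finite R0[X] B := hfin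
  set I : Ideal B := Ideal.span {aeval t s} with hI
  -- `B ⧸ I` is finite over `R0[X]`
  haveI : Module.Finite R0[X] (B ⧸ I) :=
    Module.Finite.of_surjective (Ideal.Quotient.mkₐ R0[X] I).toLinearMap
      (Ideal.Quotient.mkₐ_surjective R0[X] I)
  -- the `AdjoinRoot s`-algebra structure
  have hev : s.eval₂ (algebraMap R0 (B ⧸ I)) (Ideal.Quotient.mk I t) = 0 := by
    have h1 : s.eval₂ (algebraMap R0 (B ⧸ I)) (Ideal.Quotient.mk I t) =
        Ideal.Quotient.mk I (aeval t s) := by
      rw [aeval_def, hom_eval₂]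
      rfl
    rw [h1]
    exact Ideal.Quotient.eq_zero_iff_mem.mpr (Ideal.subset_span rfl)
  letI algAT : Algebra (AdjoinRoot s) (B ⧸ I) :=
    (AdjoinRoot.lift (algebraMap R0 (B ⧸ I)) (Ideal.Quotient.mk I t) hev).toAlgebra
  have hAT : ∀ z : AdjoinRoot s, algebraMap (AdjoinRoot s) (B ⧸ I) z =
      AdjoinRoot.lift (algebraMap R0 (B ⧸ I)) (Ideal.Quotient.mk I t) hev z := fun z => rfl
  letI algPA : Algebra R0[X] (AdjoinRoot s) := (AdjoinRoot.mk s).toAlgebra
  haveI : IsScalarTower R0[X] (AdjoinRoot s) (B ⧸ I) := IsScalarTower.of_algebraMap_eq (fun p => by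
    rw [hAT]
    have : algebraMap R0[X] (AdjoinRoot s) p = AdjoinRoot.mk s p := rfl
    rw [this, AdjoinRoot.lift_mk]
    have h2 : algebraMap R0[X] (B ⧸ I) p = Ideal.Quotient.mk I (aeval t p) := rfl
    rw [h2, aeval_def, hom_eval₂]
    rfl)
  haveI : IsScalarTower R0 (AdjoinRoot s) (B ⧸ I) := IsScalarTower.of_algebraMap_eq (fun r => by
    rw [hAT, AdjoinRoot.algebraMap_eq, AdjoinRoot.lift_of])
  haveI : Module.Finite (AdjoinRoot s) (B ⧸ I) :=
    Module.Finite.of_restrictScalars_finite R0[X] (AdjoinRoot s) (B ⧸ I)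
  haveI : Module.Finite R0 (AdjoinRoot s) := hs.finite_adjoinRoot
  exact Module.Finite.trans (AdjoinRoot s) (B ⧸ I)

/-- **finitely many points over the zeros of a monic polynomial on the special fibre.** -/
theorem finite_points (t : B) (hfin : (aeval (R := R0) t).toRingHom.Finite)
    (s : R0[X]) (hs : s.Monic) (m0 : Ideal R0) :
    {n : Ideal B | n.IsPrime ∧ n.comap (algebraMap R0 B) = m0 ∧ aeval t s ∈ n}.Finite := by
  classical
  set I : Ideal B := Ideal.span {aeval t s} with hI
  haveI : Module.Finite R0 (B ⧸ I) := finite_quotient t hfin s hs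
  have hfinset : (m0.primesOver (B ⧸ I)).Finite := Algebra.QuasiFinite.finite_primesOver m0
  -- the set injects into `m0.primesOver (B ⧸ I)` via `n ↦ n.map mk`
  refine Set.Finite.of_finite_image (f := fun n : Ideal B => n.map (Ideal.Quotient.mk I))
    (hfinset.subset ?_) ?_
  · rintro _ ⟨n, ⟨hnp, hnc, hns⟩, rfl⟩
    have hIn : I ≤ n := by
      rw [hI, Ideal.span_le]
      intro x hx
      rw [Set.mem_singleton_iff] at hx
      rw [hx]; exact hns
    have hker : RingHom.ker (Ideal.Quotient.mk I) ≤ n := by
      rw [Ideal.mk_ker]; exact hIn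
    have hcomap : (n.map (Ideal.Quotient.mk I)).comap (Ideal.Quotient.mk I) = n :=
      Ideal.comap_map_of_surjective' _ Ideal.Quotient.mk_surjective n |>.trans (by
        rw [Ideal.mk_ker, sup_eq_left]; exact hIn)
    refine ⟨?_, ⟨?_⟩⟩
    · exact Ideal.map_isPrime_of_surjective Ideal.Quotient.mk_surjective hker
    · -- lies over `m0`
      rw [← hnc]
      ext r
      rw [Ideal.mem_comap, Ideal.under, Ideal.mem_comap]
      have : algebraMap R0 (B ⧸ I) r = Ideal.Quotient.mk I (algebraMap R0 B r) := rfl
      rw [this]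
      constructor
      · intro h
        have : algebraMap R0 B r ∈ (n.map (Ideal.Quotient.mk I)).comap (Ideal.Quotient.mk I) := by
          rw [hcomap]; exact h
        exact this
      · intro h
        have : algebraMap R0 B r ∈ (n.map (Ideal.Quotient.mk I)).comap (Ideal.Quotient.mk I) := h
        rw [hcomap] at this
        exact this
  · rintro n ⟨hnp, hnc, hns⟩ n' ⟨hnp', hnc', hns'⟩ (heq : n.map _ = n'.map _)
    have hIn : ∀ {x : Ideal B}, aeval t s ∈ x → I ≤ x := by
      intro x hx
      rw [hI, Ideal.span_le]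
      intro y hy
      rw [Set.mem_singleton_iff] at hy
      rw [hy]; exact hx
    have h1 : (n.map (Ideal.Quotient.mk I)).comap (Ideal.Quotient.mk I) = n :=
      Ideal.comap_map_of_surjective' _ Ideal.Quotient.mk_surjective n |>.trans (by
        rw [Ideal.mk_ker, sup_eq_left]; exact hIn hns)
    have h2 : (n'.map (Ideal.Quotient.mk I)).comap (Ideal.Quotient.mk I) = n' :=
      Ideal.comap_map_of_surjective' _ Ideal.Quotient.mk_surjective n' |>.trans (by
        rw [Ideal.mk_ker, sup_eq_left]; exact hIn hns')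
    rw [← h1, ← h2, heq]

/-- the same for the maximal ideals containing `m0` (`m0` maximal). -/
theorem finite_maximal_points (t : B) (hfin : (aeval (R := R0) t).toRingHom.Finite)
    (s : R0[X]) (hs : s.Monic) (m0 : Ideal R0) [hm0 : m0.IsMaximal] :
    {n : Ideal B | n.IsMaximal ∧ (∀ r ∈ m0, algebraMap R0 B r ∈ n) ∧ aeval t s ∈ n}.Finite := by
  refine (finite_points t hfin s hs m0).subset ?_
  rintro n ⟨hnm, hnr, hns⟩
  refine ⟨hnm.isPrime, ?_, hns⟩
  have hle : m0 ≤ n.comap (algebraMap R0 B) := fun r hr => hnr r hr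
  have hne : n.comap (algebraMap R0 B) ≠ ⊤ := Ideal.comap_ne_top _ hnm.ne_top
  exact (hm0.eq_of_le hne hle).symm

/-- the index type of the points is finite. -/
theorem finite_pointType (t : B) (hfin : (aeval (R := R0) t).toRingHom.Finite)
    (s : R0[X]) (hs : s.Monic) (m0 : Ideal R0) [hm0 : m0.IsMaximal] :
    Finite {n : Ideal B // n.IsMaximal ∧ (∀ r ∈ m0, algebraMap R0 B r ∈ n) ∧ aeval t s ∈ n} :=
  (finite_maximal_points t hfin s hs m0).to_subtype

/-- `hfin` from a finite module over the subalgebra `R0[t]`. -/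
theorem finite_aeval_of_finite_adjoin (t : B) [Module.Finite (Algebra.adjoin R0 {t}) B] :
    (aeval (R := R0) t).toRingHom.Finite := by
  classical
  -- `R0[X] → R0[t]` is surjective, `R0[t] → B` is finite
  let f : R0[X] →ₐ[R0] Algebra.adjoin R0 {t} :=
    (aeval (R := R0) t).codRestrict (Algebra.adjoin R0 {t})
      (fun p => aeval_mem_adjoin_singleton R0 t)
  have hf : Function.Surjective f := by
    rintro ⟨a, ha⟩
    have ha' := ha
    rw [Algebra.adjoin_singleton_eq_range_aeval] at ha'
    obtain ⟨p, hp⟩ := ha'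
    exact ⟨p, Subtype.ext hp⟩
  have h1 : f.toRingHom.Finite := RingHom.Finite.of_surjective _ hf
  have h2 : (algebraMap (Algebra.adjoin R0 {t}) B).Finite := by
    rw [RingHom.finite_algebraMap]
    infer_instance
  have h3 := h2.comp h1
  have heq : (algebraMap (Algebra.adjoin R0 {t}) B).comp f.toRingHom =
      (aeval (R := R0) t).toRingHom := by
    ext p <;> rfl
  rw [heq] at h3
  exact h3

end Fermat.Agent.GL.Frame.ResChar
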