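import Fermat.Agent.GL.Thick.SsPolyAll

/-!
# GATE-L / (A1) input (C6) `hssβ` (helper30)

* `ssPolyAll_map_frobenius` : the supersingular polynomial `pH = ssPolyAll q k` has coefficients in
  `𝔽_q` (it is fixed by the coefficientwise Frobenius);
* `aeval_pow_ssPolyAll` : `pH(y^q) = pH(y)^q` in every commutative `k`-algebra of characteristic `q`;
* `coeff_pow_sub_mem_of_map_eq` : every lift of `pH` to a ring `R0 → k` has coefficients with
  `a^q - a ∈ ker`;
* `eval_mem_iff_of_congr` : the abstract `hssβ` — on the special fibre, if `j_q ≡ j^q` or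
  `j ≡ j_q^q` modulo a prime `x ∋ q`, then `p(j_q) ∈ x ↔ p(j) ∈ x` for every polynomial `p` whose
  coefficients are Frobenius-fixed modulo `x`;
* `hssb_of_vert` : the dispatch over the three vertical primes
  (`j_q ≡ j^q` on `P1`, `P3`; `j ≡ j_q^q` on `P2`) = `hssβ` of `ClassifySS.classify`.
-/

set_option autoImplicit false

noncomputable section

namespace Fermat.Agent.GL.Frame.SsFrob

open HahnSeries ModularCurve Polynomial
open Fermat.Agent.S28 Fermat.Agent.GL.SmallQ

section Coeff

variable {L : Type*} [Field L] (φ : L →+* L)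

/-- coefficientwise ring endomorphisms commute with polynomial evaluation -/
theorem coeffMap_aeval_endo (J : LaurentSeries L) (p : L[X]) :
    coeffMap φ (aeval J p) = aeval (coeffMap φ J) (p.map φ) := by
  rw [aeval_def, aeval_def, hom_eval₂, eval₂_map]
  congr 1
  ext r : 1
  exact coeffMap_algebraMap φ r

end Coeff

section Frob

variable (q : ℕ) [Fact q.Prime]

/-- a nontrivial ring in which the prime `q` vanishes has characteristic `q` -/
theorem charP_of_prime_cast_eq_zero (D : Type*) [CommRing D] [Nontrivial D] (h : (q : D) = 0) :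
    CharP D q := by
  obtain ⟨c, hc⟩ := CharP.exists D
  have hdvd : c ∣ q := (CharP.cast_eq_zero_iff D c q).mp h
  rcases (Nat.dvd_prime (Fact.out : q.Prime)).mp hdvd with h1 | h1
  · exact absurd h1 (CharP.char_ne_one D c)
  · exact h1 ▸ hc

/-- a polynomial with Frobenius-fixed coefficients commutes with Frobenius -/
theorem eval_pow_of_map_frobenius {D : Type*} [CommRing D] [CharP D q] (p : D[X])
    (hp : p.map (frobenius D q) = p) (y : D) : p.eval (y ^ q) = (p.eval y) ^ q := by
  have h1 : (p.eval y) ^ q = frobenius D q (p.eval y) := rfl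
  have h2 : y ^ q = frobenius D q y := rfl
  rw [h1, h2, ← Polynomial.eval₂_at_apply, ← eval_map, hp]

end Frob

section SsPoly

variable (q : ℕ) [Fact q.Prime] (k : Type*) [Field k] [CharP k q]

/-- **the supersingular polynomial has coefficients in `𝔽_q`** -/
theorem ssPolyAll_map_frobenius : (ssPolyAll q k).map (frobenius k q) = ssPolyAll q k := by
  have hJ := Fermat.Agent.GJ.J1.Val.transcendental_jqModC k
  apply transcendental_iff_injective.mp hJ
  have h1 : coeffMap (frobenius k q) (aeval (jqModC k) (ssPolyAll q k)) =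
      aeval (jqModC k) ((ssPolyAll q k).map (frobenius k q)) := by
    rw [coeffMap_aeval_endo, coeffMap_jqModC]
  rw [← h1, ← deltaInvS_pow_eq_aeval_all, map_pow, coeffMap_deltaInvS]

theorem coeff_ssPolyAll_pow (i : ℕ) : (ssPolyAll q k).coeff i ^ q = (ssPolyAll q k).coeff i := by
  have h := congrArg (fun p => Polynomial.coeff p i) (ssPolyAll_map_frobenius q k)
  simpa [Polynomial.coeff_map, frobenius_def] using h

/-- `pH(y^q) = pH(y)^q` in every commutative `k`-algebra -/
theorem aeval_pow_ssPolyAll {R : Type*} [CommRing R] [Algebra k R] (y : R) :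
    aeval (y ^ q) (ssPolyAll q k) = (aeval y (ssPolyAll q k)) ^ q := by
  rcases subsingleton_or_nontrivial R with hR | hR
  · exact Subsingleton.elim _ _
  have : CharP R q := charP_of_injective_algebraMap (algebraMap k R).injective q
  have h1 : ((ssPolyAll q k).map (algebraMap k R)).map (frobenius R q) =
      (ssPolyAll q k).map (algebraMap k R) := by
    rw [Polynomial.map_map]
    have : (frobenius R q).comp (algebraMap k R) = (algebraMap k R).comp (frobenius k q) := by
      ext r
      simp [frobenius_def]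
    rw [this, ← Polynomial.map_map, ssPolyAll_map_frobenius]
  rw [aeval_def, aeval_def, ← eval_map, ← eval_map]
  exact eval_pow_of_map_frobenius q _ h1 y

/-- every lift of `pH` along a ring homomorphism `ρ : R0 → k` has coefficients with
`a ^ q - a ∈ ker ρ` -/
theorem coeff_pow_sub_mem_ker_of_map_eq {R0 : Type*} [CommRing R0] (ρ : R0 →+* k) (p : R0[X])
    (hp : p.map ρ = ssPolyAll q k) (i : ℕ) : ρ (p.coeff i ^ q - p.coeff i) = 0 := by
  rw [map_sub, map_pow, ← Polynomial.coeff_map, hp, coeff_ssPolyAll_pow, sub_self]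

end SsPoly

section Abstract

variable {B : Type*} [CommRing B] (q : ℕ) [Fact q.Prime]

/-- **abstract `hssβ`**: on the special fibre (`q ∈ x`, `x` prime), for a polynomial `p` whose
coefficients are Frobenius-fixed modulo `x` and `j_q ≡ j^q` or `j ≡ j_q^q` modulo `x`
(Kronecker's congruence), `p(j_q) ∈ x ↔ p(j) ∈ x`. -/
theorem eval_mem_iff_of_congr (x : Ideal B) [hx : x.IsPrime] (hq : (q : B) ∈ x) (p : B[X])
    (hp : ∀ i, p.coeff i ^ q - p.coeff i ∈ x) (j jq : B)
    (h : jq - j ^ q ∈ x ∨ j - jq ^ q ∈ x) : p.eval jq ∈ x ↔ p.eval j ∈ x := by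
  have hq0 : q ≠ 0 := (Fact.out : q.Prime).ne_zero
  let π := Ideal.Quotient.mk x
  have hD : IsDomain (B ⧸ x) := Ideal.Quotient.isDomain x
  have hchar : CharP (B ⧸ x) q := by
    apply charP_of_prime_cast_eq_zero q
    have : ((q : B ⧸ x)) = π (q : B) := by simp [π]
    rw [this]
    exact Ideal.Quotient.eq_zero_iff_mem.mpr hq
  have hpm : (p.map π).map (frobenius (B ⧸ x) q) = p.map π := by
    ext i
    rw [Polynomial.coeff_map, Polynomial.coeff_map, frobenius_def, ← map_pow]
    exact (Ideal.Quotient.mk_eq_mk_iff_sub_mem _ _).mpr (hp i)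
  have hev : ∀ b : B, p.eval b ∈ x ↔ (p.map π).eval (π b) = 0 := by
    intro b
    rw [eval_map, Polynomial.eval₂_at_apply]
    exact Ideal.Quotient.eq_zero_iff_mem.symm
  have hF := eval_pow_of_map_frobenius q (p.map π) hpm
  rw [hev jq, hev j]
  rcases h with h | h
  · have e : π jq = (π j) ^ q := by
      rw [← map_pow]; exact (Ideal.Quotient.mk_eq_mk_iff_sub_mem _ _).mpr h
    rw [e, hF, pow_eq_zero_iff hq0]
  · have e : π j = (π jq) ^ q := by
      rw [← map_pow]; exact (Ideal.Quotient.mk_eq_mk_iff_sub_mem _ _).mpr h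
    rw [e, hF, pow_eq_zero_iff hq0]

/-- **`hssβ` from the three rows of Kronecker's congruence**: `j_q ≡ j^q` on the vertical primes
`P1`, `P3` and `j ≡ j_q^q` on `P2`; every point of the special fibre lies on one of them. -/
theorem hssb_of_vert (P1 P2 P3 : Ideal B) (x : Ideal B) [hx : x.IsPrime] (hq : (q : B) ∈ x)
    (hbr : P1 ≤ x ∨ P2 ≤ x ∨ P3 ≤ x) (p : B[X])
    (hp : ∀ i, p.coeff i ^ q - p.coeff i ∈ x) (j jq : B)
    (h1 : jq - j ^ q ∈ P1) (h2 : j - jq ^ q ∈ P2) (h3 : jq - j ^ q ∈ P3) :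
    p.eval jq ∈ x ↔ p.eval j ∈ x := by
  apply eval_mem_iff_of_congr q x hq p hp j jq
  rcases hbr with h | h | h
  · exact Or.inl (h h1)
  · exact Or.inr (h h2)
  · exact Or.inl (h h3)

/-- the coefficient hypothesis for a lift of `pH` through `R0 → B`, `ρ : R0 → k`: it holds at
every prime `x` of `B` whose contraction to `R0` contains `ker ρ`. -/
theorem coeff_pow_sub_mem_of_lift {R0 k : Type*} [CommRing R0] [Field k] [CharP k q]
    (ρ : R0 →+* k) (φ : R0 →+* B) (x : Ideal B) (hx : ∀ a : R0, ρ a = 0 → φ a ∈ x)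
    (p0 : R0[X]) (hp0 : p0.map ρ = ssPolyAll q k) (i : ℕ) :
    (p0.map φ).coeff i ^ q - (p0.map φ).coeff i ∈ x := by
  rw [Polynomial.coeff_map, ← map_pow, ← map_sub]
  exact hx _ (coeff_pow_sub_mem_ker_of_map_eq q k ρ p0 hp0 i)

/-- **`hssβ` in the shape of `ClassifySS.classify`**: `A`, `B` charts over `R0`, `φα φβ : A → B`
the two degeneracy maps, `s' = p0(j')` the lifted supersingular polynomial in the `j`-function of
the lower level. -/
theorem hssb_classify {R0 A k : Type*} [CommRing R0] [CommRing A] [Field k] [CharP k q]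
    [Algebra R0 A] [Algebra R0 B] (φα φβ : A →ₐ[R0] B) (ρ : R0 →+* k) (p0 : R0[X])
    (hp0 : p0.map ρ = ssPolyAll q k) (j' : A) (P1 P2 P3 : Ideal B)
    (h1 : φβ j' - (φα j') ^ q ∈ P1) (h2 : φα j' - (φβ j') ^ q ∈ P2)
    (h3 : φβ j' - (φα j') ^ q ∈ P3)
    (x : Ideal B) [hx : x.IsPrime] (hq : (q : B) ∈ x)
    (hρ : ∀ a : R0, ρ a = 0 → algebraMap R0 B a ∈ x) (hbr : P1 ≤ x ∨ P2 ≤ x ∨ P3 ≤ x) :
    (φβ : A →+* B) (aeval j' p0) ∈ x → (φα : A →+* B) (aeval j' p0) ∈ x := by
  have ea : (φα : A →+* B) (aeval j' p0) = (p0.map (algebraMap R0 B)).eval (φα j') := by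
    rw [eval_map, ← aeval_def]
    exact (Polynomial.aeval_algHom_apply φα j' p0).symm
  have eb : (φβ : A →+* B) (aeval j' p0) = (p0.map (algebraMap R0 B)).eval (φβ j') := by
    rw [eval_map, ← aeval_def]
    exact (Polynomial.aeval_algHom_apply φβ j' p0).symm
  rw [ea, eb]
  exact (hssb_of_vert q P1 P2 P3 x hq hbr (p0.map (algebraMap R0 B))
    (coeff_pow_sub_mem_of_lift q ρ (algebraMap R0 B) x hρ p0 hp0) (φα j') (φβ j') h1 h2 h3).mp

end Abstract

end Fermat.Agent.GL.Frame.SsFrob
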