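/-
GATE-L / CHART (A3) (helper8), per STACK RULING 2 (board 2764 (4)) and helper47 2729 (A3).

Chart independence of the local rings of a normal model, in ELEMENTARY subring form (no frame API):

* `locSubring B 𝔫` : the local ring `B_𝔫 ⊆ F` of a subring `B` of a field `F` at a prime `𝔫`
  (`z ∈ B_𝔫 ↔ ∃ a s : B, s ∉ 𝔫 ∧ z * s = a`, helper46 KrullFrame shape), `locMax B 𝔫` its maximal
  ideal, `isLocalization_locSubring`, `isIC_locSubring` (integrally closed in `F` if `B` is);
* `locSubring_eq_of_le_of_le` : comparison of two local rings;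
* `IsSmallestIC s B` : `B` is the smallest subring of `F` that is integrally closed in `F` and
  contains `s` (= the integral closure in `F` of the subring generated by `s`);
* `moebius_mem_or_inv_mem`, `locSubring_eq_of_moebius` : **MOEBIUS-LOCAL**;
* `mem_of_rel`, `inv_mem_of_rel`, `mem_of_mem_of_inv_mem` : the chart `h = A(x)/B(x)` with
  `U A + V B = 1`, `A` monic of larger degree, has the same integrally closed overrings as
  `x, 1/B(x)`.
-/
import Mathlib

set_option autoImplicit false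

namespace Fermat.Agent.GL.Frame.Chart

variable {F : Type*} [Field F]

/-- `O` is integrally closed in `F` (elementary form). -/
def IsIC (O : Subring F) : Prop := ∀ z : F, IsIntegral O z → z ∈ O

/-! ### The local ring of a subring of a field at a prime -/

section Loc

variable (B : Subring F) (𝔫 : Ideal B) [h𝔫 : 𝔫.IsPrime]

omit h𝔫 in
theorem one_not_mem_of_prime [h : 𝔫.IsPrime] : (1 : B) ∉ 𝔫 := (Ideal.ne_top_iff_one 𝔫).mp h.ne_top

/-- The local ring `B_𝔫` as a subring of `F`. -/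
def locSubring : Subring F where
  carrier := {z | ∃ a s : B, s ∉ 𝔫 ∧ z * s = a}
  mul_mem' := by
    rintro z w ⟨a, s, hs, h⟩ ⟨a', s', hs', h'⟩
    refine ⟨a * a', s * s', fun hmem => (h𝔫.mem_or_mem hmem).elim hs hs', ?_⟩
    push_cast; rw [← h, ← h']; ring
  one_mem' := ⟨1, 1, one_not_mem_of_prime B 𝔫, by simp⟩
  add_mem' := by
    rintro z w ⟨a, s, hs, h⟩ ⟨a', s', hs', h'⟩
    refine ⟨a * s' + a' * s, s * s', fun hmem => (h𝔫.mem_or_mem hmem).elim hs hs', ?_⟩
    push_cast; rw [← h, ← h']; ring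
  zero_mem' := ⟨0, 1, one_not_mem_of_prime B 𝔫, by simp⟩
  neg_mem' := by
    rintro z ⟨a, s, hs, h⟩
    exact ⟨-a, s, hs, by push_cast; rw [← h]; ring⟩

theorem mem_locSubring {z : F} :
    z ∈ locSubring B 𝔫 ↔ ∃ a s : B, s ∉ 𝔫 ∧ z * s = a := Iff.rfl

theorem le_locSubring : B ≤ locSubring B 𝔫 := fun b hb =>
  ⟨⟨b, hb⟩, 1, one_not_mem_of_prime B 𝔫, by simp⟩

/-- The maximal ideal of `B_𝔫`. -/
def locMax : Ideal (locSubring B 𝔫) where
  carrier := {z | ∃ a s : B, a ∈ 𝔫 ∧ s ∉ 𝔫 ∧ (z : F) * s = a}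
  add_mem' := by
    rintro z w ⟨a, s, ha, hs, h⟩ ⟨a', s', ha', hs', h'⟩
    refine ⟨a * s' + a' * s, s * s', 𝔫.add_mem (𝔫.mul_mem_right _ ha) (𝔫.mul_mem_right _ ha'),
      fun hmem => (h𝔫.mem_or_mem hmem).elim hs hs', ?_⟩
    push_cast; rw [← h, ← h']; ring
  zero_mem' := ⟨0, 1, 𝔫.zero_mem, one_not_mem_of_prime B 𝔫, by simp⟩
  smul_mem' := by
    rintro ⟨w, a', s', hs', h'⟩ z ⟨a, s, ha, hs, h⟩
    refine ⟨a' * a, s' * s, 𝔫.mul_mem_left _ ha,
      fun hmem => (h𝔫.mem_or_mem hmem).elim hs' hs, ?_⟩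
    simp only [smul_eq_mul, Subring.coe_mul]
    push_cast; rw [← h, ← h']; ring

theorem mem_locMax {z : locSubring B 𝔫} :
    z ∈ locMax B 𝔫 ↔ ∃ a s : B, a ∈ 𝔫 ∧ s ∉ 𝔫 ∧ (z : F) * s = a := Iff.rfl

/-- Membership in the maximal ideal can be read off ANY presentation `z = a / s`. -/
theorem mem_locMax_iff_of_eq {z : locSubring B 𝔫} {a s : B} (hs : s ∉ 𝔫)
    (h : (z : F) * s = a) : z ∈ locMax B 𝔫 ↔ a ∈ 𝔫 := by
  constructor
  · rintro ⟨a', s', ha', hs', h'⟩
    have heq : a * s' = a' * s := by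
      apply Subtype.ext
      push_cast
      rw [← h, ← h']; ring
    have : a * s' ∈ 𝔫 := heq ▸ 𝔫.mul_mem_right _ ha'
    exact (h𝔫.mem_or_mem this).resolve_right hs'
  · intro ha
    exact ⟨a, s, ha, hs, h⟩

theorem coe_mem_locMax_iff (b : B) :
    (⟨(b : F), le_locSubring B 𝔫 b.2⟩ : locSubring B 𝔫) ∈ locMax B 𝔫 ↔ b ∈ 𝔫 :=
  mem_locMax_iff_of_eq B 𝔫 (a := b) (s := 1) (one_not_mem_of_prime B 𝔫) (by simp)

theorem locMax_ne_top : locMax B 𝔫 ≠ ⊤ := by
  intro h
  have h1 : (1 : locSubring B 𝔫) ∈ locMax B 𝔫 := h ▸ Submodule.mem_top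
  have := (mem_locMax_iff_of_eq B 𝔫 (z := 1) (a := 1) (s := 1) (one_not_mem_of_prime B 𝔫)
    (by simp)).mp h1
  exact one_not_mem_of_prime B 𝔫 this

/-- Elements of `B_𝔫` outside the maximal ideal are units. -/
theorem inv_mem_of_not_mem_locMax {z : locSubring B 𝔫} (hz : z ∉ locMax B 𝔫) :
    (z : F)⁻¹ ∈ locSubring B 𝔫 := by
  obtain ⟨a, s, hs, h⟩ := z.2
  have ha : a ∉ 𝔫 := fun ha => hz ((mem_locMax_iff_of_eq B 𝔫 hs h).mpr ha)
  have ha0 : (a : F) ≠ 0 := by
    intro h0
    apply ha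
    have : a = 0 := Subtype.ext (by simpa using h0)
    rw [this]; exact 𝔫.zero_mem
  have hz0 : (z : F) ≠ 0 := by
    intro h0
    rw [h0, zero_mul] at h
    exact ha0 h.symm
  refine ⟨s, a, ha, ?_⟩
  rw [← h]
  field_simp

instance locMax_isPrime : (locMax B 𝔫).IsPrime := by
  refine ⟨locMax_ne_top B 𝔫, ?_⟩
  intro z w hzw
  by_contra hcon
  rw [not_or] at hcon
  have hz := inv_mem_of_not_mem_locMax B 𝔫 hcon.1
  -- `w = z⁻¹ * (z * w)`
  have hz0 : (z : F) ≠ 0 := by
    intro h0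
    apply hcon.1
    have : z = 0 := Subtype.ext (by simpa using h0)
    rw [this]; exact (locMax B 𝔫).zero_mem
  have : w = (⟨(z : F)⁻¹, hz⟩ : locSubring B 𝔫) * (z * w) := by
    apply Subtype.ext
    push_cast
    field_simp
  exact hcon.2 (this ▸ (locMax B 𝔫).mul_mem_left _ hzw)

/-- `B_𝔫` is the localisation of `B` at `𝔫`. -/
theorem isLocalization_locSubring :
    @IsLocalization B _ 𝔫.primeCompl (locSubring B 𝔫) _
      (Subring.inclusion (le_locSubring B 𝔫)).toAlgebra := by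
  letI : Algebra B (locSubring B 𝔫) := (Subring.inclusion (le_locSubring B 𝔫)).toAlgebra
  have halg : ∀ b : B, ((algebraMap B (locSubring B 𝔫) b : locSubring B 𝔫) : F) = b := fun b => rfl
  rw [isLocalization_iff]
  refine ⟨?_, ?_, ?_⟩
  · rintro ⟨s, hs⟩
    have hs' : s ∉ 𝔫 := hs
    have hmem : (⟨(s : F), le_locSubring B 𝔫 s.2⟩ : locSubring B 𝔫) ∉ locMax B 𝔫 :=
      fun h => hs' ((coe_mem_locMax_iff B 𝔫 s).mp h)
    have hinv := inv_mem_of_not_mem_locMax B 𝔫 hmem
    have hs0 : (s : F) ≠ 0 := by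
      intro h0
      apply hs'
      have : s = 0 := Subtype.ext (by simpa using h0)
      rw [this]; exact 𝔫.zero_mem
    refine ⟨⟨algebraMap B (locSubring B 𝔫) s, ⟨(s : F)⁻¹, hinv⟩, ?_, ?_⟩, rfl⟩
    · apply Subtype.ext
      push_cast
      rw [halg]
      exact mul_inv_cancel₀ hs0
    · apply Subtype.ext
      push_cast
      rw [halg]
      exact inv_mul_cancel₀ hs0
  · rintro ⟨z, a, s, hs, h⟩
    refine ⟨(a, ⟨s, hs⟩), ?_⟩
    apply Subtype.ext
    push_cast
    rw [halg, halg]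
    exact h
  · intro x y hxy
    refine ⟨1, ?_⟩
    have : (x : F) = y := by
      have := congrArg (Subtype.val : locSubring B 𝔫 → F) hxy
      rwa [halg, halg] at this
    rw [Subtype.ext this]

/-- If `B` is integrally closed in `F`, so is `B_𝔫`. -/
theorem isIC_locSubring (hB : IsIC B) : IsIC (locSubring B 𝔫) := by
  intro z hz
  letI : Algebra B (locSubring B 𝔫) := (Subring.inclusion (le_locSubring B 𝔫)).toAlgebra
  have : IsScalarTower B (locSubring B 𝔫) F := IsScalarTower.of_algebraMap_eq (fun b => rfl)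
  have : IsLocalization 𝔫.primeCompl (locSubring B 𝔫) := isLocalization_locSubring B 𝔫
  obtain ⟨⟨s, hs⟩, hsz⟩ :=
    IsIntegral.exists_multiple_integral_of_isLocalization 𝔫.primeCompl z hz
  have hmem : (s : F) * z ∈ B := hB _ (by
    have : (⟨s, hs⟩ : 𝔫.primeCompl) • z = (s : F) * z := rfl
    rwa [this] at hsz)
  exact ⟨⟨_, hmem⟩, s, hs, by push_cast; ring⟩

end Loc

/-! ### Comparison of two local rings -/

section Compare

variable (B B' : Subring F) (𝔫 : Ideal B) [𝔫.IsPrime]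

/-- The contraction to `B' ≤ B_𝔫` of the maximal ideal of `B_𝔫`. -/
def contr (h : B' ≤ locSubring B 𝔫) : Ideal B' := (locMax B 𝔫).comap (Subring.inclusion h)

instance contr_isPrime (h : B' ≤ locSubring B 𝔫) : (contr B B' 𝔫 h).IsPrime :=
  Ideal.comap_isPrime _ _

theorem mem_contr {h : B' ≤ locSubring B 𝔫} {b : B'} :
    b ∈ contr B B' 𝔫 h ↔ (⟨(b : F), h b.2⟩ : locSubring B 𝔫) ∈ locMax B 𝔫 := Iff.rfl

/-- The contraction to `B` itself is `𝔫`. -/
theorem contr_self : contr B B 𝔫 (le_locSubring B 𝔫) = 𝔫 := by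
  ext b
  rw [mem_contr]
  exact coe_mem_locMax_iff B 𝔫 b

theorem coe_ne_zero_of_not_mem_contr {h : B' ≤ locSubring B 𝔫} {s : B'}
    (hs : s ∉ contr B B' 𝔫 h) : (s : F) ≠ 0 := by
  intro h0
  apply hs
  have : s = 0 := Subtype.ext (by simpa using h0)
  rw [this]; exact (contr B B' 𝔫 h).zero_mem

/-- `(B')_𝔭 ≤ B_𝔫` for `𝔭` the contraction of the maximal ideal. -/
theorem locSubring_contr_le (h : B' ≤ locSubring B 𝔫) :
    locSubring B' (contr B B' 𝔫 h) ≤ locSubring B 𝔫 := by
  rintro z ⟨a, s, hs, hz⟩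
  have hsinv := inv_mem_of_not_mem_locMax B 𝔫 (z := ⟨s, h s.2⟩) hs
  have hs0 : (s : F) ≠ 0 := coe_ne_zero_of_not_mem_contr B B' 𝔫 hs
  have : z = a * (s : F)⁻¹ := by
    rw [← hz]; field_simp
  rw [this]
  exact (locSubring B 𝔫).mul_mem (h a.2) hsinv

/-- **Comparison.**  If `B' ≤ B_𝔫` and `B ≤ (B')_𝔭` (`𝔭` the contraction) then `(B')_𝔭 = B_𝔫`. -/
theorem locSubring_eq_of_le_of_le (h : B' ≤ locSubring B 𝔫)
    (h' : B ≤ locSubring B' (contr B B' 𝔫 h)) :
    locSubring B' (contr B B' 𝔫 h) = locSubring B 𝔫 := by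
  refine le_antisymm (locSubring_contr_le B B' 𝔫 h) ?_
  rintro z ⟨a, s, hs, hz⟩
  -- `s` is a unit of `(B')_𝔭`
  have hsnot : (⟨(s : F), h' s.2⟩ : locSubring B' (contr B B' 𝔫 h)) ∉
      locMax B' (contr B B' 𝔫 h) := by
    rintro ⟨a', s', ha', hs', hrel⟩
    -- in `B_𝔫`: `s * s' = a' ∈ 𝔪`, `s' ∉ 𝔪`
    have h1 : (⟨(s : F), le_locSubring B 𝔫 s.2⟩ : locSubring B 𝔫) *
        (⟨(s' : F), h s'.2⟩ : locSubring B 𝔫) ∈ locMax B 𝔫 := by
      have : (⟨(s : F), le_locSubring B 𝔫 s.2⟩ : locSubring B 𝔫) *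
          (⟨(s' : F), h s'.2⟩ : locSubring B 𝔫) = ⟨(a' : F), h a'.2⟩ := Subtype.ext hrel
      rw [this]; exact ha'
    rcases (locMax_isPrime B 𝔫).mem_or_mem h1 with h2 | h2
    · exact hs ((coe_mem_locMax_iff B 𝔫 s).mp h2)
    · exact hs' h2
  have hsinv := inv_mem_of_not_mem_locMax B' (contr B B' 𝔫 h) hsnot
  have hs0 : (s : F) ≠ 0 := by
    intro h0
    apply hs
    have : s = 0 := Subtype.ext (by simpa using h0)
    rw [this]; exact 𝔫.zero_mem
  have : z = a * (s : F)⁻¹ := by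
    rw [← hz]; field_simp
  rw [this]
  exact (locSubring B' (contr B B' 𝔫 h)).mul_mem (h' a.2) hsinv

end Compare

/-! ### Maximality of the contraction -/

section Maximal

variable (B B' : Subring F) (𝔫 : Ideal B)

instance locMax_isMaximal [𝔫.IsPrime] : (locMax B 𝔫).IsMaximal := by
  rw [Ideal.isMaximal_iff]
  refine ⟨fun h1 => locMax_ne_top B 𝔫 ((Ideal.eq_top_iff_one _).mpr h1), ?_⟩
  intro J x _ hx hxJ
  have hinv := inv_mem_of_not_mem_locMax B 𝔫 hx
  have hx0 : (x : F) ≠ 0 := by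
    intro h0
    apply hx
    have : x = 0 := Subtype.ext (by simpa using h0)
    rw [this]; exact (locMax B 𝔫).zero_mem
  have : (1 : locSubring B 𝔫) = ⟨(x : F)⁻¹, hinv⟩ * x :=
    Subtype.ext (by push_cast; exact (inv_mul_cancel₀ hx0).symm)
  rw [this]
  exact J.mul_mem_left _ hxJ

/-- For `𝔫` maximal, every element of `B_𝔫` is congruent to an element of `B` modulo the maximal
ideal (`B_𝔫 / 𝔪 = B / 𝔫`). -/
theorem exists_sub_mem_locMax [h𝔫 : 𝔫.IsMaximal] (z : locSubring B 𝔫) :
    ∃ b : B, z - ⟨(b : F), le_locSubring B 𝔫 b.2⟩ ∈ locMax B 𝔫 := by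
  obtain ⟨a, s, hs, hz⟩ := z.2
  obtain ⟨s1, i, hi, hsi⟩ := h𝔫.exists_inv hs
  refine ⟨a * s1, a * i, s, 𝔫.mul_mem_left a hi, hs, ?_⟩
  have hsi' : (s1 : F) * s + i = 1 := by
    have := congrArg (Subtype.val : B → F) hsi
    simpa using this
  push_cast
  have : ((z : F) - a * s1) * s = a * (1 - s1 * s) := by rw [← hz]; ring
  rw [this, ← hsi']
  ring

/-- **Maximality of the contraction.**  If `𝔫` is maximal and `B / 𝔫` is integral over a subring
`R0 ≤ B ⊓ B'` (e.g. the base ring), then the contraction to `B' ≤ B_𝔫` of the maximal ideal of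
`B_𝔫` is a MAXIMAL ideal of `B'`. -/
theorem contr_isMaximal [h𝔫 : 𝔫.IsMaximal] (h : B' ≤ locSubring B 𝔫) (R0 : Subring F)
    (hR0B : R0 ≤ B) (hR0B' : R0 ≤ B')
    (hint : ∀ b : B, ∃ p : Polynomial R0, p.Monic ∧
      Polynomial.eval₂ (Subring.inclusion hR0B) b p ∈ 𝔫) :
    (contr B B' 𝔫 h).IsMaximal := by
  set O := locSubring B 𝔫 with hO
  set 𝔪 := locMax B 𝔫 with h𝔪
  have hκ : IsField (O ⧸ 𝔪) := (Ideal.Quotient.maximal_ideal_iff_isField_quotient 𝔪).mp
    (locMax_isMaximal B 𝔫)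
  let ιB : B →+* O := Subring.inclusion (le_locSubring B 𝔫)
  let ψ : R0 →+* O ⧸ 𝔪 := (Ideal.Quotient.mk 𝔪).comp (ιB.comp (Subring.inclusion hR0B))
  -- every element of the residue field is integral over `R0`
  have hint' : ∀ k : O ⧸ 𝔪, ∃ p : Polynomial R0, p.Monic ∧ Polynomial.eval₂ ψ k p = 0 := by
    intro k
    obtain ⟨z, rfl⟩ := Ideal.Quotient.mk_surjective k
    obtain ⟨b, hb⟩ := exists_sub_mem_locMax B 𝔫 z
    obtain ⟨p, hp, hpb⟩ := hint b
    refine ⟨p, hp, ?_⟩
    have hzb : Ideal.Quotient.mk 𝔪 z = Ideal.Quotient.mk 𝔪 (ιB b) := Ideal.Quotient.eq.mpr hb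
    rw [hzb]
    have h1 : Polynomial.eval₂ ψ (Ideal.Quotient.mk 𝔪 (ιB b)) p =
        (Ideal.Quotient.mk 𝔪) (ιB (Polynomial.eval₂ (Subring.inclusion hR0B) b p)) := by
      rw [Polynomial.hom_eval₂, Polynomial.hom_eval₂]
    rw [h1, Ideal.Quotient.eq_zero_iff_mem]
    exact (coe_mem_locMax_iff B 𝔫 _).mpr hpb
  -- the injection `B' ⧸ 𝔭 → O ⧸ 𝔪`
  let φ : B' ⧸ contr B B' 𝔫 h →+* O ⧸ 𝔪 :=
    Ideal.quotientMap 𝔪 (Subring.inclusion h) (le_refl _)
  have hφinj : Function.Injective φ := Ideal.quotientMap_injective' (le_refl _)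
  letI : Algebra (B' ⧸ contr B B' 𝔫 h) (O ⧸ 𝔪) := φ.toAlgebra
  have hintalg : Algebra.IsIntegral (B' ⧸ contr B B' 𝔫 h) (O ⧸ 𝔪) := by
    refine ⟨fun k => ?_⟩
    obtain ⟨p, hp, hpk⟩ := hint' k
    let θ : R0 →+* B' ⧸ contr B B' 𝔫 h :=
      (Ideal.Quotient.mk _).comp (Subring.inclusion hR0B')
    refine ⟨p.map θ, hp.map θ, ?_⟩
    rw [Polynomial.eval₂_map]
    have : (algebraMap (B' ⧸ contr B B' 𝔫 h) (O ⧸ 𝔪)).comp θ = ψ := by
      ext r
      rfl
    rw [this]
    exact hpk
  exact Ideal.Quotient.maximal_of_isField _ (isField_of_isIntegral_of_isField hφinj hκ)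

end Maximal

/-! ### Smallest integrally closed subring containing a set -/

/-- Integrality transfers along a ring hom compatible with the structure maps. -/
theorem isIntegral_of_ringHom {S O : Type*} [CommRing S] [CommRing O] [Algebra S F] [Algebra O F]
    (ι : S →+* O) (hι : ∀ a, algebraMap O F (ι a) = algebraMap S F a) {z : F}
    (hz : IsIntegral S z) : IsIntegral O z := by
  obtain ⟨p, hp, hpz⟩ := hz
  refine ⟨p.map ι, hp.map ι, ?_⟩
  rw [Polynomial.eval₂_map]
  have : (algebraMap O F).comp ι = algebraMap S F := RingHom.ext hι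
  rw [this]; exact hpz

theorem isIntegral_of_le {O O' : Subring F} (h : O ≤ O') {z : F} (hz : IsIntegral O z) :
    IsIntegral O' z :=
  isIntegral_of_ringHom (Subring.inclusion h) (fun _ => rfl) hz

/-- `B` is the smallest subring of `F` which is integrally closed in `F` and contains `s`. -/
structure IsSmallestIC (s : Set F) (B : Subring F) : Prop where
  subset : s ⊆ B
  isIC : IsIC B
  le_of : ∀ O : Subring F, IsIC O → s ⊆ O → B ≤ O

theorem IsSmallestIC.eq {s : Set F} {B B' : Subring F} (h : IsSmallestIC s B)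
    (h' : IsSmallestIC s B') : B = B' :=
  le_antisymm (h.le_of B' h'.isIC h'.subset) (h'.le_of B h.isIC h.subset)

/-- The integral closure in `F` of the subring generated by `s`. -/
theorem isSmallestIC_integralClosure (s : Set F) :
    IsSmallestIC s (integralClosure (Subring.closure s) F).toSubring := by
  refine ⟨?_, ?_, ?_⟩
  · intro z hz
    have hz' : z ∈ Subring.closure s := Subring.subset_closure hz
    exact (integralClosure (Subring.closure s) F).algebraMap_mem ⟨z, hz'⟩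
  · intro z hz
    have hz' : IsIntegral (integralClosure (Subring.closure s) F) z :=
      isIntegral_of_ringHom (RingHom.id _) (fun _ => rfl) hz
    exact isIntegral_trans z hz'
  · intro O hO hs z hz
    have hle : Subring.closure s ≤ O := Subring.closure_le.mpr hs
    exact hO z (isIntegral_of_ringHom (Subring.inclusion hle) (fun _ => rfl) hz)

/-- Adapter: a subring whose elements are exactly the elements integral over `R[x]`. -/
theorem isSmallestIC_of_forall_mem_iff {R : Type*} [CommRing R] [Algebra R F] (x : F)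
    (B : Subring F) (hB : ∀ z : F, z ∈ B ↔ IsIntegral (Algebra.adjoin R {x}) z) :
    IsSmallestIC (insert x (Set.range (algebraMap R F))) B := by
  refine ⟨?_, ?_, ?_⟩
  · intro z hz
    refine (hB z).mpr ?_
    have hz' : z ∈ Algebra.adjoin R {x} := by
      rcases hz with rfl | ⟨r, rfl⟩
      · exact Algebra.subset_adjoin rfl
      · exact Subalgebra.algebraMap_mem _ r
    exact isIntegral_algebraMap (R := Algebra.adjoin R {x}) (x := ⟨z, hz'⟩)
  · intro z hz
    refine (hB z).mpr ?_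
    -- `B` and `integralClosure R[x] F` have the same elements
    have hz' : IsIntegral (integralClosure (Algebra.adjoin R {x}) F) z := by
      obtain ⟨p, hp, hpz⟩ := hz
      let ι : B →+* integralClosure (Algebra.adjoin R {x}) F :=
        { toFun := fun b => ⟨b, (hB b).mp b.2⟩
          map_one' := rfl
          map_mul' := fun _ _ => rfl
          map_zero' := rfl
          map_add' := fun _ _ => rfl }
      exact isIntegral_of_ringHom ι (fun _ => rfl) ⟨p, hp, hpz⟩
    exact isIntegral_trans z hz'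
  · intro O hO hs z hz
    rw [hB] at hz
    let ι : Algebra.adjoin R {x} →+* O :=
      { toFun := fun b => ⟨b, by
          have hle : Algebra.adjoin R {x} ≤
              ({ O.toSubsemiring with
                algebraMap_mem' := fun r => hs (Or.inr ⟨r, rfl⟩) } : Subalgebra R F) :=
            Algebra.adjoin_le (by
              rintro _ rfl
              exact hs (Or.inl rfl))
          exact hle b.2⟩
        map_one' := rfl
        map_mul' := fun _ _ => rfl
        map_zero' := rfl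
        map_add' := fun _ _ => rfl }
    exact hO z (isIntegral_of_ringHom ι (fun _ => rfl) hz)

/-! ### MOEBIUS-LOCAL -/

section Moebius

variable {x y a b c d e : F}

/-- In a local ring `O = B_𝔫` containing `y` and the coefficients of an invertible Moebius
transformation `y = (a x + b)/(c x + d)`: `x ∈ O` or `x⁻¹ ∈ O`. -/
theorem moebius_mem_or_inv_mem (B : Subring F) (𝔫 : Ideal B) [𝔫.IsPrime]
    (ha : a ∈ locSubring B 𝔫) (hb : b ∈ locSubring B 𝔫) (hc : c ∈ locSubring B 𝔫)
    (hd : d ∈ locSubring B 𝔫) (he : e ∈ locSubring B 𝔫) (hdet : (a * d - b * c) * e = 1)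
    (hy : y ∈ locSubring B 𝔫) (hxy : y * (c * x + d) = a * x + b) :
    x ∈ locSubring B 𝔫 ∨ x⁻¹ ∈ locSubring B 𝔫 := by
  set O := locSubring B 𝔫 with hO
  have hu1 : d * y - b ∈ O := O.sub_mem (O.mul_mem hd hy) hb
  have hu2 : a - c * y ∈ O := O.sub_mem ha (O.mul_mem hc hy)
  have hrel : x * (a - c * y) = d * y - b := by linear_combination (-1 : F) * hxy
  have hsum : c * (d * y - b) + d * (a - c * y) = a * d - b * c := by ring
  by_cases h2 : (⟨a - c * y, hu2⟩ : O) ∈ locMax B 𝔫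
  · -- then `u1` is a unit
    have h1 : (⟨d * y - b, hu1⟩ : O) ∉ locMax B 𝔫 := by
      intro h1
      have hδ : (⟨c, hc⟩ : O) * ⟨d * y - b, hu1⟩ + (⟨d, hd⟩ : O) * ⟨a - c * y, hu2⟩ ∈
          locMax B 𝔫 :=
        (locMax B 𝔫).add_mem ((locMax B 𝔫).mul_mem_left _ h1) ((locMax B 𝔫).mul_mem_left _ h2)
      have h1' : (1 : O) ∈ locMax B 𝔫 := by
        have : (1 : O) = ((⟨c, hc⟩ : O) * ⟨d * y - b, hu1⟩ + (⟨d, hd⟩ : O) * ⟨a - c * y, hu2⟩) *
            ⟨e, he⟩ := by
          apply Subtype.ext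
          push_cast
          rw [hsum, hdet]
        rw [this]
        exact (locMax B 𝔫).mul_mem_right _ hδ
      exact locMax_ne_top B 𝔫 ((Ideal.eq_top_iff_one _).mpr h1')
    have hinv := inv_mem_of_not_mem_locMax B 𝔫 h1
    have hu10 : d * y - b ≠ 0 := by
      intro h0
      apply h1
      have : (⟨d * y - b, hu1⟩ : O) = 0 := Subtype.ext h0
      rw [this]; exact (locMax B 𝔫).zero_mem
    right
    have hx0 : x ≠ 0 := by
      intro h0
      rw [h0, zero_mul] at hrel
      exact hu10 hrel.symm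
    have hu20 : a - c * y ≠ 0 := by
      intro h0
      rw [h0, mul_zero] at hrel
      exact hu10 hrel.symm
    have : x⁻¹ = (a - c * y) * (d * y - b)⁻¹ := by
      rw [← hrel]
      field_simp
    rw [this]
    exact O.mul_mem hu2 hinv
  · left
    have hinv := inv_mem_of_not_mem_locMax B 𝔫 h2
    have hu20 : a - c * y ≠ 0 := by
      intro h0
      apply h2
      have : (⟨a - c * y, hu2⟩ : O) = 0 := Subtype.ext h0
      rw [this]; exact (locMax B 𝔫).zero_mem
    have : x = (d * y - b) * (a - c * y)⁻¹ := by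
      rw [← hrel]
      field_simp
    rw [this]
    exact O.mul_mem hu1 hinv

/-- If moreover `x ∈ O` then `c x + d` is a unit of `O`. -/
theorem moebius_denom_inv_mem (hdet : (a * d - b * c) * e = 1)
    (hxy : y * (c * x + d) = a * x + b) :
    (c * x + d) * ((a - c * y) * e) = 1 := by
  have hrel : x * (a - c * y) = d * y - b := by linear_combination (-1 : F) * hxy
  calc (c * x + d) * ((a - c * y) * e)
      = (c * (x * (a - c * y)) + d * (a - c * y)) * e := by ring
    _ = (a * d - b * c) * e := by rw [hrel]; ring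
    _ = 1 := hdet

/-- **MOEBIUS-LOCAL.**  `Bx`, `By` the smallest integrally closed subrings containing the constants
`C` and `x`, resp. `y`, where `y (c x + d) = a x + b` with constants `a b c d e`,
`(a d - b c) e = 1`.  For a prime `𝔫` of `By` with `x ∈ (By)_𝔫`: `Bx ≤ (By)_𝔫` and
`(Bx)_𝔭 = (By)_𝔫` (the SAME subring of `F`), `𝔭` the contraction of the maximal ideal. -/
theorem locSubring_eq_of_moebius {C : Set F} (Bx By : Subring F)
    (hBx : IsSmallestIC (insert x C) Bx) (hBy : IsSmallestIC (insert y C) By)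
    (ha : a ∈ Subring.closure C) (hb : b ∈ Subring.closure C) (hc : c ∈ Subring.closure C)
    (hd : d ∈ Subring.closure C) (he : e ∈ Subring.closure C)
    (hdet : (a * d - b * c) * e = 1) (hxy : y * (c * x + d) = a * x + b)
    (𝔫 : Ideal By) [𝔫.IsPrime] (hx : x ∈ locSubring By 𝔫) :
    ∃ hle : Bx ≤ locSubring By 𝔫,
      locSubring Bx (contr By Bx 𝔫 hle) = locSubring By 𝔫 := by
  have hCy : Subring.closure C ≤ By :=
    Subring.closure_le.mpr (fun z hz => hBy.subset (Set.mem_insert_of_mem _ hz))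
  have hCx : Subring.closure C ≤ Bx :=
    Subring.closure_le.mpr (fun z hz => hBx.subset (Set.mem_insert_of_mem _ hz))
  have hByO := le_locSubring By 𝔫
  have hyO : y ∈ locSubring By 𝔫 := hByO (hBy.subset (Set.mem_insert _ _))
  -- `Bx ≤ O`
  have hle : Bx ≤ locSubring By 𝔫 := by
    refine hBx.le_of _ (isIC_locSubring By 𝔫 hBy.isIC) ?_
    intro z hz
    rcases hz with hzx | hz
    · rw [hzx]; exact hx
    · exact hByO (hBy.subset (Set.mem_insert_of_mem _ hz))
  refine ⟨hle, locSubring_eq_of_le_of_le By Bx 𝔫 hle ?_⟩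
  -- `By ≤ (Bx)_𝔭`
  refine hBy.le_of _ (isIC_locSubring Bx _ hBx.isIC) ?_
  have hBxO' := le_locSubring Bx (contr By Bx 𝔫 hle)
  intro z hz
  rcases hz with hzy | hz
  · -- `y = (a x + b)/(c x + d)` with `c x + d ∉ 𝔭`
    rw [hzy]
    have hxB : x ∈ Bx := hBx.subset (Set.mem_insert _ _)
    have hnum : a * x + b ∈ Bx := Bx.add_mem (Bx.mul_mem (hCx ha) hxB) (hCx hb)
    have hden : c * x + d ∈ Bx := Bx.add_mem (Bx.mul_mem (hCx hc) hxB) (hCx hd)
    refine ⟨⟨_, hnum⟩, ⟨_, hden⟩, ?_, hxy⟩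
    intro hmem
    rw [mem_contr] at hmem
    have hunit := moebius_denom_inv_mem hdet hxy
    have hw : (a - c * y) * e ∈ locSubring By 𝔫 :=
      (locSubring By 𝔫).mul_mem
        ((locSubring By 𝔫).sub_mem (hByO (hCy ha))
          ((locSubring By 𝔫).mul_mem (hByO (hCy hc)) hyO)) (hByO (hCy he))
    have h1 : (1 : locSubring By 𝔫) ∈ locMax By 𝔫 := by
      have : (1 : locSubring By 𝔫) =
          (⟨c * x + d, hle hden⟩ : locSubring By 𝔫) * ⟨(a - c * y) * e, hw⟩ :=
        Subtype.ext hunit.symm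
      rw [this]
      exact (locMax By 𝔫).mul_mem_right _ hmem
    exact locMax_ne_top By 𝔫 ((Ideal.eq_top_iff_one _).mpr h1)
  · exact hBxO' (hBx.subset (Set.mem_insert_of_mem _ hz))

/-- **MOEBIUS-LOCAL, both charts.**  Every local ring of `By` at a prime is a local ring of `Bx`
or of `Bx'` (the chart at `x = ∞`), as the SAME subring of `F`. -/
theorem exists_locSubring_eq_of_moebius {C : Set F} (Bx Bx' By : Subring F)
    (hBx : IsSmallestIC (insert x C) Bx) (hBx' : IsSmallestIC (insert x⁻¹ C) Bx')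
    (hBy : IsSmallestIC (insert y C) By)
    (ha : a ∈ Subring.closure C) (hb : b ∈ Subring.closure C) (hc : c ∈ Subring.closure C)
    (hd : d ∈ Subring.closure C) (he : e ∈ Subring.closure C)
    (hdet : (a * d - b * c) * e = 1) (hxy : y * (c * x + d) = a * x + b)
    (𝔫 : Ideal By) [𝔫.IsPrime] :
    (∃ hle : Bx ≤ locSubring By 𝔫, locSubring Bx (contr By Bx 𝔫 hle) = locSubring By 𝔫) ∨
    (∃ hle : Bx' ≤ locSubring By 𝔫, locSubring Bx' (contr By Bx' 𝔫 hle) = locSubring By 𝔫) := by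
  have hCy : Subring.closure C ≤ By :=
    Subring.closure_le.mpr (fun z hz => hBy.subset (Set.mem_insert_of_mem _ hz))
  have hByO := le_locSubring By 𝔫
  have hyO : y ∈ locSubring By 𝔫 := hByO (hBy.subset (Set.mem_insert _ _))
  rcases moebius_mem_or_inv_mem By 𝔫 (hByO (hCy ha)) (hByO (hCy hb)) (hByO (hCy hc))
    (hByO (hCy hd)) (hByO (hCy he)) hdet hyO hxy with hx | hx
  · exact Or.inl (locSubring_eq_of_moebius Bx By hBx hBy ha hb hc hd he hdet hxy 𝔫 hx)
  · by_cases hx0 : x = 0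
    · left
      refine locSubring_eq_of_moebius Bx By hBx hBy ha hb hc hd he hdet hxy 𝔫 ?_
      rw [hx0]; exact (locSubring By 𝔫).zero_mem
    · right
      refine locSubring_eq_of_moebius (x := x⁻¹) (a := b) (b := a) (c := d) (d := c) (e := -e)
        Bx' By hBx' hBy hb ha hd hc (Subring.neg_mem _ he) ?_ ?_ 𝔫 hx
      · linear_combination hdet
      · have : y * (c * x + d) * x⁻¹ = (a * x + b) * x⁻¹ := by rw [hxy]
        have h1 : y * (c * x + d) * x⁻¹ = y * (d * x⁻¹ + c) := by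
          field_simp
          ring
        have h2 : (a * x + b) * x⁻¹ = b * x⁻¹ + a := by
          field_simp
          ring
        rw [← h1, ← h2, this]

end Moebius

/-! ### The chart `h = A(x)/B(x)` -/

section ChartRel

open Polynomial

variable {R : Type*} [CommRing R] [Algebra R F]

/-- `P(x) ∈ O` when `x ∈ O ⊇ R`. -/
theorem aeval_mem_of_mem (O : Subring F) (hRO : ∀ r : R, algebraMap R F r ∈ O) {x : F}
    (hx : x ∈ O) (P : R[X]) : aeval x P ∈ O := by
  let O' : Subalgebra R F := { O.toSubsemiring with algebraMap_mem' := hRO }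
  have hle : Algebra.adjoin R {x} ≤ O' := Algebra.adjoin_le (by
    rintro _ rfl
    exact hx)
  exact hle (aeval_mem_adjoin_singleton R x)

/-- `h B(x) = A(x)` with `A` monic, `deg B < deg A`: every integrally closed subring containing
`R` and `h` contains `x`. -/
theorem mem_of_rel (O : Subring F) (hO : IsIC O) (hRO : ∀ r : R, algebraMap R F r ∈ O)
    {A B : R[X]} (hA : A.Monic) (hdeg : B.natDegree < A.natDegree) {x h : F}
    (hrel : h * aeval x B = aeval x A) (hh : h ∈ O) : x ∈ O := by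
  apply hO
  let ι : R →+* O := (algebraMap R F).codRestrict O hRO
  have hι : (algebraMap O F).comp ι = algebraMap R F := RingHom.ext fun _ => rfl
  refine ⟨A.map ι - C (⟨h, hh⟩ : O) * B.map ι, ?_, ?_⟩
  · refine (hA.map ι).sub_of_left ?_
    apply degree_lt_degree
    calc (C (⟨h, hh⟩ : O) * B.map ι).natDegree ≤ (B.map ι).natDegree := natDegree_C_mul_le _ _
      _ ≤ B.natDegree := natDegree_map_le
      _ < A.natDegree := hdeg
      _ = (A.map ι).natDegree := (hA.natDegree_map ι).symm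
  · rw [eval₂_sub, eval₂_mul, eval₂_C, eval₂_map, eval₂_map, hι, ← aeval_def, ← aeval_def, ← hrel]
    exact sub_self _

/-- … and, given a Bezout relation `U A + V B = 1`, also `1 / B(x)`. -/
theorem inv_mem_of_rel (O : Subring F) (hO : IsIC O) (hRO : ∀ r : R, algebraMap R F r ∈ O)
    {A B U V : R[X]} (hA : A.Monic) (hdeg : B.natDegree < A.natDegree)
    (hbez : U * A + V * B = 1) {x h : F}
    (hrel : h * aeval x B = aeval x A) (hh : h ∈ O) : (aeval x B)⁻¹ ∈ O := by
  have hx := mem_of_rel O hO hRO hA hdeg hrel hh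
  have hb := congrArg (aeval x) hbez
  rw [map_add, map_mul, map_mul, map_one] at hb
  have hB0 : aeval x B ≠ 0 := by
    intro h0
    rw [h0, mul_zero] at hrel
    rw [← hrel, h0, mul_zero, mul_zero, add_zero] at hb
    exact zero_ne_one hb
  have : (aeval x B)⁻¹ = aeval x U * h + aeval x V := by
    rw [← hrel] at hb
    field_simp
    linear_combination (-1 : F) * hb
  rw [this]
  exact O.add_mem (O.mul_mem (aeval_mem_of_mem O hRO hx U) hh) (aeval_mem_of_mem O hRO hx V)

/-- Conversely `h = A(x)/B(x) ∈ O` when `x, 1/B(x) ∈ O`. -/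
theorem mem_of_mem_of_inv_mem (O : Subring F) (hRO : ∀ r : R, algebraMap R F r ∈ O)
    {A B : R[X]} {x h : F} (hrel : h * aeval x B = aeval x A) (hB0 : aeval x B ≠ 0)
    (hx : x ∈ O) (hinv : (aeval x B)⁻¹ ∈ O) : h ∈ O := by
  have : h = aeval x A * (aeval x B)⁻¹ := by
    rw [← hrel]; field_simp
  rw [this]
  exact O.mul_mem (aeval_mem_of_mem O hRO hx A) hinv

/-- In the situation of `inv_mem_of_rel`, `B(x) ≠ 0`. -/
theorem aeval_ne_zero_of_rel {A B U V : R[X]} (hbez : U * A + V * B = 1) {x h : F}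
    (hrel : h * aeval x B = aeval x A) : aeval x B ≠ 0 := by
  have hb := congrArg (aeval x) hbez
  rw [map_add, map_mul, map_mul, map_one] at hb
  intro h0
  rw [h0, mul_zero] at hrel
  rw [← hrel, h0, mul_zero, mul_zero, add_zero] at hb
  exact zero_ne_one hb

/-- **Chart `U₁`.**  `h ∈ O ↔ x ∈ O ∧ 1/B(x) ∈ O` for integrally closed `O ⊇ R`: the integral closure
of `R[h]` in `F` is the integral closure of `R[x, 1/B(x)]`. -/
theorem mem_iff_of_rel (O : Subring F) (hO : IsIC O) (hRO : ∀ r : R, algebraMap R F r ∈ O)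
    {A B U V : R[X]} (hA : A.Monic) (hdeg : B.natDegree < A.natDegree)
    (hbez : U * A + V * B = 1) {x h : F} (hrel : h * aeval x B = aeval x A) :
    h ∈ O ↔ x ∈ O ∧ (aeval x B)⁻¹ ∈ O :=
  ⟨fun hh => ⟨mem_of_rel O hO hRO hA hdeg hrel hh, inv_mem_of_rel O hO hRO hA hdeg hbez hrel hh⟩,
    fun hx => mem_of_mem_of_inv_mem O hRO hrel (aeval_ne_zero_of_rel hbez hrel) hx.1 hx.2⟩

theorem IsSmallestIC.of_forall_iff {s s' : Set F} {B : Subring F} (h : IsSmallestIC s B)
    (hss' : ∀ O : Subring F, IsIC O → (s ⊆ O ↔ s' ⊆ O)) : IsSmallestIC s' B :=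
  ⟨(hss' B h.isIC).mp h.subset, h.isIC, fun O hO hs' => h.le_of O hO ((hss' O hO).mpr hs')⟩

/-- **Chart `U₁`, `IsSmallestIC` form.** -/
theorem isSmallestIC_of_rel {C : Set F} (hC : ∀ r : R, algebraMap R F r ∈ C)
    {A B U V : R[X]} (hA : A.Monic) (hdeg : B.natDegree < A.natDegree)
    (hbez : U * A + V * B = 1) {x h : F} (hrel : h * aeval x B = aeval x A) {B1 : Subring F}
    (hB1 : IsSmallestIC (insert h C) B1) :
    IsSmallestIC (insert x (insert (aeval x B)⁻¹ C)) B1 := by
  refine hB1.of_forall_iff fun O hO => ?_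
  constructor
  · intro hs
    have hRO : ∀ r : R, algebraMap R F r ∈ O := fun r => hs (Set.mem_insert_of_mem _ (hC r))
    have := (mem_iff_of_rel O hO hRO hA hdeg hbez hrel).mp (hs (Set.mem_insert _ _))
    intro z hz
    rcases hz with hz | hz | hz
    · rw [hz]; exact this.1
    · rw [hz]; exact this.2
    · exact hs (Set.mem_insert_of_mem _ hz)
  · intro hs
    have hRO : ∀ r : R, algebraMap R F r ∈ O := fun r =>
      hs (Set.mem_insert_of_mem _ (Set.mem_insert_of_mem _ (hC r)))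
    have := (mem_iff_of_rel O hO hRO hA hdeg hbez hrel).mpr
      ⟨hs (Set.mem_insert _ _), hs (Set.mem_insert_of_mem _ (Set.mem_insert _ _))⟩
    intro z hz
    rcases hz with hz | hz
    · rw [hz]; exact this
    · exact hs (Set.mem_insert_of_mem _ (Set.mem_insert_of_mem _ hz))

/-! ### The recipe `h = (x - t₂)^(d+1) / P₁(x)` -/

/-- Bezout for the recipe: `(X - t₂)^n` and `P₁` are coprime when `P₁(t₂)` is a unit. -/
theorem isCoprime_pow_X_sub_C {P1 : R[X]} {t2 : R} (hu : IsUnit (P1.eval t2)) (n : ℕ) :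
    IsCoprime ((X - C t2) ^ n) P1 := by
  apply IsCoprime.pow_left
  obtain ⟨Q, hQ⟩ := X_sub_C_dvd_sub_C_eval (a := t2) (p := P1)
  obtain ⟨u', hu'⟩ := hu.exists_left_inv
  refine ⟨-(C u' * Q), C u', ?_⟩
  have : P1 = C (P1.eval t2) + (X - C t2) * Q := by rw [← hQ]; ring
  calc -(C u' * Q) * (X - C t2) + C u' * P1
      = -(C u' * Q) * (X - C t2) + C u' * (C (P1.eval t2) + (X - C t2) * Q) := by rw [← this]
    _ = C (u' * P1.eval t2) := by rw [C_mul]; ring
    _ = 1 := by rw [hu', C_1]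

/-- **Recipe, chart `U₁`** (`h ≠ ∞`): `h ∈ O ↔ x ∈ O ∧ 1/P₁(x) ∈ O`. -/
theorem recipe_mem_iff (O : Subring F) (hO : IsIC O) (hRO : ∀ r : R, algebraMap R F r ∈ O)
    {P1 : R[X]} {t2 : R} (hu : IsUnit (P1.eval t2)) {x h : F}
    (hrel : h * aeval x P1 = (x - algebraMap R F t2) ^ (P1.natDegree + 1)) :
    h ∈ O ↔ x ∈ O ∧ (aeval x P1)⁻¹ ∈ O := by
  haveI : Nontrivial R := (algebraMap R F).domain_nontrivial
  obtain ⟨U, V, hbez⟩ := isCoprime_pow_X_sub_C hu (P1.natDegree + 1)
  have hA : ((X - C t2) ^ (P1.natDegree + 1) : R[X]).Monic := (monic_X_sub_C t2).pow _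
  have hdeg : P1.natDegree < ((X - C t2) ^ (P1.natDegree + 1) : R[X]).natDegree := by
    rw [(monic_X_sub_C t2).natDegree_pow, natDegree_X_sub_C, mul_one]
    exact Nat.lt_succ_self _
  refine mem_iff_of_rel O hO hRO hA hdeg hbez ?_
  rw [hrel]; simp

/-- **Recipe, chart `U₂`** (`h ≠ 0`): `1/h ∈ O ↔ 1/(x - t₂) ∈ O`, so the integral closure of `R[1/h]`
is the integral closure of `R[s]`, `s = 1/(x - t₂)` a Moebius transform of `x` of determinant `1`. -/
theorem recipe_inv_mem_iff (O : Subring F) (hO : IsIC O) (hRO : ∀ r : R, algebraMap R F r ∈ O)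
    {P1 : R[X]} {t2 : R} (hu : IsUnit (P1.eval t2)) {x h : F}
    (hrel : h * aeval x P1 = (x - algebraMap R F t2) ^ (P1.natDegree + 1)) :
    h⁻¹ ∈ O ↔ (x - algebraMap R F t2)⁻¹ ∈ O := by
  haveI : Nontrivial R := (algebraMap R F).domain_nontrivial
  set w : F := x - algebraMap R F t2 with hw
  have hxw : x = w + algebraMap R F t2 := by rw [hw]; ring
  -- the Taylor shift
  set T : R[X] := taylor t2 P1 with hT
  have hTw : aeval w T = aeval x P1 := by
    rw [hT, taylor_apply, aeval_comp, map_add, aeval_X, aeval_C, ← hxw]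
  have hTdeg : T.natDegree = P1.natDegree := natDegree_taylor P1 t2
  have hT0 : T.coeff 0 = P1.eval t2 := taylor_coeff_zero t2 P1
  have hu0 : P1.eval t2 ≠ 0 := hu.ne_zero
  by_cases hw0 : w = 0
  · -- degenerate case `x = t₂`: `h = 0`
    have hx : x = algebraMap R F t2 := by rw [hxw, hw0, zero_add]
    have hP : aeval x P1 ≠ 0 := by
      rw [hx, aeval_algebraMap_apply_eq_algebraMap_eval]
      exact (hu.map (algebraMap R F)).ne_zero
    have hh0 : h = 0 := by
      rw [hw0, zero_pow (Nat.succ_ne_zero _)] at hrel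
      exact (mul_eq_zero.mp hrel).resolve_right hP
    rw [hh0, hw0, inv_zero]
  · -- `1/h = G(s)`, `G = reverse T * X`, `s = 1/w`
    have hP : aeval x P1 ≠ 0 := by
      intro h0
      rw [h0, mul_zero] at hrel
      exact hw0 (pow_eq_zero_iff (Nat.succ_ne_zero _) |>.mp hrel.symm)
    letI : Invertible w := invertibleOfNonzero hw0
    have hrev : aeval w⁻¹ T.reverse * w ^ T.natDegree = aeval w T := by
      have := eval₂_reverse_mul_pow (algebraMap R F) w T
      rwa [invOf_eq_inv] at this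
    set G : R[X] := T.reverse * X with hG
    have hGs : aeval w⁻¹ G = h⁻¹ := by
      have h1 : aeval w⁻¹ T.reverse = aeval x P1 * (w⁻¹) ^ P1.natDegree := by
        rw [← hTw, ← hrev, hTdeg, mul_assoc, ← mul_pow, mul_inv_cancel₀ hw0, one_pow, mul_one]
      have hh : h = w ^ (P1.natDegree + 1) * (aeval x P1)⁻¹ := by
        rw [← hrel]; field_simp
      rw [hG, map_mul, aeval_X, h1, hh, mul_inv, inv_inv, inv_pow, pow_succ]
      ring
    constructor
    · intro hhO
      -- `s` is a root of the monic `u'·G - u'/h`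
      obtain ⟨u', hu'⟩ := hu.exists_left_inv
      have hTrev0 : T.reverse ≠ 0 := by
        rw [Ne, reverse_eq_zero]
        intro h0
        rw [h0, coeff_zero] at hT0
        exact hu0 hT0.symm
      have hlead : G.leadingCoeff = P1.eval t2 := by
        rw [hG, leadingCoeff_mul_X, reverse_leadingCoeff,
          trailingCoeff_eq_coeff_zero (by rw [hT0]; exact hu0), hT0]
      have hGdeg : G.natDegree = P1.natDegree + 1 := by
        rw [hG, natDegree_mul_X hTrev0, reverse_natDegree,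
          natTrailingDegree_eq_zero.mpr (Or.inr (by rw [hT0]; exact hu0)), Nat.sub_zero, hTdeg]
      have hmonic : (C u' * G).Monic :=
        monic_C_mul_of_mul_leadingCoeff_eq_one (by rw [hlead, hu'])
      have hdeg : (1 : R[X]).natDegree < (C u' * G).natDegree := by
        rw [natDegree_one, natDegree_C_mul_of_mul_ne_zero (by rw [hlead, hu']; exact one_ne_zero),
          hGdeg]
        exact Nat.succ_pos _
      refine mem_of_rel O hO hRO hmonic hdeg (x := w⁻¹) (h := algebraMap R F u' * h⁻¹) ?_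
        (O.mul_mem (hRO u') hhO)
      rw [map_one, mul_one, map_mul, aeval_C, hGs]
    · intro hsO
      rw [← hGs]
      exact aeval_mem_of_mem O hRO hsO G

/-- **Recipe, chart `U₂`, `IsSmallestIC` form**: the integral closure of `R[1/h]` is the integral
closure of `R[1/(x - t₂)]`. -/
theorem isSmallestIC_recipe_inv {C : Set F} (hC : ∀ r : R, algebraMap R F r ∈ C)
    {P1 : R[X]} {t2 : R} (hu : IsUnit (P1.eval t2)) {x h : F}
    (hrel : h * aeval x P1 = (x - algebraMap R F t2) ^ (P1.natDegree + 1)) {B2 : Subring F}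
    (hB2 : IsSmallestIC (insert h⁻¹ C) B2) :
    IsSmallestIC (insert (x - algebraMap R F t2)⁻¹ C) B2 := by
  refine hB2.of_forall_iff fun O hO => ?_
  constructor
  · intro hs
    have hRO : ∀ r : R, algebraMap R F r ∈ O := fun r => hs (Set.mem_insert_of_mem _ (hC r))
    have := (recipe_inv_mem_iff O hO hRO hu hrel).mp (hs (Set.mem_insert _ _))
    intro z hz
    rcases hz with hz | hz
    · rw [hz]; exact this
    · exact hs (Set.mem_insert_of_mem _ hz)
  · intro hs
    have hRO : ∀ r : R, algebraMap R F r ∈ O := fun r => hs (Set.mem_insert_of_mem _ (hC r))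
    have := (recipe_inv_mem_iff O hO hRO hu hrel).mpr (hs (Set.mem_insert _ _))
    intro z hz
    rcases hz with hz | hz
    · rw [hz]; exact this
    · exact hs (Set.mem_insert_of_mem _ hz)

/-- **CHART (A3), packaged.**  `B2` = integral closure of `R[1/h]` for the recipe chart
`h = (x - t₂)^(d+1)/P₁(x)`, `P₁(t₂)` a unit; `Bx`, `Bx'` the integral closures of `R[x]`, `R[1/x]`
(the `x`-frame).  Every local ring of `B2` at a prime is, as a subring of `F`, the local ring of
`Bx` or of `Bx'` at the contraction of its maximal ideal. -/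
theorem recipe_exists_locSubring_eq {C : Set F} (hC : ∀ r : R, algebraMap R F r ∈ C)
    {P1 : R[X]} {t2 : R} (hu : IsUnit (P1.eval t2)) {x h : F}
    (hrel : h * aeval x P1 = (x - algebraMap R F t2) ^ (P1.natDegree + 1))
    (hx : x ≠ algebraMap R F t2) (B2 Bx Bx' : Subring F)
    (hB2 : IsSmallestIC (insert h⁻¹ C) B2) (hBx : IsSmallestIC (insert x C) Bx)
    (hBx' : IsSmallestIC (insert x⁻¹ C) Bx') (𝔫 : Ideal B2) [𝔫.IsPrime] :
    (∃ hle : Bx ≤ locSubring B2 𝔫, locSubring Bx (contr B2 Bx 𝔫 hle) = locSubring B2 𝔫) ∨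
    (∃ hle : Bx' ≤ locSubring B2 𝔫, locSubring Bx' (contr B2 Bx' 𝔫 hle) = locSubring B2 𝔫) := by
  have hB2' := isSmallestIC_recipe_inv hC hu hrel hB2
  have hw : x - algebraMap R F t2 ≠ 0 := sub_ne_zero.mpr hx
  have ht2 : algebraMap R F t2 ∈ Subring.closure C := Subring.subset_closure (hC t2)
  refine exists_locSubring_eq_of_moebius (a := 0) (b := 1) (c := 1) (d := -algebraMap R F t2)
    (e := -1) Bx Bx' B2 hBx hBx' hB2' (Subring.zero_mem _) (Subring.one_mem _)
    (Subring.one_mem _) (Subring.neg_mem _ ht2) (Subring.neg_mem _ (Subring.one_mem _))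
    (by ring) ?_ 𝔫
  rw [zero_mul, zero_add, one_mul, ← sub_eq_add_neg]
  exact inv_mul_cancel₀ hw

end ChartRel

end Fermat.Agent.GL.Frame.Chart
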