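/-
GATE-L / L5-I OLD-COPIES, abstract (helper84; board 2923, 2964): producer of the hypothesis
`hold` ("(OLD_i,n)": the image of `O_n` in the residue field `k_i` of the component contains the
local ring of the smooth curve at the point) of `GL/Frame/VertPrimeOld.lean`.

* §1 integrality.
  `mem_closure_inv_of_isIntegral` : `u ≠ 0` integral over a subring `T` ⟹ `u ∈ T[u⁻¹]`.
  `isIntegral_of_inv_mem_closure` (**INV-INT**) : `O` a subring of a field, `y ∈ rad O`, `y ≠ 0`,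
  `y⁻¹ ∈ O[z⁻¹]` ⟹ `z` is integral over `O` and `z ^ e = y * c` with `e ≠ 0`, `c` integral over
  `O`.  `mem_of_isIntegral_inv` : with `O` integrally closed and `y⁻¹` integral over
  `T ⊆ O[z⁻¹]`: `z ∈ O` and `z ^ e ∈ y O`; `mem_prime_of_isIntegral_inv` : `z ∈ 𝔭` for every prime
  `𝔭 ∋ y` of `O`.
  USE: `y = 1/j ∈ 𝔪_n` (a cuspidal point), `z = 1/j(q^i ·)`, `T = R[j(q^i ·)]`: `j` is integral over
  `R[j(q^i ·)]` ⟹ `1/j(q^i ·) ∈ 𝔪_n`: the old copy of the chart `1/j` of the lower level is regular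
  at `n` (at a non-cuspidal point use `j(q^i ·)` integral over `R[j]` and §2).
* §2 `map_mem_of_isIntegral(_closure)` : `δ : B' → F` a ring hom, `B'` integral over the subring
  `T'`, `δ T' ⊆ O`, `O` integrally closed ⟹ `δ B' ⊆ O`   (old copies of a whole chart ring are
  regular at the point as soon as the old copy of the chart parameter is).
* §3 `RegAt`, `UnitAt`, `hold_of_old` : regular old copies + the residue isomorphism
  `e : κ' ≃ κ` of the L3c table (`ρ (δ f) = e (ρ' f)`) + a valuation subring `𝒪'` of `κ'` inside the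
  image of `B'_{x'}` (`x'` the point below) ⟹ `hold` for `𝒪 := e(𝒪')`.

Mathlib only.
-/
import Mathlib

set_option autoImplicit false

open Polynomial

namespace Fermat.Agent.GL.Frame.OldCopies

variable {F : Type*} [Field F]

/-! ### §1 integrality -/

/-- `O[w]` as the range of `aeval w`, in `Subring.closure` form -/
theorem exists_aeval_eq_of_mem_closure (O : Subring F) (w : F) {x : F}
    (hx : x ∈ Subring.closure ((O : Set F) ∪ {w})) : ∃ G : O[X], aeval w G = x := by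
  have hle : Subring.closure ((O : Set F) ∪ {w}) ≤
      (Polynomial.aeval w : O[X] →ₐ[O] F).range.toSubring := by
    rw [Subring.closure_le]
    rintro a (ha | ha)
    · exact ⟨C ⟨a, ha⟩, by
        show aeval w (C (⟨a, ha⟩ : O)) = a
        rw [aeval_C]; rfl⟩
    · rw [Set.mem_singleton_iff] at ha
      exact ⟨X, by
        show aeval w (X : O[X]) = a
        rw [aeval_X, ha]⟩
  exact hle hx

/-- **`u ∈ T[u⁻¹]` for `u ≠ 0` integral over `T`.** -/
theorem mem_closure_inv_of_isIntegral (T : Subring F) {u : F} (hu0 : u ≠ 0)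
    (hu : IsIntegral T u) : u ∈ Subring.closure ((T : Set F) ∪ {u⁻¹}) := by
  obtain ⟨p, hp, hpu⟩ := hu
  set S := Subring.closure ((T : Set F) ∪ {u⁻¹}) with hS
  have hTS : ∀ a : T, algebraMap T F a ∈ S := fun a => Subring.subset_closure (Or.inl a.2)
  have huS : u⁻¹ ∈ S := Subring.subset_closure (Or.inr rfl)
  -- `p.reverse` vanishes at `u⁻¹`
  let _ : Invertible u := invertibleOfNonzero hu0
  have h1 : eval₂ (algebraMap T F) u⁻¹ p.reverse = 0 := by
    have := (eval₂_reverse_eq_zero_iff (algebraMap T F) u p).mpr hpu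
    rwa [invOf_eq_inv] at this
  -- `p.reverse = divX * X + 1`
  have h2 : p.reverse = p.reverse.divX * X + C 1 := by
    conv_lhs => rw [← divX_mul_X_add p.reverse]
    rw [coeff_zero_reverse, hp.leadingCoeff]
  rw [h2, eval₂_add, eval₂_mul, eval₂_X, eval₂_C, map_one] at h1
  -- `u = - divX(u⁻¹)`
  have h3 : u = -eval₂ (algebraMap T F) u⁻¹ p.reverse.divX := by
    have : eval₂ (algebraMap T F) u⁻¹ p.reverse.divX * u⁻¹ * u + 1 * u = 0 := by
      rw [← add_mul, h1, zero_mul]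
    rw [mul_assoc, inv_mul_cancel₀ hu0, mul_one, one_mul] at this
    linear_combination this
  rw [h3]
  refine S.neg_mem ?_
  rw [eval₂_eq_sum_range]
  exact S.sum_mem fun i _ => S.mul_mem (hTS _) (S.pow_mem huS i)

/-- **INV-INT, core.**  `y ≠ 0` in the Jacobson radical of `O` (`hrad`), `y⁻¹ ∈ O[z⁻¹]`.  Then `z`
is integral over `O` and a power of `z` is `y` times an element integral over `O`. -/
theorem isIntegral_of_inv_mem_closure (O : Subring F) {y z : F} (hy : y ∈ O) (hy0 : y ≠ 0)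
    (hrad : ∀ c ∈ O, ∃ u ∈ O, (1 - y * c) * u = 1) (hz0 : z ≠ 0)
    (hmem : y⁻¹ ∈ Subring.closure ((O : Set F) ∪ {z⁻¹})) :
    IsIntegral O z ∧ ∃ e : ℕ, e ≠ 0 ∧ ∃ c : F, IsIntegral O c ∧ z ^ e = y * c := by
  obtain ⟨G, hG⟩ := exists_aeval_eq_of_mem_closure O z⁻¹ hmem
  have hw0 : z⁻¹ ≠ 0 := inv_ne_zero hz0
  let _ : Invertible z⁻¹ := invertibleOfNonzero hw0
  set e := G.natDegree with he
  set Q := G.reverse with hQ
  set i := algebraMap O F with hi
  -- `Q(z) * w ^ e = G(w) = y⁻¹`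
  have h1 : eval₂ i z Q * (z⁻¹) ^ e = y⁻¹ := by
    have := eval₂_reverse_mul_pow i z⁻¹ G
    rw [invOf_eq_inv, inv_inv] at this
    rw [this, ← hG]; rfl
  -- `z ^ e = y * Q(z)`
  have h2 : z ^ e = y * eval₂ i z Q := by
    have h3 : eval₂ i z Q = y⁻¹ * z ^ e := by
      rw [← h1, mul_assoc, ← mul_pow, inv_mul_cancel₀ hz0, one_pow, mul_one]
    rw [h3, ← mul_assoc, mul_inv_cancel₀ hy0, one_mul]
  -- the unit `1 - y g₀`
  let y' : O := ⟨y, hy⟩
  obtain ⟨u, hu, hu1⟩ := hrad (G.coeff 0 : O) (G.coeff 0).2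
  let u' : O := ⟨u, hu⟩
  have hQe : Q.coeff e = G.coeff 0 := by
    rw [hQ, coeff_reverse, revAt_le le_rfl, Nat.sub_self]
  -- the monic polynomial
  set P : O[X] := C u' * (X ^ e - C y' * Q) with hP
  have hPdeg : P.natDegree ≤ e := by
    refine (natDegree_C_mul_le _ _).trans ((natDegree_sub_le _ _).trans (max_le ?_ ?_))
    · exact natDegree_X_pow_le e
    · exact (natDegree_C_mul_le _ _).trans (reverse_natDegree_le G)
  have hPcoeff : P.coeff e = 1 := by
    rw [hP, coeff_C_mul, coeff_sub, coeff_X_pow, if_pos rfl, coeff_C_mul, hQe]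
    apply Subtype.ext
    show u * (1 - y * (G.coeff 0 : O)) = 1
    rw [mul_comm]; exact hu1
  have hPmonic : P.Monic := monic_of_natDegree_le_of_coeff_eq_one e hPdeg hPcoeff
  have hPz : eval₂ i z P = 0 := by
    rw [hP, eval₂_mul, eval₂_C, eval₂_sub, eval₂_X_pow, eval₂_mul, eval₂_C]
    show i u' * (z ^ e - y * eval₂ i z Q) = 0
    rw [h2, sub_self, mul_zero]
  have hzint : IsIntegral O z := ⟨P, hPmonic, hPz⟩
  refine ⟨hzint, e, ?_, eval₂ i z Q, ?_, h2⟩
  · -- `e ≠ 0`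
    intro he0
    have hG0 : G = C (G.coeff 0) := eq_C_of_natDegree_eq_zero (he ▸ he0)
    have hQ0 : eval₂ i z Q = (G.coeff 0 : O) := by
      rw [hQ]
      conv_lhs => rw [hG0]
      rw [reverse_C, eval₂_C]; rfl
    rw [he0, pow_zero, hQ0] at h2
    rw [← h2, sub_self, zero_mul] at hu1
    exact zero_ne_one hu1
  · -- `Q(z)` is integral
    have : eval₂ i z Q = aeval z Q := rfl
    rw [this]
    have hmem' : aeval z Q ∈ Algebra.adjoin O {z} := aeval_mem_adjoin_singleton O z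
    have hle : Algebra.adjoin O {z} ≤ integralClosure O F :=
      Algebra.adjoin_le (Set.singleton_subset_iff.mpr hzint)
    exact hle hmem'

/-- **INV-INT.**  `O` integrally closed in `F`, `y ≠ 0` in its Jacobson radical, `y⁻¹` integral over
a subring `T ⊆ O[z⁻¹]`.  Then `z ∈ O` and a power of `z` lies in `y O`. -/
theorem mem_of_isIntegral_inv (O : Subring F) (hIC : ∀ x : F, IsIntegral O x → x ∈ O)
    {y z : F} (hy : y ∈ O) (hy0 : y ≠ 0)
    (hrad : ∀ c ∈ O, ∃ u ∈ O, (1 - y * c) * u = 1) (hz0 : z ≠ 0)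
    (T : Subring F) (hT : T ≤ Subring.closure ((O : Set F) ∪ {z⁻¹}))
    (hint : IsIntegral T y⁻¹) :
    z ∈ O ∧ ∃ e : ℕ, e ≠ 0 ∧ ∃ c ∈ O, z ^ e = y * c := by
  have h1 := mem_closure_inv_of_isIntegral T (inv_ne_zero hy0) hint
  rw [inv_inv] at h1
  have hle : Subring.closure ((T : Set F) ∪ {y}) ≤ Subring.closure ((O : Set F) ∪ {z⁻¹}) := by
    rw [Subring.closure_le]
    rintro a (ha | ha)
    · exact hT ha
    · rw [Set.mem_singleton_iff] at ha
      exact Subring.subset_closure (Or.inl (ha ▸ hy))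
  obtain ⟨hz, e, he, c, hc, hzc⟩ :=
    isIntegral_of_inv_mem_closure O hy hy0 hrad hz0 (hle h1)
  exact ⟨hIC z hz, e, he, c, hIC c hc, hzc⟩

/-- **INV-INT, prime form**: `z` lies in every prime of `O` containing `y`. -/
theorem mem_prime_of_isIntegral_inv (O : Subring F) (hIC : ∀ x : F, IsIntegral O x → x ∈ O)
    {y z : F} (hy : y ∈ O) (hy0 : y ≠ 0)
    (hrad : ∀ c ∈ O, ∃ u ∈ O, (1 - y * c) * u = 1) (hz0 : z ≠ 0)
    (T : Subring F) (hT : T ≤ Subring.closure ((O : Set F) ∪ {z⁻¹}))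
    (hint : IsIntegral T y⁻¹) (𝔭 : Ideal O) [𝔭.IsPrime] (hy𝔭 : (⟨y, hy⟩ : O) ∈ 𝔭) :
    ∃ hz : z ∈ O, (⟨z, hz⟩ : O) ∈ 𝔭 := by
  obtain ⟨hz, e, he, c, hc, hzc⟩ := mem_of_isIntegral_inv O hIC hy hy0 hrad hz0 T hT hint
  refine ⟨hz, ?_⟩
  have h1 : (⟨z, hz⟩ : O) ^ e = ⟨y, hy⟩ * ⟨c, hc⟩ := Subtype.ext (by simpa using hzc)
  have h2 : (⟨z, hz⟩ : O) ^ e ∈ 𝔭 := h1 ▸ 𝔭.mul_mem_right _ hy𝔭
  exact Ideal.IsPrime.mem_of_pow_mem ‹_› e h2

/-! ### §2 old copies of an integral chart ring -/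

/-- `δ B' ⊆ O` when `B'` is integral over `T'`, `δ T' ⊆ O` and `O` is integrally closed. -/
theorem map_mem_of_isIntegral {B' : Type*} [CommRing B'] (δ : B' →+* F) (T' : Subring B')
    (O : Subring F) (hIC : ∀ x : F, IsIntegral O x → x ∈ O) (hT' : ∀ t ∈ T', δ t ∈ O)
    {b : B'} (hb : IsIntegral T' b) : δ b ∈ O := by
  let φ : T' →+* O := (δ.comp T'.subtype).codRestrict O (fun t => hT' t t.2)
  have h1 : IsIntegral O (δ b) :=
    IsIntegral.map_of_comp_eq φ δ (RingHom.ext fun _ => rfl) hb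
  exact hIC _ h1

/-- the same with `T'` generated by a set `s` (`s = R' ∪ {t'}`: the base ring and the chart
parameter) -/
theorem map_mem_of_isIntegral_closure {B' : Type*} [CommRing B'] (δ : B' →+* F) (s : Set B')
    (O : Subring F) (hIC : ∀ x : F, IsIntegral O x → x ∈ O) (hs : ∀ t ∈ s, δ t ∈ O)
    {b : B'} (hb : IsIntegral (Subring.closure s) b) : δ b ∈ O := by
  refine map_mem_of_isIntegral δ (Subring.closure s) O hIC ?_ hb
  have hle : Subring.closure s ≤ O.comap δ := by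
    rw [Subring.closure_le]
    exact fun t ht => hs t ht
  exact fun t ht => hle ht

/-! ### §3 from old copies to `hold` -/

section Hold

variable {B : Type*} [CommRing B] [Algebra B F]

/-- `x ∈ F` is regular at the prime `n` of `B` (`x ∈ B_n`), fraction-free -/
def RegAt (n : Ideal B) (x : F) : Prop :=
  ∃ c s : B, s ∉ n ∧ algebraMap B F s * x = algebraMap B F c

/-- `x ∈ F` is a unit at the prime `n` of `B` (`x ∈ B_nˣ`), fraction-free -/
def UnitAt (n : Ideal B) (x : F) : Prop :=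
  ∃ c s : B, s ∉ n ∧ c ∉ n ∧ algebraMap B F s * x = algebraMap B F c

theorem UnitAt.regAt {n : Ideal B} {x : F} (h : UnitAt n x) : RegAt n x := by
  obtain ⟨c, s, hs, -, h⟩ := h
  exact ⟨c, s, hs, h⟩

/-- **from old copies to `(OLD_i,n)`.**  `δ : B' → F` the old-copy map (`f ↦ f(q^i ·)`), all old
copies regular at `n` (`hδ`), with the reduction row `ρ (δ f) = e (ρ' f)` (`hrow`, fraction-free);
`𝒪'` a valuation subring of `κ'` every element of which is `ρ' a / ρ' s` with `δ s` a unit at `n`.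
Then every element of `𝒪 := e(𝒪')` is `ρ c / ρ s` with `s ∉ n`. -/
theorem hold_of_old {κ B' κ' : Type*} [Field κ] [CommRing B'] [Field κ']
    (n : Ideal B) [n.IsPrime] (ρ : B →+* κ) (ρ' : B' →+* κ') (e : κ' ≃+* κ) (δ : B' →+* F)
    (hδ : ∀ f : B', RegAt n (δ f))
    (hrow : ∀ (f : B') (c s : B), s ∉ n → algebraMap B F s * δ f = algebraMap B F c →
      ρ s * e (ρ' f) = ρ c)
    (𝒪' : ValuationSubring κ')
    (h𝒪' : ∀ φ ∈ 𝒪', ∃ a s : B', UnitAt n (δ s) ∧ ρ' s * φ = ρ' a) :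
    ∀ φ ∈ 𝒪'.comap (e.symm : κ →+* κ'), ∃ c s : B, s ∉ n ∧ ρ s * φ = ρ c := by
  intro φ hφ
  rw [ValuationSubring.mem_comap] at hφ
  obtain ⟨a, s, hsu, has⟩ := h𝒪' _ hφ
  obtain ⟨c₁, s₁, hs₁, h₁⟩ := hδ a
  obtain ⟨c₂, s₂, hs₂, hc₂, h₂⟩ := hsu
  have r₁ := hrow a c₁ s₁ hs₁ h₁
  have r₂ := hrow s c₂ s₂ hs₂ h₂
  -- `e (ρ' s) * φ = e (ρ' a)`
  have h3 : e (ρ' s) * φ = e (ρ' a) := by
    have := congrArg e has
    rw [map_mul] at this
    simpa using this
  refine ⟨s₂ * c₁, s₁ * c₂, fun h => (Ideal.IsPrime.mem_or_mem ‹_› h).elim hs₁ hc₂, ?_⟩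
  rw [map_mul, map_mul, ← r₂, ← r₁, ← h3]
  ring

end Hold

end Fermat.Agent.GL.Frame.OldCopies
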