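/-
GATE-L / L5-I OLD-COPIES at a local ring `B_𝔫` (helper84): `GL/Frame/OldCopies.lean` in the
elementary subring language of helper8's `GL/Frame/Chart.lean` (`locSubring B 𝔫`, `locMax B 𝔫`,
`IsIC`).

* `hrad_locSubring` : elements of `locMax` are in the Jacobson radical of `B_𝔫`;
* `old_mem_locSubring` : `δ : B' → F`, `B'` integral over the subring generated by `s`, `δ s ⊆ B_𝔫`,
  `B` integrally closed ⟹ `δ B' ⊆ B_𝔫`   [non-cuspidal point: `s = R ∪ {j}`, `δ j = j(q^i ·)`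
  integral over `R[j] ⊆ B_𝔫`];
* `inv_old_mem_locMax` (**INV-INT**) : `y ∈ locMax`, `y⁻¹` integral over `T ⊆ B_𝔫[z⁻¹]` ⟹
  `z ∈ locMax`   [cuspidal point: `y = 1/j`, `z = 1/j(q^i ·)`, `T = R[j(q^i ·)]`];
* `hold_of_old_loc` : the producer of `(OLD_i,n)` = `hold` of `VertPrimeOld`, with the reduction
  `ρ̂ : B_𝔫 → κ` (the restriction of `rd_i` to the local ring), the residue isomorphism
  `e : κ' ≃ κ` and the row `ρ̂ (δ f) = e (ρ' f)`.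
-/
import Fermat.Agent.GL.Frame.Chart
import Fermat.Agent.GL.Frame.OldCopies

set_option autoImplicit false

namespace Fermat.Agent.GL.Frame.OldCopiesLoc

open Fermat.Agent.GL.Frame.Chart Fermat.Agent.GL.Frame.OldCopies

variable {F : Type*} [Field F] (B : Subring F) (𝔫 : Ideal B) [h𝔫 : 𝔫.IsPrime]

/-- elements of the maximal ideal of `B_𝔫` are in its Jacobson radical -/
theorem hrad_locSubring {y : F} (hy : y ∈ locSubring B 𝔫)
    (hym : (⟨y, hy⟩ : locSubring B 𝔫) ∈ locMax B 𝔫) :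
    ∀ c ∈ locSubring B 𝔫, ∃ u ∈ locSubring B 𝔫, (1 - y * c) * u = 1 := by
  intro c hc
  set w : locSubring B 𝔫 := 1 - ⟨y, hy⟩ * ⟨c, hc⟩ with hw
  have hw' : w ∉ locMax B 𝔫 := by
    intro h
    have h1 : (1 : locSubring B 𝔫) = w + ⟨y, hy⟩ * ⟨c, hc⟩ := by rw [hw]; ring
    have h2 : (1 : locSubring B 𝔫) ∈ locMax B 𝔫 :=
      h1 ▸ (locMax B 𝔫).add_mem h ((locMax B 𝔫).mul_mem_right _ hym)
    exact locMax_ne_top B 𝔫 ((Ideal.eq_top_iff_one _).mpr h2)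
  have hinv := inv_mem_of_not_mem_locMax B 𝔫 hw'
  have hw0 : (w : F) ≠ 0 := by
    intro h0
    apply hw'
    have : w = 0 := Subtype.ext (by simpa using h0)
    rw [this]; exact (locMax B 𝔫).zero_mem
  refine ⟨(w : F)⁻¹, hinv, ?_⟩
  have : (w : F) = 1 - y * c := by rw [hw]; push_cast; rfl
  rw [← this, mul_inv_cancel₀ hw0]

/-- **old copies of an integral chart ring are regular at `𝔫`.** -/
theorem old_mem_locSubring (hB : IsIC B) {B' : Type*} [CommRing B'] (δ : B' →+* F) (s : Set B')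
    (hs : ∀ t ∈ s, δ t ∈ locSubring B 𝔫) {b : B'} (hb : IsIntegral (Subring.closure s) b) :
    δ b ∈ locSubring B 𝔫 :=
  map_mem_of_isIntegral_closure δ s (locSubring B 𝔫) (isIC_locSubring B 𝔫 hB) hs hb

/-- **INV-INT at `B_𝔫`**: `y ∈ 𝔪`, `y⁻¹` integral over `T ⊆ B_𝔫[z⁻¹]` ⟹ `z ∈ 𝔪`. -/
theorem inv_old_mem_locMax (hB : IsIC B) {y z : F} (hy : y ∈ locSubring B 𝔫)
    (hym : (⟨y, hy⟩ : locSubring B 𝔫) ∈ locMax B 𝔫) (hy0 : y ≠ 0) (hz0 : z ≠ 0)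
    (T : Subring F) (hT : T ≤ Subring.closure ((locSubring B 𝔫 : Set F) ∪ {z⁻¹}))
    (hint : IsIntegral T y⁻¹) :
    ∃ hz : z ∈ locSubring B 𝔫, (⟨z, hz⟩ : locSubring B 𝔫) ∈ locMax B 𝔫 :=
  mem_prime_of_isIntegral_inv (locSubring B 𝔫) (isIC_locSubring B 𝔫 hB) hy hy0
    (hrad_locSubring B 𝔫 hy hym) hz0 T hT hint (locMax B 𝔫) hym

/-- the inclusion `B → B_𝔫` -/
def incl : B →+* locSubring B 𝔫 := Subring.inclusion (le_locSubring B 𝔫)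

/-- **from old copies to `(OLD_i,n)`**, local-ring form.  `ρ̂ : B_𝔫 → κ` the reduction along the
component (restricted to the local ring), `δ : B' → F` the old-copy map with `δ B' ⊆ B_𝔫`, the row
`ρ̂ (δ f) = e (ρ' f)`, `𝒪'` a valuation subring of `κ'` whose elements are `ρ' a / ρ' s` with `δ s`
a unit of `B_𝔫`.  Then every `φ ∈ e(𝒪')` is `ρ̂ c / ρ̂ s` with `c, s ∈ B`, `s ∉ 𝔫`. -/
theorem hold_of_old_loc {κ B' κ' : Type*} [Field κ] [CommRing B'] [Field κ']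
    (ρh : locSubring B 𝔫 →+* κ) (ρ' : B' →+* κ') (e : κ' ≃+* κ) (δ : B' →+* F)
    (hδ : ∀ f : B', δ f ∈ locSubring B 𝔫)
    (hrow : ∀ f : B', ρh ⟨δ f, hδ f⟩ = e (ρ' f))
    (𝒪' : ValuationSubring κ')
    (h𝒪' : ∀ φ ∈ 𝒪', ∃ a s : B', (⟨δ s, hδ s⟩ : locSubring B 𝔫) ∉ locMax B 𝔫 ∧
      ρ' s * φ = ρ' a) :
    ∀ φ ∈ 𝒪'.comap (e.symm : κ →+* κ'), ∃ c s : B, s ∉ 𝔫 ∧
      ρh (incl B 𝔫 s) * φ = ρh (incl B 𝔫 c) := by
  intro φ hφ
  rw [ValuationSubring.mem_comap] at hφ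
  obtain ⟨a, s, hsu, has⟩ := h𝒪' _ hφ
  obtain ⟨c₁, s₁, hs₁, h₁⟩ := hδ a
  obtain ⟨c₂, s₂, hs₂, h₂⟩ := hδ s
  have hc₂ : c₂ ∉ 𝔫 := fun h =>
    hsu ((mem_locMax_iff_of_eq B 𝔫 (z := ⟨δ s, hδ s⟩) hs₂ h₂).mpr h)
  -- rows, cleared of denominators
  have r₁ : ρh (incl B 𝔫 s₁) * e (ρ' a) = ρh (incl B 𝔫 c₁) := by
    rw [← hrow a, ← map_mul]
    congr 1
    apply Subtype.ext
    show (s₁ : F) * δ a = c₁
    rw [mul_comm]; exact h₁
  have r₂ : ρh (incl B 𝔫 s₂) * e (ρ' s) = ρh (incl B 𝔫 c₂) := by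
    rw [← hrow s, ← map_mul]
    congr 1
    apply Subtype.ext
    show (s₂ : F) * δ s = c₂
    rw [mul_comm]; exact h₂
  have h3 : e (ρ' s) * φ = e (ρ' a) := by
    have := congrArg e has
    rw [map_mul] at this
    simpa using this
  refine ⟨s₂ * c₁, s₁ * c₂, fun h => (h𝔫.mem_or_mem h).elim hs₁ hc₂, ?_⟩
  rw [map_mul, map_mul, map_mul, map_mul, ← r₂, ← r₁, ← h3]
  ring

end Fermat.Agent.GL.Frame.OldCopiesLoc
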