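/-
GATE-L / L5-I + (A1) CONTRACTION (helper84; asked by helper47, board 2972 (3)): ONE statement

  "for every prime `𝔫` of the level-`N` chart `B` there is a chart `B''` of the lower level
   (the `j'`-chart or the `1/j'`-chart) whose old copy `δ(B'')` lies in the local ring `B_𝔫`",

from ARITH-INT (`j(q^i ·)` integral over `R[j]` and `j` integral over `R[j(q^i ·)]`, helper87) and the
dichotomy `j ∈ B_𝔫 ∨ 1/j ∈ 𝔪_𝔫`.  No indeterminacy of the degeneracy map `δ` at `𝔫`.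

* `old_fin_le` : `j ∈ B_𝔫` ⟹ `δ` maps everything integral over `R'[j']` into `B_𝔫`;
* `old_inf_le` : `1/j ∈ 𝔪_𝔫` ⟹ `1/j(q^i ·) ∈ 𝔪_𝔫` and `δ` maps everything integral over `R'[1/j']`
  into `B_𝔫`;
* `exists_chart_le_locSubring` : the dichotomy form;
* `contr_old` : the contracted prime `x' = {b | δ b ∈ 𝔪_𝔫}` of a subring `B'' ⊆ F'` with
  `δ B'' ⊆ B_𝔫`, and `δ (B''_{x'}) ⊆ B_𝔫` (`old_loc_le`), `δ s` a unit of `B_𝔫` for `s ∉ x'`
  (`old_unit`).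
-/
import Fermat.Agent.GL.Frame.OldCopiesLoc

set_option autoImplicit false

namespace Fermat.Agent.GL.Frame.OldContraction

open Fermat.Agent.GL.Frame.Chart Fermat.Agent.GL.Frame.OldCopies
  Fermat.Agent.GL.Frame.OldCopiesLoc

variable {F F' : Type*} [Field F] [Field F'] (B : Subring F) (𝔫 : Ideal B) [h𝔫 : 𝔫.IsPrime]

/-- **finite chart**: `j ∈ B_𝔫` and `jδ = δ j'` integral over `R[j]` ⟹ the old copy of everything
integral over `R'[j']` lies in `B_𝔫`. -/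
theorem old_fin_le (hB : IsIC B) (R : Subring F) (hRB : R ≤ B) {j jδ : F}
    (hint : IsIntegral (Subring.closure ((R : Set F) ∪ {j})) jδ)
    (hj : j ∈ locSubring B 𝔫) (δ : F' →+* F) {j' : F'} (hδj : δ j' = jδ)
    (R' : Subring F') (hR' : ∀ r ∈ R', δ r ∈ R) {b : F'}
    (hb : IsIntegral (Subring.closure ((R' : Set F') ∪ {j'})) b) : δ b ∈ locSubring B 𝔫 := by
  have hIC := isIC_locSubring B 𝔫 hB
  -- `jδ ∈ B_𝔫`
  have hle : Subring.closure ((R : Set F) ∪ {j}) ≤ locSubring B 𝔫 := by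
    rw [Subring.closure_le]
    rintro a (ha | ha)
    · exact le_locSubring B 𝔫 (hRB ha)
    · rw [Set.mem_singleton_iff] at ha; exact ha ▸ hj
  have hjδ : jδ ∈ locSubring B 𝔫 := hIC _ (isIntegral_of_le hle hint)
  refine old_mem_locSubring B 𝔫 hB δ ((R' : Set F') ∪ {j'}) ?_ hb
  rintro t (ht | ht)
  · exact le_locSubring B 𝔫 (hRB (hR' t ht))
  · rw [Set.mem_singleton_iff] at ht; rw [ht, hδj]; exact hjδ

/-- **infinite chart**: `1/j ∈ 𝔪_𝔫` and `j` integral over `R[jδ]` ⟹ `1/jδ ∈ 𝔪_𝔫`, and the old copy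
of everything integral over `R'[1/j']` lies in `B_𝔫`. -/
theorem old_inf_le (hB : IsIC B) (R : Subring F) (hRB : R ≤ B) {j jδ : F} (hj0 : j ≠ 0)
    (hjδ0 : jδ ≠ 0)
    (hint : IsIntegral (Subring.closure ((R : Set F) ∪ {jδ})) j)
    (hj : j⁻¹ ∈ locSubring B 𝔫) (hjm : (⟨j⁻¹, hj⟩ : locSubring B 𝔫) ∈ locMax B 𝔫)
    (δ : F' →+* F) {j' : F'} (hδj : δ j' = jδ)
    (R' : Subring F') (hR' : ∀ r ∈ R', δ r ∈ R) :
    (∃ hz : jδ⁻¹ ∈ locSubring B 𝔫, (⟨jδ⁻¹, hz⟩ : locSubring B 𝔫) ∈ locMax B 𝔫) ∧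
      ∀ b : F', IsIntegral (Subring.closure ((R' : Set F') ∪ {j'⁻¹})) b →
        δ b ∈ locSubring B 𝔫 := by
  have hT : Subring.closure ((R : Set F) ∪ {jδ}) ≤
      Subring.closure ((locSubring B 𝔫 : Set F) ∪ {jδ⁻¹⁻¹}) := by
    rw [inv_inv]
    refine Subring.closure_mono ?_
    rintro a (ha | ha)
    · exact Or.inl (le_locSubring B 𝔫 (hRB ha))
    · exact Or.inr ha
  have hint' : IsIntegral (Subring.closure ((R : Set F) ∪ {jδ})) j⁻¹⁻¹ := by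
    rw [inv_inv]; exact hint
  obtain ⟨hz, hzm⟩ := inv_old_mem_locMax B 𝔫 hB hj hjm (inv_ne_zero hj0) (inv_ne_zero hjδ0)
    (Subring.closure ((R : Set F) ∪ {jδ})) hT hint'
  refine ⟨⟨hz, hzm⟩, fun b hb => ?_⟩
  refine old_mem_locSubring B 𝔫 hB δ ((R' : Set F') ∪ {j'⁻¹}) ?_ hb
  rintro t (ht | ht)
  · exact le_locSubring B 𝔫 (hRB (hR' t ht))
  · rw [Set.mem_singleton_iff] at ht; rw [ht, map_inv₀, hδj]; exact hz

/-- **CONTRACTION, dichotomy form**: at every prime `𝔫` of the chart `B` the old copy of the finite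
chart (`j'`) or of the infinite chart (`1/j'`) of the lower level lies in `B_𝔫`. -/
theorem exists_chart_le_locSubring (hB : IsIC B) (R : Subring F) (hRB : R ≤ B) {j jδ : F}
    (hj0 : j ≠ 0) (hjδ0 : jδ ≠ 0)
    (hA1 : IsIntegral (Subring.closure ((R : Set F) ∪ {j})) jδ)
    (hA2 : IsIntegral (Subring.closure ((R : Set F) ∪ {jδ})) j)
    (hD : j ∈ locSubring B 𝔫 ∨
      ∃ hj : j⁻¹ ∈ locSubring B 𝔫, (⟨j⁻¹, hj⟩ : locSubring B 𝔫) ∈ locMax B 𝔫)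
    (δ : F' →+* F) {j' : F'} (hδj : δ j' = jδ) (R' : Subring F') (hR' : ∀ r ∈ R', δ r ∈ R) :
    (∀ b : F', IsIntegral (Subring.closure ((R' : Set F') ∪ {j'})) b → δ b ∈ locSubring B 𝔫) ∨
      ((∃ hz : jδ⁻¹ ∈ locSubring B 𝔫, (⟨jδ⁻¹, hz⟩ : locSubring B 𝔫) ∈ locMax B 𝔫) ∧
        ∀ b : F', IsIntegral (Subring.closure ((R' : Set F') ∪ {j'⁻¹})) b →
          δ b ∈ locSubring B 𝔫) := by
  rcases hD with hj | ⟨hj, hjm⟩
  · exact Or.inl fun b hb => old_fin_le B 𝔫 hB R hRB hA1 hj δ hδj R' hR' hb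
  · exact Or.inr (old_inf_le B 𝔫 hB R hRB hj0 hjδ0 hA2 hj hjm δ hδj R' hR')

/-! ### the contracted point -/

section Contr

variable (B'' : Subring F') (δ : F' →+* F) (hδ : ∀ b ∈ B'', δ b ∈ locSubring B 𝔫)

/-- the restriction of `δ` to `B'' → B_𝔫` -/
def oldHom : B'' →+* locSubring B 𝔫 :=
  (δ.comp B''.subtype).codRestrict (locSubring B 𝔫) (fun b => hδ b b.2)

/-- the point `x'` of the lower chart below `𝔫` -/
def contrOld : Ideal B'' := (locMax B 𝔫).comap (oldHom B 𝔫 B'' δ hδ)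

instance contrOld_isPrime : (contrOld B 𝔫 B'' δ hδ).IsPrime := Ideal.comap_isPrime _ _

theorem mem_contrOld {b : B''} :
    b ∈ contrOld B 𝔫 B'' δ hδ ↔ (⟨δ b, hδ b b.2⟩ : locSubring B 𝔫) ∈ locMax B 𝔫 := Iff.rfl

/-- `δ s` is a unit of `B_𝔫` for `s ∉ x'` -/
theorem old_unit {s : B''} (hs : s ∉ contrOld B 𝔫 B'' δ hδ) : (δ s)⁻¹ ∈ locSubring B 𝔫 :=
  inv_mem_of_not_mem_locMax B 𝔫 (z := ⟨δ s, hδ s s.2⟩) hs

/-- **`δ (B''_{x'}) ⊆ B_𝔫`** -/
theorem old_loc_le {z : F'} (hz : z ∈ locSubring B'' (contrOld B 𝔫 B'' δ hδ)) :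
    δ z ∈ locSubring B 𝔫 := by
  obtain ⟨a, s, hs, hzs⟩ := hz
  have hs0 : δ (s : F') ≠ 0 := by
    intro h0
    apply hs
    rw [mem_contrOld]
    have : (⟨δ s, hδ s s.2⟩ : locSubring B 𝔫) = 0 := Subtype.ext h0
    rw [this]; exact (locMax B 𝔫).zero_mem
  have h1 : δ z = δ a * (δ s)⁻¹ := by
    rw [← hzs, map_mul, mul_assoc, mul_inv_cancel₀ hs0, mul_one]
  rw [h1]
  exact (locSubring B 𝔫).mul_mem (hδ a a.2) (old_unit B 𝔫 B'' δ hδ hs)

end Contr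

end Fermat.Agent.GL.Frame.OldContraction
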