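/-
GATE-L / L5-I (helper84): the LOCAL form of `(C2)` "the image of `O_n` in the residue field of the
component contains the local ring of the smooth curve" — producer of the hypothesis `hval` of
`GL/Frame/VertPrime.lean` that avoids identifying the whole ring `B2 ⧸ P_i`.

`ρ : A → κ` a reduction map with kernel the centre `𝔭₀` of the component (`κ` = the residue field
`k_i` of `w_i`, in any model), `P ⊇ 𝔭₀` the closed point.  If SOME valuation subring `𝒪` of `κ`
(the local ring `O_{C_i, x}` of the smooth curve `C_i` at the point) is contained in the image of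
`A_P` (`hold`: every `φ ∈ 𝒪` is `ρ c / ρ s` with `s ∉ P`; "old functions regular at the image point
are regular at `P`, and they reduce onto `O_{C_i,x}`" = J1-SURJ + functoriality), then the local
ring of the component at `P` is a valuation ring (`hval`), because an overring of a valuation ring
is a valuation ring.  No Dedekind ring, no integral closure, no finiteness.

* `hval_of_valuationSubring`  (frame form, `ρ` arbitrary with `ρ a = 0 ↔ a ∈ centre`);
* `hval_htOne_of_valuationSubring`  (height-one form: `B` noetherian normal, `𝔭₀ : HtOne B`);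
* `divPrincipal_of_valuationSubring`, `res_of_valuationSubring` : REG and (RES) at `P` from `hold`.
-/
import Fermat.Agent.GL.Frame.VertPrimeHtOne

set_option autoImplicit false
set_option linter.unusedSectionVars false

namespace Fermat.Agent.GL.Frame.VertPrimeOld

open Fermat.Agent.GL.KrullFrame Fermat.Agent.GL.Frame.HeightOne Fermat.Agent.GL.Frame.VertPrime
  Fermat.Agent.GL.Frame.VertPrimeHtOne

section Abstract

variable {A κ : Type*} [CommRing A] [Field κ]

/-- **an overring of a valuation ring is a valuation ring**, elementwise and localisation-free: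
if the image of `A_P` under `ρ` contains a valuation subring `𝒪` of `κ`, then for all `a b : A` one
of `ρ a / ρ b`, `ρ b / ρ a` is `ρ c / ρ s` with `s ∉ P`. -/
theorem exists_mul_eq_of_valuationSubring (P : Ideal A) (hP1 : (1 : A) ∉ P) (ρ : A →+* κ)
    (𝒪 : ValuationSubring κ)
    (hold : ∀ φ ∈ 𝒪, ∃ c s : A, s ∉ P ∧ ρ s * φ = ρ c) (a b : A) :
    ∃ c s : A, s ∉ P ∧ (ρ s * ρ a = ρ c * ρ b ∨ ρ s * ρ b = ρ c * ρ a) := by
  by_cases hb : ρ b = 0
  · exact ⟨0, 1, hP1, Or.inr (by rw [hb, map_zero, mul_zero, zero_mul])⟩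
  by_cases ha : ρ a = 0
  · exact ⟨0, 1, hP1, Or.inl (by rw [ha, map_zero, mul_zero, zero_mul])⟩
  rcases 𝒪.mem_or_inv_mem (ρ a / ρ b) with h | h
  · obtain ⟨c, s, hs, hcs⟩ := hold _ h
    refine ⟨c, s, hs, Or.inl ?_⟩
    rw [← hcs]; field_simp
  · obtain ⟨c, s, hs, hcs⟩ := hold _ h
    refine ⟨c, s, hs, Or.inr ?_⟩
    rw [← hcs]; field_simp

end Abstract

section Frame

variable {A F : Type*} [CommRing A] [IsDomain A] [Field F] [Algebra A F] [IsFractionRing A F]
variable {𝒱 : Type*} {V : 𝒱 → ValuationSubring F}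
variable (hV : IsFrame A V) (P : Ideal A) [P.IsPrime] {v0 : 𝒱}

/-- **`hval` from a valuation subring of the residue field inside the image of `A_P`.** -/
theorem hval_of_valuationSubring {κ : Type*} [Field κ] (ρ : A →+* κ)
    (hker : ∀ a, ρ a = 0 ↔ a ∈ centre hV v0) (𝒪 : ValuationSubring κ)
    (hold : ∀ φ ∈ 𝒪, ∃ c s : A, s ∉ P ∧ ρ s * φ = ρ c) (a b : A) :
    ∃ c s : A, s ∉ P ∧ (s * a - c * b ∈ centre hV v0 ∨ s * b - c * a ∈ centre hV v0) := by
  have hP1 : (1 : A) ∉ P := fun h => Ideal.IsPrime.ne_top ‹_› ((Ideal.eq_top_iff_one _).mpr h)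
  obtain ⟨c, s, hs, hcs⟩ := exists_mul_eq_of_valuationSubring P hP1 ρ 𝒪 hold a b
  refine ⟨c, s, hs, ?_⟩
  rcases hcs with h | h
  · left
    rw [← hker, map_sub, map_mul, map_mul, h, sub_self]
  · right
    rw [← hker, map_sub, map_mul, map_mul, h, sub_self]

end Frame

section HtOne

variable {B F : Type*} [CommRing B] [IsDomain B] [Field F] [Algebra B F] [IsFractionRing B F]
  [IsNoetherianRing B] [IsIntegrallyClosed B]
variable (P : Ideal B) [P.IsPrime]
variable (O : Type*) [CommRing O] [IsDomain O] [Algebra B O] [IsLocalization.AtPrime O P]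
  [Algebra O F] [IsScalarTower B O F] [IsFractionRing O F]
variable {𝔭₀ : HtOne B} {π : B}

/-- `hval` at a height-one prime from a valuation subring of the residue field -/
theorem hval_htOne_of_valuationSubring {κ : Type*} [Field κ] (ρ : B →+* κ)
    (hker : ∀ a, ρ a = 0 ↔ a ∈ 𝔭₀.1) (𝒪 : ValuationSubring κ)
    (hold : ∀ φ ∈ 𝒪, ∃ c s : B, s ∉ P ∧ ρ s * φ = ρ c) (a b : B) :
    ∃ c s : B, s ∉ P ∧ (s * a - c * b ∈ 𝔭₀.1 ∨ s * b - c * a ∈ 𝔭₀.1) := by
  have h := hval_of_valuationSubring (isFrame_heightOne (B := B) (F := FractionRing B)) P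
    (v0 := 𝔭₀) ρ (fun a => by rw [centre_V1]; exact hker a) 𝒪 hold a b
  rwa [centre_V1] at h

/-- **REG at a type I / II point from old functions**: `π` the vertical uniformiser, `𝒪` the local
ring of the smooth component at the point, contained in the image of `B_P`. -/
theorem divPrincipal_of_valuationSubring {κ : Type*} [Field κ] (ρ : B →+* κ)
    (hker : ∀ a, ρ a = 0 ↔ a ∈ 𝔭₀.1) (𝒪 : ValuationSubring κ)
    (hold : ∀ φ ∈ 𝒪, ∃ c s : B, s ∉ P ∧ ρ s * φ = ρ c)
    (hπne : π ≠ 0) (h𝔭P : 𝔭₀.1 ≤ P) (hπ0 : π ∈ 𝔭₀.1)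
    (hgen : ∀ f ∈ 𝔭₀.1, ∃ s : B, s ∉ 𝔭₀.1 ∧ π ∣ s * f)
    (hother : ∀ 𝔮 : HtOne B, 𝔮 ≠ 𝔭₀ → 𝔮.1 ≤ P → π ∉ 𝔮.1) :
    DivPrincipal O F :=
  divPrincipal_htOne P O hπne h𝔭P hπ0 hgen hother
    (hval_htOne_of_valuationSubring P ρ hker 𝒪 hold)

/-- **(RES) at a type I / II point from old functions.** -/
theorem res_of_valuationSubring {κ : Type*} [Field κ] (ρ : B →+* κ)
    (hker : ∀ a, ρ a = 0 ↔ a ∈ 𝔭₀.1) (𝒪 : ValuationSubring κ)
    (hold : ∀ φ ∈ 𝒪, ∃ c s : B, s ∉ P ∧ ρ s * φ = ρ c) (h𝔭P : 𝔭₀.1 ≤ P)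
    {m : ℕ} (hm : m ≠ 0) {z : F} (hz : z ∈ V1 F 𝔭₀) {c d : B} (hc : c ∉ P) (hd : d ∉ P)
    (h : algebraMap B F c * z ^ m - algebraMap B F d ∈ (V1 F 𝔭₀).nonunits) :
    ∃ a b : B, a ∉ P ∧ b ∉ P ∧ algebraMap B F a * z - algebraMap B F b ∈ (V1 F 𝔭₀).nonunits :=
  res_htOne P h𝔭P (hval_htOne_of_valuationSubring P ρ hker 𝒪 hold) hm hz hc hd h

end HtOne

end Fermat.Agent.GL.Frame.VertPrimeOld
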