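/-
GATE-L / L5-I ASSEMBLY (helper84): `hval` (and REG / (RES)) at a type I / II point `𝔫` of a chart
ring `B ⊂ F` from OLD COPIES, as ONE theorem composing

* `OldContraction` (the old copy `δ B''` of a lower chart lies in `B_𝔫`; `x' = contrOld`),
* `OldCopiesLoc.hold_of_old_loc` (rows + a valuation subring `𝒪'` of `κ'` inside the image of
  `B''_{x'}` ⟹ `(OLD_i,n)`),
* `VertPrimeOld.hval_htOne_of_valuationSubring`.

`hval_of_old` is exactly the hypothesis `hval` of helper47's `LocTypeI.exists_locAt`.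
-/
import Fermat.Agent.GL.Frame.VertPrimeOld
import Fermat.Agent.GL.Frame.OldContraction

set_option autoImplicit false
set_option linter.unusedSectionVars false

namespace Fermat.Agent.GL.Frame.HvalOfOld

open Fermat.Agent.GL.Frame.Chart Fermat.Agent.GL.Frame.OldCopies
  Fermat.Agent.GL.Frame.OldCopiesLoc Fermat.Agent.GL.Frame.OldContraction
  Fermat.Agent.GL.Frame.HeightOne Fermat.Agent.GL.Frame.VertPrimeOld

variable {F F' : Type*} [Field F] [Field F'] {B : Subring F} [IsFractionRing B F]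
  [IsNoetherianRing B] [IsIntegrallyClosed B]

/-- **`hval` at a type I / II point from old copies.**

* `ρh : B_𝔫 → κ` the reduction along the component `𝔭₀` restricted to the local ring
  (`hker : ρh b = 0 ↔ b ∈ 𝔭₀` on `B`);
* `B'' ⊆ F'` a chart ring of the lower level with `δ B'' ⊆ B_𝔫` (`OldContraction`);
* `ρ' : B'' → κ'` its reduction, `e : κ' ≃ κ` the residue isomorphism, `hrow : ρh (δ f) = e (ρ' f)`;
* `𝒪'` a valuation subring of `κ'` (the local ring of the smooth curve at the point below), every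
  element of which is `ρ' a / ρ' s` with `s ∉ x' = contrOld` (J1-SURJ). -/
theorem hval_of_old {κ κ' : Type*} [Field κ] [Field κ'] (𝔫 : Ideal B) [𝔫.IsPrime]
    (𝔭₀ : HtOne B) (ρh : locSubring B 𝔫 →+* κ)
    (hker : ∀ a : B, ρh (incl B 𝔫 a) = 0 ↔ a ∈ 𝔭₀.1)
    (B'' : Subring F') (δ : F' →+* F) (hδ : ∀ b ∈ B'', δ b ∈ locSubring B 𝔫)
    (ρ' : B'' →+* κ') (e : κ' ≃+* κ)
    (hrow : ∀ f : B'', ρh ⟨δ f, hδ f f.2⟩ = e (ρ' f))
    (𝒪' : ValuationSubring κ')
    (h𝒪' : ∀ φ ∈ 𝒪', ∃ a s : B'', s ∉ contrOld B 𝔫 B'' δ hδ ∧ ρ' s * φ = ρ' a) (a b : B) :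
    ∃ c s : B, s ∉ 𝔫 ∧ (s * a - c * b ∈ 𝔭₀.1 ∨ s * b - c * a ∈ 𝔭₀.1) := by
  have hold := hold_of_old_loc B 𝔫 ρh ρ' e (δ.comp B''.subtype) (fun f => hδ f f.2) hrow 𝒪'
    (fun φ hφ => by
      obtain ⟨a, s, hs, has⟩ := h𝒪' φ hφ
      exact ⟨a, s, hs, has⟩)
  exact hval_htOne_of_valuationSubring 𝔫 (ρh.comp (incl B 𝔫)) hker
    (𝒪'.comap (e.symm : κ →+* κ')) hold a b

end Fermat.Agent.GL.Frame.HvalOfOld
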