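/-
GATE-L / L5-I ASSEMBLY, Dedekind form (helper84): `hval` at a type I / II point `𝔫` from old copies
when the reduction `ρ'` of the lower chart `B''` maps ONTO a Dedekind subring `D'` of the residue
field `κ'` with `Frac D' = κ'` (J1-SURJ over `R`: helper96 `lift_K0` / `lift_K0_inv`; `D'` = the
coordinate ring `CRing N' A` of the good level, Dedekind by helper56 `isDedekindDomain_CRing`, or
its twin for the chart `1/j`).

* `exists_mul_eq_mul_of_isDedekindDomain` : in a Dedekind domain, for a prime `P` and `a b`, one of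
  `a/b`, `b/a` is `c/s` with `s ∉ P`  (the localisation at `P` is a valuation ring);
* `valSubringOfDedekind D hfrac P : ValuationSubring κ'` := the local ring `D_P`;
* `hval_of_old_dedekind` : the assembly (no valuation subring in the hypotheses).
-/
import Fermat.Agent.GL.Frame.HvalOfOld

set_option autoImplicit false
set_option linter.unusedSectionVars false

namespace Fermat.Agent.GL.Frame.HvalOfOldDedekind

open Fermat.Agent.GL.Frame.Chart Fermat.Agent.GL.Frame.OldCopies
  Fermat.Agent.GL.Frame.OldCopiesLoc Fermat.Agent.GL.Frame.OldContraction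
  Fermat.Agent.GL.Frame.HeightOne Fermat.Agent.GL.Frame.HvalOfOld

/-- **the localisation of a Dedekind domain at a prime is a valuation ring**, elementwise. -/
theorem exists_mul_eq_mul_of_isDedekindDomain {D : Type*} [CommRing D] [IsDedekindDomain D]
    (P : Ideal D) [P.IsPrime] (a b : D) :
    ∃ c s : D, s ∉ P ∧ (s * a = c * b ∨ s * b = c * a) := by
  by_cases hbot : P = ⊥
  · by_cases hb : b = 0
    · refine ⟨0, 1, fun h => Ideal.IsPrime.ne_top ‹_› ((Ideal.eq_top_iff_one _).mpr h), Or.inr ?_⟩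
      rw [hb, mul_zero, zero_mul]
    · refine ⟨a, b, fun h => hb ?_, Or.inl (mul_comm b a)⟩
      rw [hbot] at h
      exact h
  · have : IsDiscreteValuationRing (Localization.AtPrime P) :=
      IsLocalization.AtPrime.isDiscreteValuationRing_of_dedekind_domain D hbot _
    set L := Localization.AtPrime P
    have hinj : Function.Injective (algebraMap D L) :=
      IsLocalization.injective L (Ideal.primeCompl_le_nonZeroDivisors P)
    obtain ⟨x, hx⟩ := ValuationRing.cond (algebraMap D L a) (algebraMap D L b)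
    obtain ⟨⟨c, s⟩, hmk⟩ := IsLocalization.mk'_surjective P.primeCompl x
    have hmk' : IsLocalization.mk' L c s = x := hmk
    have hspec : x * algebraMap D L s = algebraMap D L c := by
      rw [← hmk']; exact IsLocalization.mk'_spec L c s
    refine ⟨c, s, s.2, ?_⟩
    rcases hx with h | h
    · -- `a x = b`: `s b = c a`
      right
      apply hinj
      rw [map_mul, map_mul, ← hspec, ← h]; ring
    · left
      apply hinj
      rw [map_mul, map_mul, ← hspec, ← h]; ring

section ValSubring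

variable {κ' : Type*} [Field κ'] (D : Subring κ') [IsDedekindDomain D]
  (hfrac : ∀ φ : κ', ∃ a b : D, (b : κ') ≠ 0 ∧ φ * b = a) (P : Ideal D) [hP : P.IsPrime]

/-- the local ring `D_P` of a Dedekind subring `D` of `κ'` with `Frac D = κ'`, as a valuation
subring of `κ'` -/
def valSubringOfDedekind : ValuationSubring κ' :=
  { locSubring D P with
    mem_or_inv_mem' := by
      intro φ
      obtain ⟨a, b, hb, hφ⟩ := hfrac φ
      obtain ⟨c, s, hs, h⟩ := exists_mul_eq_mul_of_isDedekindDomain P a b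
      by_cases ha : (a : κ') = 0
      · left
        have : φ = 0 := by
          rcases mul_eq_zero.mp (hφ.trans ha) with h0 | h0
          · exact h0
          · exact absurd h0 hb
        rw [this]
        exact (locSubring D P).zero_mem
      rcases h with h | h
      · -- `s a = c b`: `φ = c / s`
        left
        refine ⟨c, s, hs, ?_⟩
        have h' : (s : κ') * a = c * b := by exact_mod_cast congrArg (Subtype.val) h
        have : φ * s * b = c * b := by rw [mul_right_comm, hφ, mul_comm, h']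
        exact mul_right_cancel₀ hb this
      · -- `s b = c a`: `φ⁻¹ = c / s`
        right
        refine ⟨c, s, hs, ?_⟩
        have h' : (s : κ') * b = c * a := by exact_mod_cast congrArg (Subtype.val) h
        have hφ0 : φ ≠ 0 := by
          intro h0
          rw [h0, zero_mul] at hφ
          exact ha hφ.symm
        have : φ⁻¹ * s * a = c * a := by
          calc φ⁻¹ * s * a = φ⁻¹ * s * (φ * b) := by rw [hφ]
            _ = s * b := by field_simp
            _ = c * a := h'
        exact mul_right_cancel₀ ha this }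

theorem mem_valSubringOfDedekind {φ : κ'} :
    φ ∈ valSubringOfDedekind D hfrac P ↔ ∃ a s : D, s ∉ P ∧ φ * s = a := Iff.rfl

end ValSubring

section Assembly

variable {F F' : Type*} [Field F] [Field F'] {B : Subring F} [IsFractionRing B F]
  [IsNoetherianRing B] [IsIntegrallyClosed B]

/-- **`hval` at a type I / II point from old copies, Dedekind form.**  As `HvalOfOld.hval_of_old`,
with `(𝒪', h𝒪')` replaced by: `ρ'` maps `B''` ONTO a Dedekind subring `D'` of `κ'` with
`Frac D' = κ'` (J1-SURJ over `R`), and `𝔭₀ ≤ 𝔫`. -/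
theorem hval_of_old_dedekind {κ κ' : Type*} [Field κ] [Field κ'] (𝔫 : Ideal B) [𝔫.IsPrime]
    (𝔭₀ : HtOne B) (h𝔭𝔫 : 𝔭₀.1 ≤ 𝔫) (ρh : locSubring B 𝔫 →+* κ)
    (hker : ∀ a : B, ρh (incl B 𝔫 a) = 0 ↔ a ∈ 𝔭₀.1)
    (B'' : Subring F') (δ : F' →+* F) (hδ : ∀ b ∈ B'', δ b ∈ locSubring B 𝔫)
    (ρ' : B'' →+* κ') (e : κ' ≃+* κ)
    (hrow : ∀ f : B'', ρh ⟨δ f, hδ f f.2⟩ = e (ρ' f))
    (D' : Subring κ') [IsDedekindDomain D']
    (hfrac : ∀ φ : κ', ∃ a b : D', (b : κ') ≠ 0 ∧ φ * b = a)
    (hρD : ∀ f : B'', ρ' f ∈ D') (hsurj : ∀ d ∈ D', ∃ f : B'', ρ' f = d) (a b : B) :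
    ∃ c s : B, s ∉ 𝔫 ∧ (s * a - c * b ∈ 𝔭₀.1 ∨ s * b - c * a ∈ 𝔭₀.1) := by
  -- the corestriction `B'' → D'`
  set ρD : B'' →+* D' := ρ'.codRestrict D' hρD with hρDdef
  have hρDsurj : Function.Surjective ρD := fun d => by
    obtain ⟨f, hf⟩ := hsurj d d.2
    exact ⟨f, Subtype.ext hf⟩
  -- the kernel of `ρh` on `B_𝔫` is inside the maximal ideal
  have hkerloc : ∀ x : locSubring B 𝔫, ρh x = 0 → x ∈ locMax B 𝔫 := by
    intro x hx
    obtain ⟨a, s, hs, hxs⟩ := x.2
    have h1 : x * incl B 𝔫 s = incl B 𝔫 a := Subtype.ext hxs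
    have h2 : ρh (incl B 𝔫 a) = 0 := by rw [← h1, map_mul, hx, zero_mul]
    exact (mem_locMax_iff_of_eq B 𝔫 hs hxs).mpr (h𝔭𝔫 ((hker a).mp h2))
  -- `ker ρD ≤ x'`
  have hkx : RingHom.ker ρD ≤ contrOld B 𝔫 B'' δ hδ := by
    intro f hf
    rw [mem_contrOld]
    apply hkerloc
    have hf' : ρ' f = 0 := congrArg Subtype.val ((RingHom.mem_ker).mp hf)
    rw [hrow f, hf', map_zero]
  set P : Ideal D' := (contrOld B 𝔫 B'' δ hδ).map ρD with hPdef
  have hPprime : P.IsPrime := Ideal.map_isPrime_of_surjective hρDsurj hkx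
  refine hval_of_old 𝔫 𝔭₀ ρh hker B'' δ hδ ρ' e hrow (valSubringOfDedekind D' hfrac P) ?_ a b
  intro φ hφ
  obtain ⟨a₀, s₀, hs₀, h⟩ := (mem_valSubringOfDedekind D' hfrac P).mp hφ
  obtain ⟨a', ha'⟩ := hρDsurj a₀
  obtain ⟨s', hs'⟩ := hρDsurj s₀
  refine ⟨a', s', fun hmem => hs₀ ?_, ?_⟩
  · rw [← hs']
    exact Ideal.mem_map_of_mem ρD hmem
  · have h1 : ρ' s' = (s₀ : κ') := congrArg Subtype.val hs'
    have h2 : ρ' a' = (a₀ : κ') := congrArg Subtype.val ha'
    rw [h1, h2, mul_comm]; exact h

end Assembly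

end Fermat.Agent.GL.Frame.HvalOfOldDedekind
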