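/-
GATE-L / CHART-EXISTS (helper8): existence of the recipe chart of helper47 2729 (A3) /
helper48 2764 (4) for a given Kummer unit `u`.

`R` a domain, `q` a prime with enough units (`∀ f ∉ q R[X], ∃ t, f(t) ∈ Rˣ`; true for a local ring
with maximal ideal `(q)` and infinite residue field), `F ⊇ R` a field, `j ∈ F` transcendental over
`R`.  If `f(j) · u` and `f'(j) · u⁻¹` lie in every integrally closed subring containing `R[j]`
(`f, f' ∉ q R[X]`: "`u` has no vertical zero or pole"), then there are `t₀, t₂ : R` and a MONIC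
`P₁ : R[X]` with `P₁(t₂) ∈ Rˣ` such that, with `j₁ = 1/(j - t₀)` and ANY `h` with
`h · P₁(j₁) = (j₁ - t₂)^(deg P₁ + 1)`, every integrally closed subring of `F` containing `R` and `h`
contains `j`, `u` and `u⁻¹`: `u` is a unit of `B1 = integralClosure R[h] F` (`supp div u ⊆ {h = ∞}`).

* `exists_isUnit_eval` : the "enough units" hypothesis for a local ring with infinite residue field;
* `mem_of_isIntegral_adjoin` : adapter from `IsIntegral (Algebra.adjoin R {j})`;
* `exists_chart` : the main statement; `exists_chart'` : with `h` constructed;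
* `exists_mul_isIntegral` : (E0) on helper80's `VerticalExt` binders: an element lying in ALL
  extensions of the Gauss valuation becomes integral after multiplication by some `f ∉ (π)`.
-/
import Mathlib
import Fermat.Agent.GL.Frame.Chart
import Fermat.Agent.GL.Frame.VerticalExt

set_option autoImplicit false

namespace Fermat.Agent.GL.Frame.ChartExists

open Polynomial Fermat.Agent.GL.Frame.Chart

/-! ### Enough units -/

/-- In a local ring with maximal ideal `(q)` and infinite residue field, every polynomial which is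
nonzero mod `q` takes a unit value. -/
theorem exists_isUnit_eval {R : Type*} [CommRing R] [IsLocalRing R]
    [Infinite (IsLocalRing.ResidueField R)] {q : R}
    (hmax : IsLocalRing.maximalIdeal R = Ideal.span {q}) (f : R[X]) (hf : ¬ C q ∣ f) :
    ∃ t : R, IsUnit (f.eval t) := by
  classical
  have hf0 : f.map (IsLocalRing.residue R) ≠ 0 := by
    intro h0
    apply hf
    rw [C_dvd_iff_dvd_coeff]
    intro i
    have : (f.map (IsLocalRing.residue R)).coeff i = 0 := by rw [h0, coeff_zero]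
    rw [coeff_map, IsLocalRing.residue_eq_zero_iff, hmax, Ideal.mem_span_singleton] at this
    exact this
  obtain ⟨tbar, ht⟩ := Infinite.exists_notMem_finset (f.map (IsLocalRing.residue R)).roots.toFinset
  obtain ⟨t, rfl⟩ := IsLocalRing.residue_surjective tbar
  refine ⟨t, ?_⟩
  rw [← IsLocalRing.notMem_maximalIdeal, ← IsLocalRing.residue_eq_zero_iff]
  intro h0
  apply ht
  rw [Multiset.mem_toFinset, mem_roots hf0, IsRoot.def, eval_map, eval₂_hom, h0]

/-! ### The chart -/

section Main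

variable {R F : Type*} [CommRing R] [IsDomain R] [Field F] [Algebra R F]

/-- Adapter: an element integral over `R[j]` lies in every integrally closed subring containing
`R` and `j`. -/
theorem mem_of_isIntegral_adjoin {j z : F} (hz : IsIntegral (Algebra.adjoin R {j}) z)
    (O : Subring F) (hO : IsIC O) (hRO : ∀ r : R, algebraMap R F r ∈ O) (hj : j ∈ O) : z ∈ O := by
  apply hO
  let ι : Algebra.adjoin R {j} →+* O :=
    { toFun := fun b => ⟨b, by
        have hle : Algebra.adjoin R {j} ≤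
            ({ O.toSubsemiring with algebraMap_mem' := hRO } : Subalgebra R F) :=
          Algebra.adjoin_le (by
            rintro _ rfl
            exact hj)
        exact hle b.2⟩
      map_one' := rfl
      map_mul' := fun _ _ => rfl
      map_zero' := rfl
      map_add' := fun _ _ => rfl }
  exact isIntegral_of_ringHom ι (fun _ => rfl) hz

/-- **CHART-EXISTS.** -/
theorem exists_chart {q : R} (hq : Prime q)
    (hinf : ∀ f : R[X], ¬ C q ∣ f → ∃ t : R, IsUnit (f.eval t))
    {j : F} (hj : Transcendental R j) {u : F}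
    {f f' : R[X]} (hf : ¬ C q ∣ f) (hf' : ¬ C q ∣ f')
    (hu : ∀ O : Subring F, IsIC O → (∀ r : R, algebraMap R F r ∈ O) → j ∈ O →
      aeval j f * u ∈ O)
    (hu' : ∀ O : Subring F, IsIC O → (∀ r : R, algebraMap R F r ∈ O) → j ∈ O →
      aeval j f' * u⁻¹ ∈ O) :
    ∃ (t0 t2 : R) (P1 : R[X]), P1.Monic ∧ IsUnit (P1.eval t2) ∧
      j - algebraMap R F t0 ≠ 0 ∧ aeval (j - algebraMap R F t0)⁻¹ P1 ≠ 0 ∧
      ∀ h : F, h * aeval (j - algebraMap R F t0)⁻¹ P1 =
          ((j - algebraMap R F t0)⁻¹ - algebraMap R F t2) ^ (P1.natDegree + 1) →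
        ∀ O : Subring F, IsIC O → (∀ r : R, algebraMap R F r ∈ O) → h ∈ O →
          j ∈ O ∧ u ∈ O ∧ u⁻¹ ∈ O := by
  have hCq : Prime (C q) := prime_C_iff.mpr hq
  -- the common denominator
  set f1 : R[X] := f * f' with hf1
  have hf1q : ¬ C q ∣ f1 := fun h => (hCq.dvd_or_dvd h).elim hf hf'
  have hf10 : f1 ≠ 0 := fun h => hf1q (h ▸ dvd_zero _)
  obtain ⟨t0, hc⟩ := hinf f1 hf1q
  set c : R := f1.eval t0 with hcdef
  have hc0 : c ≠ 0 := hc.ne_zero
  obtain ⟨c', hc'⟩ := hc.exists_left_inv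
  -- `w = j - t0 ≠ 0`
  set w : F := j - algebraMap R F t0 with hw
  have hjw : j = w + algebraMap R F t0 := by rw [hw]; ring
  have hw0 : w ≠ 0 := by
    intro h0
    apply hj
    refine ⟨X - C t0, X_sub_C_ne_zero t0, ?_⟩
    rw [map_sub, aeval_X, aeval_C, ← hw, h0]
  have hf1j : aeval j f1 ≠ 0 := fun h0 => hj ⟨f1, hf10, h0⟩
  -- Taylor shift and reversal
  set T : R[X] := taylor t0 f1 with hT
  have hTw : aeval w T = aeval j f1 := by
    rw [hT, taylor_apply, aeval_comp, map_add, aeval_X, aeval_C, ← hjw]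
  have hTdeg : T.natDegree = f1.natDegree := natDegree_taylor f1 t0
  have hT0 : T.coeff 0 = c := taylor_coeff_zero t0 f1
  set g : R[X] := T.reverse with hg
  letI : Invertible w := invertibleOfNonzero hw0
  have hrev : aeval w⁻¹ g * w ^ f1.natDegree = aeval j f1 := by
    have := eval₂_reverse_mul_pow (algebraMap R F) w T
    rw [invOf_eq_inv, hTdeg] at this
    rw [hg, ← hTw]
    exact this
  have hgj : aeval w⁻¹ g = aeval j f1 * (w⁻¹) ^ f1.natDegree := by
    rw [← hrev, mul_assoc, ← mul_pow, mul_inv_cancel₀ hw0, one_pow, mul_one]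
  have hg0 : g ≠ 0 := by
    rw [hg, Ne, reverse_eq_zero]
    intro h0
    rw [h0, coeff_zero] at hT0
    exact hc0 hT0.symm
  have hglead : (g * X).leadingCoeff = c := by
    rw [leadingCoeff_mul_X, hg, reverse_leadingCoeff,
      trailingCoeff_eq_coeff_zero (by rw [hT0]; exact hc0), hT0]
  set P1 : R[X] := C c' * (g * X) with hP1
  have hP1monic : P1.Monic := monic_C_mul_of_mul_leadingCoeff_eq_one (by rw [hglead, hc'])
  have hP1q : ¬ C q ∣ P1 := by
    intro hdvd
    have := (C_dvd_iff_dvd_coeff q P1).mp hdvd P1.natDegree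
    rw [coeff_natDegree, hP1monic.leadingCoeff] at this
    exact hq.not_isUnit (isUnit_of_dvd_one this)
  obtain ⟨t2, ht2⟩ := hinf P1 hP1q
  have hP1j : aeval w⁻¹ P1 = algebraMap R F c' * (aeval w⁻¹ g * w⁻¹) := by
    rw [hP1, map_mul, aeval_C, map_mul, aeval_X]
  have hc'F : algebraMap R F c' * algebraMap R F c = 1 := by
    rw [← map_mul, hc', map_one]
  have hc'0 : algebraMap R F c' ≠ 0 := left_ne_zero_of_mul_eq_one hc'F
  have hgj0 : aeval w⁻¹ g ≠ 0 := by
    rw [hgj]
    exact mul_ne_zero hf1j (pow_ne_zero _ (inv_ne_zero hw0))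
  have hP1j0 : aeval w⁻¹ P1 ≠ 0 := by
    rw [hP1j]
    exact mul_ne_zero hc'0 (mul_ne_zero hgj0 (inv_ne_zero hw0))
  refine ⟨t0, t2, P1, hP1monic, ht2, hw0, hP1j0, ?_⟩
  intro h hrel O hO hRO hh
  obtain ⟨hj1O, hPinvO⟩ := (recipe_mem_iff O hO hRO ht2 hrel).mp hh
  have hgO : aeval w⁻¹ g ∈ O := aeval_mem_of_mem O hRO hj1O g
  -- `w = 1/j₁ ∈ O`
  have hwO : w ∈ O := by
    have key : ∀ a G v : F, a ≠ 0 → G ≠ 0 → v ≠ 0 → v = (a * (G * v⁻¹))⁻¹ * (a * G) := by
      intro a G v ha hG hv
      field_simp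
    have : w = (aeval w⁻¹ P1)⁻¹ * (algebraMap R F c' * aeval w⁻¹ g) := by
      rw [hP1j]
      exact key _ _ _ hc'0 hgj0 hw0
    rw [this]
    exact O.mul_mem hPinvO (O.mul_mem (hRO c') hgO)
  have hjO : j ∈ O := by
    rw [hjw]
    exact O.add_mem hwO (hRO t0)
  -- `1/g(j₁) ∈ O`, hence `1/f1(j) ∈ O`
  have hginvO : (aeval w⁻¹ g)⁻¹ ∈ O := by
    have key : ∀ a G v : F, a ≠ 0 → G ≠ 0 → v ≠ 0 → G⁻¹ = (a * (G * v⁻¹))⁻¹ * (a * v⁻¹) := by
      intro a G v ha hG hv
      field_simp
    have : (aeval w⁻¹ g)⁻¹ = (aeval w⁻¹ P1)⁻¹ * (algebraMap R F c' * w⁻¹) := by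
      rw [hP1j]
      exact key _ _ _ hc'0 hgj0 hw0
    rw [this]
    exact O.mul_mem hPinvO (O.mul_mem (hRO c') hj1O)
  have hf1invO : (aeval j f1)⁻¹ ∈ O := by
    have key : ∀ (A v : F) (n : ℕ), A ≠ 0 → v ≠ 0 → A⁻¹ = (v⁻¹) ^ n * (A * (v⁻¹) ^ n)⁻¹ := by
      intro A v n hA hv
      field_simp
    have : (aeval j f1)⁻¹ = (w⁻¹) ^ f1.natDegree * (aeval w⁻¹ g)⁻¹ := by
      rw [hgj]
      exact key _ _ _ hf1j hw0
    rw [this]
    exact O.mul_mem (O.pow_mem hj1O _) hginvO
  have hf1mul : aeval j f1 = aeval j f * aeval j f' := by rw [hf1, map_mul]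
  have hfj0 : aeval j f ≠ 0 := fun h0 => hf1j (by rw [hf1mul, h0, zero_mul])
  have hf'j0 : aeval j f' ≠ 0 := fun h0 => hf1j (by rw [hf1mul, h0, mul_zero])
  refine ⟨hjO, ?_, ?_⟩
  · have : u = (aeval j f * u) * aeval j f' * (aeval j f1)⁻¹ := by
      rw [hf1mul]
      field_simp
    rw [this]
    exact O.mul_mem (O.mul_mem (hu O hO hRO hjO) (aeval_mem_of_mem O hRO hjO f')) hf1invO
  · have : u⁻¹ = (aeval j f' * u⁻¹) * aeval j f * (aeval j f1)⁻¹ := by
      rw [hf1mul]
      field_simp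
    rw [this]
    exact O.mul_mem (O.mul_mem (hu' O hO hRO hjO) (aeval_mem_of_mem O hRO hjO f)) hf1invO

end Main

/-! ### (E0): removing the vertical part of a denominator -/

section E0

open Fermat.Agent.GL.Frame.Vertical Fermat.Agent.GL.Frame.HeightOne

variable {A K L : Type*} [CommRing A] [IsDomain A] [IsNoetherianRing A] [IsIntegrallyClosed A]
  [Field K] [Algebra A K] [IsFractionRing A K]
  [Field L] [Algebra K L] [Algebra A L] [IsScalarTower A K L]
  [FiniteDimensional K L] [Algebra.IsSeparable K L]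

/-- **(E0).**  `w i` ALL the extensions to `L` of the Gauss DVR `A_(π)`; an element `u` of `L` lying
in every `w i` becomes integral over `A` after multiplication by some `f ∉ (π)`. -/
theorem exists_mul_isIntegral {π : A} (hπ : Prime π) {ι : Type*} (w : ι → ValuationSubring L)
    (hw : ∀ i, (w i).comap (algebraMap K L) = gaussRing K hπ)
    (hall : ∀ W : ValuationSubring L, W.comap (algebraMap K L) = gaussRing K hπ → ∃ i, W = w i)
    (u : L) (hu : ∀ i, u ∈ w i) :
    ∃ f : A, ¬ π ∣ f ∧ IsIntegral A (algebraMap A L f * u) := by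
  have halg : IsAlgebraic A u := by
    have : Algebra.IsAlgebraic K L := Algebra.IsAlgebraic.of_finite K L
    have h1 : IsAlgebraic K u := Algebra.IsAlgebraic.isAlgebraic u
    exact (IsFractionRing.isAlgebraic_iff A K L).mpr h1
  obtain ⟨y, hy0, hyint⟩ := halg.exists_integral_multiple
  obtain ⟨n, f, hf, rfl⟩ := WfDvdMonoid.max_power_factor hy0 hπ.irreducible
  refine ⟨f, hf, ?_⟩
  rw [isIntegral_iff_of_forall_ext hπ w hw hall]
  refine ⟨⟨n, ?_⟩, fun i => ?_⟩
  · have : (algebraMap A L π) ^ n * (algebraMap A L f * u) = (π ^ n * f) • u := by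
      rw [Algebra.smul_def, map_mul, map_pow, mul_assoc]
    rw [this]
    exact hyint
  · refine (w i).mul_mem _ _ ?_ (hu i)
    have h1 : algebraMap A K f ∈ (w i).comap (algebraMap K L) := by
      rw [hw i]
      exact algebraMap_mem_V1 _ f
    rw [ValuationSubring.mem_comap] at h1
    rwa [← IsScalarTower.algebraMap_apply] at h1

end E0

/-! ### Assembly on the polynomial chart `A = R[X]`, `X ↦ j` -/

section Assembly

open Fermat.Agent.GL.Frame.Vertical Fermat.Agent.GL.Frame.HeightOne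

variable {R F K : Type*} [CommRing R] [IsDomain R] [Field F] [Algebra R F]

/-- Adapter: an element integral over `R[X]` (acting through `X ↦ j`) lies in every integrally
closed subring containing `R` and `j`. -/
theorem mem_of_isIntegral_polynomial [Algebra R[X] F] {j z : F}
    (halg : ∀ p : R[X], algebraMap R[X] F p = aeval j p) (hz : IsIntegral R[X] z)
    (O : Subring F) (hO : IsIC O) (hRO : ∀ r : R, algebraMap R F r ∈ O) (hj : j ∈ O) : z ∈ O := by
  apply hO
  let ι : R[X] →+* O := RingHom.codRestrict (algebraMap R[X] F) O (fun p => by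
    rw [halg]
    exact aeval_mem_of_mem O hRO hj p)
  exact isIntegral_of_ringHom ι (fun _ => rfl) hz

/-- **CHART-EXISTS from the vertical valuations.**  `w i` ALL the extensions to `F` of the Gauss
valuation of `K = Frac R[X]` (chart `X ↦ j`), `u` a unit of every `w i`: the conclusion of
`exists_chart`. -/
theorem exists_chart_of_vertical_units [IsNoetherianRing R[X]] [IsIntegrallyClosed R[X]]
    [Field K] [Algebra R[X] K] [IsFractionRing R[X] K] [Algebra K F] [Algebra R[X] F]
    [IsScalarTower R[X] K F] [FiniteDimensional K F] [Algebra.IsSeparable K F]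
    {q : R} (hq : Prime q)
    (hinf : ∀ f : R[X], ¬ C q ∣ f → ∃ t : R, IsUnit (f.eval t))
    {j : F} (halg : ∀ p : R[X], algebraMap R[X] F p = aeval j p) (hj : Transcendental R j)
    {ι : Type*} (w : ι → ValuationSubring F)
    (hw : ∀ i, (w i).comap (algebraMap K F) = gaussRing K (prime_C_iff.mpr hq))
    (hall : ∀ W : ValuationSubring F,
      W.comap (algebraMap K F) = gaussRing K (prime_C_iff.mpr hq) → ∃ i, W = w i)
    {u : F} (hu : ∀ i, u ∈ w i) (hu' : ∀ i, u⁻¹ ∈ w i) :
    ∃ (t0 t2 : R) (P1 : R[X]), P1.Monic ∧ IsUnit (P1.eval t2) ∧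
      j - algebraMap R F t0 ≠ 0 ∧ aeval (j - algebraMap R F t0)⁻¹ P1 ≠ 0 ∧
      ∀ h : F, h * aeval (j - algebraMap R F t0)⁻¹ P1 =
          ((j - algebraMap R F t0)⁻¹ - algebraMap R F t2) ^ (P1.natDegree + 1) →
        ∀ O : Subring F, IsIC O → (∀ r : R, algebraMap R F r ∈ O) → h ∈ O →
          j ∈ O ∧ u ∈ O ∧ u⁻¹ ∈ O := by
  obtain ⟨f, hf, hfu⟩ := exists_mul_isIntegral (prime_C_iff.mpr hq) w hw hall u hu
  obtain ⟨f', hf', hfu'⟩ := exists_mul_isIntegral (prime_C_iff.mpr hq) w hw hall u⁻¹ hu'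
  refine exists_chart hq hinf hj hf hf' ?_ ?_
  · intro O hO hRO hjO
    rw [← halg]
    exact mem_of_isIntegral_polynomial halg hfu O hO hRO hjO
  · intro O hO hRO hjO
    rw [← halg]
    exact mem_of_isIntegral_polynomial halg hfu' O hO hRO hjO

end Assembly

/-! ### Assembly on an arbitrary model `A` of the chart ring `R[j]` -/

section AssemblyGen

open Fermat.Agent.GL.Frame.Vertical Fermat.Agent.GL.Frame.HeightOne

variable {R A F K : Type*} [CommRing R] [IsDomain R] [Field F] [Algebra R F]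
  [CommRing A] [IsDomain A] [IsNoetherianRing A] [IsIntegrallyClosed A]
  [Field K] [Algebra A K] [IsFractionRing A K] [Algebra K F] [Algebra A F]
  [IsScalarTower A K F] [FiniteDimensional K F] [Algebra.IsSeparable K F]

/-- **CHART-EXISTS, generic chart ring.**  `A` any model of `R[j]` (e.g. `Algebra.adjoin R {j}`):
every `a : A` is `p(j)` with `p ∉ q R[X]` as soon as `π ∤ a` (`hgen`), and `A → F` lands in every
integrally closed subring containing `R` and `j` (`hAO`). -/
theorem exists_chart_of_vertical_units' {q : R} (hq : Prime q)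
    (hinf : ∀ f : R[X], ¬ C q ∣ f → ∃ t : R, IsUnit (f.eval t))
    {j : F} (hj : Transcendental R j) {π : A} (hπ : Prime π)
    (hgen : ∀ a : A, ¬ π ∣ a → ∃ p : R[X], ¬ C q ∣ p ∧ algebraMap A F a = aeval j p)
    (hAO : ∀ O : Subring F, IsIC O → (∀ r : R, algebraMap R F r ∈ O) → j ∈ O →
      ∀ a : A, algebraMap A F a ∈ O)
    {ι : Type*} (w : ι → ValuationSubring F)
    (hw : ∀ i, (w i).comap (algebraMap K F) = gaussRing K hπ)
    (hall : ∀ W : ValuationSubring F, W.comap (algebraMap K F) = gaussRing K hπ → ∃ i, W = w i)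
    {u : F} (hu : ∀ i, u ∈ w i) (hu' : ∀ i, u⁻¹ ∈ w i) :
    ∃ (t0 t2 : R) (P1 : R[X]), P1.Monic ∧ IsUnit (P1.eval t2) ∧
      j - algebraMap R F t0 ≠ 0 ∧ aeval (j - algebraMap R F t0)⁻¹ P1 ≠ 0 ∧
      ∀ h : F, h * aeval (j - algebraMap R F t0)⁻¹ P1 =
          ((j - algebraMap R F t0)⁻¹ - algebraMap R F t2) ^ (P1.natDegree + 1) →
        ∀ O : Subring F, IsIC O → (∀ r : R, algebraMap R F r ∈ O) → h ∈ O →
          j ∈ O ∧ u ∈ O ∧ u⁻¹ ∈ O := by
  obtain ⟨a, ha, hau⟩ := exists_mul_isIntegral hπ w hw hall u hu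
  obtain ⟨a', ha', hau'⟩ := exists_mul_isIntegral hπ w hw hall u⁻¹ hu'
  obtain ⟨f, hf, hfa⟩ := hgen a ha
  obtain ⟨f', hf', hfa'⟩ := hgen a' ha'
  have key : ∀ z : F, IsIntegral A z → ∀ O : Subring F, IsIC O →
      (∀ r : R, algebraMap R F r ∈ O) → j ∈ O → z ∈ O := by
    intro z hz O hO hRO hjO
    apply hO
    let ι' : A →+* O := RingHom.codRestrict (algebraMap A F) O (hAO O hO hRO hjO)
    exact isIntegral_of_ringHom ι' (fun _ => rfl) hz
  refine exists_chart hq hinf hj hf hf' ?_ ?_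
  · intro O hO hRO hjO
    rw [← hfa]
    exact key _ hau O hO hRO hjO
  · intro O hO hRO hjO
    rw [← hfa']
    exact key _ hau' O hO hRO hjO

end AssemblyGen

/-! ### The model `A = Algebra.adjoin R {j}` -/

section Adjoin

variable {R F : Type*} [CommRing R] [Field F] [Algebra R F]

/-- `hgen` of `exists_chart_of_vertical_units'` for `A = Algebra.adjoin R {j}`, `π = q`. -/
theorem hgen_adjoin {q : R} {j : F} (a : Algebra.adjoin R {j})
    (ha : ¬ algebraMap R (Algebra.adjoin R {j}) q ∣ a) :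
    ∃ p : R[X], ¬ C q ∣ p ∧ algebraMap (Algebra.adjoin R {j}) F a = aeval j p := by
  have hmem : (a : F) ∈ (aeval j : R[X] →ₐ[R] F).range := by
    rw [← Algebra.adjoin_singleton_eq_range_aeval]
    exact a.2
  obtain ⟨p, hp⟩ := hmem
  have hp' : aeval j p = (a : F) := hp
  refine ⟨p, ?_, hp'.symm⟩
  rintro ⟨p', rfl⟩
  apply ha
  refine ⟨⟨aeval j p', aeval_mem_adjoin_singleton R j⟩, ?_⟩
  apply Subtype.ext
  rw [← hp', map_mul, aeval_C]
  rfl

/-- `hAO` of `exists_chart_of_vertical_units'` for `A = Algebra.adjoin R {j}`. -/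
theorem hAO_adjoin {j : F} (O : Subring F) (hRO : ∀ r : R, algebraMap R F r ∈ O) (hjO : j ∈ O)
    (a : Algebra.adjoin R {j}) : algebraMap (Algebra.adjoin R {j}) F a ∈ O := by
  have hle : Algebra.adjoin R {j} ≤
      ({ O.toSubsemiring with algebraMap_mem' := hRO } : Subalgebra R F) :=
    Algebra.adjoin_le (by
      rintro _ rfl
      exact hjO)
  exact hle a.2

end Adjoin

end Fermat.Agent.GL.Frame.ChartExists
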