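/-
GATE-L / CHART-EXISTS in the Gauss-extension language (helper8).

Same statement as `ChartExists.exists_chart_of_vertical_units'`, but on the binders of helper79
`GL/Alg/IntClosureSplit` (`IsGaussExt q j V`, NOEXT as `∀ V, IsGaussExt q j V → ∃ i, W i ≤ V`) and
of helper90 `GL/Frame/GaussAt` + `GaussExtBridge` (`IsGaussAt A V j`, NOEXT over `K(j)` in the
shape of helper75 `exists_eq_of_agree`): no fraction-field / chart-ring instances are needed, only
`R` a UFD, `q` prime, `j` transcendental over `R`, `F` algebraic over `R[j]`.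

* `exists_mul_isIntegral_adjoin` : (E0) an element of every `W i` becomes integral over `R[j]`
  after multiplication by some `p(j)`, `p ∉ q R[X]`;
* `exists_chart_of_gaussExt` : CHART-EXISTS on helper79's binders;
* `maximalIdeal_eq_span`, `exists_isUnit_eval_of_hgen` : `hinf` for a valuation subring with
  principal maximal ideal and infinite residue field;
* `isAlgebraic_adjoin_of_adjoin_simple` : `F` algebraic over `K(j)` ⟹ algebraic over `A[j]`;
* `exists_chart_of_isGaussAt` : CHART-EXISTS on helper90's binders (NOEXT over `K(j)`);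
* `exists_chart_of_isGaussAt'` : the same with NOEXT in the direct shape of helper75 `L1eFinal`
  (`V` over `A`, Gauss at `j` ⟹ `V` is some `W i`).
-/
import Mathlib
import Fermat.Agent.GL.Frame.ChartExists
import Fermat.Agent.GL.Alg.IntClosureSplit
import Fermat.Agent.GL.Frame.GaussExtBridge

set_option autoImplicit false

namespace Fermat.Agent.GL.Frame.ChartExistsGauss

open Polynomial Fermat.Agent.GL.Frame.Chart Fermat.Agent.GL.Frame.ChartExists
  Fermat.Agent.GL.IntClosureSplit

section E0

variable {R : Type*} [CommRing R] [IsDomain R] [UniqueFactorizationMonoid R]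
variable {F : Type*} [Field F] [Algebra R F]

/-- **(E0), Gauss-extension language.**  If the family `W` contains (up to inclusion) every
extension of the Gauss valuation of `R[j]`, an element of every `W i` becomes integral over `R[j]`
after multiplication by some `p(j)` with `p ∉ q R[X]`. -/
theorem exists_mul_isIntegral_adjoin {q : R} (hq : Prime q) {j : F} (hj : Transcendental R j)
    [Algebra.IsAlgebraic (Algebra.adjoin R {j}) F] {ι : Type*} (W : ι → ValuationSubring F)
    (hW : ∀ i, ∀ g : R[X], aeval j g ∈ W i)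
    (hnoext : ∀ V : ValuationSubring F, IsGaussExt q j V → ∃ i, W i ≤ V) {x : F}
    (hx : ∀ i, x ∈ W i) :
    ∃ p : R[X], ¬ C q ∣ p ∧ IsIntegral (Algebra.adjoin R {j}) (aeval j p * x) := by
  have hCq : Prime (C q : R[X]) := prime_C_iff.mpr hq
  obtain ⟨d, hd0, hdx⟩ :=
    (Algebra.IsAlgebraic.isAlgebraic (R := Algebra.adjoin R {j}) x).exists_integral_multiple
  have hmem : (d : F) ∈ (aeval j : R[X] →ₐ[R] F).range := by
    rw [← Algebra.adjoin_singleton_eq_range_aeval]
    exact d.2
  obtain ⟨p0, hp0⟩ := hmem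
  have hp0' : aeval j p0 = (d : F) := hp0
  have hp00 : p0 ≠ 0 := by
    rintro rfl
    apply hd0
    apply Subtype.ext
    rw [← hp0', map_zero]
    rfl
  obtain ⟨n, p, hp, rfl⟩ := WfDvdMonoid.max_power_factor' hp00 hCq.not_isUnit
  refine ⟨p, hp, ?_⟩
  rw [isIntegral_adjoin_iff_of_family hq hj W hW hnoext]
  refine ⟨⟨n, ?_⟩, fun i => (W i).mul_mem _ _ (hW i p) (hx i)⟩
  have h1 : algebraMap R F q ^ n * (aeval j p * x) = d • x := by
    rw [Algebra.smul_def, ← mul_assoc]
    congr 1
    change _ = (d : F)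
    rw [← hp0', map_mul, map_pow, aeval_C]
  rw [h1]
  exact hdx

/-- **CHART-EXISTS, Gauss-extension language** (helper79 `IntClosureSplit` binders). -/
theorem exists_chart_of_gaussExt {q : R} (hq : Prime q)
    (hinf : ∀ f : R[X], ¬ C q ∣ f → ∃ t : R, IsUnit (f.eval t))
    {j : F} (hj : Transcendental R j) [Algebra.IsAlgebraic (Algebra.adjoin R {j}) F]
    {ι : Type*} (W : ι → ValuationSubring F) (hW : ∀ i, ∀ g : R[X], aeval j g ∈ W i)
    (hnoext : ∀ V : ValuationSubring F, IsGaussExt q j V → ∃ i, W i ≤ V)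
    {u : F} (hu : ∀ i, u ∈ W i) (hu' : ∀ i, u⁻¹ ∈ W i) :
    ∃ (t0 t2 : R) (P1 : R[X]), P1.Monic ∧ IsUnit (P1.eval t2) ∧
      j - algebraMap R F t0 ≠ 0 ∧ aeval (j - algebraMap R F t0)⁻¹ P1 ≠ 0 ∧
      ∀ h : F, h * aeval (j - algebraMap R F t0)⁻¹ P1 =
          ((j - algebraMap R F t0)⁻¹ - algebraMap R F t2) ^ (P1.natDegree + 1) →
        ∀ O : Subring F, IsIC O → (∀ r : R, algebraMap R F r ∈ O) → h ∈ O →
          j ∈ O ∧ u ∈ O ∧ u⁻¹ ∈ O := by
  obtain ⟨f, hf, hfu⟩ := exists_mul_isIntegral_adjoin hq hj W hW hnoext hu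
  obtain ⟨f', hf', hfu'⟩ := exists_mul_isIntegral_adjoin hq hj W hW hnoext hu'
  exact exists_chart hq hinf hj hf hf'
    (fun O hO hRO hjO => mem_of_isIntegral_adjoin hfu O hO hRO hjO)
    (fun O hO hRO hjO => mem_of_isIntegral_adjoin hfu' O hO hRO hjO)

end E0

/-! ### helper90's language: `A : ValuationSubring K`, `IsGaussAt A V j` -/

section GaussAt

open Fermat.Agent.GL.GaussAt Fermat.Agent.GL.GaussExtBridge

variable {K F : Type*} [Field K] [Field F] [Algebra K F]
variable {A : ValuationSubring K}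

/-- a valuation subring all of whose non-units are multiples of the non-unit `q` has maximal ideal
`(q)`. -/
theorem maximalIdeal_eq_span {q : A} (hq : ¬ IsUnit q) (hgen : ∀ a : A, ¬ IsUnit a → q ∣ a) :
    IsLocalRing.maximalIdeal A = Ideal.span {q} := by
  ext a
  rw [IsLocalRing.mem_maximalIdeal, mem_nonunits_iff, Ideal.mem_span_singleton]
  exact ⟨hgen a, fun h hu => hq (isUnit_of_dvd_unit h hu)⟩

/-- `hinf` for a valuation subring with principal maximal ideal and infinite residue field. -/
theorem exists_isUnit_eval_of_hgen [Infinite (IsLocalRing.ResidueField A)] {q : A}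
    (hq : ¬ IsUnit q) (hgen : ∀ a : A, ¬ IsUnit a → q ∣ a) (f : A[X]) (hf : ¬ C q ∣ f) :
    ∃ t : A, IsUnit (f.eval t) :=
  exists_isUnit_eval (maximalIdeal_eq_span hq hgen) f hf

variable [Algebra A F] [IsScalarTower A K F]

open IntermediateField in
/-- `F` algebraic over `K(j)` ⟹ `F` algebraic over `A[j]`, for a valuation subring `A` of `K`. -/
theorem isAlgebraic_adjoin_of_adjoin_simple (j : F) [Algebra.IsAlgebraic K⟮j⟯ F] :
    Algebra.IsAlgebraic (Algebra.adjoin A {j}) F := by
  set S : Subalgebra A F := Algebra.adjoin A {j} with hS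
  -- elements of `F` algebraic over `S` form an intermediate field
  let T : IntermediateField K F :=
    { carrier := {x | IsAlgebraic S x}
      mul_mem' := fun ha hb => ha.mul hb
      add_mem' := fun ha hb => ha.add hb
      one_mem' := isAlgebraic_one
      zero_mem' := isAlgebraic_zero
      inv_mem' := fun x hx => hx.inv
      algebraMap_mem' := fun a => by
        have hA : ∀ b : A, IsAlgebraic S (algebraMap K F (b : K)) := fun b => by
          have : algebraMap K F (b : K) = algebraMap S F (algebraMap A S b) := by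
            rw [← IsScalarTower.algebraMap_apply A S F, IsScalarTower.algebraMap_apply A K F]
            rfl
          rw [this]
          exact isAlgebraic_algebraMap _
        rcases A.mem_or_inv_mem a with ha | ha
        · exact hA ⟨a, ha⟩
        · have := (hA ⟨a⁻¹, ha⟩).inv
          rwa [← map_inv₀, inv_inv] at this }
  have hjT : j ∈ T := by
    change IsAlgebraic S j
    exact isAlgebraic_algebraMap (R := S) (A := F)
      (⟨j, Algebra.subset_adjoin (Set.mem_singleton j)⟩ : S)
  have hle : K⟮j⟯ ≤ T := by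
    rw [IntermediateField.adjoin_simple_le_iff]
    exact hjT
  refine ⟨fun x => ?_⟩
  obtain ⟨p, hp0, hpx⟩ := Algebra.IsAlgebraic.isAlgebraic (R := K⟮j⟯) x
  -- algebraic over the subalgebra `T' = algebraicClosure S F`, then transitivity
  let T' : Subalgebra S F := Subalgebra.algebraicClosure S F
  let φ : K⟮j⟯ →+* T' :=
    { toFun := fun y => ⟨(y : F), hle y.2⟩
      map_one' := rfl
      map_mul' := fun _ _ => rfl
      map_zero' := rfl
      map_add' := fun _ _ => rfl }
  have hxT' : IsAlgebraic T' x := by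
    refine ⟨p.map φ, (Polynomial.map_ne_zero_iff φ.injective).mpr hp0, ?_⟩
    rw [aeval_def, eval₂_map]
    exact hpx
  exact hxT'.restrictScalars S

/-- **CHART-EXISTS on helper90's binders.**  `A` a valuation subring of `K` with prime element `q`
generating its maximal ideal (a DVR), infinite residue field; `W i` valuation subrings of `F` over
`A` containing `j`, `W i₀` a Gauss point at `j`, and NOEXT over `K(j)` (helper75
`exists_eq_of_agree` shape).  Then every `u` which is a unit of all the `W i` admits a recipe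
chart. -/
theorem exists_chart_of_isGaussAt [UniqueFactorizationMonoid A]
    [Infinite (IsLocalRing.ResidueField A)] {q : A} (hq : Prime q)
    (hgen : ∀ a : A, ¬ IsUnit a → q ∣ a) {j : F} (hjt : Transcendental A j)
    [Algebra.IsAlgebraic (Algebra.adjoin A {j}) F]
    {ι : Type*} (W : ι → ValuationSubring F)
    (hWover : ∀ i, ∀ a : K, algebraMap K F a ∈ W i ↔ a ∈ A) (hWj : ∀ i, j ∈ W i)
    (i₀ : ι) (hj : IsGaussAt A (W i₀) j)
    (hnoext : ∀ V : ValuationSubring F,
      (∀ y ∈ IntermediateField.adjoin K {j}, y ∈ V ↔ y ∈ W i₀) → ∃ i, V = W i)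
    {u : F} (hu : ∀ i, u ∈ W i) (hu' : ∀ i, u⁻¹ ∈ W i) :
    ∃ (t0 t2 : A) (P1 : A[X]), P1.Monic ∧ IsUnit (P1.eval t2) ∧
      j - algebraMap A F t0 ≠ 0 ∧ aeval (j - algebraMap A F t0)⁻¹ P1 ≠ 0 ∧
      ∀ h : F, h * aeval (j - algebraMap A F t0)⁻¹ P1 =
          ((j - algebraMap A F t0)⁻¹ - algebraMap A F t2) ^ (P1.natDegree + 1) →
        ∀ O : Subring F, IsIC O → (∀ r : A, algebraMap A F r ∈ O) → h ∈ O →
          j ∈ O ∧ u ∈ O ∧ u⁻¹ ∈ O := by
  refine exists_chart_of_gaussExt hq (exists_isUnit_eval_of_hgen hq.not_isUnit hgen) hjt W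
    (fun i g => ?_) ?_ hu hu'
  · rw [← aeval_map_subtype]
    exact aeval_map_mem (hWover i) (hWj i) g
  · exact exists_le_of_isGaussExt W hq.not_isUnit hgen (fun _ _ h => h) i₀ (hWover i₀) hj hnoext

/-- **CHART-EXISTS, NOEXT in direct form** (helper75 `L1eFinal.exists_eq_of_isGaussAt_of_leg3`
shape): every valuation subring of `F` over `A` which is a Gauss point at `j` is some `W i`. -/
theorem exists_chart_of_isGaussAt' [UniqueFactorizationMonoid A]
    [Infinite (IsLocalRing.ResidueField A)] {q : A} (hq : Prime q)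
    (hgen : ∀ a : A, ¬ IsUnit a → q ∣ a) {j : F} (hjt : Transcendental A j)
    [Algebra.IsAlgebraic (Algebra.adjoin A {j}) F]
    {ι : Type*} (W : ι → ValuationSubring F)
    (hWover : ∀ i, ∀ a : K, algebraMap K F a ∈ W i ↔ a ∈ A) (hWj : ∀ i, j ∈ W i)
    (hnoext : ∀ V : ValuationSubring F, (∀ a : K, algebraMap K F a ∈ V ↔ a ∈ A) →
      IsGaussAt A V j → ∃ i, V = W i)
    {u : F} (hu : ∀ i, u ∈ W i) (hu' : ∀ i, u⁻¹ ∈ W i) :
    ∃ (t0 t2 : A) (P1 : A[X]), P1.Monic ∧ IsUnit (P1.eval t2) ∧
      j - algebraMap A F t0 ≠ 0 ∧ aeval (j - algebraMap A F t0)⁻¹ P1 ≠ 0 ∧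
      ∀ h : F, h * aeval (j - algebraMap A F t0)⁻¹ P1 =
          ((j - algebraMap A F t0)⁻¹ - algebraMap A F t2) ^ (P1.natDegree + 1) →
        ∀ O : Subring F, IsIC O → (∀ r : A, algebraMap A F r ∈ O) → h ∈ O →
          j ∈ O ∧ u ∈ O ∧ u⁻¹ ∈ O := by
  refine exists_chart_of_gaussExt hq (exists_isUnit_eval_of_hgen hq.not_isUnit hgen) hjt W
    (fun i g => ?_) (fun V hV => ?_) hu hu'
  · rw [← aeval_map_subtype]
    exact aeval_map_mem (hWover i) (hWj i) g
  · obtain ⟨i, hi⟩ := hnoext V (over_of_isGaussExt hgen hV)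
      (isGaussAt_of_isGaussExt hq.not_isUnit hV)
    exact ⟨i, hi ▸ le_rfl⟩

end GaussAt

end Fermat.Agent.GL.Frame.ChartExistsGauss
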