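/-
GATE-L / CHART-INST-K0 (helper8): the recipe chart of helper47 2729 (A3) / helper48 2764 (4) at
the CONCRETE objects `R₀ = A ∩ K₀` (DVR, uniformiser `q0`), `F₀ = K₀(X₀(N))`, `j = jC N K₀`
(= `OrthK0.jK0` = `GaussAtK0.jK0`), `W = ![w₁, w₂, w₃]` (helper75 `L1eAsmK0.W3`).

* `recipe_of_chart` : generic — from the output of `ChartExists.exists_chart` (any variant) to
  the recipe data with `h` constructed, in the binder names `hu hj1 hh hne` of helper13
  `ChartChange.hloc_of_j_frame`, memberships as `IsIntegral (Algebra.adjoin R {h}) ·`;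
* `isScalarTower_R0`, `prime_q0`, `ufm_R0`, `infinite_residueField_R0`, `transcendental_jC_K0`,
  `transcendental_jC_R0`, `isAlgebraic_adjoin_jC` : the side conditions at `R₀`, `j`;
* `exists_chart_K0` : ANY family `W` of valuation subrings over `R₀` containing `j` with NOEXT in
  the direct shape (helper75 `L1eFinal.exists_eq_of_isGaussAt_of_leg3`) ⟹ every common unit `u`
  of the `W i` has a recipe chart: `j, u, u⁻¹` integral over `R₀[h]`;
* `exists_chart_W3` : the same for `W3 A h = ![RwK0, Rw2QK0, Rw3K0]`, NOEXT as hypothesis;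
* `exists_chart_W3_of_leg3` : helper75's `L1eFinal` PLUGGED (only helper93's third leg
  `hg₃ hf₃` is left as hypothesis).
-/
import Fermat.Agent.GL.Val.GaussAtK0
import Fermat.Agent.GL.Val.L1eFinal
import Fermat.Agent.GL.Frame.ChartExistsGauss
import Fermat.Agent.GJ.J1.ResidueAlgClosed

set_option autoImplicit false

noncomputable section

namespace Fermat.Agent.GL.Frame.ChartInstK0

open Polynomial
open Fermat.Agent.GL.GaussAt
open Fermat.Agent.GL.Frame.Chart Fermat.Agent.GL.Frame.ChartExists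
  Fermat.Agent.GL.Frame.ChartExistsGauss

section Generic

variable {R F : Type*} [CommRing R] [IsDomain R] [Field F] [Algebra R F]

/-- From the output of `exists_chart` (any of its variants) to the recipe data with `h`
constructed, in the binder names of helper13 `ChartChange.hloc_of_j_frame`
(`hu hj1 hh hne`), with the membership statements as integrality over `R[h]`. -/
theorem recipe_of_chart {j u : F} (hjt : Transcendental R j)
    (H : ∃ (t0 t2 : R) (P1 : R[X]), P1.Monic ∧ IsUnit (P1.eval t2) ∧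
      j - algebraMap R F t0 ≠ 0 ∧ aeval (j - algebraMap R F t0)⁻¹ P1 ≠ 0 ∧
      ∀ h : F, h * aeval (j - algebraMap R F t0)⁻¹ P1 =
          ((j - algebraMap R F t0)⁻¹ - algebraMap R F t2) ^ (P1.natDegree + 1) →
        ∀ O : Subring F, IsIC O → (∀ r : R, algebraMap R F r ∈ O) → h ∈ O →
          j ∈ O ∧ u ∈ O ∧ u⁻¹ ∈ O) :
    ∃ (t0 t2 : R) (P1 : R[X]) (j1 h : F), P1.Monic ∧ IsUnit (P1.eval t2) ∧
      j1 * (j - algebraMap R F t0) = 1 ∧
      h * aeval j1 P1 = (j1 - algebraMap R F t2) ^ (P1.natDegree + 1) ∧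
      j1 ≠ algebraMap R F t2 ∧ h ≠ 0 ∧
      IsIntegral (Algebra.adjoin R {h}) j ∧ IsIntegral (Algebra.adjoin R {h}) u ∧
      IsIntegral (Algebra.adjoin R {h}) u⁻¹ := by
  obtain ⟨t0, t2, P1, hmon, hu, hw0, hP1, H⟩ := H
  set j1 : F := (j - algebraMap R F t0)⁻¹ with hj1
  have hj1w : j1 * (j - algebraMap R F t0) = 1 := inv_mul_cancel₀ hw0
  have hne : j1 ≠ algebraMap R F t2 := by
    intro heq
    apply hjt
    refine ⟨C t2 * X - C (t2 * t0 + 1), ?_, ?_⟩
    · intro h0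
      have h1 := congrArg (fun p => p.coeff 1) h0
      have h2 := congrArg (fun p => p.coeff 0) h0
      simp only [coeff_sub, coeff_C_mul, coeff_X_one, coeff_C_succ, coeff_X_zero, coeff_C_zero,
        coeff_zero, mul_one, mul_zero, sub_zero, zero_sub, neg_eq_zero] at h1 h2
      rw [h1, zero_mul, zero_add] at h2
      exact one_ne_zero h2
    · rw [map_sub, map_mul, aeval_C, aeval_X, aeval_C, map_add, map_mul, map_one, ← heq]
      linear_combination hj1w
  set h : F := (j1 - algebraMap R F t2) ^ (P1.natDegree + 1) / aeval j1 P1 with hh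
  have hrel : h * aeval j1 P1 = (j1 - algebraMap R F t2) ^ (P1.natDegree + 1) :=
    div_mul_cancel₀ _ hP1
  have hh0 : h ≠ 0 := div_ne_zero (pow_ne_zero _ (sub_ne_zero.mpr hne)) hP1
  have hO := isSmallestIC_of_forall_mem_iff (R := R) h
    (integralClosure (Algebra.adjoin R {h}) F).toSubring (fun z => Iff.rfl)
  obtain ⟨h1, h2, h3⟩ := H h hrel _ hO.isIC
    (fun r => hO.subset (Or.inr ⟨r, rfl⟩)) (hO.subset (Or.inl rfl))
  exact ⟨t0, t2, P1, j1, h, hmon, hu, hj1w, hrel, hne, hh0, h1, h2, h3⟩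

end Generic

/-! ### The concrete side conditions -/

section K0

open HahnSeries ModularCurve IsLocalRing IntermediateField
open Fermat.Agent.S24 Fermat.Agent.S24_helper62
open Fermat.Agent.GJ.J1 Fermat.Agent.GJ.J1.Val Fermat.Agent.GK.Val Fermat.Agent.GK.Val.GaussBase
open Fermat.Agent.GL.CuspVal Fermat.Agent.GL.Val.CuspCoeff Fermat.Agent.GL.Val.GaussK0
open Fermat.Agent.GL.Val.CuspK0 Fermat.Agent.GL.Val.ThirdK0 Fermat.Agent.GL.Val.SecondK0
open Fermat.Agent.GL.W3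
open Fermat.Agent.GL.Val.SecondK0Hall Fermat.Agent.GL.Val.RamK0 Fermat.Agent.GL.Val.DegBase
open Fermat.Agent.GL.Local.InertiaField Fermat.Agent.GL.MultiVal
open Fermat.Agent.GL.GaussAtRedData Fermat.Agent.GL.MultiVal.GaussBaseJ
open Fermat.Agent.Common_helper32
open Fermat.Agent.GK.AL Fermat.Agent.GL.AL

variable (A : ValuationSubring Qb) (N : ℕ) [NeZero N]

local notation "F₀" => modularFunctionFieldFullC (K0 A) N

instance isScalarTower_R0 : IsScalarTower (R0 A) (K0 A) F₀ :=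
  IsScalarTower.of_algebraMap_eq (fun _ => rfl)

variable {q : ℕ} (hq : q.Prime) (hA : (q : Qb) ∈ A.nonunits)

include hq hA in
/-- the uniformiser of `R₀` is a prime element -/
theorem prime_q0 : Prime (q0 A q) := by
  have := isDiscreteValuationRing_R0 A hq hA
  exact (irreducible_q0 A hq hA).prime

include hq hA in
theorem ufm_R0 : UniqueFactorizationMonoid (R0 A) := by
  have := isDiscreteValuationRing_R0 A hq hA
  infer_instance

include hq hA in
/-- the residue field of `R₀` is infinite (it is the residue field of `A`) -/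
theorem infinite_residueField_R0 : Infinite (ResidueField (R0 A)) := by
  have h1 : IsAlgClosed (ResidueField A) :=
    Fermat.Agent.GJ.ResidueAlgClosed.isAlgClosed_residueField A
  have h2 : Infinite (ResidueField A) := IsAlgClosed.instInfinite
  exact Infinite.of_injective _ (resEquivK0 A hq hA).symm.injective

/-- `j` is transcendental over `K₀` -/
theorem transcendental_jC_K0 : Transcendental (K0 A) (jC N (K0 A)) := by
  intro halg
  obtain ⟨p, hp0, hp⟩ := halg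
  exact (Fermat.Agent.GL.Val.GaussAtK0.isGaussAt_Rw1K0 A N).aeval_ne_zero hp0 hp

/-- `j` is transcendental over `R₀` -/
theorem transcendental_jC_R0 : Transcendental (R0 A) (jC N (K0 A)) :=
  (transcendental_jC_K0 A N).restrictScalars (R := R0 A) Subtype.val_injective

/-- `K₀(X₀(N))` is algebraic over `R₀[j]` -/
theorem isAlgebraic_adjoin_jC :
    Algebra.IsAlgebraic (Algebra.adjoin (R0 A) {jC N (K0 A)}) F₀ := by
  have : FiniteDimensional (K0 A)⟮jC N (K0 A)⟯ F₀ := finiteDimensional_fullC N (K0 A)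
  have : Algebra.IsAlgebraic (K0 A)⟮jC N (K0 A)⟯ F₀ := Algebra.IsAlgebraic.of_finite _ _
  exact isAlgebraic_adjoin_of_adjoin_simple (jC N (K0 A))

/-! ### The chart -/

include hq hA in
/-- **CHART-INST-K0, any family.** -/
theorem exists_chart_K0 {ι : Type*} (W : ι → ValuationSubring F₀)
    (hWover : ∀ i, ∀ a : K0 A, algebraMap (K0 A) F₀ a ∈ W i ↔ a ∈ R0 A)
    (hWj : ∀ i, jC N (K0 A) ∈ W i)
    (hnoext : ∀ V : ValuationSubring F₀, (∀ a : K0 A, algebraMap (K0 A) F₀ a ∈ V ↔ a ∈ R0 A) →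
      IsGaussAt (R0 A) V (jC N (K0 A)) → ∃ i, V = W i)
    {u : F₀} (hu : ∀ i, u ∈ W i) (hu' : ∀ i, u⁻¹ ∈ W i) :
    ∃ (t0 t2 : R0 A) (P1 : (R0 A)[X]) (j1 h : F₀), P1.Monic ∧ IsUnit (P1.eval t2) ∧
      j1 * (jC N (K0 A) - algebraMap (R0 A) F₀ t0) = 1 ∧
      h * aeval j1 P1 = (j1 - algebraMap (R0 A) F₀ t2) ^ (P1.natDegree + 1) ∧
      j1 ≠ algebraMap (R0 A) F₀ t2 ∧ h ≠ 0 ∧
      IsIntegral (Algebra.adjoin (R0 A) {h}) (jC N (K0 A)) ∧
      IsIntegral (Algebra.adjoin (R0 A) {h}) u ∧ IsIntegral (Algebra.adjoin (R0 A) {h}) u⁻¹ := by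
  have := ufm_R0 A hq hA
  have := infinite_residueField_R0 A hq hA
  have := isAlgebraic_adjoin_jC A N
  refine recipe_of_chart (transcendental_jC_R0 A N) ?_
  exact exists_chart_of_isGaussAt' (prime_q0 A hq hA)
    (fun a ha => by
      obtain ⟨b, hb⟩ := exists_eq_q0_mul A hq hA a ha
      exact ⟨b, hb⟩)
    (transcendental_jC_R0 A N) W hWover hWj hnoext hu hu'

end K0

/-! ### The three vertical valuations `w₁, w₂, w₃` -/

section W3

open HahnSeries ModularCurve IsLocalRing IntermediateField Module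
open Fermat.Agent.GJ.J1 Fermat.Agent.GJ.J1.Val
open Fermat.Agent.GK.AL Fermat.Agent.GL.AL Fermat.Agent.GK.MultiVal
open Fermat.Agent.GL.Val.GaussK0 Fermat.Agent.GL.Val.SecondK0 Fermat.Agent.GL.Val.SecondK0Hall
open Fermat.Agent.GL.Val.RamK0 Fermat.Agent.GL.Val.OrthK0 Fermat.Agent.GL.Val.ThirdK0
open Fermat.Agent.GL.Val.CuspK0 Fermat.Agent.GL.W3
open Fermat.Agent.GL.MultiVal Fermat.Agent.GL.MultiVal.GaussBaseJ
open Fermat.Agent.GL.Val.L1eAsm Fermat.Agent.GL.Val.L1eAsmK0 Fermat.Agent.GL.Val.LegsK0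
open Fermat.Agent.GL.Val.L1eFinal Fermat.Agent.GL.Val.DegBase
open Fermat.Agent.Common_helper32

variable (A : ValuationSubring Qb) {N : ℕ} [NeZero N] {q M' : ℕ} [NeZero M']
  (hq : q.Prime) (hN : N = M' * q ^ 2) (hqM : ¬ q ∣ M')
  (hA : A.LiesOverPrime q) (h : HallDvd (q ^ 2) N)
  {d' : ℕ} [NeZero (q ^ 2 * d')] [NeZero d'] (hd' : d' ∣ M') (hdN : q ^ 2 * d' ∣ N)
  (hd'N : d' ∣ N)

local notation "F₀" => modularFunctionFieldFullC (K0 A) N

omit [NeZero M'] in
include hq hN hqM hA hd' hdN hd'N in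
/-- **CHART-INST-K0 for `w₁, w₂, w₃`**, NOEXT (helper75 `L1eFinal` conclusion) as hypothesis: every
`u` which is a unit at `w₁, w₂, w₃` has a recipe chart `h` with `j, u, u⁻¹` integral over
`R₀[h]` (`u ∈ B1ˣ`, `B1 = integralClosure R₀[h]`). -/
theorem exists_chart_W3
    (hnoext : ∀ V : ValuationSubring F₀, (∀ a : K0 A, algebraMap (K0 A) F₀ a ∈ V ↔ a ∈ R0 A) →
      IsGaussAt (R0 A) V (jK0 A N) →
      V = RwK0 A N ∨ V = (redData2QK0 A N h).Rw ∨ V = Rw3K0 A N q)
    {u : F₀} (hu : ∀ i, u ∈ W3 A h i) (hu' : ∀ i, u⁻¹ ∈ W3 A h i) :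
    ∃ (t0 t2 : R0 A) (P1 : (R0 A)[X]) (j1 h' : F₀), P1.Monic ∧ IsUnit (P1.eval t2) ∧
      j1 * (jK0 A N - algebraMap (R0 A) F₀ t0) = 1 ∧
      h' * aeval j1 P1 = (j1 - algebraMap (R0 A) F₀ t2) ^ (P1.natDegree + 1) ∧
      j1 ≠ algebraMap (R0 A) F₀ t2 ∧ h' ≠ 0 ∧
      IsIntegral (Algebra.adjoin (R0 A) {h'}) (jK0 A N) ∧
      IsIntegral (Algebra.adjoin (R0 A) {h'}) u ∧
      IsIntegral (Algebra.adjoin (R0 A) {h'}) u⁻¹ := by
  rw [jK0_eq_jC] at hnoext ⊢
  refine exists_chart_K0 A N hq hA (W3 A h)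
    (fun i => (isRamified_W3_R0 A hq hN hqM hA h hd' hdN hd'N i).mem_iff)
    (fun i => ?_) (fun V hV hj => ?_) hu hu'
  · have := (isGaussAt_W3 A h i).mem
    rwa [jK0_eq_jC] at this
  · rcases hnoext V hV hj with h1 | h1 | h1
    · exact ⟨0, h1⟩
    · exact ⟨1, h1⟩
    · exact ⟨2, h1⟩

variable {f₃ : ℕ} {g₃ : Fin f₃ → modularFunctionFieldFullC (K0 A) N}
  (hg₃ : IsOrthoFamily (baseJK0 A N) (Rw3K0 A N q).toSubring (vrad (Rw3K0 A N q)) g₃)
  (hf₃ : dedekindPsi M' ≤ f₃)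

include hq hN hqM hA hd' hdN hd'N hg₃ hf₃ in
/-- **CHART-INST-K0 for `w₁, w₂, w₃`, helper75's L1e plugged**: only helper93's third leg
(`hg₃ hf₃`, the binders of `L1eFinal`) is left as hypothesis. -/
theorem exists_chart_W3_of_leg3 {u : F₀} (hu : ∀ i, u ∈ W3 A h i) (hu' : ∀ i, u⁻¹ ∈ W3 A h i) :
    ∃ (t0 t2 : R0 A) (P1 : (R0 A)[X]) (j1 h' : F₀), P1.Monic ∧ IsUnit (P1.eval t2) ∧
      j1 * (jK0 A N - algebraMap (R0 A) F₀ t0) = 1 ∧
      h' * aeval j1 P1 = (j1 - algebraMap (R0 A) F₀ t2) ^ (P1.natDegree + 1) ∧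
      j1 ≠ algebraMap (R0 A) F₀ t2 ∧ h' ≠ 0 ∧
      IsIntegral (Algebra.adjoin (R0 A) {h'}) (jK0 A N) ∧
      IsIntegral (Algebra.adjoin (R0 A) {h'}) u ∧
      IsIntegral (Algebra.adjoin (R0 A) {h'}) u⁻¹ :=
  exists_chart_W3 A hq hN hqM hA h hd' hdN hd'N
    (fun _ hV hj =>
      exists_eq_of_isGaussAt_of_leg3 A hq hN hqM hA h hd' hdN hd'N hg₃ hf₃ hV hj) hu hu'

end W3

end Fermat.Agent.GL.Frame.ChartInstK0
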