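/-
GATE-L / (A1) POINT CLASSIFICATION, abstract (helper47; board 2729 (A1), 2764 (2) (A1)).

`A` = the chart of the lower level `qM'r` (vertical primes `P1'`, `P2'`), `B` = the chart of the
level `q²M'r` (vertical primes `P1`, `P2`, `P3`), `φα φβ : A →+* B` the two degeneracy maps
(`π^*`, `π'^*`), both integral.  Table of restrictions (helper67 `DegenK0` rows):

    along `φα` :  `P1, P3 ↦ P1'`,  `P2 ↦ P2'`  (`P2` purely inseparable over `P2'`),
    along `φβ` :  `P1 ↦ P1'` (purely inseparable),  `P2, P3 ↦ P2'`.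

* `le_of_unique` : ring-hom form of `Triple.existsUnique_over` + `Triple.le_of_comap_le`:
  if a vertical prime `Q` passes through EVERY prime over `x ∩ A` and is purely inseparable over
  its image, then every prime `Q'` of `B` whose image passes through `x ∩ A` passes through `x`.
* `three_of_two` : **(A1)**: a maximal ideal `x` of `B` containing TWO of `P1, P2, P3` contains all
  three, and both its contractions are nodes (`P1' ⊔ P2' ≤ x ∩ A`).  The pairs `{1,2}`, `{2,3}` are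
  seen by `φα`, the pair `{1,3}` only by `φβ`.
* `singleton_of_not_node` : conversely, a point none of whose contractions is a node lies on
  exactly one component.

The hypotheses `hTα`, `hTβ` ("every prime over a node contains `P2`, resp. `P1`") are
`Triple.le_of_comap_eq` / helper83 `TripleAbs.le_of_under_le` (REG at the nodes of the lower
level + uniqueness of the prime over `P2'`, resp. `P1'`).  Mathlib + `Triple.lean` only.
-/
import Fermat.Agent.GL.Frame.Triple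

set_option autoImplicit false

namespace Fermat.Agent.GL.Frame.Classify

open Fermat.Agent.GL.Frame

variable {A B : Type*} [CommRing A] [CommRing B]

/-- ring-hom form of the TRIPLE lemma: uniqueness of the point over `x ∩ A` and consequence. -/
theorem le_of_unique (φ : A →+* B) (hint : φ.IsIntegral) (x : Ideal B) [hx : x.IsMaximal]
    (Q : Ideal B)
    (hT : ∀ x2 : Ideal B, x2.IsPrime → x2.comap φ = x.comap φ → Q ≤ x2)
    (n : ℕ) (hn : 0 < n) (hpi : ∀ b : B, ∃ a : A, b ^ n - φ a ∈ Q)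
    (Q' : Ideal B) (hQ' : Q'.comap φ ≤ x.comap φ) : Q' ≤ x := by
  let _ := φ.toAlgebra
  have hint' : Algebra.IsIntegral A B := ⟨hint⟩
  have hmax : (x.comap (algebraMap A B)).IsMaximal :=
    Ideal.isMaximal_comap_of_isIntegral_of_isMaximal x
  have hxp := hx.isPrime
  refine le_of_comap_le (x.comap (algebraMap A B)) x ?_ Q' hQ'
  intro x2 hx2max hx2
  have := hx2max.isPrime
  exact eq_of_pow_sub_mem Q n hn hpi x2 x (hT x2 inferInstance hx2) (hT x inferInstance rfl) hx2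

/-- **(A1)**: a point on two vertical components is a triple point over a node. -/
theorem three_of_two (φα φβ : A →+* B) (hα : φα.IsIntegral) (hβ : φβ.IsIntegral)
    (P1' P2' : Ideal A) (P1 P2 P3 : Ideal B)
    (hα1 : P1.comap φα = P1') (hα2 : P2.comap φα = P2') (hα3 : P3.comap φα = P1')
    (hβ1 : P1.comap φβ = P1') (hβ2 : P2.comap φβ = P2') (hβ3 : P3.comap φβ = P2')
    (hTα : ∀ x2 : Ideal B, x2.IsPrime → P1' ⊔ P2' ≤ x2.comap φα → P2 ≤ x2)
    (hTβ : ∀ x2 : Ideal B, x2.IsPrime → P1' ⊔ P2' ≤ x2.comap φβ → P1 ≤ x2)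
    (nα : ℕ) (hnα : 0 < nα) (hpiα : ∀ b : B, ∃ a : A, b ^ nα - φα a ∈ P2)
    (nβ : ℕ) (hnβ : 0 < nβ) (hpiβ : ∀ b : B, ∃ a : A, b ^ nβ - φβ a ∈ P1)
    (x : Ideal B) [x.IsMaximal]
    (h2 : (P1 ≤ x ∧ P2 ≤ x) ∨ (P2 ≤ x ∧ P3 ≤ x) ∨ (P1 ≤ x ∧ P3 ≤ x)) :
    P1 ≤ x ∧ P2 ≤ x ∧ P3 ≤ x ∧ P1' ⊔ P2' ≤ x.comap φα ∧ P1' ⊔ P2' ≤ x.comap φβ := by
  -- via `φα` or `φβ` the contraction of `x` is a node
  have viaα : P1' ⊔ P2' ≤ x.comap φα → P1 ≤ x ∧ P2 ≤ x ∧ P3 ≤ x := by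
    intro hnode
    have hT : ∀ x2 : Ideal B, x2.IsPrime → x2.comap φα = x.comap φα → P2 ≤ x2 :=
      fun x2 hx2 h => hTα x2 hx2 (h ▸ hnode)
    have h1' : P1' ≤ x.comap φα := le_sup_left.trans hnode
    have h2' : P2' ≤ x.comap φα := le_sup_right.trans hnode
    exact ⟨le_of_unique φα hα x P2 hT nα hnα hpiα P1 (hα1 ▸ h1'),
      le_of_unique φα hα x P2 hT nα hnα hpiα P2 (hα2 ▸ h2'),
      le_of_unique φα hα x P2 hT nα hnα hpiα P3 (hα3 ▸ h1')⟩
  have viaβ : P1' ⊔ P2' ≤ x.comap φβ → P1 ≤ x ∧ P2 ≤ x ∧ P3 ≤ x := by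
    intro hnode
    have hT : ∀ x2 : Ideal B, x2.IsPrime → x2.comap φβ = x.comap φβ → P1 ≤ x2 :=
      fun x2 hx2 h => hTβ x2 hx2 (h ▸ hnode)
    have h1' : P1' ≤ x.comap φβ := le_sup_left.trans hnode
    have h2' : P2' ≤ x.comap φβ := le_sup_right.trans hnode
    exact ⟨le_of_unique φβ hβ x P1 hT nβ hnβ hpiβ P1 (hβ1 ▸ h1'),
      le_of_unique φβ hβ x P1 hT nβ hnβ hpiβ P2 (hβ2 ▸ h2'),
      le_of_unique φβ hβ x P1 hT nβ hnβ hpiβ P3 (hβ3 ▸ h2')⟩
  have hall : P1 ≤ x ∧ P2 ≤ x ∧ P3 ≤ x := by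
    rcases h2 with ⟨h1, h2⟩ | ⟨h2, h3⟩ | ⟨h1, h3⟩
    · exact viaα (sup_le (hα1 ▸ Ideal.comap_mono h1) (hα2 ▸ Ideal.comap_mono h2))
    · exact viaα (sup_le (hα3 ▸ Ideal.comap_mono h3) (hα2 ▸ Ideal.comap_mono h2))
    · exact viaβ (sup_le (hβ1 ▸ Ideal.comap_mono h1) (hβ3 ▸ Ideal.comap_mono h3))
  obtain ⟨h1, h2, h3⟩ := hall
  exact ⟨h1, h2, h3, sup_le (hα1 ▸ Ideal.comap_mono h1) (hα2 ▸ Ideal.comap_mono h2),
    sup_le (hβ1 ▸ Ideal.comap_mono h1) (hβ2 ▸ Ideal.comap_mono h2)⟩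

/-- a point whose `φα`-contraction is not a node and whose `φβ`-contraction is not a node lies
on at most one vertical component (no integrality needed). -/
theorem singleton_of_not_node (φα φβ : A →+* B)
    (P1' P2' : Ideal A) (P1 P2 P3 : Ideal B)
    (hα1 : P1.comap φα = P1') (hα2 : P2.comap φα = P2') (hα3 : P3.comap φα = P1')
    (hβ1 : P1.comap φβ = P1') (hβ3 : P3.comap φβ = P2')
    (x : Ideal B) (hnα : ¬ P1' ⊔ P2' ≤ x.comap φα) (hnβ : ¬ P1' ⊔ P2' ≤ x.comap φβ) :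
    ¬ (P1 ≤ x ∧ P2 ≤ x) ∧ ¬ (P2 ≤ x ∧ P3 ≤ x) ∧ ¬ (P1 ≤ x ∧ P3 ≤ x) := by
  refine ⟨fun ⟨h1, h2⟩ => hnα ?_, fun ⟨h2, h3⟩ => hnα ?_, fun ⟨h1, h3⟩ => hnβ ?_⟩
  · exact sup_le (hα1 ▸ Ideal.comap_mono h1) (hα2 ▸ Ideal.comap_mono h2)
  · exact sup_le (hα3 ▸ Ideal.comap_mono h3) (hα2 ▸ Ideal.comap_mono h2)
  · exact sup_le (hβ1 ▸ Ideal.comap_mono h1) (hβ3 ▸ Ideal.comap_mono h3)

end Fermat.Agent.GL.Frame.Classify
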