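/-
GATE-L / (A1) POINT CLASSIFICATION BY THE `j`-VALUE (helper47; complements `Classify.lean`).

Setting of `Classify.lean` (`A` = chart of level `qM'r`, `B` = chart of level `q²M'r`,
`φα φβ : A →+* B`, vertical primes `P1' P2'` resp. `P1 P2 P3`, table of restrictions) plus the
SUPERSINGULAR LOCUS: `s' ∈ A` (`= pH(j')`, the supersingular polynomial in the `j`-function of the
lower level), `s = φα s'` (`= pH(j)`), `φβ s' = pH(j_q)`.

Inputs from the lower level (GATE-K, helper65 `NodesSS`): the two-branch points of `A` are exactly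
the points of the special fibre with `s' = 0` (`hnode_ss`, `hss_node`).
Input `hssβ`: on the special fibre of `B`, `pH(j_q)` vanishes at `x` iff `pH(j)` does
(`Φ_q ≡ (X^q - Y)(X - Y^q)` and the supersingular set is Frobenius stable).

* `triple_of_ss` : a point `x` of the special fibre of `B` with `s ∈ x` is a TRIPLE point over a
  node (uses `φα` only).
* `atMostOne_of_not_ss` : a point with `s ∉ x` lies on at most one vertical component
  (no integrality, no TRIPLE lemma: only the table and the lower level).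
* `classify` : both, as the dichotomy consumed by the (LOC) dispatcher: type III ⟺ `s ∈ x`,
  type I/II ⟺ `s ∉ x`.
-/
import Fermat.Agent.GL.Frame.Classify

set_option autoImplicit false

namespace Fermat.Agent.GL.Frame.Classify

variable {A B : Type*} [CommRing A] [CommRing B]

/-- **supersingular points are triple points** (via `φα` only). -/
theorem triple_of_ss (φα : A →+* B) (hα : φα.IsIntegral)
    (P1' P2' : Ideal A) (P1 P2 P3 : Ideal B)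
    (hα1 : P1.comap φα = P1') (hα2 : P2.comap φα = P2') (hα3 : P3.comap φα = P1')
    (hTα : ∀ x2 : Ideal B, x2.IsPrime → P1' ⊔ P2' ≤ x2.comap φα → P2 ≤ x2)
    (nα : ℕ) (hnα : 0 < nα) (hpiα : ∀ b : B, ∃ a : A, b ^ nα - φα a ∈ P2)
    (s' : A)
    (hss_node : ∀ x' : Ideal A, x'.IsMaximal → (P1' ≤ x' ∨ P2' ≤ x') → s' ∈ x' → P1' ⊔ P2' ≤ x')
    (x : Ideal B) [hx : x.IsMaximal] (hs : φα s' ∈ x)
    (hbr : P1 ≤ x ∨ P2 ≤ x ∨ P3 ≤ x) :
    P1 ≤ x ∧ P2 ≤ x ∧ P3 ≤ x ∧ P1' ⊔ P2' ≤ x.comap φα := by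
  have hmax : (x.comap φα).IsMaximal := by
    let _ := φα.toAlgebra
    have : Algebra.IsIntegral A B := ⟨hα⟩
    exact Ideal.isMaximal_comap_of_isIntegral_of_isMaximal (R := A) x
  have hbr' : P1' ≤ x.comap φα ∨ P2' ≤ x.comap φα := by
    rcases hbr with h | h | h
    · exact Or.inl (hα1 ▸ Ideal.comap_mono h)
    · exact Or.inr (hα2 ▸ Ideal.comap_mono h)
    · exact Or.inl (hα3 ▸ Ideal.comap_mono h)
  have hnode : P1' ⊔ P2' ≤ x.comap φα := hss_node _ hmax hbr' hs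
  have hT : ∀ x2 : Ideal B, x2.IsPrime → x2.comap φα = x.comap φα → P2 ≤ x2 :=
    fun x2 hx2 h => hTα x2 hx2 (h ▸ hnode)
  have h1' : P1' ≤ x.comap φα := le_sup_left.trans hnode
  have h2' : P2' ≤ x.comap φα := le_sup_right.trans hnode
  exact ⟨le_of_unique φα hα x P2 hT nα hnα hpiα P1 (hα1 ▸ h1'),
    le_of_unique φα hα x P2 hT nα hnα hpiα P2 (hα2 ▸ h2'),
    le_of_unique φα hα x P2 hT nα hnα hpiα P3 (hα3 ▸ h1'), hnode⟩

/-- **ordinary points (and cusps) lie on at most one vertical component.** -/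
theorem atMostOne_of_not_ss (φα φβ : A →+* B)
    (P1' P2' : Ideal A) (P1 P2 P3 : Ideal B)
    (hα1 : P1.comap φα = P1') (hα2 : P2.comap φα = P2') (hα3 : P3.comap φα = P1')
    (hβ1 : P1.comap φβ = P1') (hβ3 : P3.comap φβ = P2')
    (s' : A) (hnode_ss : ∀ x' : Ideal A, x'.IsPrime → P1' ⊔ P2' ≤ x' → s' ∈ x')
    (x : Ideal B) [x.IsPrime] (hssβ : φβ s' ∈ x → φα s' ∈ x) (hs : φα s' ∉ x) :
    ¬ (P1 ≤ x ∧ P2 ≤ x) ∧ ¬ (P2 ≤ x ∧ P3 ≤ x) ∧ ¬ (P1 ≤ x ∧ P3 ≤ x) := by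
  refine singleton_of_not_node φα φβ P1' P2' P1 P2 P3 hα1 hα2 hα3 hβ1 hβ3 x ?_ ?_
  · intro hnode
    exact hs (hnode_ss _ (Ideal.comap_isPrime φα x) hnode)
  · intro hnode
    exact hs (hssβ (hnode_ss _ (Ideal.comap_isPrime φβ x) hnode))

/-- **(A1), dispatcher form**: on the special fibre, `s ∈ x` ⟹ triple point over a node,
`s ∉ x` ⟹ at most one vertical component through `x`. -/
theorem classify (φα φβ : A →+* B) (hα : φα.IsIntegral)
    (P1' P2' : Ideal A) (P1 P2 P3 : Ideal B)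
    (hα1 : P1.comap φα = P1') (hα2 : P2.comap φα = P2') (hα3 : P3.comap φα = P1')
    (hβ1 : P1.comap φβ = P1') (hβ3 : P3.comap φβ = P2')
    (hTα : ∀ x2 : Ideal B, x2.IsPrime → P1' ⊔ P2' ≤ x2.comap φα → P2 ≤ x2)
    (nα : ℕ) (hnα : 0 < nα) (hpiα : ∀ b : B, ∃ a : A, b ^ nα - φα a ∈ P2)
    (s' : A) (hnode_ss : ∀ x' : Ideal A, x'.IsPrime → P1' ⊔ P2' ≤ x' → s' ∈ x')
    (hss_node : ∀ x' : Ideal A, x'.IsMaximal → (P1' ≤ x' ∨ P2' ≤ x') → s' ∈ x' → P1' ⊔ P2' ≤ x')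
    (x : Ideal B) [hx : x.IsMaximal] (hssβ : φβ s' ∈ x → φα s' ∈ x)
    (hbr : P1 ≤ x ∨ P2 ≤ x ∨ P3 ≤ x) :
    (φα s' ∈ x ∧ P1 ≤ x ∧ P2 ≤ x ∧ P3 ≤ x ∧ P1' ⊔ P2' ≤ x.comap φα) ∨
    (φα s' ∉ x ∧ ¬ (P1 ≤ x ∧ P2 ≤ x) ∧ ¬ (P2 ≤ x ∧ P3 ≤ x) ∧ ¬ (P1 ≤ x ∧ P3 ≤ x)) := by
  by_cases hs : φα s' ∈ x
  · exact Or.inl ⟨hs, triple_of_ss φα hα P1' P2' P1 P2 P3 hα1 hα2 hα3 hTα nα hnα hpiα s'
      hss_node x hs hbr⟩
  · have := hx.isPrime
    exact Or.inr ⟨hs, atMostOne_of_not_ss φα φβ P1' P2' P1 P2 P3 hα1 hα2 hα3 hβ1 hβ3 s'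
      hnode_ss x hssβ hs⟩

end Fermat.Agent.GL.Frame.Classify
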