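/-
GATE-L / (A1) CLASSIFICATION on FRAMES (helper47): from the VALUATION rows of the table
(helper67 `DegenK0`, `RowsK0W3`: `W.comap α = W'` as valuation subrings) to the ideal rows (C2) of
`Classify.classify`, and the classification in the shape consumed by the (LOC) dispatcher
(helper11 `JFrameDispatch.hall_of_dispatch`, helper29 `TypeIIIOfSetup.hclass`):

  two distinct vertical height-one primes through a closed point `𝔫` of the frame `B`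
  ⟹ `𝔫` is a SUPERSINGULAR point (`q ∈ 𝔫`, `pH(j) ∈ 𝔫`), all vertical primes pass through `𝔫`
    and `𝔫` lies over a node of the lower level.

Setting: `F' F` fields, `α β : F' →+* F` (`π^*`, `π'^*`), `A : Subring F'` the chart of the lower
level, `B : Subring F` the chart of the upper level, `α A ⊆ B`, `β A ⊆ B`; `W1' W2'` resp.
`W1 W2 W3` the vertical valuation subrings; `P1' P2' : Ideal A`, `P1 P2 P3 : Ideal B` their centres.

* `mem_nonunits_iff_of_comap` : `W.comap φ = W' ⟹ (z ∈ 𝔪(W') ↔ φ z ∈ 𝔪(W))`;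
* `resHom φ A B h : A →+* B` : the restriction of a field hom to the charts;
* `comap_resHom_eq` : **(C2)** `P.comap (resHom φ A B h) = P'` from `W.comap φ = W'`;
* `classify_val` : `Classify.classify` with the five rows in valuation form;
* `ss_of_two` : the dispatcher form (indices `Fin 3`, `P : Fin 3 → Ideal B`);
* `ss_of_two_vert` : the same for a `Finset` of height-one primes parametrised by `f : Fin 3 → HtOne B`
  (= helper80 `FrameInst.exists_vert_param` output), conclusion = `hclass` of the type III arm.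
-/
import Fermat.Agent.GL.Frame.ClassifySS
import Fermat.Agent.GL.Frame.HeightOneFrame

set_option autoImplicit false

namespace Fermat.Agent.GL.Frame.ClassifyInst

open Fermat.Agent.GL.Frame.Classify Fermat.Agent.GL.Frame.HeightOne

section Rows

variable {F' F : Type*} [Field F'] [Field F]

/-- non-units along a comap equality of valuation subrings. -/
theorem mem_nonunits_iff_of_comap (φ : F' →+* F) (W : ValuationSubring F)
    (W' : ValuationSubring F') (h : W.comap φ = W') (z : F') :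
    z ∈ W'.nonunits ↔ φ z ∈ W.nonunits := by
  rw [ValuationSubring.mem_nonunits_iff_or, ValuationSubring.mem_nonunits_iff_or,
    map_eq_zero_iff φ φ.injective, ← map_inv₀, ← h, ValuationSubring.mem_comap]

/-- the restriction of a field hom to two subrings. -/
def resHom (φ : F' →+* F) (A : Subring F') (B : Subring F) (h : ∀ a ∈ A, φ a ∈ B) : A →+* B :=
  (φ.comp A.subtype).codRestrict B (fun a => h a a.2)

@[simp] theorem coe_resHom (φ : F' →+* F) (A : Subring F') (B : Subring F)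
    (h : ∀ a ∈ A, φ a ∈ B) (a : A) : ((resHom φ A B h a : B) : F) = φ (a : F') := rfl

theorem resHom_injective (φ : F' →+* F) (A : Subring F') (B : Subring F)
    (h : ∀ a ∈ A, φ a ∈ B) : Function.Injective (resHom φ A B h) := by
  intro a b hab
  apply Subtype.ext
  apply φ.injective
  have := congrArg (fun z : B => (z : F)) hab
  simpa using this

/-- **(C2)**: the ideal row `P.comap φ = P'` from the valuation row `W.comap φ = W'`. -/
theorem comap_resHom_eq (φ : F' →+* F) (A : Subring F') (B : Subring F) (h : ∀ a ∈ A, φ a ∈ B)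
    (W : ValuationSubring F) (W' : ValuationSubring F') (hrow : W.comap φ = W')
    (P : Ideal B) (hP : ∀ b : B, b ∈ P ↔ (b : F) ∈ W.nonunits)
    (P' : Ideal A) (hP' : ∀ a : A, a ∈ P' ↔ (a : F') ∈ W'.nonunits) :
    P.comap (resHom φ A B h) = P' := by
  ext a
  rw [Ideal.mem_comap, hP, hP', coe_resHom, mem_nonunits_iff_of_comap φ W W' hrow]

end Rows

section Classify

variable {F' F : Type*} [Field F'] [Field F] (α β : F' →+* F) (A : Subring F') (B : Subring F)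
  (hαAB : ∀ a ∈ A, α a ∈ B) (hβAB : ∀ a ∈ A, β a ∈ B)
  (W1' W2' : ValuationSubring F') (W1 W2 W3 : ValuationSubring F)
  (rα1 : W1.comap α = W1') (rα2 : W2.comap α = W2') (rα3 : W3.comap α = W1')
  (rβ1 : W1.comap β = W1') (rβ3 : W3.comap β = W2')
  (P1' P2' : Ideal A) (hP1' : ∀ a : A, a ∈ P1' ↔ (a : F') ∈ W1'.nonunits)
  (hP2' : ∀ a : A, a ∈ P2' ↔ (a : F') ∈ W2'.nonunits)
  (P1 P2 P3 : Ideal B) (hP1 : ∀ b : B, b ∈ P1 ↔ (b : F) ∈ W1.nonunits)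
  (hP2 : ∀ b : B, b ∈ P2 ↔ (b : F) ∈ W2.nonunits) (hP3 : ∀ b : B, b ∈ P3 ↔ (b : F) ∈ W3.nonunits)

include rα1 rα2 rα3 rβ1 rβ3 hP1' hP2' hP1 hP2 hP3 in
/-- **`Classify.classify` with the table in valuation form.** -/
theorem classify_val (hα : (resHom α A B hαAB).IsIntegral)
    (hTα : ∀ x2 : Ideal B, x2.IsPrime → P1' ⊔ P2' ≤ x2.comap (resHom α A B hαAB) → P2 ≤ x2)
    (nα : ℕ) (hnα : 0 < nα) (hpiα : ∀ b : B, ∃ a : A, b ^ nα - resHom α A B hαAB a ∈ P2)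
    (s' : A) (hnode_ss : ∀ x' : Ideal A, x'.IsPrime → P1' ⊔ P2' ≤ x' → s' ∈ x')
    (hss_node : ∀ x' : Ideal A, x'.IsMaximal → (P1' ≤ x' ∨ P2' ≤ x') → s' ∈ x' →
      P1' ⊔ P2' ≤ x')
    (x : Ideal B) [hx : x.IsMaximal]
    (hssβ : resHom β A B hβAB s' ∈ x → resHom α A B hαAB s' ∈ x)
    (hbr : P1 ≤ x ∨ P2 ≤ x ∨ P3 ≤ x) :
    (resHom α A B hαAB s' ∈ x ∧ P1 ≤ x ∧ P2 ≤ x ∧ P3 ≤ x ∧
        P1' ⊔ P2' ≤ x.comap (resHom α A B hαAB)) ∨
      (resHom α A B hαAB s' ∉ x ∧ ¬ (P1 ≤ x ∧ P2 ≤ x) ∧ ¬ (P2 ≤ x ∧ P3 ≤ x) ∧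
        ¬ (P1 ≤ x ∧ P3 ≤ x)) :=
  classify (resHom α A B hαAB) (resHom β A B hβAB) hα P1' P2' P1 P2 P3
    (comap_resHom_eq α A B hαAB W1 W1' rα1 P1 hP1 P1' hP1')
    (comap_resHom_eq α A B hαAB W2 W2' rα2 P2 hP2 P2' hP2')
    (comap_resHom_eq α A B hαAB W3 W1' rα3 P3 hP3 P1' hP1')
    (comap_resHom_eq β A B hβAB W1 W1' rβ1 P1 hP1 P1' hP1')
    (comap_resHom_eq β A B hβAB W3 W2' rβ3 P3 hP3 P2' hP2')
    hTα nα hnα hpiα s' hnode_ss hss_node x hssβ hbr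

end Classify

section Dispatch

variable {A B : Type*} [CommRing A] [CommRing B]

/-- **dispatcher form** (indices): if the dichotomy of `classify` holds at `x` then two DISTINCT
vertical primes through `x` force the supersingular alternative. -/
theorem ss_of_two_of_dichotomy (P : Fin 3 → Ideal B) (x : Ideal B) (s : B) (Q : Prop)
    (h : (s ∈ x ∧ P 0 ≤ x ∧ P 1 ≤ x ∧ P 2 ≤ x ∧ Q) ∨
      (s ∉ x ∧ ¬ (P 0 ≤ x ∧ P 1 ≤ x) ∧ ¬ (P 1 ≤ x ∧ P 2 ≤ x) ∧ ¬ (P 0 ≤ x ∧ P 2 ≤ x)))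
    (i j : Fin 3) (hij : i ≠ j) (hi : P i ≤ x) (hj : P j ≤ x) :
    s ∈ x ∧ (∀ k, P k ≤ x) ∧ Q := by
  rcases h with ⟨hs, h0, h1, h2, hQ⟩ | ⟨-, h01, h12, h02⟩
  · refine ⟨hs, fun k => ?_, hQ⟩
    fin_cases k
    · exact h0
    · exact h1
    · exact h2
  · exfalso
    fin_cases i <;> fin_cases j <;> first
      | exact hij rfl
      | exact h01 ⟨hi, hj⟩
      | exact h01 ⟨hj, hi⟩
      | exact h12 ⟨hi, hj⟩
      | exact h12 ⟨hj, hi⟩
      | exact h02 ⟨hi, hj⟩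
      | exact h02 ⟨hj, hi⟩

/-- if exactly one vertical prime passes through `x`, the point is not supersingular. -/
theorem not_ss_of_unique_of_dichotomy (P : Fin 3 → Ideal B) (x : Ideal B) (s : B) (Q : Prop)
    (h : (s ∈ x ∧ P 0 ≤ x ∧ P 1 ≤ x ∧ P 2 ≤ x ∧ Q) ∨
      (s ∉ x ∧ ¬ (P 0 ≤ x ∧ P 1 ≤ x) ∧ ¬ (P 1 ≤ x ∧ P 2 ≤ x) ∧ ¬ (P 0 ≤ x ∧ P 2 ≤ x)))
    (i j : Fin 3) (hij : i ≠ j) (hj : ¬ P j ≤ x) : s ∉ x := by
  rcases h with ⟨-, h0, h1, h2, -⟩ | ⟨hs, -⟩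
  · exfalso
    apply hj
    fin_cases j
    · exact h0
    · exact h1
    · exact h2
  · exact hs

end Dispatch

section Vert

variable {B : Type*} [CommRing B]

/-- **`hclass` of the type III arm** (helper29 `TypeIIIOfSetup`) / the hypothesis pattern of `hIII` in
helper11 `JFrameDispatch.hall_of_dispatch`: `vert` parametrised by `f : Fin 3 → HtOne B`
(helper80 `exists_vert_param`); if the dichotomy of `classify` holds at the closed point `𝔫` for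
`P k := (f k).1`, then two distinct elements of `vert` through `𝔫` force `s ∈ 𝔫`, all of `vert`
through `𝔫`, and the node statement `Q`. -/
theorem ss_of_two_vert (vert : Finset (HtOne B)) (f : Fin 3 → HtOne B)
    (hf : ∀ p, p ∈ vert ↔ ∃ i, f i = p) (𝔫 : Ideal B) (s : B) (Q : Prop)
    (h : (s ∈ 𝔫 ∧ (f 0).1 ≤ 𝔫 ∧ (f 1).1 ≤ 𝔫 ∧ (f 2).1 ≤ 𝔫 ∧ Q) ∨
      (s ∉ 𝔫 ∧ ¬ ((f 0).1 ≤ 𝔫 ∧ (f 1).1 ≤ 𝔫) ∧ ¬ ((f 1).1 ≤ 𝔫 ∧ (f 2).1 ≤ 𝔫) ∧
        ¬ ((f 0).1 ≤ 𝔫 ∧ (f 2).1 ≤ 𝔫)))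
    (p p' : HtOne B) (hp : p ∈ vert) (hp' : p' ∈ vert) (hne : p ≠ p') (hle : p.1 ≤ 𝔫)
    (hle' : p'.1 ≤ 𝔫) : s ∈ 𝔫 ∧ (∀ p'' ∈ vert, p''.1 ≤ 𝔫) ∧ Q := by
  obtain ⟨i, rfl⟩ := (hf p).1 hp
  obtain ⟨j, rfl⟩ := (hf p').1 hp'
  have hij : i ≠ j := fun hij => hne (by rw [hij])
  obtain ⟨hs, hall, hQ⟩ :=
    ss_of_two_of_dichotomy (fun k => (f k).1) 𝔫 s Q h i j hij hle hle'
  refine ⟨hs, fun p'' hp'' => ?_, hQ⟩
  obtain ⟨k, rfl⟩ := (hf p'').1 hp''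
  exact hall k

/-- at a closed point with a UNIQUE vertical prime (the `hI` pattern of the dispatcher) the
supersingular element does not vanish (so the producers of the type I arm may assume the point
ordinary), provided the three `f i` are distinct. -/
theorem not_ss_of_unique_vert (vert : Finset (HtOne B)) (f : Fin 3 → HtOne B)
    (hf : ∀ p, p ∈ vert ↔ ∃ i, f i = p) (hinj : Function.Injective f) (𝔫 : Ideal B) (s : B)
    (Q : Prop)
    (h : (s ∈ 𝔫 ∧ (f 0).1 ≤ 𝔫 ∧ (f 1).1 ≤ 𝔫 ∧ (f 2).1 ≤ 𝔫 ∧ Q) ∨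
      (s ∉ 𝔫 ∧ ¬ ((f 0).1 ≤ 𝔫 ∧ (f 1).1 ≤ 𝔫) ∧ ¬ ((f 1).1 ≤ 𝔫 ∧ (f 2).1 ≤ 𝔫) ∧
        ¬ ((f 0).1 ≤ 𝔫 ∧ (f 2).1 ≤ 𝔫)))
    (p₀ : HtOne B) (hp₀ : p₀ ∈ vert) (huniq : ∀ p ∈ vert, p ≠ p₀ → ¬ p.1 ≤ 𝔫) : s ∉ 𝔫 := by
  obtain ⟨i, rfl⟩ := (hf p₀).1 hp₀
  -- pick an index different from `i`
  obtain ⟨j, hji⟩ : ∃ j : Fin 3, j ≠ i := by
    fin_cases i
    · exact ⟨1, by decide⟩
    · exact ⟨0, by decide⟩
    · exact ⟨0, by decide⟩
  have hj : ¬ (f j).1 ≤ 𝔫 :=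
    huniq (f j) ((hf (f j)).2 ⟨j, rfl⟩) (fun h => hji (hinj h))
  exact not_ss_of_unique_of_dichotomy (fun k => (f k).1) 𝔫 s Q h i j (Ne.symm hji) hj

end Vert

end Fermat.Agent.GL.Frame.ClassifyInst
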