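/-
GATE-L / (A3) CHART, change of chart (helper13; node (4) of helper48's STACK RULING 2).

The CECH-KUMMER frame (helper28 `CechKummer.exists_section`, helper33 `CechKummerField`) uses the
chart function `h = (j1 - t2)^(deg P1 + 1) / P1(j1)`, `j1 = 1/(j - t0)`, while every concrete
geometric fact (K-RED, J1-SURJ, REG, REG3) lives on the `j`-line.  This file proves that the two
give the SAME local rings at the closed points of the special fibre.  `R` any commutative ring,
`F` a field, `Algebra R F`; no noetherian hypothesis, no fraction-field hypothesis.  Mathlib only.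

* Part 0 `isIntegral_of_ringHom`, `isIntegral_of_forall_isIntegral`, `isIntegral_adjoin_iff` :
  integrality over two NON-nested base rings.
* (C1) `isIntegral_adjoin_inv_iff` : `P1(t2)` a unit, `h * P1(j1) = (j1 - t2)^(deg P1 + 1)` ⟹
  `R[1/h]` and `R[s]`, `s = 1/(j1 - t2)`, have the same integral closure in `F`
  (`1/h = chartPoly(s)`, a polynomial with unit leading coefficient `P1(t2)`).
  `isIntegral_adjoin_iff_pair` : `R[h]` and `R[j1, 1/P1(j1)]` have the same integral closure.
* `locSet A P`, `locMaxSet A P` : the localisation `A_P ⊆ F` of a subring `A` of `F` and its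
  maximal ideal, as SUBSETS of `F` (`= LocalSubring.ofPrime`, `mem_locAt_iff`); the maximal ideal
  is determined by the local ring (`locMaxSet_eq_of_locSet_eq`); `locAt_integrallyClosed`.
* `IsChartRing R x B` : `B = {f | f integral over R[x]}` (model: `isChartRing_integralClosure`).
* (C2) `moebius_sameLocal` : `y = (a x + b)/(c x + d)`, `ad - bc ∈ Rˣ`, `n` a prime of `Bx` with
  `c x + d ∉ n` ⟹ `∃ n'` prime of `By` with `locSet By n' = locSet Bx n` (same subring of `F`).
  `residue_isIntegral` : the residue field of a closed point over `q` is algebraic over `R/(q)`;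
  `IsChartRing.isMaximal_of_locSet_eq` : closed points go to closed points;
  `exists_chart_point` : every closed point of the `x`-chart over `q` is a closed point over `q`
  of the `y`-chart or of the `1/y`-chart, with the same local ring.
* (C3) `loc_transport` : transport of `∃ a b ∉ P, a g - b ∈ r` between two presentations of the
  same local ring; `hloc_of_j_frame` : the hypothesis `hloc` of `CechKummer.exists_section` at the
  closed points of `Spec B2` over `q` from the same statement on the charts `R[j]`, `R[1/j]`.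
-/
import Mathlib

set_option autoImplicit false

namespace Fermat.Agent.GL.ChartChange

open Polynomial

/-! ### Part 0: transfer of integrality -/

section Transfer

variable {A1 A2 F : Type*} [CommRing A1] [CommRing A2] [CommRing F] [Algebra A1 F] [Algebra A2 F]

/-- integrality passes along a ring hom of base rings compatible with the structure maps. -/
theorem isIntegral_of_ringHom (φ : A1 →+* A2)
    (hφ : ∀ a, algebraMap A2 F (φ a) = algebraMap A1 F a) {z : F} (hz : IsIntegral A1 z) :
    IsIntegral A2 z := by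
  obtain ⟨p, hp, hpz⟩ := hz
  refine ⟨p.map φ, hp.map φ, ?_⟩
  rw [Polynomial.eval₂_map]
  have : (algebraMap A2 F).comp φ = algebraMap A1 F := RingHom.ext hφ
  rw [this]
  exact hpz

/-- transitivity of integrality for two base rings which are NOT nested: if the image of `A1`
in `F` is integral over `A2` then everything integral over `A1` is integral over `A2`. -/
theorem isIntegral_of_forall_isIntegral (h : ∀ a : A1, IsIntegral A2 (algebraMap A1 F a))
    {z : F} (hz : IsIntegral A1 z) : IsIntegral A2 z := by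
  let φ : A1 →+* ↥(integralClosure A2 F) :=
    RingHom.codRestrict (algebraMap A1 F) (integralClosure A2 F) h
  have hz' : IsIntegral ↥(integralClosure A2 F) z :=
    isIntegral_of_ringHom φ (fun a => rfl) hz
  have hmem : z ∈ integralClosure (↥(integralClosure A2 F)) F := hz'
  rw [integralClosure_idem, Algebra.mem_bot] at hmem
  obtain ⟨⟨w, hw⟩, rfl⟩ := hmem
  exact hw

end Transfer

section Adjoin

variable {R F : Type*} [CommRing R] [CommRing F] [Algebra R F]

/-- if the generators of `adjoin R s` are integral over the subalgebra `S2`, so is every element. -/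
theorem isIntegral_of_mem_adjoin (S2 : Subalgebra R F) {s : Set F}
    (hs : ∀ x ∈ s, IsIntegral S2 x) {a : F} (ha : a ∈ Algebra.adjoin R s) : IsIntegral S2 a := by
  have hle : Algebra.adjoin R s ≤ (integralClosure S2 F).restrictScalars R :=
    Algebra.adjoin_le (fun x hx => hs x hx)
  exact hle ha

/-- two subalgebras each of whose generators is integral over the other have the same integral
elements. -/
theorem isIntegral_adjoin_iff {s1 s2 : Set F}
    (h12 : ∀ x ∈ s1, IsIntegral (Algebra.adjoin R s2) x)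
    (h21 : ∀ x ∈ s2, IsIntegral (Algebra.adjoin R s1) x) (z : F) :
    IsIntegral (Algebra.adjoin R s1) z ↔ IsIntegral (Algebra.adjoin R s2) z := by
  constructor
  · exact isIntegral_of_forall_isIntegral
      (fun a => isIntegral_of_mem_adjoin (Algebra.adjoin R s2) h12 a.2)
  · exact isIntegral_of_forall_isIntegral
      (fun a => isIntegral_of_mem_adjoin (Algebra.adjoin R s1) h21 a.2)

/-- an element of a subalgebra is integral over it. -/
theorem isIntegral_of_mem (S : Subalgebra R F) {a : F} (ha : a ∈ S) : IsIntegral S a :=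
  isIntegral_algebraMap (R := S) (x := ⟨a, ha⟩)

end Adjoin

section Adjoin2

variable {R F : Type*} [CommRing R] [CommRing F] [Algebra R F]

/-- **unit leading coefficient.**  If `v = G(s)` with `G ∈ R[X]` non-constant with unit leading
coefficient, then `s` is integral over `R[v]`. -/
theorem isIntegral_of_aeval_eq {G : R[X]} (hG : IsUnit G.leadingCoeff) (hdeg : G.natDegree ≠ 0)
    {s v : F} (hv : aeval s G = v) : IsIntegral (Algebra.adjoin R {v}) s := by
  classical
  rcases subsingleton_or_nontrivial F with hF | hF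
  · exact ⟨X, monic_X, Subsingleton.elim _ _⟩
  set A := Algebra.adjoin R {v} with hA
  have hvA : v ∈ A := Algebra.subset_adjoin (Set.mem_singleton v)
  let v' : A := ⟨v, hvA⟩
  set f : R →+* A := algebraMap R A with hf
  set p : A[X] := G.map f - C v' with hp
  have hlc : f G.leadingCoeff ≠ 0 := (hG.map f).ne_zero
  have hnd : (G.map f).natDegree = G.natDegree := natDegree_map_of_leadingCoeff_ne_zero f hlc
  have hdlt : (C v').degree < (G.map f).degree := by
    refine lt_of_le_of_lt degree_C_le ?_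
    rw [← natDegree_pos_iff_degree_pos, hnd]
    exact Nat.pos_of_ne_zero hdeg
  have hplc : p.leadingCoeff = f G.leadingCoeff := by
    rw [hp, leadingCoeff_sub_of_degree_lt hdlt, leadingCoeff_map_of_leadingCoeff_ne_zero f hlc]
  have hpz : aeval s p = 0 := by
    rw [hp, map_sub, aeval_map_algebraMap, hv, aeval_C]
    exact sub_self v
  have h1 := isIntegral_leadingCoeff_smul p s hpz
  rw [hplc] at h1
  obtain ⟨u, hu⟩ := hG
  have h2 := h1.smul (f ((u⁻¹ : Rˣ) : R))
  have h3 : f ((u⁻¹ : Rˣ) : R) • f G.leadingCoeff • s = s := by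
    rw [smul_smul, ← map_mul, ← hu, Units.inv_mul, map_one, one_smul]
  rwa [h3] at h2

end Adjoin2

section Chart

variable {R F : Type*} [CommRing R] [Field F] [Algebra R F]

/-- the polynomial `G(S) = S * rev(taylor t2 P1)(S)`: `h⁻¹ = G(s)` for `s = (j1 - t2)⁻¹`. -/
noncomputable def chartPoly (P1 : R[X]) (t2 : R) : R[X] := X * (taylor t2 P1).reverse

theorem aeval_taylor_sub (P1 : R[X]) (t2 : R) (j1 : F) :
    aeval (j1 - algebraMap R F t2) (taylor t2 P1) = aeval j1 P1 := by
  rw [taylor_apply, aeval_comp, map_add, aeval_X, aeval_C, sub_add_cancel]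

theorem aeval_chartPoly (P1 : R[X]) (t2 : R) {j1 h : F}
    (hh : h * aeval j1 P1 = (j1 - algebraMap R F t2) ^ (P1.natDegree + 1))
    (hne : j1 ≠ algebraMap R F t2) :
    aeval (j1 - algebraMap R F t2)⁻¹ (chartPoly P1 t2) = h⁻¹ := by
  set w : F := j1 - algebraMap R F t2 with hw
  have hw0 : w ≠ 0 := sub_ne_zero.mpr hne
  let _ : Invertible w := invertibleOfNonzero hw0
  have h1 := eval₂_reverse_mul_pow (algebraMap R F) w (taylor t2 P1)
  rw [natDegree_taylor, invOf_eq_inv] at h1
  have h2 : eval₂ (algebraMap R F) w (taylor t2 P1) = aeval j1 P1 := by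
    rw [← aeval_def]; exact aeval_taylor_sub P1 t2 j1
  rw [h2] at h1
  have hh0 : h ≠ 0 := by
    intro h0
    rw [h0, zero_mul] at hh
    exact pow_ne_zero _ hw0 hh.symm
  rw [chartPoly, map_mul, aeval_X, aeval_def]
  have h3 : eval₂ (algebraMap R F) w⁻¹ (taylor t2 P1).reverse
      = aeval j1 P1 * (w ^ P1.natDegree)⁻¹ := by
    rw [← h1, mul_assoc, mul_inv_cancel₀ (pow_ne_zero _ hw0), mul_one]
  rw [h3]
  have h4 : w ^ (P1.natDegree + 1) = w ^ P1.natDegree * w := pow_succ _ _
  rw [h4] at hh
  have hwn : w ^ P1.natDegree ≠ 0 := pow_ne_zero _ hw0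
  field_simp
  linear_combination hh

theorem chartPoly_leadingCoeff [Nontrivial R] {P1 : R[X]} {t2 : R} (hu : IsUnit (P1.eval t2)) :
    (chartPoly P1 t2).leadingCoeff = P1.eval t2 := by
  have h0 : (taylor t2 P1).coeff 0 ≠ 0 := by
    rw [taylor_coeff_zero]; exact hu.ne_zero
  rw [chartPoly, mul_comm, leadingCoeff_mul_X, reverse_leadingCoeff,
    trailingCoeff_eq_coeff_zero h0, taylor_coeff_zero]

theorem chartPoly_natDegree_ne_zero [Nontrivial R] {P1 : R[X]} {t2 : R}
    (hu : IsUnit (P1.eval t2)) : (chartPoly P1 t2).natDegree ≠ 0 := by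
  have h0 : (taylor t2 P1).coeff 0 ≠ 0 := by
    rw [taylor_coeff_zero]; exact hu.ne_zero
  have h1 : (taylor t2 P1).reverse ≠ 0 := by
    intro h
    have := reverse_leadingCoeff (taylor t2 P1)
    rw [h, leadingCoeff_zero, trailingCoeff_eq_coeff_zero h0] at this
    exact h0 this.symm
  rw [chartPoly, natDegree_X_mul h1]
  exact Nat.succ_ne_zero _

end Chart


section Chart2

variable {R F : Type*} [CommRing R] [Field F] [Algebra R F]

/-- **(C1) the chart `U₂`.**  `h = (j1 - t2)^(deg P1 + 1) / P1(j1)` with `P1(t2)` a unit: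
`R[1/h]` and `R[s]`, `s = 1/(j1 - t2)`, have the same integral closure in `F`. -/
theorem isIntegral_adjoin_inv_iff (P1 : R[X]) (t2 : R) (hu : IsUnit (P1.eval t2)) {j1 h : F}
    (hh : h * aeval j1 P1 = (j1 - algebraMap R F t2) ^ (P1.natDegree + 1))
    (hne : j1 ≠ algebraMap R F t2) (z : F) :
    IsIntegral (Algebra.adjoin R {h⁻¹}) z ↔
      IsIntegral (Algebra.adjoin R {(j1 - algebraMap R F t2)⁻¹}) z := by
  have : Nontrivial R := (algebraMap R F).domain_nontrivial
  have hG := aeval_chartPoly P1 t2 hh hne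
  refine isIntegral_adjoin_iff ?_ ?_ z
  · intro x hx
    rw [Set.mem_singleton_iff] at hx
    rw [hx, ← hG]
    exact isIntegral_of_mem _ (aeval_mem_adjoin_singleton R _)
  · intro x hx
    rw [Set.mem_singleton_iff] at hx
    rw [hx]
    refine isIntegral_of_aeval_eq (G := chartPoly P1 t2) ?_ (chartPoly_natDegree_ne_zero hu) hG
    rw [chartPoly_leadingCoeff hu]; exact hu

omit [Field F] [Algebra R F] in
theorem isCoprime_X_sub_C_pow (P1 : R[X]) (t2 : R) (hu : IsUnit (P1.eval t2)) (n : ℕ) :
    IsCoprime ((X - C t2) ^ n) P1 := by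
  refine IsCoprime.pow_left ?_
  obtain ⟨u, hu⟩ := hu
  have h1 : P1 %ₘ (X - C t2) + (X - C t2) * (P1 /ₘ (X - C t2)) = P1 :=
    modByMonic_add_div P1 (X - C t2)
  rw [modByMonic_X_sub_C_eq_C_eval, ← hu] at h1
  generalize P1 /ₘ (X - C t2) = W at h1
  refine ⟨- C ((u⁻¹ : Rˣ) : R) * W, C ((u⁻¹ : Rˣ) : R), ?_⟩
  have h2 : C ((u⁻¹ : Rˣ) : R) * C (u : R) = 1 := by
    rw [← C_mul, Units.inv_mul, C_1]
  rw [← h1]
  linear_combination h2

/-- **(C1) the chart `U₁`.**  `R[h]` and `R[j1, 1/P1(j1)]` have the same integral closure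
in `F` (`P1(t2)` a unit). -/
theorem isIntegral_adjoin_iff_pair (P1 : R[X]) (t2 : R)
    (hu : IsUnit (P1.eval t2)) {j1 h : F}
    (hh : h * aeval j1 P1 = (j1 - algebraMap R F t2) ^ (P1.natDegree + 1))
    (hne : j1 ≠ algebraMap R F t2) (z : F) :
    IsIntegral (Algebra.adjoin R {h}) z ↔
      IsIntegral (Algebra.adjoin R {j1, (aeval j1 P1)⁻¹}) z := by
  have : Nontrivial R := (algebraMap R F).domain_nontrivial
  set w : F := j1 - algebraMap R F t2 with hw
  have hw0 : w ≠ 0 := sub_ne_zero.mpr hne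
  have hT0 : aeval j1 P1 ≠ 0 := by
    intro h0
    rw [h0, mul_zero] at hh
    exact pow_ne_zero _ hw0 hh.symm
  set d := P1.natDegree with hd
  -- `j1` is integral over `R[h]`
  have hj1 : IsIntegral (Algebra.adjoin R {h}) j1 := by
    set A := Algebra.adjoin R {h} with hA
    have hhA : h ∈ A := Algebra.subset_adjoin (Set.mem_singleton h)
    let h' : A := ⟨h, hhA⟩
    set f : R →+* A := algebraMap R A with hf
    have hA_nt : Nontrivial A := inferInstance
    have hH : ((X - C t2) ^ (d + 1) : R[X]).Monic := (monic_X_sub_C t2).pow (d + 1)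
    have hmon : (((X - C t2) ^ (d + 1) : R[X]).map f).Monic := hH.map f
    have hdeg : (C h' * P1.map f).degree < (((X - C t2) ^ (d + 1) : R[X]).map f).degree := by
      apply degree_lt_degree
      rw [hH.natDegree_map, (monic_X_sub_C t2).natDegree_pow, natDegree_X_sub_C, mul_one]
      calc (C h' * P1.map f).natDegree ≤ (P1.map f).natDegree := natDegree_C_mul_le _ _
        _ ≤ d := natDegree_map_le
        _ < d + 1 := Nat.lt_succ_self d
    refine ⟨((X - C t2) ^ (d + 1) : R[X]).map f - C h' * P1.map f, hmon.sub_of_left hdeg, ?_⟩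
    rw [← aeval_def, map_sub, map_mul, aeval_map_algebraMap, aeval_map_algebraMap, aeval_C,
      map_pow, map_sub, aeval_X, aeval_C]
    show (j1 - algebraMap R F t2) ^ (d + 1) - h * aeval j1 P1 = 0
    rw [hh, sub_self]
  -- Bezout
  obtain ⟨U, V, hUV⟩ := isCoprime_X_sub_C_pow P1 t2 hu (d + 1)
  have hbez : (aeval j1 P1)⁻¹ = aeval j1 U * h + aeval j1 V := by
    have h1 := congrArg (aeval j1) hUV
    rw [map_add, map_mul, map_mul, map_pow, map_sub, aeval_X, aeval_C, map_one, ← hw, ← hh] at h1
    rw [inv_eq_iff_eq_inv, eq_comm, inv_eq_of_mul_eq_one_left]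
    linear_combination h1
  refine isIntegral_adjoin_iff ?_ ?_ z
  · -- `h ∈ R[j1, 1/P1(j1)]`
    intro x hx
    rw [Set.mem_singleton_iff] at hx
    refine isIntegral_of_mem _ ?_
    have hxe : x = (j1 - algebraMap R F t2) ^ (d + 1) * (aeval j1 P1)⁻¹ := by
      rw [hx, ← hw, ← hh]; field_simp
    rw [hxe]
    have hj : j1 ∈ Algebra.adjoin R {j1, (aeval j1 P1)⁻¹} :=
      Algebra.subset_adjoin (by simp)
    have hT : (aeval j1 P1)⁻¹ ∈ Algebra.adjoin R {j1, (aeval j1 P1)⁻¹} :=
      Algebra.subset_adjoin (by simp)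
    exact Subalgebra.mul_mem _
      (Subalgebra.pow_mem _ (Subalgebra.sub_mem _ hj (Subalgebra.algebraMap_mem _ t2)) _) hT
  · intro x hx
    rcases hx with hx | hx
    · rw [hx]; exact hj1
    · rw [Set.mem_singleton_iff] at hx
      rw [hx, hbez]
      have hhI : IsIntegral (Algebra.adjoin R {h}) h :=
        isIntegral_of_mem _ (Algebra.subset_adjoin (Set.mem_singleton h))
      have haev : ∀ W : R[X], IsIntegral (Algebra.adjoin R {h}) (aeval j1 W) := by
        intro W
        refine isIntegral_of_mem_adjoin (Algebra.adjoin R {h}) (s := {j1}) ?_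
          (aeval_mem_adjoin_singleton R j1)
        intro y hy
        rw [Set.mem_singleton_iff] at hy
        rw [hy]; exact hj1
      exact ((haev U).mul hhI).add (haev V)

end Chart2


section LocalSub

variable {F : Type*} [Field F] (A : Subring F) (P : Ideal A)

/-- the localisation of `A` at `P` as a subset of the field `F`: fractions `t / s`, `s ∉ P`. -/
def locSet : Set F := {f | ∃ s t : A, s ∉ P ∧ (s : F) * f = (t : F)}

/-- its maximal ideal as a subset of `F`: fractions `t / s`, `s ∉ P`, `t ∈ P`. -/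
def locMaxSet : Set F := {f | ∃ s t : A, s ∉ P ∧ t ∈ P ∧ (s : F) * f = (t : F)}

theorem mem_locSet_iff (f : F) : f ∈ locSet A P ↔ ∃ s t : A, s ∉ P ∧ (s : F) * f = (t : F) :=
  Iff.rfl

theorem mem_locMaxSet_iff (f : F) :
    f ∈ locMaxSet A P ↔ ∃ s t : A, s ∉ P ∧ t ∈ P ∧ (s : F) * f = (t : F) := Iff.rfl

theorem locMaxSet_subset : locMaxSet A P ⊆ locSet A P := by
  rintro f ⟨s, t, hs, _, h⟩
  exact ⟨s, t, hs, h⟩

variable [P.IsPrime]

/-- the localisation of the subring `A` of the field `F` at the prime `P`, as a subring of `F`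
(Mathlib's `LocalSubring.ofPrime`). -/
noncomputable abbrev locAt : Subring F := (LocalSubring.ofPrime A P).toSubring

theorem coe_algebraMap_locAt (a : A) : ((algebraMap A (locAt A P) a : locAt A P) : F) = (a : F) :=
  rfl

omit [P.IsPrime] in
theorem coe_ne_zero_of_notMem {s : A} (hs : s ∉ P) : (s : F) ≠ 0 := by
  intro h0
  apply hs
  have : s = 0 := Subtype.ext h0
  rw [this]; exact P.zero_mem

theorem le_locAt : A ≤ locAt A P := LocalSubring.le_ofPrime A P

theorem mem_locAt_iff (f : F) : f ∈ locAt A P ↔ f ∈ locSet A P := by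
  constructor
  · intro hf
    obtain ⟨⟨t, s⟩, hts⟩ := IsLocalization.surj P.primeCompl (⟨f, hf⟩ : locAt A P)
    refine ⟨s.1, t, s.2, ?_⟩
    have := congrArg (Subtype.val) hts
    simp only [Subring.coe_mul, coe_algebraMap_locAt] at this
    rw [mul_comm]; exact this
  · rintro ⟨s, t, hs, hst⟩
    have h1 := IsLocalization.mk'_spec (locAt A P) t (⟨s, hs⟩ : P.primeCompl)
    have h2 := congrArg (Subtype.val) h1
    simp only [Subring.coe_mul, coe_algebraMap_locAt] at h2
    have hs0 : (s : F) ≠ 0 := coe_ne_zero_of_notMem A P hs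
    have : f = ((IsLocalization.mk' (locAt A P) t (⟨s, hs⟩ : P.primeCompl) : locAt A P) : F) := by
      apply mul_right_cancel₀ hs0
      rw [h2, mul_comm]; exact hst
    rw [this]
    exact Subtype.mem _

theorem coe_locAt : ((locAt A P : Subring F) : Set F) = locSet A P :=
  Set.ext (mem_locAt_iff A P)

/-- the maximal ideal of `locAt A P`, elementwise. -/
theorem mem_maximalIdeal_locAt_iff (o : locAt A P) :
    o ∈ IsLocalRing.maximalIdeal (locAt A P) ↔ (o : F) ∈ locMaxSet A P := by
  constructor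
  · intro ho
    obtain ⟨⟨t, s⟩, hts⟩ := IsLocalization.surj P.primeCompl o
    refine ⟨s.1, t, s.2, ?_, ?_⟩
    · rw [← IsLocalization.AtPrime.to_map_mem_maximal_iff (locAt A P) P t, ← hts]
      exact Ideal.mul_mem_right _ _ ho
    · have := congrArg (Subtype.val) hts
      simp only [Subring.coe_mul, coe_algebraMap_locAt] at this
      rw [mul_comm]; exact this
  · rintro ⟨s, t, hs, ht, hst⟩
    have h1 : algebraMap A (locAt A P) s * o = algebraMap A (locAt A P) t := by
      apply Subtype.ext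
      simp only [Subring.coe_mul, coe_algebraMap_locAt]
      exact hst
    have h2 : algebraMap A (locAt A P) t ∈ IsLocalRing.maximalIdeal (locAt A P) :=
      (IsLocalization.AtPrime.to_map_mem_maximal_iff (locAt A P) P t).mpr ht
    rw [← h1] at h2
    have h3 : IsUnit (algebraMap A (locAt A P) s) :=
      (IsLocalization.AtPrime.isUnit_to_map_iff (locAt A P) P s).mpr hs
    exact (Ideal.unit_mul_mem_iff_mem _ h3).mp h2

/-- an element of `A` lies in the maximal ideal of `A_P` iff it lies in `P`. -/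
theorem coe_mem_locMaxSet_iff (a : A) : (a : F) ∈ locMaxSet A P ↔ a ∈ P := by
  rw [← IsLocalization.AtPrime.to_map_mem_maximal_iff (locAt A P) P a,
    mem_maximalIdeal_locAt_iff]
  rfl

/-- units of `A_P`: the inverse of an element outside the maximal ideal lies in `A_P`. -/
theorem inv_mem_locSet {f : F} (hf : f ∈ locSet A P) (hf' : f ∉ locMaxSet A P) :
    f⁻¹ ∈ locSet A P := by
  rw [← mem_locAt_iff] at hf ⊢
  have h1 : (⟨f, hf⟩ : locAt A P) ∉ IsLocalRing.maximalIdeal (locAt A P) := by
    rw [mem_maximalIdeal_locAt_iff]; exact hf'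
  have h2 : IsUnit (⟨f, hf⟩ : locAt A P) := IsLocalRing.notMem_maximalIdeal.mp h1
  obtain ⟨u, hu⟩ := h2
  have h3 : f * ((u⁻¹ : (locAt A P)ˣ) : locAt A P) = 1 := by
    have := congrArg Subtype.val (Units.mul_inv u)
    rw [hu] at this
    exact this
  rw [← eq_inv_of_mul_eq_one_right h3]
  exact Subtype.mem _

/-- nonunits of `A_P`: the inverse of a nonzero element of the maximal ideal is not in `A_P`. -/
theorem inv_notMem_locSet {f : F} (hf : f ∈ locMaxSet A P) (hf0 : f ≠ 0) :
    f⁻¹ ∉ locSet A P := by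
  intro hinv
  have hf1 := locMaxSet_subset A P hf
  rw [← mem_locAt_iff] at hf1 hinv
  have h1 : (⟨f, hf1⟩ : locAt A P) ∈ IsLocalRing.maximalIdeal (locAt A P) := by
    rw [mem_maximalIdeal_locAt_iff]; exact hf
  have h2 : (⟨f, hf1⟩ : locAt A P) * ⟨f⁻¹, hinv⟩ = 1 := by
    apply Subtype.ext
    exact mul_inv_cancel₀ hf0
  have h3 : (1 : locAt A P) ∈ IsLocalRing.maximalIdeal (locAt A P) := by
    rw [← h2]; exact Ideal.mul_mem_right _ _ h1
  exact (Ideal.ne_top_iff_one _).mp (IsLocalRing.maximalIdeal.isMaximal _).ne_top h3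

/-- the maximal ideal is determined by the local ring (as subsets of `F`). -/
theorem mem_locMaxSet_iff_inv (f : F) :
    f ∈ locMaxSet A P ↔ f ∈ locSet A P ∧ (f = 0 ∨ f⁻¹ ∉ locSet A P) := by
  constructor
  · intro hf
    refine ⟨locMaxSet_subset A P hf, ?_⟩
    by_cases hf0 : f = 0
    · exact Or.inl hf0
    · exact Or.inr (inv_notMem_locSet A P hf hf0)
  · rintro ⟨hf, h | h⟩
    · rw [h]
      have h1 : (1 : A) ∉ P := (Ideal.ne_top_iff_one P).mp (Ideal.IsPrime.ne_top ‹_›)
      exact ⟨1, 0, h1, P.zero_mem, by simp⟩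
    · by_contra hcon
      exact h (inv_mem_locSet A P hf hcon)

/-- `A_P` is integrally closed in `F` if `A` is. -/
theorem locAt_integrallyClosed (hA : ∀ f : F, IsIntegral A f → f ∈ A) (f : F)
    (hf : IsIntegral (locAt A P) f) : f ∈ locAt A P := by
  obtain ⟨m, hm⟩ := IsIntegral.exists_multiple_integral_of_isLocalization P.primeCompl f hf
  have h1 := hA _ hm
  rw [mem_locAt_iff]
  refine ⟨m.1, ⟨_, h1⟩, m.2, ?_⟩
  show (m.1 : F) * f = m • f
  rw [Submonoid.smul_def, Algebra.smul_def]
  rfl

end LocalSub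

section SameLocal

variable {F : Type*} [Field F]

/-- same localisation ⟹ same maximal ideal. -/
theorem locMaxSet_eq_of_locSet_eq {A A' : Subring F} {P : Ideal A} {P' : Ideal A'} [P.IsPrime]
    [P'.IsPrime] (h : locSet A P = locSet A' P') : locMaxSet A P = locMaxSet A' P' := by
  ext f
  rw [mem_locMaxSet_iff_inv, mem_locMaxSet_iff_inv, h]

end SameLocal


section ChartRing

variable (R : Type*) {F : Type*} [CommRing R] [Field F] [Algebra R F]

/-- `B` is the normalisation of the affine `R`-line with coordinate `x` in `F`: the subring of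
`F` of the elements integral over `R[x]`. -/
def IsChartRing (x : F) (B : Subring F) : Prop :=
  ∀ f : F, f ∈ B ↔ IsIntegral (Algebra.adjoin R {x}) f

/-- the model instance. -/
theorem isChartRing_integralClosure (x : F) :
    IsChartRing R x (integralClosure (Algebra.adjoin R {x}) F).toSubring :=
  fun _ => Iff.rfl

variable {R}

theorem adjoin_le_of_subring (O : Subring F) (hR : ∀ r : R, algebraMap R F r ∈ O) {x : F}
    (hx : x ∈ O) : ∀ a ∈ Algebra.adjoin R {x}, a ∈ O := by
  let OA : Subalgebra R F := { O.toSubsemiring with algebraMap_mem' := hR }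
  have h : Algebra.adjoin R {x} ≤ OA :=
    Algebra.adjoin_le (by intro y hy; rw [Set.mem_singleton_iff] at hy; rw [hy]; exact hx)
  exact fun a ha => h ha

namespace IsChartRing

variable {x : F} {B : Subring F} (hB : IsChartRing R x B)
include hB

theorem adjoin_le : ∀ a ∈ Algebra.adjoin R {x}, a ∈ B := fun a ha =>
  (hB a).mpr (isIntegral_of_mem _ ha)

theorem algebraMap_mem (r : R) : algebraMap R F r ∈ B :=
  hB.adjoin_le _ (Subalgebra.algebraMap_mem _ r)

theorem gen_mem : x ∈ B := hB.adjoin_le _ (Algebra.subset_adjoin (Set.mem_singleton x))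

/-- `B` is integrally closed in `F`. -/
theorem closed (f : F) (hf : IsIntegral B f) : f ∈ B := by
  rw [hB f]
  exact isIntegral_of_forall_isIntegral (A1 := B) (fun a => (hB a).mp a.2) hf

/-- `B` is contained in every integrally closed subring of `F` containing `R` and `x`. -/
theorem le_of_closed (O : Subring F) (hR : ∀ r : R, algebraMap R F r ∈ O) (hx : x ∈ O)
    (hO : ∀ f : F, IsIntegral O f → f ∈ O) : B ≤ O := by
  intro f hf
  apply hO
  have hle := adjoin_le_of_subring O hR hx
  let φ : Algebra.adjoin R {x} →+* O :=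
    RingHom.codRestrict (algebraMap (Algebra.adjoin R {x}) F) O (fun a => hle a a.2)
  exact isIntegral_of_ringHom φ (fun a => rfl) ((hB f).mp hf)

end IsChartRing

end ChartRing


section Moebius

variable {R F : Type*} [CommRing R] [Field F] [Algebra R F]
variable {x y : F} {Bx By : Subring F}

/-- **Moebius, local form.**  `y = (a x + b)/(c x + d)` with `ad - bc` a unit of `R`, `Bx`, `By`
the normalisations of the `x`-line and of the `y`-line in `F`, `n` a prime of `Bx` not containing
`c x + d`.  Then the local ring of `Bx` at `n` IS (the same subring of `F`) the local ring of `By`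
at a prime `n'`. -/
theorem moebius_sameLocal (hBx : IsChartRing R x Bx) (hBy : IsChartRing R y By)
    {a b c d : R} (hδ : IsUnit (a * d - b * c))
    (hrel : y * (algebraMap R F c * x + algebraMap R F d) =
      algebraMap R F a * x + algebraMap R F b)
    (n : Ideal Bx) [n.IsPrime]
    (hv : ∀ v : Bx, (v : F) = algebraMap R F c * x + algebraMap R F d → v ∉ n) :
    ∃ n' : Ideal By, n'.IsPrime ∧ locSet By n' = locSet Bx n := by
  set O := locAt Bx n with hO
  have hBxO : Bx ≤ O := le_locAt Bx n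
  have hRO : ∀ r : R, algebraMap R F r ∈ O := fun r => hBxO (hBx.algebraMap_mem r)
  have hxO : x ∈ O := hBxO hBx.gen_mem
  have hOcl : ∀ f : F, IsIntegral O f → f ∈ O := locAt_integrallyClosed Bx n hBx.closed
  -- the denominator and numerator
  have hvB : algebraMap R F c * x + algebraMap R F d ∈ Bx :=
    Bx.add_mem (Bx.mul_mem (hBx.algebraMap_mem c) hBx.gen_mem) (hBx.algebraMap_mem d)
  have huB : algebraMap R F a * x + algebraMap R F b ∈ Bx :=
    Bx.add_mem (Bx.mul_mem (hBx.algebraMap_mem a) hBx.gen_mem) (hBx.algebraMap_mem b)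
  have hvn := hv ⟨_, hvB⟩ rfl
  -- (i) `y ∈ O`
  have hyO : y ∈ O := by
    apply (mem_locAt_iff Bx n y).mpr
    exact ⟨⟨_, hvB⟩, ⟨_, huB⟩, hvn, by rw [mul_comm]; exact hrel⟩
  -- (iii) `By ≤ O`
  have hByO : By ≤ O := hBy.le_of_closed O hRO hyO hOcl
  -- (iv) the contracted prime
  let ι : By →+* O := Subring.inclusion hByO
  let n' : Ideal By := Ideal.comap ι (IsLocalRing.maximalIdeal O)
  have hn' : n'.IsPrime := Ideal.comap_isPrime ι _
  have hn'mem : ∀ β : By, β ∈ n' ↔ (β : F) ∈ locMaxSet Bx n := by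
    intro β
    exact mem_maximalIdeal_locAt_iff Bx n (ι β)
  refine ⟨n', hn', ?_⟩
  -- a unit criterion in `O`
  have hunit : ∀ β : By, β ∉ n' → (β : F)⁻¹ ∈ locSet Bx n := by
    intro β hβ
    have h1 : (β : F) ∈ locSet Bx n := by
      rw [← mem_locAt_iff]; exact hByO β.2
    exact inv_mem_locSet Bx n h1 (fun h => hβ ((hn'mem β).mpr h))
  -- (v) `O' ≤ O`
  have hle1 : locSet By n' ⊆ locSet Bx n := by
    rintro f ⟨s, t, hs, hst⟩
    have h1 := hunit s hs
    have h2 : (t : F) ∈ locSet Bx n := by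
      rw [← mem_locAt_iff]; exact hByO t.2
    have hs0 : (s : F) ≠ 0 := coe_ne_zero_of_notMem By n' hs
    have h3 : f = (s : F)⁻¹ * (t : F) := by
      rw [← hst, ← mul_assoc, inv_mul_cancel₀ hs0, one_mul]
    rw [h3, ← mem_locAt_iff] at *
    exact Subring.mul_mem _ h1 h2
  -- (vi) `x ∈ O'`
  set O' := locAt By n' with hO'
  have hByO' : By ≤ O' := le_locAt By n'
  have hv'B : -(algebraMap R F c) * y + algebraMap R F a ∈ By :=
    By.add_mem (By.mul_mem (By.neg_mem (hBy.algebraMap_mem c)) hBy.gen_mem) (hBy.algebraMap_mem a)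
  have hu'B : algebraMap R F d * y - algebraMap R F b ∈ By :=
    By.sub_mem (By.mul_mem (hBy.algebraMap_mem d) hBy.gen_mem) (hBy.algebraMap_mem b)
  obtain ⟨δ, hδ'⟩ := hδ
  have hprod : (-(algebraMap R F c) * y + algebraMap R F a) *
      (algebraMap R F c * x + algebraMap R F d) = algebraMap R F (δ : R) := by
    rw [hδ', map_sub, map_mul, map_mul]
    linear_combination (-(algebraMap R F c)) * hrel
  have hv'n : (⟨_, hv'B⟩ : By) ∉ n' := by
    intro hmem
    rw [hn'mem] at hmem
    -- `v'` is a unit of `O`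
    have h1 : (algebraMap R F c * x + algebraMap R F d) * algebraMap R F ((δ⁻¹ : Rˣ) : R) ∈
        locSet Bx n := by
      rw [← mem_locAt_iff]
      exact hBxO (Bx.mul_mem hvB (hBx.algebraMap_mem _))
    have h2 : (-(algebraMap R F c) * y + algebraMap R F a) *
        ((algebraMap R F c * x + algebraMap R F d) * algebraMap R F ((δ⁻¹ : Rˣ) : R)) = 1 := by
      rw [← mul_assoc, hprod, ← map_mul, Units.mul_inv, map_one]
    have h0 : (-(algebraMap R F c) * y + algebraMap R F a) ≠ 0 := by
      intro h0; rw [h0, zero_mul] at h2; exact zero_ne_one h2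
    have h3 := inv_notMem_locSet Bx n hmem h0
    apply h3
    rw [← eq_inv_of_mul_eq_one_right h2]
    exact h1
  have hxO' : x ∈ O' := by
    apply (mem_locAt_iff By n' x).mpr
    refine ⟨⟨_, hv'B⟩, ⟨_, hu'B⟩, hv'n, ?_⟩
    show (-(algebraMap R F c) * y + algebraMap R F a) * x = algebraMap R F d * y - algebraMap R F b
    linear_combination (-1 : F) * hrel
  -- (vii) `Bx ≤ O'`
  have hRO' : ∀ r : R, algebraMap R F r ∈ O' := fun r => hByO' (hBy.algebraMap_mem r)
  have hO'cl : ∀ f : F, IsIntegral O' f → f ∈ O' := locAt_integrallyClosed By n' hBy.closed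
  have hBxO' : Bx ≤ O' := hBx.le_of_closed O' hRO' hxO' hO'cl
  -- (viii) `O ≤ O'`
  have hle2 : locSet Bx n ⊆ locSet By n' := by
    rintro f ⟨s, t, hs, hst⟩
    have hs1 : (s : F) ∈ locSet By n' := by
      rw [← mem_locAt_iff]; exact hBxO' s.2
    have ht1 : (t : F) ∈ locSet By n' := by
      rw [← mem_locAt_iff]; exact hBxO' t.2
    have hs2 : (s : F) ∉ locMaxSet By n' := by
      rintro ⟨σ, τ, hσ, hτ, hστ⟩
      -- `s = τ / σ` lies in the maximal ideal of `O`
      have h1 := hunit σ hσ
      have h2 : (τ : F) ∈ locMaxSet Bx n := (hn'mem τ).mp hτ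
      have hσ0 : (σ : F) ≠ 0 := coe_ne_zero_of_notMem By n' hσ
      have h3 : (s : F) = (σ : F)⁻¹ * (τ : F) := by
        rw [← hστ, ← mul_assoc, inv_mul_cancel₀ hσ0, one_mul]
      have h4 : (s : F) ∈ locMaxSet Bx n := by
        rw [h3]
        rw [← mem_locAt_iff] at h1
        have hτO : (τ : F) ∈ O := hByO τ.2
        have h5 : (⟨(τ : F), hτO⟩ : O) ∈ IsLocalRing.maximalIdeal O :=
          (mem_maximalIdeal_locAt_iff Bx n ⟨(τ : F), hτO⟩).mpr h2
        have h6 := Ideal.mul_mem_left _ (⟨_, h1⟩ : O) h5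
        exact (mem_maximalIdeal_locAt_iff Bx n _).mp h6
      exact hs ((coe_mem_locMaxSet_iff Bx n s).mp h4)
    have hsinv := inv_mem_locSet By n' hs1 hs2
    have hs0 : (s : F) ≠ 0 := coe_ne_zero_of_notMem Bx n hs
    have h3 : f = (s : F)⁻¹ * (t : F) := by
      rw [← hst, ← mul_assoc, inv_mul_cancel₀ hs0, one_mul]
    rw [h3, ← mem_locAt_iff] at *
    exact Subring.mul_mem _ hsinv ht1
  exact Set.Subset.antisymm hle1 hle2

end Moebius

section Residue

variable {R B : Type*} [CommRing R] [CommRing B]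


/-- **the residue field of a closed point of the special fibre is algebraic over `R/(q)`.**
`B` integral over the image of `R[X]` (`X ↦ x`), `(q)` a maximal ideal of `R`, `n` a maximal
ideal of `B` over `q`: then `R → B/n` is integral. -/
theorem residue_isIntegral (ρ0 : R →+* B) (x : B) (hev : (eval₂RingHom ρ0 x).IsIntegral)
    (q : R) (hq : (Ideal.span {q}).IsMaximal) (n : Ideal B) [hn : n.IsMaximal]
    (hqn : ρ0 q ∈ n) : ((Ideal.Quotient.mk n).comp ρ0).IsIntegral := by
  classical
  set I : Ideal R := Ideal.span {q} with hI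
  have hJ : IsJacobsonRing (R ⧸ I) := by
    let _ := Ideal.Quotient.field I
    infer_instance
  set π : B →+* B ⧸ n := Ideal.Quotient.mk n with hπ
  set ev : R[X] →+* B := eval₂RingHom ρ0 x with hevdef
  -- the induced map on `k = R/(q)`
  have hker : ∀ r ∈ I, (π.comp ρ0) r = 0 := by
    intro r hr
    rw [hI, Ideal.mem_span_singleton'] at hr
    obtain ⟨a, rfl⟩ := hr
    rw [RingHom.comp_apply, map_mul, map_mul]
    have : π (ρ0 q) = 0 := Ideal.Quotient.eq_zero_iff_mem.mpr hqn
    rw [this, mul_zero]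
  set ρbar : R ⧸ I →+* B ⧸ n := Ideal.Quotient.lift I (π.comp ρ0) hker with hρbar
  set evk : (R ⧸ I)[X] →+* B ⧸ n := eval₂RingHom ρbar (π x) with hevk
  set f : R[X] →+* (R ⧸ I)[X] := mapRingHom (Ideal.Quotient.mk I) with hf
  have hcomp : π.comp ev = evk.comp f := by
    apply Polynomial.ringHom_ext
    · intro r
      simp [hevdef, hevk, hf, hρbar]
    · simp [hevdef, hevk, hf]
  have h2 : (π.comp ev).IsIntegral :=
    RingHom.IsIntegral.trans ev π hev (π.isIntegral_of_surjective Ideal.Quotient.mk_surjective)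
  have hevkI : evk.IsIntegral := by
    apply RingHom.IsIntegral.tower_top f evk
    rw [← hcomp]; exact h2
  -- the kernel of `evk` is maximal
  have hbot : (⊥ : Ideal (B ⧸ n)).IsMaximal := by
    let _ := Ideal.Quotient.field n
    exact Ideal.bot_isMaximal
  have hP' : (RingHom.ker evk).IsMaximal :=
    Ideal.isMaximal_comap_of_isIntegral_of_isMaximal' evk hevkI ⊥
  -- Jacobson
  have h3 : ((Ideal.Quotient.mk (RingHom.ker evk)).comp C : R ⧸ I →+* _).IsIntegral :=
    Polynomial.quotient_mk_comp_C_isIntegral_of_isJacobsonRing (RingHom.ker evk)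
  have h4 := RingHom.IsIntegral.kerLift hevkI
  have h6 : ρbar.IsIntegral := by
    have h5 := RingHom.IsIntegral.trans _ _ h3 h4
    have h5' : ρbar = evk.kerLift.comp ((Ideal.Quotient.mk (RingHom.ker evk)).comp C) := by
      apply RingHom.ext
      intro r
      simp [hevk]
    rw [h5']; exact h5
  have h7 : π.comp ρ0 = ρbar.comp (Ideal.Quotient.mk I) := by
    ext r; simp [hρbar]
  rw [h7]
  exact RingHom.IsIntegral.trans _ _
    ((Ideal.Quotient.mk I).isIntegral_of_surjective Ideal.Quotient.mk_surjective) h6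

end Residue


section Closed

variable {R F : Type*} [CommRing R] [Field F] [Algebra R F] {x : F} {Bx : Subring F}

/-- the structure map `R → Bx`. -/
def IsChartRing.toRingHom (hBx : IsChartRing R x Bx) : R →+* Bx :=
  (algebraMap R F).codRestrict Bx hBx.algebraMap_mem

/-- the coordinate as an element of `Bx`. -/
def IsChartRing.gen (hBx : IsChartRing R x Bx) : Bx := ⟨x, hBx.gen_mem⟩

@[simp] theorem IsChartRing.coe_toRingHom (hBx : IsChartRing R x Bx) (r : R) :
    ((hBx.toRingHom r : Bx) : F) = algebraMap R F r := rfl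

@[simp] theorem IsChartRing.coe_gen (hBx : IsChartRing R x Bx) : ((hBx.gen : Bx) : F) = x := rfl

/-- `Bx` is integral over the image of `R[X]`. -/
theorem IsChartRing.eval_isIntegral (hBx : IsChartRing R x Bx) :
    (eval₂RingHom hBx.toRingHom hBx.gen).IsIntegral := by
  intro b
  obtain ⟨P0, hP0mon, hP0⟩ := (hBx b).mp b.2
  -- the surjection `R[X] → R[x]`
  let θ : R[X] →+* Algebra.adjoin R {x} :=
    (aeval x : R[X] →ₐ[R] F).toRingHom.codRestrict (Algebra.adjoin R {x})
      (fun p => aeval_mem_adjoin_singleton R x)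
  have hθ : Function.Surjective θ := by
    rintro ⟨a, ha⟩
    rw [Algebra.adjoin_singleton_eq_range_aeval] at ha
    obtain ⟨p, hp⟩ := ha
    exact ⟨p, Subtype.ext hp⟩
  have hlift : P0 ∈ lifts θ := (lifts_iff_coeff_lifts P0).mpr (fun k => hθ _)
  obtain ⟨P, hPmap, -, hPmon⟩ := lifts_and_natDegree_eq_and_monic hlift hP0mon
  refine ⟨P, hPmon, ?_⟩
  apply Subtype.ext
  have h1 : Bx.subtype (eval₂ (eval₂RingHom hBx.toRingHom hBx.gen) b P) =
      eval₂ (Bx.subtype.comp (eval₂RingHom hBx.toRingHom hBx.gen)) (Bx.subtype b) P :=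
    hom_eval₂ P _ Bx.subtype b
  have h2 : Bx.subtype.comp (eval₂RingHom hBx.toRingHom hBx.gen) =
      (algebraMap (Algebra.adjoin R {x}) F).comp θ := by
    apply Polynomial.ringHom_ext
    · intro r
      simp [θ]
    · simp [θ]
  rw [h2, ← eval₂_map, hPmap] at h1
  show Bx.subtype _ = _
  rw [h1]
  exact hP0

/-- **Step 1.**  At a closed point `n` of the fibre over `q`, every element of `Bx` satisfies a
monic polynomial over `R` modulo `n`. -/
theorem IsChartRing.exists_monic_eval_mem (hBx : IsChartRing R x Bx) (q : R)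
    (hq : (Ideal.span {q}).IsMaximal) (n : Ideal Bx) [n.IsMaximal] (hqn : hBx.toRingHom q ∈ n)
    (b : Bx) : ∃ p : R[X], p.Monic ∧ eval₂ hBx.toRingHom b p ∈ n := by
  have h := residue_isIntegral hBx.toRingHom hBx.gen hBx.eval_isIntegral q hq n hqn
  obtain ⟨p, hp, hpb⟩ := h (Ideal.Quotient.mk n b)
  refine ⟨p, hp, ?_⟩
  rw [← Ideal.Quotient.eq_zero_iff_mem, hom_eval₂]
  exact hpb

/-- **Step 2.**  The same for every element of the local ring. -/
theorem IsChartRing.exists_monic_eval_mem_locMaxSet (hBx : IsChartRing R x Bx) (q : R)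
    (hq : (Ideal.span {q}).IsMaximal) (n : Ideal Bx) [hn : n.IsMaximal]
    (hqn : hBx.toRingHom q ∈ n) {f : F} (hf : f ∈ locSet Bx n) :
    ∃ p : R[X], p.Monic ∧ eval₂ (algebraMap R F) f p ∈ locMaxSet Bx n := by
  have hfO : f ∈ locAt Bx n := (mem_locAt_iff Bx n f).mpr hf
  obtain ⟨s, t, hs, hst⟩ := hf
  -- `s` is invertible modulo `n`
  obtain ⟨s', i, hi, hsi⟩ := hn.exists_inv hs
  set b : Bx := t * s' with hb
  obtain ⟨p, hp, hpb⟩ := hBx.exists_monic_eval_mem q hq n hqn b
  refine ⟨p, hp, ?_⟩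
  have hs0 : (s : F) ≠ 0 := coe_ne_zero_of_notMem Bx n hs
  -- `f ≡ b` modulo the maximal ideal
  have hfb : f - (b : F) = f * (i : F) := by
    have h1 : (s' : F) * (s : F) + (i : F) = 1 := by
      have := congrArg (Subtype.val) hsi
      simpa using this
    have h2 : ((b : Bx) : F) = (t : F) * (s' : F) := by rw [hb]; rfl
    rw [h2, ← hst]
    linear_combination (-f) * h1
  -- work in the local ring
  let ρO : R →+* locAt Bx n :=
    (algebraMap R F).codRestrict (locAt Bx n) (fun r => le_locAt Bx n (hBx.algebraMap_mem r))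
  let f' : locAt Bx n := ⟨f, hfO⟩
  let b' : locAt Bx n := ⟨(b : F), le_locAt Bx n b.2⟩
  have hsub : (locAt Bx n).subtype.comp ρO = algebraMap R F := RingHom.ext (fun r => rfl)
  have hcoe : ∀ z : locAt Bx n, (((p.map ρO).eval z : locAt Bx n) : F) =
      eval₂ (algebraMap R F) (z : F) p := by
    intro z
    rw [eval_map]
    have := hom_eval₂ p ρO (locAt Bx n).subtype z
    rw [hsub] at this
    exact this
  have hdvd := sub_dvd_eval_sub f' b' (p.map ρO)
  obtain ⟨c, hc⟩ := hdvd
  have h1 : f' - b' ∈ IsLocalRing.maximalIdeal (locAt Bx n) := by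
    rw [mem_maximalIdeal_locAt_iff]
    show f - (b : F) ∈ locMaxSet Bx n
    rw [hfb]
    refine ⟨s, t * i, hs, Ideal.mul_mem_left _ _ hi, ?_⟩
    rw [← mul_assoc, hst]; rfl
  have h2 : (p.map ρO).eval b' ∈ IsLocalRing.maximalIdeal (locAt Bx n) := by
    rw [mem_maximalIdeal_locAt_iff, hcoe]
    have h3 : eval₂ (algebraMap R F) ((b' : locAt Bx n) : F) p =
        ((eval₂ hBx.toRingHom b p : Bx) : F) := by
      have := hom_eval₂ p hBx.toRingHom Bx.subtype b
      have hsub' : Bx.subtype.comp hBx.toRingHom = algebraMap R F := RingHom.ext (fun r => rfl)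
      rw [hsub'] at this
      exact this.symm
    rw [h3, coe_mem_locMaxSet_iff]
    exact hpb
  have h4 : (p.map ρO).eval f' ∈ IsLocalRing.maximalIdeal (locAt Bx n) := by
    have : (p.map ρO).eval f' = (f' - b') * c + (p.map ρO).eval b' := by
      rw [← hc]; ring
    rw [this]
    exact Ideal.add_mem _ (Ideal.mul_mem_right _ _ h1) h2
  rw [mem_maximalIdeal_locAt_iff, hcoe] at h4
  exact h4

end Closed


section Closed2

variable {R F : Type*} [CommRing R] [Field F] [Algebra R F] {x : F} {Bx : Subring F}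

omit [Algebra R F] in
/-- the maximal ideal of the local ring absorbs multiplication by elements of `A`. -/
theorem mul_mem_locMaxSet (A : Subring F) (P : Ideal A) {m : F} (hm : m ∈ locMaxSet A P)
    (a : A) : m * (a : F) ∈ locMaxSet A P := by
  obtain ⟨s, t, hs, ht, hst⟩ := hm
  refine ⟨s, t * a, hs, Ideal.mul_mem_right _ _ ht, ?_⟩
  rw [← mul_assoc, hst]; rfl

/-- **Step 3: closed points go to closed points.**  If `n` is a closed point of `Bx` on the fibre
over `q` and the local ring of `B'` at the prime `n'` is the local ring of `Bx` at `n`, then `n'`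
is maximal. -/
theorem IsChartRing.isMaximal_of_locSet_eq (hBx : IsChartRing R x Bx) (q : R)
    (hq : (Ideal.span {q}).IsMaximal) (n : Ideal Bx) [hn : n.IsMaximal]
    (hqn : hBx.toRingHom q ∈ n) {B' : Subring F} (hR' : ∀ r : R, algebraMap R F r ∈ B')
    (n' : Ideal B') [hn' : n'.IsPrime] (h : locSet B' n' = locSet Bx n) : n'.IsMaximal := by
  have hmax : locMaxSet B' n' = locMaxSet Bx n := locMaxSet_eq_of_locSet_eq h
  rw [Ideal.isMaximal_iff]
  refine ⟨(Ideal.ne_top_iff_one n').mp hn'.ne_top, ?_⟩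
  intro J β hle hβ hβJ
  have h1n : (1 : B') ∉ n' := (Ideal.ne_top_iff_one n').mp hn'.ne_top
  have hβ1 : (β : F) ∈ locSet B' n' := ⟨1, β, h1n, by simp⟩
  have hβ2 : (β : F) ∉ locMaxSet B' n' := fun hh => hβ ((coe_mem_locMaxSet_iff B' n' β).mp hh)
  have hβinv : (β : F)⁻¹ ∈ locSet Bx n := h ▸ inv_mem_locSet B' n' hβ1 hβ2
  obtain ⟨p, hp, hpβ⟩ := hBx.exists_monic_eval_mem_locMaxSet q hq n hqn hβinv
  rw [← hmax] at hpβ
  have hβ0 : (β : F) ≠ 0 := coe_ne_zero_of_notMem B' n' hβ
  let _ : Invertible ((β : F)⁻¹) := invertibleOfNonzero (inv_ne_zero hβ0)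
  have hrev := eval₂_reverse_mul_pow (algebraMap R F) ((β : F)⁻¹) p
  rw [invOf_eq_inv, inv_inv] at hrev
  -- `reverse p = X * g + 1`
  set g : R[X] := divX (reverse p) with hg
  have hrp : reverse p = X * g + C 1 := by
    have := X_mul_divX_add (reverse p)
    rw [coeff_zero_reverse, hp.leadingCoeff] at this
    exact this.symm
  let ρ' : R →+* B' := (algebraMap R F).codRestrict B' hR'
  have hsub' : B'.subtype.comp ρ' = algebraMap R F := RingHom.ext (fun r => rfl)
  set γ : B' := eval₂ ρ' β g with hγ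
  have hγcoe : (γ : F) = eval₂ (algebraMap R F) (β : F) g := by
    have := hom_eval₂ g ρ' B'.subtype β
    rw [hsub'] at this
    exact this
  -- `z = β γ + 1` lies in `n'`
  have hz : β * γ + 1 ∈ n' := by
    rw [← coe_mem_locMaxSet_iff B' n']
    have h2 : ((β * γ + 1 : B') : F) =
        eval₂ (algebraMap R F) (β : F)⁻¹ p * ((β ^ p.natDegree : B') : F) := by
      have h3 : eval₂ (algebraMap R F) (β : F) (reverse p) = (β : F) * (γ : F) + 1 := by
        rw [hrp, eval₂_add, eval₂_mul, eval₂_X, eval₂_C, map_one, hγcoe]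
      have h4 : ((β * γ + 1 : B') : F) = (β : F) * (γ : F) + 1 := by push_cast; ring
      rw [h4, ← h3, ← hrev]
      push_cast
      rw [mul_assoc, inv_pow, inv_mul_cancel₀ (pow_ne_zero _ hβ0), mul_one]
    rw [h2]
    exact mul_mem_locMaxSet B' n' hpβ _
  have hzJ : β * γ + 1 ∈ J := hle hz
  have : (1 : B') = (β * γ + 1) - β * γ := by ring
  rw [this]
  exact J.sub_mem hzJ (J.mul_mem_right _ hβJ)

end Closed2


section Final

variable {R F : Type*} [CommRing R] [Field F] [Algebra R F]

/-- **(C3) transport of the local condition (LOC).**  If `A_P` and `A'_{P'}` are the same subring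
of `F`, a statement `∃ a' b' ∈ A' ∖ P', a' g - b' ∈ r` transports to `(A, P)`, for any subset `r`
of `F` stable under multiplication by `A`. -/
theorem loc_transport {A A' : Subring F} {P : Ideal A} {P' : Ideal A'} [P.IsPrime] [P'.IsPrime]
    (h : locSet A' P' = locSet A P) (r : Set F)
    (hr : ∀ (s : A) (z : F), z ∈ r → (s : F) * z ∈ r) {g : F}
    (hg : ∃ a' b' : A', a' ∉ P' ∧ b' ∉ P' ∧ (a' : F) * g - (b' : F) ∈ r) :
    ∃ a b : A, a ∉ P ∧ b ∉ P ∧ (a : F) * g - (b : F) ∈ r := by
  have hmax : locMaxSet A' P' = locMaxSet A P := locMaxSet_eq_of_locSet_eq h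
  have h1n : (1 : A') ∉ P' := (Ideal.ne_top_iff_one P').mp (Ideal.IsPrime.ne_top ‹_›)
  -- elements of `A' ∖ P'` are fractions of elements of `A ∖ P`
  have key : ∀ a' : A', a' ∉ P' → ∃ s t : A, s ∉ P ∧ t ∉ P ∧ (s : F) * (a' : F) = (t : F) := by
    intro a' ha'
    have h1 : (a' : F) ∈ locSet A' P' := ⟨1, a', h1n, by simp⟩
    rw [h] at h1
    obtain ⟨s, t, hs, hst⟩ := h1
    refine ⟨s, t, hs, ?_, hst⟩
    intro ht
    have h2 : (a' : F) ∈ locMaxSet A P := ⟨s, t, hs, ht, hst⟩
    rw [← hmax] at h2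
    exact ha' ((coe_mem_locMaxSet_iff A' P' a').mp h2)
  obtain ⟨a', b', ha', hb', hab⟩ := hg
  obtain ⟨s1, t1, hs1, ht1, h1⟩ := key a' ha'
  obtain ⟨s2, t2, hs2, ht2, h2⟩ := key b' hb'
  have hmul : ∀ {u v : A}, u ∉ P → v ∉ P → u * v ∉ P := fun hu hv huv =>
    (Ideal.IsPrime.mem_or_mem ‹P.IsPrime› huv).elim hu hv
  refine ⟨s2 * t1, s1 * t2, hmul hs2 ht1, hmul hs1 ht2, ?_⟩
  have h3 : ((s2 * t1 : A) : F) * g - ((s1 * t2 : A) : F) =
      ((s1 * s2 : A) : F) * ((a' : F) * g - (b' : F)) := by
    push_cast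
    rw [← h1, ← h2]; ring
  rw [h3]
  exact hr _ _ hab

/-- **(C2) every closed point of the `x`-chart on the fibre over `q` is a closed point of the
`y`-chart or of the `1/y`-chart, with THE SAME local ring** (`y = (a x + b)/(c x + d)`,
`ad - bc ∈ Rˣ`). -/
theorem exists_chart_point {x y : F} {Bx By Byi : Subring F} (hBx : IsChartRing R x Bx)
    (hBy : IsChartRing R y By) (hByi : IsChartRing R y⁻¹ Byi)
    {a b c d : R} (hδ : IsUnit (a * d - b * c))
    (hrel : y * (algebraMap R F c * x + algebraMap R F d) =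
      algebraMap R F a * x + algebraMap R F b)
    (q : R) (hq : (Ideal.span {q}).IsMaximal) (n : Ideal Bx) [hn : n.IsMaximal]
    (hqn : hBx.toRingHom q ∈ n) :
    (∃ n' : Ideal By, n'.IsMaximal ∧ hBy.toRingHom q ∈ n' ∧ locSet By n' = locSet Bx n) ∨
    (∃ n' : Ideal Byi, n'.IsMaximal ∧ hByi.toRingHom q ∈ n' ∧ locSet Byi n' = locSet Bx n) := by
  have hvB : algebraMap R F c * x + algebraMap R F d ∈ Bx :=
    Bx.add_mem (Bx.mul_mem (hBx.algebraMap_mem c) hBx.gen_mem) (hBx.algebraMap_mem d)
  have huB : algebraMap R F a * x + algebraMap R F b ∈ Bx :=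
    Bx.add_mem (Bx.mul_mem (hBx.algebraMap_mem a) hBx.gen_mem) (hBx.algebraMap_mem b)
  have hqF : algebraMap R F q ∈ locMaxSet Bx n :=
    (coe_mem_locMaxSet_iff Bx n (hBx.toRingHom q)).mpr hqn
  -- the common finishing step
  have finish : ∀ {z : F} {B' : Subring F} (hB' : IsChartRing R z B') (n' : Ideal B'),
      n'.IsPrime → locSet B' n' = locSet Bx n →
      ∃ n' : Ideal B', n'.IsMaximal ∧ hB'.toRingHom q ∈ n' ∧ locSet B' n' = locSet Bx n := by
    intro z B' hB' n' hn' h
    refine ⟨n', hBx.isMaximal_of_locSet_eq q hq n hqn hB'.algebraMap_mem n' h, ?_, h⟩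
    rw [← coe_mem_locMaxSet_iff B' n', locMaxSet_eq_of_locSet_eq h]
    exact hqF
  by_cases hv : (⟨_, hvB⟩ : Bx) ∈ n
  · -- then `a x + b ∉ n`
    right
    have hu : (⟨_, huB⟩ : Bx) ∉ n := by
      intro hu
      obtain ⟨δ, hδ'⟩ := hδ
      have h1 : hBx.toRingHom a * ⟨_, hvB⟩ - hBx.toRingHom c * ⟨_, huB⟩ ∈ n :=
        n.sub_mem (n.mul_mem_left _ hv) (n.mul_mem_left _ hu)
      have h2 : hBx.toRingHom a * ⟨_, hvB⟩ - hBx.toRingHom c * ⟨_, huB⟩ =
          hBx.toRingHom (δ : R) := by
        apply Subtype.ext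
        push_cast
        simp only [IsChartRing.coe_toRingHom]
        rw [hδ', map_sub, map_mul, map_mul]
        ring
      rw [h2] at h1
      have h3 : (1 : Bx) ∈ n := by
        have := n.mul_mem_left (hBx.toRingHom ((δ⁻¹ : Rˣ) : R)) h1
        rwa [← map_mul, Units.inv_mul, map_one] at this
      exact (Ideal.ne_top_iff_one n).mp hn.ne_top h3
    have hu0 : algebraMap R F a * x + algebraMap R F b ≠ 0 := by
      intro h0
      apply hu
      have : (⟨_, huB⟩ : Bx) = 0 := Subtype.ext h0
      rw [this]; exact n.zero_mem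
    have hy0 : y ≠ 0 := by
      intro h0; rw [h0, zero_mul] at hrel; exact hu0 hrel.symm
    have hrel' : y⁻¹ * (algebraMap R F a * x + algebraMap R F b) =
        algebraMap R F c * x + algebraMap R F d := by
      rw [← hrel, ← mul_assoc, inv_mul_cancel₀ hy0, one_mul]
    have hδ' : IsUnit (c * b - d * a) := by
      have : c * b - d * a = -(a * d - b * c) := by ring
      rw [this]; exact hδ.neg
    obtain ⟨n', hn', h⟩ := moebius_sameLocal hBx hByi hδ' hrel' n
      (fun v hvv hmem => hu (by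
        have : v = ⟨_, huB⟩ := Subtype.ext hvv
        rwa [this] at hmem))
    exact finish hByi n' hn' h
  · left
    obtain ⟨n', hn', h⟩ := moebius_sameLocal hBx hBy hδ hrel n
      (fun v hvv hmem => hv (by
        have : v = ⟨_, hvB⟩ := Subtype.ext hvv
        rwa [this] at hmem))
    exact finish hBy n' hn' h

end Final


section JChart

variable {R F : Type*} [CommRing R] [Field F] [Algebra R F]

/-- the chart `U₂ = {h ≠ 0}` of the CECH-KUMMER frame is the affine line with coordinate
`s = 1/(j1 - t2)`. -/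
theorem isChartRing_of_inv (P1 : R[X]) (t2 : R) (hu : IsUnit (P1.eval t2)) {j1 h : F}
    (hh : h * aeval j1 P1 = (j1 - algebraMap R F t2) ^ (P1.natDegree + 1))
    (hne : j1 ≠ algebraMap R F t2) {B2 : Subring F} (hB2 : IsChartRing R h⁻¹ B2) :
    IsChartRing R (j1 - algebraMap R F t2)⁻¹ B2 :=
  fun f => (hB2 f).trans (isIntegral_adjoin_inv_iff P1 t2 hu hh hne f)

/-- the Moebius relation between `j` and `s = 1/(j1 - t2)`, `j1 = 1/(j - t0)`:
`j = ((1 + t2 t0) s + t0)/(t2 s + 1)`, of determinant `1`. -/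
theorem moebius_rel_j (t0 t2 : R) {j j1 : F} (hj1 : j1 * (j - algebraMap R F t0) = 1)
    (hne : j1 ≠ algebraMap R F t2) :
    j * (algebraMap R F t2 * (j1 - algebraMap R F t2)⁻¹ + algebraMap R F 1) =
      algebraMap R F (1 + t2 * t0) * (j1 - algebraMap R F t2)⁻¹ + algebraMap R F t0 := by
  have hw0 : j1 - algebraMap R F t2 ≠ 0 := sub_ne_zero.mpr hne
  rw [map_one, map_add, map_one, map_mul]
  field_simp
  linear_combination hj1

/-- **(A3) change of chart, final form.**  The local condition (LOC) of `CechKummer.exists_section`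
at every closed point of `U₂ = Spec B2` (`B2` = normalisation of `R[1/h]`) over `q` follows from
the same condition at the closed points over `q` of the two standard charts of the `j`-line
(`Bj` = normalisation of `R[j]`, `Bji` = normalisation of `R[1/j]`). -/
theorem hloc_of_j_frame (P1 : R[X]) (t0 t2 : R) (hu : IsUnit (P1.eval t2)) {j j1 h : F}
    (hj1 : j1 * (j - algebraMap R F t0) = 1)
    (hh : h * aeval j1 P1 = (j1 - algebraMap R F t2) ^ (P1.natDegree + 1))
    (hne : j1 ≠ algebraMap R F t2) {B2 Bj Bji : Subring F} (hB2 : IsChartRing R h⁻¹ B2)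
    (hBj : IsChartRing R j Bj) (hBji : IsChartRing R j⁻¹ Bji)
    (q : R) (hq : (Ideal.span {q}).IsMaximal)
    (M r : Set F) (hr : ∀ (s : B2) (z : F), z ∈ r → (s : F) * z ∈ r)
    (hlocj : ∀ n' : Ideal Bj, n'.IsMaximal → hBj.toRingHom q ∈ n' →
      ∃ g ∈ M, ∃ a b : Bj, a ∉ n' ∧ b ∉ n' ∧ (a : F) * g - (b : F) ∈ r)
    (hlocji : ∀ n' : Ideal Bji, n'.IsMaximal → hBji.toRingHom q ∈ n' →
      ∃ g ∈ M, ∃ a b : Bji, a ∉ n' ∧ b ∉ n' ∧ (a : F) * g - (b : F) ∈ r)
    (n : Ideal B2) [hn : n.IsMaximal] (hqn : hB2.toRingHom q ∈ n) :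
    ∃ g ∈ M, ∃ a b : B2, a ∉ n ∧ b ∉ n ∧ (a : F) * g - (b : F) ∈ r := by
  have hBs := isChartRing_of_inv P1 t2 hu hh hne hB2
  have hδ : IsUnit ((1 + t2 * t0) * 1 - t0 * t2) := by
    have : (1 + t2 * t0) * 1 - t0 * t2 = 1 := by ring
    rw [this]; exact isUnit_one
  have hnp : n.IsPrime := hn.isPrime
  rcases exists_chart_point hBs hBj hBji hδ (moebius_rel_j t0 t2 hj1 hne) q hq n hqn with
    ⟨n', hn', hqn', h⟩ | ⟨n', hn', hqn', h⟩
  · obtain ⟨g, hgM, hg⟩ := hlocj n' hn' hqn'
    have := hn'.isPrime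
    exact ⟨g, hgM, loc_transport h r hr hg⟩
  · obtain ⟨g, hgM, hg⟩ := hlocji n' hn' hqn'
    have := hn'.isPrime
    exact ⟨g, hgM, loc_transport h r hr hg⟩

end JChart

end Fermat.Agent.GL.ChartChange
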