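/-
GATE-L / J-FRAME ADAPTER (helper11).

Glue between the LOCAL producers on the standard frames of the `j`-line
(`Bj` = normalisation of `R[j]`, `Bji` = normalisation of `R[1/j]`; helper47 `LocTypeI.exists_locAt`,
helper35 `LocTypeIII.loc_typeIII`, whose output is a local generator `g` with
`g ^ m * u = c ∈ Bj` and `a g - b ∈ rad`, `a b ∈ Bj ∖ 𝔫'`) and the CECH-KUMMER consumer on the
`u`-DEPENDENT chart `B2` = normalisation of `R[1/h]` (helper28 `exists_section_ambient.hloc`: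
`g ∈ M = {f ∈ B12 | f ^ m * u ∈ B2}`, `a b ∈ B2 ∖ 𝔫`, `a g - b ∈ rad (q B12)`).

* `hloc_of_j_frame_same` : helper13's `ChartChange.hloc_of_j_frame` with the local hypotheses
  asked ONLY at the closed points `𝔫'` of the `j`/`1/j`-frames which ARE the given point of
  `U₂ = Spec B2` (same local ring inside `F`).  (At a point of the `j`-frame outside `U₂` the
  condition `g ∈ M` cannot be produced locally.)
* `adjust_mem_M` : a local generator whose `m`-th power times `u` lies in the FRAME ring is moved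
  into `M` (multiplication by an element of `B2 ∖ 𝔫` clearing the `B2`-denominator), keeping the
  (LOC) relation on the frame.
* `hloc_chart_of_j_frames` : the assembled statement, conclusion = the `hloc` conjunct of
  `exists_section_ambient` at every maximal ideal of `B2` (points off the fibre: `g = 0`).

Mathlib + `GL/Frame/ChartChange.lean` only.
-/
import Mathlib
import Fermat.Agent.GL.Frame.ChartChange

set_option autoImplicit false

namespace Fermat.Agent.GL.Frame.JFrameAdapter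

open Polynomial Fermat.Agent.GL.ChartChange

/-! ### (G1) the transport, asked only at the points of `U₂` -/

section Same

variable {R F : Type*} [CommRing R] [Field F] [Algebra R F]

/-- helper13's `hloc_of_j_frame`, with the hypotheses on the `j`- and `1/j`-frames restricted to
the closed points having THE SAME local ring as the given point `n` of `B2`. -/
theorem hloc_of_j_frame_same (P1 : R[X]) (t0 t2 : R) (hu : IsUnit (P1.eval t2)) {j j1 h : F}
    (hj1 : j1 * (j - algebraMap R F t0) = 1)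
    (hh : h * aeval j1 P1 = (j1 - algebraMap R F t2) ^ (P1.natDegree + 1))
    (hne : j1 ≠ algebraMap R F t2) {B2 Bj Bji : Subring F} (hB2 : IsChartRing R h⁻¹ B2)
    (hBj : IsChartRing R j Bj) (hBji : IsChartRing R j⁻¹ Bji)
    (q : R) (hq : (Ideal.span {q}).IsMaximal)
    (M r : Set F) (hr : ∀ (s : B2) (z : F), z ∈ r → (s : F) * z ∈ r)
    (n : Ideal B2) [hn : n.IsMaximal] (hqn : hB2.toRingHom q ∈ n)
    (hlocj : ∀ n' : Ideal Bj, n'.IsMaximal → hBj.toRingHom q ∈ n' →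
      locSet Bj n' = locSet B2 n →
      ∃ g ∈ M, ∃ a b : Bj, a ∉ n' ∧ b ∉ n' ∧ (a : F) * g - (b : F) ∈ r)
    (hlocji : ∀ n' : Ideal Bji, n'.IsMaximal → hBji.toRingHom q ∈ n' →
      locSet Bji n' = locSet B2 n →
      ∃ g ∈ M, ∃ a b : Bji, a ∉ n' ∧ b ∉ n' ∧ (a : F) * g - (b : F) ∈ r) :
    ∃ g ∈ M, ∃ a b : B2, a ∉ n ∧ b ∉ n ∧ (a : F) * g - (b : F) ∈ r := by
  have hBs := isChartRing_of_inv P1 t2 hu hh hne hB2
  have hδ : IsUnit ((1 + t2 * t0) * 1 - t0 * t2) := by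
    have : (1 + t2 * t0) * 1 - t0 * t2 = 1 := by ring
    rw [this]; exact isUnit_one
  have hnp : n.IsPrime := hn.isPrime
  rcases exists_chart_point hBs hBj hBji hδ (moebius_rel_j t0 t2 hj1 hne) q hq n hqn with
    ⟨n', hn', hqn', h⟩ | ⟨n', hn', hqn', h⟩
  · obtain ⟨g, hgM, hg⟩ := hlocj n' hn' hqn' h
    have := hn'.isPrime
    exact ⟨g, hgM, loc_transport h r hr hg⟩
  · obtain ⟨g, hgM, hg⟩ := hlocji n' hn' hqn' h
    have := hn'.isPrime
    exact ⟨g, hgM, loc_transport h r hr hg⟩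

end Same

/-! ### (G2) moving a local generator into `M` -/

section Adjust

variable {F : Type*} [Field F]

/-- an element of `A ∖ P` is a fraction of two elements of `A' ∖ P'` when `A_P = A'_{P'}`. -/
theorem exists_frac_of_notMem {A A' : Subring F} {P : Ideal A} {P' : Ideal A'} [P.IsPrime]
    [P'.IsPrime] (h : locSet A' P' = locSet A P) (s : A) (hs : s ∉ P) :
    ∃ s2 s1 : A', s2 ∉ P' ∧ s1 ∉ P' ∧ (s2 : F) * (s : F) = (s1 : F) := by
  have h1n : (1 : A) ∉ P := (Ideal.ne_top_iff_one P).mp (Ideal.IsPrime.ne_top ‹_›)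
  have h1 : (s : F) ∈ locSet A P := ⟨1, s, h1n, by simp⟩
  rw [← h] at h1
  obtain ⟨s2, s1, hs2, hst⟩ := h1
  refine ⟨s2, s1, hs2, ?_, hst⟩
  intro hs1
  have h2 : (s : F) ∈ locMaxSet A' P' := ⟨s2, s1, hs2, hs1, hst⟩
  rw [locMaxSet_eq_of_locSet_eq h] at h2
  exact hs ((coe_mem_locMaxSet_iff A P s).mp h2)

/-- **moving a local generator into `M`.**  `A = B2` the chart, `A' = Bj` the frame, with the same
local ring at `P`, `P'`.  From `g ^ m * u = c ∈ A'` and the (LOC) relation `a g - b ∈ r` on the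
frame we get `g' = s g` (`s ∈ A ∖ P`) with `g' ^ m * u ∈ A`, `g' ∈ B12`, and again a (LOC) relation on
the frame. -/
theorem adjust_mem_M {A A' : Subring F} {P : Ideal A} {P' : Ideal A'} [P.IsPrime] [P'.IsPrime]
    (h : locSet A' P' = locSet A P) (B12 : Subring F) (hle : A ≤ B12) {m : ℕ} (hm : m ≠ 0)
    {u : F} (hu0 : u ≠ 0) (hu12 : u⁻¹ ∈ B12) (hrc : ∀ y : F, y ^ m ∈ B12 → y ∈ B12)
    (r : Set F) (hr' : ∀ (s : A') (z : F), z ∈ r → (s : F) * z ∈ r)
    {g : F} {c : A'} (hgc : g ^ m * u = (c : F))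
    (hg : ∃ a b : A', a ∉ P' ∧ b ∉ P' ∧ (a : F) * g - (b : F) ∈ r) :
    ∃ g' : F, g' ∈ B12 ∧ (∃ t : A, g' ^ m * u = (t : F)) ∧
      ∃ a b : A', a ∉ P' ∧ b ∉ P' ∧ (a : F) * g' - (b : F) ∈ r := by
  have h1n' : (1 : A') ∉ P' := (Ideal.ne_top_iff_one P').mp (Ideal.IsPrime.ne_top ‹_›)
  -- clear the `A`-denominator of `c`
  have hc : (c : F) ∈ locSet A P := by
    rw [← h]; exact ⟨1, c, h1n', by simp⟩
  obtain ⟨s, t, hs, hst⟩ := hc
  obtain ⟨s2, s1, hs2, hs1, hs21⟩ := exists_frac_of_notMem h s hs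
  obtain ⟨a, b, ha, hb, hab⟩ := hg
  have hpow : ((s : F) * g) ^ m * u = ((s ^ (m - 1) * t : A) : F) := by
    have e1 : ((s ^ (m - 1) * t : A) : F) = (s : F) ^ (m - 1) * (t : F) := by push_cast; rfl
    rw [e1, ← hst, mul_pow, ← pow_sub_one_mul hm (s : F), ← hgc]
    ring
  refine ⟨(s : F) * g, ?_, ⟨s ^ (m - 1) * t, hpow⟩, a * s2, s1 * b, ?_, ?_, ?_⟩
  · apply hrc
    have : ((s : F) * g) ^ m = ((s ^ (m - 1) * t : A) : F) * u⁻¹ := by
      rw [← hpow, mul_assoc, mul_inv_cancel₀ hu0, mul_one]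
    rw [this]
    exact B12.mul_mem (hle (s ^ (m - 1) * t).2) hu12
  · exact fun hmem => (Ideal.IsPrime.mem_or_mem ‹_› hmem).elim ha hs2
  · exact fun hmem => (Ideal.IsPrime.mem_or_mem ‹_› hmem).elim hs1 hb
  · have : ((a * s2 : A') : F) * ((s : F) * g) - ((s1 * b : A') : F) =
        (s1 : F) * ((a : F) * g - (b : F)) := by
      push_cast
      have e2 : (a : F) * (s2 : F) * ((s : F) * g) = (a : F) * g * ((s2 : F) * (s : F)) := by ring
      rw [e2, hs21]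
      ring
    rw [this]
    exact hr' s1 _ hab

end Adjust

/-! ### The assembled statement -/

section Assembled

variable {R F : Type*} [CommRing R] [Field F] [Algebra R F]

/-- **(LOC) on the `u`-dependent chart from the local producers on the `j`-frames.**

* chart data `(P1, t0, t2, j, j1, h)` = helper8 `exists_chart` / helper13 recipe;
* `B12 ⊇ B2` `m`-root closed, `u⁻¹ ∈ B12` (`u ∈ B1ˣ`);
* `r` = the vertical radical of `F` (`{z | ∀ i, z ∈ (W i).nonunits}`), stable under the three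
  chart rings, containing `q`;
* `hlocj`, `hlocji` = OUTPUT SHAPE of `LocTypeI.exists_locAt` / `LocTypeIII.loc_typeIII` on the
  frames `Bj`, `Bji` (called with `B12' := ⊤`), asked only at points of `U₂`.

Conclusion: at EVERY maximal ideal `n` of `B2` there are `g ∈ B12` with `g ^ m * u ∈ B2` and
`a b ∈ B2 ∖ n` with `a g - b ∈ B12` and `a g - b ∈ r`. -/
theorem hloc_chart_of_j_frames (P1 : R[X]) (t0 t2 : R) (hu : IsUnit (P1.eval t2)) {j j1 h : F}
    (hj1 : j1 * (j - algebraMap R F t0) = 1)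
    (hh : h * aeval j1 P1 = (j1 - algebraMap R F t2) ^ (P1.natDegree + 1))
    (hne : j1 ≠ algebraMap R F t2) {B2 Bj Bji : Subring F} (hB2 : IsChartRing R h⁻¹ B2)
    (hBj : IsChartRing R j Bj) (hBji : IsChartRing R j⁻¹ Bji)
    (q : R) (hq : (Ideal.span {q}).IsMaximal)
    (B12 : Subring F) (hle : B2 ≤ B12) {m : ℕ} (hm : m ≠ 0)
    {u : F} (hu0 : u ≠ 0) (hu12 : u⁻¹ ∈ B12) (hrc : ∀ y : F, y ^ m ∈ B12 → y ∈ B12)
    (r : Set F) (hr2 : ∀ (s : B2) (z : F), z ∈ r → (s : F) * z ∈ r)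
    (hrj : ∀ (s : Bj) (z : F), z ∈ r → (s : F) * z ∈ r)
    (hrji : ∀ (s : Bji) (z : F), z ∈ r → (s : F) * z ∈ r)
    (hqr : algebraMap R F q ∈ r)
    (hlocj : ∀ (n : Ideal B2) (n' : Ideal Bj), n.IsMaximal → n'.IsMaximal →
      hB2.toRingHom q ∈ n → hBj.toRingHom q ∈ n' → locSet Bj n' = locSet B2 n →
      ∃ g : F, (∃ c : Bj, g ^ m * u = (c : F)) ∧
        ∃ a b : Bj, a ∉ n' ∧ b ∉ n' ∧ (a : F) * g - (b : F) ∈ r)
    (hlocji : ∀ (n : Ideal B2) (n' : Ideal Bji), n.IsMaximal → n'.IsMaximal →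
      hB2.toRingHom q ∈ n → hBji.toRingHom q ∈ n' → locSet Bji n' = locSet B2 n →
      ∃ g : F, (∃ c : Bji, g ^ m * u = (c : F)) ∧
        ∃ a b : Bji, a ∉ n' ∧ b ∉ n' ∧ (a : F) * g - (b : F) ∈ r)
    (n : Ideal B2) (hn : n.IsMaximal) :
    ∃ g : F, g ∈ B12 ∧ g ^ m * u ∈ B2 ∧
      ∃ a b : B2, a ∉ n ∧ b ∉ n ∧ (a : F) * g - (b : F) ∈ B12 ∧ (a : F) * g - (b : F) ∈ r := by
  have hnp : n.IsPrime := hn.isPrime
  by_cases hqn : hB2.toRingHom q ∈ n
  · -- a point of the fibre: transport from the `j`-frames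
    set M : Set F := {f | f ∈ B12 ∧ f ^ m * u ∈ B2} with hM
    have key := hloc_of_j_frame_same P1 t0 t2 hu hj1 hh hne hB2 hBj hBji q hq M r hr2 n hqn
      (fun n' hn' hqn' hsame => by
        have := hn'.isPrime
        obtain ⟨g, ⟨c, hgc⟩, hg⟩ := hlocj n n' hn hn' hqn hqn' hsame
        obtain ⟨g', hg'B, ⟨t, hg't⟩, hg'⟩ :=
          adjust_mem_M hsame B12 hle hm hu0 hu12 hrc r hrj hgc hg
        exact ⟨g', ⟨hg'B, hg't ▸ t.2⟩, hg'⟩)
      (fun n' hn' hqn' hsame => by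
        have := hn'.isPrime
        obtain ⟨g, ⟨c, hgc⟩, hg⟩ := hlocji n n' hn hn' hqn hqn' hsame
        obtain ⟨g', hg'B, ⟨t, hg't⟩, hg'⟩ :=
          adjust_mem_M hsame B12 hle hm hu0 hu12 hrc r hrji hgc hg
        exact ⟨g', ⟨hg'B, hg't ▸ t.2⟩, hg'⟩)
    obtain ⟨g, ⟨hgB, hgu⟩, a, b, ha, hb, hab⟩ := key
    exact ⟨g, hgB, hgu, a, b, ha, hb,
      B12.sub_mem (B12.mul_mem (hle a.2) hgB) (hle b.2), hab⟩
  · -- off the fibre: `g = 0`, `a = 1`, `b = q`
    have h1n : (1 : B2) ∉ n := (Ideal.ne_top_iff_one n).mp hnp.ne_top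
    refine ⟨0, B12.zero_mem, ?_, 1, hB2.toRingHom q, h1n, hqn, ?_, ?_⟩
    · rw [zero_pow hm, zero_mul]; exact B2.zero_mem
    · rw [mul_zero, zero_sub]
      exact B12.neg_mem (hle (hB2.toRingHom q).2)
    · rw [mul_zero, zero_sub, IsChartRing.coe_toRingHom]
      have := hr2 (-1) _ hqr
      simpa using this

/-- the same with the vertical radical given by a family of valuation subrings. -/
theorem hloc_chart_of_j_frames_val {ι : Type*} (W : ι → ValuationSubring F)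
    (P1 : R[X]) (t0 t2 : R) (hu : IsUnit (P1.eval t2)) {j j1 h : F}
    (hj1 : j1 * (j - algebraMap R F t0) = 1)
    (hh : h * aeval j1 P1 = (j1 - algebraMap R F t2) ^ (P1.natDegree + 1))
    (hne : j1 ≠ algebraMap R F t2) {B2 Bj Bji : Subring F} (hB2 : IsChartRing R h⁻¹ B2)
    (hBj : IsChartRing R j Bj) (hBji : IsChartRing R j⁻¹ Bji)
    (q : R) (hq : (Ideal.span {q}).IsMaximal)
    (hW2 : ∀ i, ∀ b : B2, (b : F) ∈ W i) (hWj : ∀ i, ∀ b : Bj, (b : F) ∈ W i)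
    (hWji : ∀ i, ∀ b : Bji, (b : F) ∈ W i) (hqW : ∀ i, algebraMap R F q ∈ (W i).nonunits)
    (B12 : Subring F) (hle : B2 ≤ B12) {m : ℕ} (hm : m ≠ 0)
    {u : F} (hu0 : u ≠ 0) (hu12 : u⁻¹ ∈ B12) (hrc : ∀ y : F, y ^ m ∈ B12 → y ∈ B12)
    (hlocj : ∀ (n : Ideal B2) (n' : Ideal Bj), n.IsMaximal → n'.IsMaximal →
      hB2.toRingHom q ∈ n → hBj.toRingHom q ∈ n' → locSet Bj n' = locSet B2 n →
      ∃ g : F, (∃ c : Bj, g ^ m * u = (c : F)) ∧
        ∃ a b : Bj, a ∉ n' ∧ b ∉ n' ∧ ∀ i, (a : F) * g - (b : F) ∈ (W i).nonunits)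
    (hlocji : ∀ (n : Ideal B2) (n' : Ideal Bji), n.IsMaximal → n'.IsMaximal →
      hB2.toRingHom q ∈ n → hBji.toRingHom q ∈ n' → locSet Bji n' = locSet B2 n →
      ∃ g : F, (∃ c : Bji, g ^ m * u = (c : F)) ∧
        ∃ a b : Bji, a ∉ n' ∧ b ∉ n' ∧ ∀ i, (a : F) * g - (b : F) ∈ (W i).nonunits)
    (n : Ideal B2) (hn : n.IsMaximal) :
    ∃ g : F, g ∈ B12 ∧ g ^ m * u ∈ B2 ∧
      ∃ a b : B2, a ∉ n ∧ b ∉ n ∧ (a : F) * g - (b : F) ∈ B12 ∧
        ∀ i, (a : F) * g - (b : F) ∈ (W i).nonunits := by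
  have hmul : ∀ {B : Subring F}, (∀ i, ∀ b : B, (b : F) ∈ W i) →
      ∀ (s : B) (z : F), z ∈ {z : F | ∀ i, z ∈ (W i).nonunits} →
        (s : F) * z ∈ {z : F | ∀ i, z ∈ (W i).nonunits} := by
    intro B hB s z hz i
    have h1 : (W i).valuation (s : F) ≤ 1 := ((W i).valuation_le_one_iff _).mpr (hB i s)
    have h2 : (W i).valuation z < 1 := (ValuationSubring.mem_nonunits_iff (A := W i)).mp (hz i)
    show (s : F) * z ∈ (W i).nonunits
    rw [ValuationSubring.mem_nonunits_iff, map_mul]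
    calc (W i).valuation (s : F) * (W i).valuation z ≤ 1 * (W i).valuation z :=
          mul_le_mul_left h1 _
      _ = (W i).valuation z := one_mul _
      _ < 1 := h2
  exact hloc_chart_of_j_frames P1 t0 t2 hu hj1 hh hne hB2 hBj hBji q hq B12 hle hm hu0 hu12 hrc
    {z : F | ∀ i, z ∈ (W i).nonunits} (hmul hW2) (hmul hWj) (hmul hWji) hqW hlocj hlocji n hn

/-- **the `hloc` binder of helper28's `CechKummer.exists_section_ambient`, VERBATIM** (`B2`, `B12`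
subalgebras, `M` a submodule containing `{f ∈ B12 | f ^ m * u ∈ B2}`, `rad` an additive subgroup
containing `{z ∈ B12 | ∀ i, z ∈ (W i).nonunits}`). -/
theorem hloc_ambient_of_j_frames {ι : Type*} (W : ι → ValuationSubring F)
    (P1 : R[X]) (t0 t2 : R) (hu : IsUnit (P1.eval t2)) {j j1 h : F}
    (hj1 : j1 * (j - algebraMap R F t0) = 1)
    (hh : h * aeval j1 P1 = (j1 - algebraMap R F t2) ^ (P1.natDegree + 1))
    (hne : j1 ≠ algebraMap R F t2) {B2 : Subalgebra R F} {Bj Bji : Subring F}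
    (hB2 : IsChartRing R h⁻¹ B2.toSubring)
    (hBj : IsChartRing R j Bj) (hBji : IsChartRing R j⁻¹ Bji)
    (q : R) (hq : (Ideal.span {q}).IsMaximal)
    (hW2 : ∀ i, ∀ b : B2, (b : F) ∈ W i) (hWj : ∀ i, ∀ b : Bj, (b : F) ∈ W i)
    (hWji : ∀ i, ∀ b : Bji, (b : F) ∈ W i) (hqW : ∀ i, algebraMap R F q ∈ (W i).nonunits)
    (B12 : Subalgebra R F) (hle : B2 ≤ B12) {m : ℕ} (hm : m ≠ 0)
    {u : F} (hu0 : u ≠ 0) (hu12 : u⁻¹ ∈ B12) (hrc : ∀ y : F, y ^ m ∈ B12 → y ∈ B12)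
    (M : Submodule R F) (hM : ∀ f : F, f ∈ B12 → f ^ m * u ∈ B2 → f ∈ M)
    (rad : AddSubgroup F) (hrad : ∀ z : F, z ∈ B12 → (∀ i, z ∈ (W i).nonunits) → z ∈ rad)
    (hlocj : ∀ (n : Ideal B2.toSubring) (n' : Ideal Bj), n.IsMaximal → n'.IsMaximal →
      hB2.toRingHom q ∈ n → hBj.toRingHom q ∈ n' → locSet Bj n' = locSet B2.toSubring n →
      ∃ g : F, (∃ c : Bj, g ^ m * u = (c : F)) ∧
        ∃ a b : Bj, a ∉ n' ∧ b ∉ n' ∧ ∀ i, (a : F) * g - (b : F) ∈ (W i).nonunits)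
    (hlocji : ∀ (n : Ideal B2.toSubring) (n' : Ideal Bji), n.IsMaximal → n'.IsMaximal →
      hB2.toRingHom q ∈ n → hBji.toRingHom q ∈ n' → locSet Bji n' = locSet B2.toSubring n →
      ∃ g : F, (∃ c : Bji, g ^ m * u = (c : F)) ∧
        ∃ a b : Bji, a ∉ n' ∧ b ∉ n' ∧ ∀ i, (a : F) * g - (b : F) ∈ (W i).nonunits) :
    ∀ 𝔫 : Ideal B2, 𝔫.IsMaximal →
      ∃ g ∈ M, ∃ a b : B2, a ∉ 𝔫 ∧ b ∉ 𝔫 ∧ (a : F) * g - (b : F) ∈ rad := by
  intro 𝔫 h𝔫
  obtain ⟨g, hgB, hgu, a, b, ha, hb, habB, habW⟩ :=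
    hloc_chart_of_j_frames_val W P1 t0 t2 hu hj1 hh hne hB2 hBj hBji q hq hW2 hWj hWji hqW
      B12.toSubring hle hm hu0 hu12 hrc hlocj hlocji 𝔫 h𝔫
  exact ⟨g, hM g hgB hgu, a, b, ha, hb, hrad _ habB habW⟩

end Assembled

end Fermat.Agent.GL.Frame.JFrameAdapter
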