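/-
GATE-L / J-FRAME ADAPTER, part 2 (helper11): the local producers in the input shape of
`JFrameAdapter.hloc_chart_of_j_frames_val`.

`Bf` = a frame ring of the `j`-line (`Bj` or `Bji`), noetherian, integrally closed, `Frac Bf = F`;
`W : ι → ValuationSubring F` the vertical valuation rings (chart independent);
`vert : Finset (HtOne Bf)` the vertical height-one primes of the frame, with every `W i` of the form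
`V1 F p`, `p ∈ vert` (helper80 FrameInst (A2)).

* `hloc_of_locAt` : `LocGlue.LocAt (V1 F) Bf B12' vert 𝔫' g` + `g ^ m * u = c ∈ Bf`
  ⟹ the `hlocj` conclusion.
* `hloc_typeI` : helper47 `LocTypeI.exists_locAt` called with `B12' := ⊤`.
* `hloc_typeIII` : helper35 `LocTypeIII.loc_typeIII` called with `B12' := ⊤`.
-/
import Fermat.Agent.GL.Frame.JFrameAdapter
import Fermat.Agent.GL.Frame.LocTypeI
import Fermat.Agent.GL.Loc.LocTypeIII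

set_option autoImplicit false
set_option linter.unusedSectionVars false

namespace Fermat.Agent.GL.Frame.JFrameLoc

open Fermat.Agent.GL Fermat.Agent.GL.KrullFrame Fermat.Agent.GL.Frame.HeightOne
  Fermat.Agent.GL.Frame.Kummer Fermat.Agent.GL.LocGlue Fermat.Agent.GL.LocBranch

variable {F : Type*} [Field F] {Bf : Subring F} [IsFractionRing Bf F]
  [IsNoetherianRing Bf] [IsIntegrallyClosed Bf]

/-- from `LocAt` on a frame to the `hlocj` conclusion of `hloc_chart_of_j_frames_val`. -/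
theorem hloc_of_locAt {ι : Type*} (W : ι → ValuationSubring F) (vert : Finset (HtOne Bf))
    (hW : ∀ i, ∃ p ∈ vert, V1 F p = W i) (B12' : Subring F) (𝔫' : Ideal Bf) {m : ℕ} {u g : F}
    (hc : ∃ c : Bf, g ^ m * u = (c : F))
    (h : LocAt (V1 (B := Bf) F) Bf B12' vert 𝔫' g) :
    ∃ g : F, (∃ c : Bf, g ^ m * u = (c : F)) ∧
      ∃ a b : Bf, a ∉ 𝔫' ∧ b ∉ 𝔫' ∧ ∀ i, (a : F) * g - (b : F) ∈ (W i).nonunits := by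
  obtain ⟨a, b, ha, hb, -, hab⟩ := h
  refine ⟨g, hc, a, b, ha, hb, fun i => ?_⟩
  obtain ⟨p, hp, hpW⟩ := hW i
  rw [← hpW]
  exact hab p hp

/-- **type I/II point of a `j`-frame**: helper47's `exists_locAt` with `B12' := ⊤`, in the `hlocj`
shape. -/
theorem hloc_typeI {ι : Type*} (W : ι → ValuationSubring F) (vert : Finset (HtOne Bf))
    (hW : ∀ i, ∃ p ∈ vert, V1 F p = W i)
    (𝔫 : Ideal Bf) [𝔫.IsPrime]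
    {𝔭₀ : HtOne Bf} (h𝔭₀ : 𝔭₀ ∈ vert) (h𝔭𝔫 : 𝔭₀.1 ≤ 𝔫)
    (hbr : ∀ j ∈ vert, j ≠ 𝔭₀ → ¬ j.1 ≤ 𝔫)
    {π : Bf} (hπne : π ≠ 0) (hπ0 : π ∈ 𝔭₀.1)
    (hgen : ∀ f ∈ 𝔭₀.1, ∃ s : Bf, s ∉ 𝔭₀.1 ∧ π ∣ s * f)
    (hother : ∀ 𝔮 : HtOne Bf, 𝔮 ≠ 𝔭₀ → 𝔮.1 ≤ 𝔫 → π ∉ 𝔮.1)
    (hval : ∀ a b : Bf, ∃ c s : Bf, s ∉ 𝔫 ∧ (s * a - c * b ∈ 𝔭₀.1 ∨ s * b - c * a ∈ 𝔭₀.1))
    {m : ℕ} (hm : m ≠ 0) {u : F}
    (hu : ∀ j ∈ vert, u - 1 ∈ (V1 F j).nonunits)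
    (hord : ∀ 𝔭 : HtOne Bf, 𝔭 ∉ vert → 𝔭.1 ≤ 𝔫 → ∃ z : F, z ≠ 0 ∧ UnitAt 𝔭 (u * z ^ m)) :
    ∃ g : F, (∃ c : Bf, g ^ m * u = (c : F)) ∧
      ∃ a b : Bf, a ∉ 𝔫 ∧ b ∉ 𝔫 ∧ ∀ i, (a : F) * g - (b : F) ∈ (W i).nonunits := by
  obtain ⟨g, -, ⟨c, -, hgc⟩, hloc⟩ :=
    LocTypeI.exists_locAt (F := F) (B2 := Bf) ⊤ le_top vert 𝔫 h𝔭₀ h𝔭𝔫 hbr hπne hπ0 hgen hother
      hval hm hu (Subring.mem_top _) (fun y _ => Subring.mem_top y) hord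
  exact hloc_of_locAt W vert hW ⊤ 𝔫 ⟨c, hgc⟩ hloc

/-- **type III (triple) point of a `j`-frame**: helper35's `loc_typeIII` with `B12' := ⊤`, in the
`hlocj` shape. -/
theorem hloc_typeIII {ι : Type*} (W : ι → ValuationSubring F) (vert : Finset (HtOne Bf))
    (hW : ∀ i, ∃ p ∈ vert, V1 F p = W i) {m : ℕ}
    (𝔫 : Ideal Bf) [𝔫.IsPrime]
    (V' : HtOne Bf → ValuationSubring F) (br : Finset (HtOne Bf)) (hbrne : br.Nonempty)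
    (hbr : ∀ j, j ∈ br ↔ j ∈ vert ∧ j.1 ≤ 𝔫)
    (hV' : ∀ j ∈ br, V' j ≤ V1 F j)
    (hB2V' : ∀ j ∈ br, ∀ b : Bf, (b : F) ∈ V' j)
    (hcentre : ∀ j ∈ br, ∀ b : Bf, (b : F) ∈ (V' j).nonunits → b ∈ 𝔫)
    (hm : (m : Bf) ∉ 𝔫) {u : F} (hu : ∀ j ∈ vert, u - 1 ∈ (V1 F j).nonunits)
    {g : F} {c : Bf} (hgc : g ^ m * u = c)
    (N : ℕ)
    (hcond : ∀ z ∈ (branchJac br V') ^ N, ∃ c₀ : Bf, c₀ ∉ 𝔫 ∧ ∃ b : Bf,
      ∀ j ∈ br, (c₀ : F) * (z : F) - (b : F) ∈ (V1 F j).nonunits)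
    {b₀ : Bf} (hb₀ : b₀ ∉ 𝔫) (hξ : ∀ j ∈ br, g - (b₀ : F) ∈ (V' j).nonunits) :
    ∃ g : F, (∃ c : Bf, g ^ m * u = (c : F)) ∧
      ∃ a b : Bf, a ∉ 𝔫 ∧ b ∉ 𝔫 ∧ ∀ i, (a : F) * g - (b : F) ∈ (W i).nonunits := by
  obtain ⟨-, hloc⟩ :=
    LocTypeIII.loc_typeIII Bf ⊤ le_top (fun y _ => Subring.mem_top y) vert 𝔫 V' br hbrne hbr hV'
      hB2V' hcentre hm hu (Subring.mem_top _) hgc N hcond hb₀ hξ
  exact hloc_of_locAt W vert hW ⊤ 𝔫 ⟨c, hgc⟩ hloc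

end Fermat.Agent.GL.Frame.JFrameLoc
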