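/-
GATE-L / (LOC) DISPATCHER (helper47; contract = helper48 STACK RULING 2, board 2764 (2)).

`B2` a noetherian normal chart (a subring of the function field `F`), `q ∈ B2` the uniformiser
of the base, `vert` the (finite) set of vertical height-one primes of `B2`.  The hypothesis `hloc`
of the Čech–Kummer core (helper28 `CechKummer.exists_section`, helper33 field form) asks for (LOC)
at EVERY maximal ideal `𝔫` of `B2`.  This file reduces it to the two typed contracts: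

* `exists_htOne_le` : Krull's principal ideal theorem: a prime containing `q ≠ 0` contains a
  height-one prime containing `q` (so `br 𝔫 ≠ ∅` on the special fibre);
* `exists_locAt_all` : `q ∉ 𝔫` ⟹ `LocGlue.loc_trivial`; `q ∈ 𝔫` ⟹ a vertical `𝔭₀ ≤ 𝔫`, then
  either no other vertical prime passes through `𝔫` (contract `hI`, discharged pointwise by
  `LocTypeI.exists_locAt`) or at least two do (contract `hIII`, the triple points).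
* `typeI_or_triple` : the case split alone.
-/
import Fermat.Agent.GL.Frame.LocTypeI

set_option autoImplicit false
set_option linter.unusedSectionVars false

namespace Fermat.Agent.GL.Frame.LocDispatch

open Fermat.Agent.GL Fermat.Agent.GL.KrullFrame Fermat.Agent.GL.Frame.HeightOne
  Fermat.Agent.GL.LocGlue

section Krull

variable {B : Type*} [CommRing B] [IsDomain B] [IsNoetherianRing B] [IsIntegrallyClosed B]

/-- **Krull's principal ideal theorem, point form**: a prime ideal containing `q ≠ 0` contains a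
height-one prime containing `q`. -/
theorem exists_htOne_le {q : B} (hq0 : q ≠ 0) (𝔫 : Ideal B) [𝔫.IsPrime] (hq : q ∈ 𝔫) :
    ∃ 𝔭 : HtOne B, q ∈ 𝔭.1 ∧ 𝔭.1 ≤ 𝔫 := by
  have hle : Ideal.span {q} ≤ 𝔫 := (Ideal.span_singleton_le_iff_mem 𝔫).mpr hq
  obtain ⟨𝔭, h𝔭, h𝔭𝔫⟩ := Ideal.exists_minimalPrimes_le hle
  have hprime : 𝔭.IsPrime := h𝔭.1.1
  have h1 : 𝔭.height = 1 := KrullHeightOne.height_eq_one_of_mem_minimalPrimes_span hq0 h𝔭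
  exact ⟨⟨𝔭, hprime, h1⟩, h𝔭.1.2 (Ideal.subset_span rfl), h𝔭𝔫⟩

end Krull

section Dispatch

variable {F : Type*} [Field F] {B2 : Subring F} [IsFractionRing B2 F]
  [IsNoetherianRing B2] [IsIntegrallyClosed B2]

/-- the case split at a point of the special fibre: there is a vertical prime `𝔭₀` through `𝔫`,
and either it is the only one or a second one passes through `𝔫`. -/
theorem typeI_or_triple (vert : Finset (HtOne B2)) {q : B2} (hq0 : q ≠ 0)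
    (hvert : ∀ 𝔭 : HtOne B2, q ∈ 𝔭.1 → 𝔭 ∈ vert)
    (𝔫 : Ideal B2) [𝔫.IsPrime] (hq : q ∈ 𝔫) :
    ∃ 𝔭₀ ∈ vert, 𝔭₀.1 ≤ 𝔫 ∧
      ((∀ j ∈ vert, j ≠ 𝔭₀ → ¬ j.1 ≤ 𝔫) ∨ ∃ j ∈ vert, j ≠ 𝔭₀ ∧ j.1 ≤ 𝔫) := by
  obtain ⟨𝔭₀, hq𝔭, h𝔭𝔫⟩ := exists_htOne_le hq0 𝔫 hq
  refine ⟨𝔭₀, hvert 𝔭₀ hq𝔭, h𝔭𝔫, ?_⟩
  by_cases h : ∃ j ∈ vert, j ≠ 𝔭₀ ∧ j.1 ≤ 𝔫
  · exact Or.inr h
  · left
    intro j hj hne hle
    exact h ⟨j, hj, hne, hle⟩

/-- **THE DISPATCHER**: (LOC) at every maximal ideal of `B2` from the typed contracts. -/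
theorem exists_locAt_all (B12 : Subring F) (hle : B2 ≤ B12) (vert : Finset (HtOne B2))
    {q : B2} (hq0 : q ≠ 0)
    (hvert : ∀ 𝔭 : HtOne B2, q ∈ 𝔭.1 → 𝔭 ∈ vert) (hqv : ∀ j ∈ vert, q ∈ j.1)
    {m : ℕ} (hm : m ≠ 0) {u : F}
    (hI : ∀ 𝔫 : Ideal B2, 𝔫.IsMaximal → ∀ 𝔭₀ ∈ vert, 𝔭₀.1 ≤ 𝔫 →
      (∀ j ∈ vert, j ≠ 𝔭₀ → ¬ j.1 ≤ 𝔫) →
      ∃ g ∈ B12, g ^ m * u ∈ B2 ∧ LocAt (V1 (B := B2) F) B2 B12 vert 𝔫 g)
    (hIII : ∀ 𝔫 : Ideal B2, 𝔫.IsMaximal → ∀ i ∈ vert, ∀ j ∈ vert, i ≠ j → i.1 ≤ 𝔫 → j.1 ≤ 𝔫 →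
      ∃ g ∈ B12, g ^ m * u ∈ B2 ∧ LocAt (V1 (B := B2) F) B2 B12 vert 𝔫 g)
    (𝔫 : Ideal B2) (h𝔫 : 𝔫.IsMaximal) :
    ∃ g ∈ B12, g ^ m * u ∈ B2 ∧ LocAt (V1 (B := B2) F) B2 B12 vert 𝔫 g := by
  have := h𝔫.isPrime
  by_cases hq : q ∈ 𝔫
  · obtain ⟨𝔭₀, h𝔭₀, h𝔭𝔫, h⟩ := typeI_or_triple vert hq0 hvert 𝔫 hq
    rcases h with h | ⟨j, hj, hne, hj𝔫⟩
    · exact hI 𝔫 h𝔫 𝔭₀ h𝔭₀ h𝔭𝔫 h
    · exact hIII 𝔫 h𝔫 j hj 𝔭₀ h𝔭₀ hne hj𝔫 h𝔭𝔫
  · refine ⟨0, B12.zero_mem, ?_, ?_⟩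
    · rw [zero_pow hm, zero_mul]
      exact B2.zero_mem
    · exact loc_trivial B12 hle vert 𝔫 hq
        (fun j hj => (algebraMap_mem_nonunits_V1_iff j q).2 (hqv j hj))

end Dispatch

end Fermat.Agent.GL.Frame.LocDispatch
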