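/-
GATE-L / J-FRAME ADAPTER, part 4 (helper11): helper47's dispatcher `LocDispatch.exists_locAt_all`
run on the two FIXED frames `Bj`, `Bji` of the `j`-line (with `B12' := ⊤`) ⟹ the `hloc` binder of
helper28's `exists_section_ambient` on the `u`-dependent chart `B2`, in ONE statement.

`hall_of_dispatch` : the dispatcher on a frame `Bf` with `B12' := ⊤` (its `hle` vanishes).
`hlocj_of_hall`    : its conclusion in the `hlocj` shape of `JFrameAdapter`.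
`hloc_ambient_of_dispatch` : both frames ⟹ `exists_section_ambient.hloc` VERBATIM.
-/
import Fermat.Agent.GL.Frame.JFrameLoc
import Fermat.Agent.GL.Frame.LocDispatch

set_option autoImplicit false
set_option linter.unusedSectionVars false

namespace Fermat.Agent.GL.Frame.JFrameDispatch

open Polynomial Fermat.Agent.GL Fermat.Agent.GL.KrullFrame Fermat.Agent.GL.Frame.HeightOne
  Fermat.Agent.GL.LocGlue Fermat.Agent.GL.ChartChange Fermat.Agent.GL.Frame.JFrameAdapter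

section Frame

variable {F : Type*} [Field F] {Bf : Subring F} [IsFractionRing Bf F]
  [IsNoetherianRing Bf] [IsIntegrallyClosed Bf]

/-- helper47's dispatcher on the frame `Bf`, ambient ring `⊤`. -/
theorem hall_of_dispatch (vert : Finset (HtOne Bf)) {q : Bf} (hq0 : q ≠ 0)
    (hvert : ∀ 𝔭 : HtOne Bf, q ∈ 𝔭.1 → 𝔭 ∈ vert) (hqv : ∀ j ∈ vert, q ∈ j.1)
    {m : ℕ} (hm : m ≠ 0) {u : F}
    (hI : ∀ 𝔫 : Ideal Bf, 𝔫.IsMaximal → ∀ 𝔭₀ ∈ vert, 𝔭₀.1 ≤ 𝔫 →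
      (∀ j ∈ vert, j ≠ 𝔭₀ → ¬ j.1 ≤ 𝔫) →
      ∃ g ∈ (⊤ : Subring F), g ^ m * u ∈ Bf ∧ LocAt (V1 (B := Bf) F) Bf ⊤ vert 𝔫 g)
    (hIII : ∀ 𝔫 : Ideal Bf, 𝔫.IsMaximal → ∀ i ∈ vert, ∀ j ∈ vert, i ≠ j → i.1 ≤ 𝔫 → j.1 ≤ 𝔫 →
      ∃ g ∈ (⊤ : Subring F), g ^ m * u ∈ Bf ∧ LocAt (V1 (B := Bf) F) Bf ⊤ vert 𝔫 g)
    (𝔫 : Ideal Bf) (h𝔫 : 𝔫.IsMaximal) :
    ∃ g ∈ (⊤ : Subring F), g ^ m * u ∈ Bf ∧ LocAt (V1 (B := Bf) F) Bf ⊤ vert 𝔫 g :=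
  LocDispatch.exists_locAt_all ⊤ le_top vert hq0 hvert hqv hm hI hIII 𝔫 h𝔫

/-- the dispatcher's conclusion in the `hlocj` shape. -/
theorem hlocj_of_hall {ι : Type*} (W : ι → ValuationSubring F) (vert : Finset (HtOne Bf))
    (hW : ∀ i, ∃ p ∈ vert, V1 F p = W i) {m : ℕ} {u : F} (𝔫 : Ideal Bf)
    (h : ∃ g ∈ (⊤ : Subring F), g ^ m * u ∈ Bf ∧ LocAt (V1 (B := Bf) F) Bf ⊤ vert 𝔫 g) :
    ∃ g : F, (∃ c : Bf, g ^ m * u = (c : F)) ∧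
      ∃ a b : Bf, a ∉ 𝔫 ∧ b ∉ 𝔫 ∧ ∀ i, (a : F) * g - (b : F) ∈ (W i).nonunits := by
  obtain ⟨g, -, hgu, hloc⟩ := h
  exact JFrameLoc.hloc_of_locAt W vert hW ⊤ 𝔫 ⟨⟨_, hgu⟩, rfl⟩ hloc

end Frame

section Two

variable {R F : Type*} [CommRing R] [Field F] [Algebra R F]

/-- **(LOC) on the chart `B2` from the dispatcher on the two `j`-frames.**  `hallj`, `hallji` =
conclusions of `hall_of_dispatch` on `Bj`, `Bji`; `hWj`, `hWji` = helper80 FrameInst (A2) on the two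
frames.  Conclusion = `exists_section_ambient.hloc` VERBATIM. -/
theorem hloc_ambient_of_dispatch {ι : Type*} (W : ι → ValuationSubring F)
    (P1 : R[X]) (t0 t2 : R) (hu : IsUnit (P1.eval t2)) {j j1 h : F}
    (hj1 : j1 * (j - algebraMap R F t0) = 1)
    (hh : h * aeval j1 P1 = (j1 - algebraMap R F t2) ^ (P1.natDegree + 1))
    (hne : j1 ≠ algebraMap R F t2) {B2 : Subalgebra R F} {Bj Bji : Subring F}
    [IsFractionRing Bj F] [IsNoetherianRing Bj] [IsIntegrallyClosed Bj]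
    [IsFractionRing Bji F] [IsNoetherianRing Bji] [IsIntegrallyClosed Bji]
    (hB2 : IsChartRing R h⁻¹ B2.toSubring)
    (hBj : IsChartRing R j Bj) (hBji : IsChartRing R j⁻¹ Bji)
    (q : R) (hq : (Ideal.span {q}).IsMaximal)
    (hW2 : ∀ i, ∀ b : B2, (b : F) ∈ W i) (hqW : ∀ i, algebraMap R F q ∈ (W i).nonunits)
    (vertj : Finset (HtOne Bj)) (hWj : ∀ i, ∃ p ∈ vertj, V1 F p = W i)
    (vertji : Finset (HtOne Bji)) (hWji : ∀ i, ∃ p ∈ vertji, V1 F p = W i)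
    (B12 : Subalgebra R F) (hle : B2 ≤ B12) {m : ℕ} (hm : m ≠ 0)
    {u : F} (hu0 : u ≠ 0) (hu12 : u⁻¹ ∈ B12) (hrc : ∀ y : F, y ^ m ∈ B12 → y ∈ B12)
    (M : Submodule R F) (hM : ∀ f : F, f ∈ B12 → f ^ m * u ∈ B2 → f ∈ M)
    (rad : AddSubgroup F) (hrad : ∀ z : F, z ∈ B12 → (∀ i, z ∈ (W i).nonunits) → z ∈ rad)
    (hallj : ∀ 𝔫 : Ideal Bj, 𝔫.IsMaximal →
      ∃ g ∈ (⊤ : Subring F), g ^ m * u ∈ Bj ∧ LocAt (V1 (B := Bj) F) Bj ⊤ vertj 𝔫 g)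
    (hallji : ∀ 𝔫 : Ideal Bji, 𝔫.IsMaximal →
      ∃ g ∈ (⊤ : Subring F), g ^ m * u ∈ Bji ∧ LocAt (V1 (B := Bji) F) Bji ⊤ vertji 𝔫 g) :
    ∀ 𝔫 : Ideal B2, 𝔫.IsMaximal →
      ∃ g ∈ M, ∃ a b : B2, a ∉ 𝔫 ∧ b ∉ 𝔫 ∧ (a : F) * g - (b : F) ∈ rad := by
  have hWj' : ∀ i, ∀ b : Bj, (b : F) ∈ W i := by
    intro i b
    obtain ⟨p, -, hp⟩ := hWj i
    rw [← hp]
    exact algebraMap_mem_V1 p b
  have hWji' : ∀ i, ∀ b : Bji, (b : F) ∈ W i := by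
    intro i b
    obtain ⟨p, -, hp⟩ := hWji i
    rw [← hp]
    exact algebraMap_mem_V1 p b
  exact hloc_ambient_of_j_frames W P1 t0 t2 hu hj1 hh hne hB2 hBj hBji q hq hW2 hWj' hWji' hqW
    B12 hle hm hu0 hu12 hrc M hM rad hrad
    (fun _ n' _ hn' _ _ _ => hlocj_of_hall W vertj hWj n' (hallj n' hn'))
    (fun _ n' _ hn' _ _ _ => hlocj_of_hall W vertji hWji n' (hallji n' hn'))

end Two

end Fermat.Agent.GL.Frame.JFrameDispatch
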