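/-
GATE-L / J-FRAME ADAPTER, cuspidal variant (helper47; complements helper11 `JFrameAdapter`,
`JFrameDispatch`).

helper11's `hloc_ambient_of_j_frames` / `hloc_ambient_of_dispatch` ask the local producers on the
frame `Bji = IC R[1/j]` at EVERY closed point over `q`, in particular at the supersingular points
with `j ≠ 0`, which are already treated on the frame `Bj = IC R[j]`.  Here the frame `Bji` is
asked ONLY at the CUSPIDAL points (`1/j ∈ 𝔫'`), where `CuspPoints.atMostOne_of_cusp` shows that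
only the type I arm occurs; the other closed points of `Bji` over `q` are closed points of `Bj`
with the same local ring.

* `exists_point_of_gen_notMem` : a closed point `𝔫'` of `Bji` over `q` with `1/j ∉ 𝔫'` is a closed
  point of `Bj` over `q` with the same local ring (Moebius `y = 1/x`);
* `hlocji_of_cusp` : the `hlocji` binder of `JFrameAdapter.hloc_chart_of_j_frames` from `hlocj` and
  the same statement at the cuspidal points only;
* `hloc_ambient_of_j_frames_cusp` : `exists_section_ambient.hloc` VERBATIM, `Bji` asked at cuspidal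
  points only;
* `hloc_ambient_of_dispatch_cusp` : the same from the dispatcher conclusions (`LocAt` form).
-/
import Fermat.Agent.GL.Frame.JFrameDispatch

set_option autoImplicit false
set_option linter.unusedSectionVars false

namespace Fermat.Agent.GL.Frame.JFrameCusp

open Polynomial Fermat.Agent.GL Fermat.Agent.GL.KrullFrame Fermat.Agent.GL.Frame.HeightOne
  Fermat.Agent.GL.LocGlue Fermat.Agent.GL.ChartChange Fermat.Agent.GL.Frame.JFrameAdapter
  Fermat.Agent.GL.Frame.JFrameDispatch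

variable {R F : Type*} [CommRing R] [Field F] [Algebra R F]

/-- a closed point of the `1/j`-frame over `q` at which `1/j` does not vanish is a closed point of
the `j`-frame over `q`, with the same local ring. -/
theorem exists_point_of_gen_notMem {j : F} {Bj Bji : Subring F} (hBj : IsChartRing R j Bj)
    (hBji : IsChartRing R j⁻¹ Bji) (q : R) (hq : (Ideal.span {q}).IsMaximal)
    (n' : Ideal Bji) [hn' : n'.IsMaximal] (hqn' : hBji.toRingHom q ∈ n') (hj : hBji.gen ∉ n') :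
    ∃ n'' : Ideal Bj, n''.IsMaximal ∧ hBj.toRingHom q ∈ n'' ∧ locSet Bj n'' = locSet Bji n' := by
  have hnp : n'.IsPrime := hn'.isPrime
  have hj0 : j ≠ 0 := by
    intro h0
    apply hj
    have : hBji.gen = 0 := Subtype.ext (by simp [h0])
    rw [this]; exact n'.zero_mem
  have hδ : IsUnit ((0 : R) * 0 - 1 * 1) := by
    have : (0 : R) * 0 - 1 * 1 = -1 := by ring
    rw [this]; exact isUnit_one.neg
  have hrel : j * (algebraMap R F 1 * j⁻¹ + algebraMap R F 0) =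
      algebraMap R F 0 * j⁻¹ + algebraMap R F 1 := by
    rw [map_one, map_zero, one_mul, add_zero, zero_mul, zero_add, mul_inv_cancel₀ hj0]
  obtain ⟨n'', hn''p, h⟩ := moebius_sameLocal hBji hBj hδ hrel n' (fun v hv hmem => hj (by
    have : v = hBji.gen := Subtype.ext (by
      rw [hv, map_one, map_zero, one_mul, add_zero]; rfl)
    rwa [this] at hmem))
  have hmax : n''.IsMaximal :=
    hBji.isMaximal_of_locSet_eq q hq n' hqn' hBj.algebraMap_mem n'' h
  refine ⟨n'', hmax, ?_, h⟩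
  have hqF : algebraMap R F q ∈ locMaxSet Bji n' :=
    (coe_mem_locMaxSet_iff Bji n' (hBji.toRingHom q)).mpr hqn'
  rw [← coe_mem_locMaxSet_iff Bj n'', locMaxSet_eq_of_locSet_eq h]
  exact hqF

/-- **the `hlocji` binder from `hlocj` and the cuspidal points.** -/
theorem hlocji_of_cusp {x2 j : F} {B2 Bj Bji : Subring F} (hB2 : IsChartRing R x2 B2)
    (hBj : IsChartRing R j Bj) (hBji : IsChartRing R j⁻¹ Bji)
    (q : R) (hq : (Ideal.span {q}).IsMaximal) {m : ℕ} (hm : m ≠ 0) {u : F} (hu0 : u ≠ 0)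
    (r : Set F) (hrj : ∀ (s : Bj) (z : F), z ∈ r → (s : F) * z ∈ r)
    (hrji : ∀ (s : Bji) (z : F), z ∈ r → (s : F) * z ∈ r)
    (hlocj : ∀ (n : Ideal B2) (n' : Ideal Bj), n.IsMaximal → n'.IsMaximal →
      hB2.toRingHom q ∈ n → hBj.toRingHom q ∈ n' → locSet Bj n' = locSet B2 n →
      ∃ g : F, (∃ c : Bj, g ^ m * u = (c : F)) ∧
        ∃ a b : Bj, a ∉ n' ∧ b ∉ n' ∧ (a : F) * g - (b : F) ∈ r)
    (hcusp : ∀ (n : Ideal B2) (n' : Ideal Bji), n.IsMaximal → n'.IsMaximal →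
      hB2.toRingHom q ∈ n → hBji.toRingHom q ∈ n' → locSet Bji n' = locSet B2 n →
      hBji.gen ∈ n' →
      ∃ g : F, (∃ c : Bji, g ^ m * u = (c : F)) ∧
        ∃ a b : Bji, a ∉ n' ∧ b ∉ n' ∧ (a : F) * g - (b : F) ∈ r)
    (n : Ideal B2) (n' : Ideal Bji) (hn : n.IsMaximal) (hn' : n'.IsMaximal)
    (hqn : hB2.toRingHom q ∈ n) (hqn' : hBji.toRingHom q ∈ n')
    (hsame : locSet Bji n' = locSet B2 n) :
    ∃ g : F, (∃ c : Bji, g ^ m * u = (c : F)) ∧
      ∃ a b : Bji, a ∉ n' ∧ b ∉ n' ∧ (a : F) * g - (b : F) ∈ r := by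
  by_cases hj : hBji.gen ∈ n'
  · exact hcusp n n' hn hn' hqn hqn' hsame hj
  · obtain ⟨n'', hn'', hqn'', h⟩ := exists_point_of_gen_notMem hBj hBji q hq n' hqn' hj
    have hn''p := hn''.isPrime
    have hn'p := hn'.isPrime
    obtain ⟨g, ⟨c, hgc⟩, hg⟩ := hlocj n n'' hn hn'' hqn hqn'' (h.trans hsame)
    obtain ⟨g', -, ⟨t, hg't⟩, hg'⟩ :=
      adjust_mem_M (A := Bji) (A' := Bj) (P := n') (P' := n'') h ⊤ le_top hm hu0
        (Subring.mem_top _) (fun y _ => Subring.mem_top y) r hrj hgc hg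
    exact ⟨g', ⟨t, hg't⟩, loc_transport h r hrji hg'⟩

/-- stability of the vertical radical under a subring of all the `W i`. -/
theorem mul_mem_vertRad {ι : Type*} (W : ι → ValuationSubring F) {B : Subring F}
    (hB : ∀ i, ∀ b : B, (b : F) ∈ W i) (s : B) (z : F)
    (hz : z ∈ {z : F | ∀ i, z ∈ (W i).nonunits}) :
    (s : F) * z ∈ {z : F | ∀ i, z ∈ (W i).nonunits} := by
  intro i
  have h1 : (W i).valuation (s : F) ≤ 1 := ((W i).valuation_le_one_iff _).mpr (hB i s)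
  have h2 : (W i).valuation z < 1 := ((W i).mem_nonunits_iff).mp (hz i)
  show (s : F) * z ∈ (W i).nonunits
  rw [(W i).mem_nonunits_iff, map_mul]
  calc (W i).valuation (s : F) * (W i).valuation z ≤ 1 * (W i).valuation z :=
        mul_le_mul_left h1 _
    _ = (W i).valuation z := one_mul _
    _ < 1 := h2

/-- **`exists_section_ambient.hloc` VERBATIM, the frame `Bji` asked at the cuspidal points only.**
Same binders as helper11 `JFrameAdapter.hloc_ambient_of_j_frames`, `hlocji` replaced by `hcusp`. -/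
theorem hloc_ambient_of_j_frames_cusp {ι : Type*} (W : ι → ValuationSubring F)
    (P1 : R[X]) (t0 t2 : R) (hu : IsUnit (P1.eval t2)) {j j1 h : F}
    (hj1 : j1 * (j - algebraMap R F t0) = 1)
    (hh : h * aeval j1 P1 = (j1 - algebraMap R F t2) ^ (P1.natDegree + 1))
    (hne : j1 ≠ algebraMap R F t2) {B2 : Subalgebra R F} {Bj Bji : Subring F}
    (hB2 : IsChartRing R h⁻¹ B2.toSubring)
    (hBj : IsChartRing R j Bj) (hBji : IsChartRing R j⁻¹ Bji)
    (q : R) (hq : (Ideal.span {q}).IsMaximal)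
    (hW2 : ∀ i, ∀ b : B2, (b : F) ∈ W i) (hWj : ∀ i, ∀ b : Bj, (b : F) ∈ W i)
    (hWji : ∀ i, ∀ b : Bji, (b : F) ∈ W i) (hqW : ∀ i, algebraMap R F q ∈ (W i).nonunits)
    (B12 : Subalgebra R F) (hle : B2 ≤ B12) {m : ℕ} (hm : m ≠ 0)
    {u : F} (hu0 : u ≠ 0) (hu12 : u⁻¹ ∈ B12) (hrc : ∀ y : F, y ^ m ∈ B12 → y ∈ B12)
    (M : Submodule R F) (hM : ∀ f : F, f ∈ B12 → f ^ m * u ∈ B2 → f ∈ M)
    (rad : AddSubgroup F) (hrad : ∀ z : F, z ∈ B12 → (∀ i, z ∈ (W i).nonunits) → z ∈ rad)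
    (hlocj : ∀ (n : Ideal B2.toSubring) (n' : Ideal Bj), n.IsMaximal → n'.IsMaximal →
      hB2.toRingHom q ∈ n → hBj.toRingHom q ∈ n' → locSet Bj n' = locSet B2.toSubring n →
      ∃ g : F, (∃ c : Bj, g ^ m * u = (c : F)) ∧
        ∃ a b : Bj, a ∉ n' ∧ b ∉ n' ∧ ∀ i, (a : F) * g - (b : F) ∈ (W i).nonunits)
    (hcusp : ∀ (n : Ideal B2.toSubring) (n' : Ideal Bji), n.IsMaximal → n'.IsMaximal →
      hB2.toRingHom q ∈ n → hBji.toRingHom q ∈ n' → locSet Bji n' = locSet B2.toSubring n →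
      hBji.gen ∈ n' →
      ∃ g : F, (∃ c : Bji, g ^ m * u = (c : F)) ∧
        ∃ a b : Bji, a ∉ n' ∧ b ∉ n' ∧ ∀ i, (a : F) * g - (b : F) ∈ (W i).nonunits) :
    ∀ 𝔫 : Ideal B2, 𝔫.IsMaximal →
      ∃ g ∈ M, ∃ a b : B2, a ∉ 𝔫 ∧ b ∉ 𝔫 ∧ (a : F) * g - (b : F) ∈ rad :=
  hloc_ambient_of_j_frames W P1 t0 t2 hu hj1 hh hne hB2 hBj hBji q hq hW2 hWj hWji hqW
    B12 hle hm hu0 hu12 hrc M hM rad hrad hlocj
    (hlocji_of_cusp hB2 hBj hBji q hq hm hu0 {z : F | ∀ i, z ∈ (W i).nonunits}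
      (mul_mem_vertRad W hWj) (mul_mem_vertRad W hWji) hlocj hcusp)

/-- **(LOC) on the chart `B2` from the dispatcher on the two `j`-frames, `Bji` at the cuspidal
points only.**  Same binders as helper11 `JFrameDispatch.hloc_ambient_of_dispatch`; `hallji` is
asked only at the maximal ideals of `Bji` containing `1/j`. -/
theorem hloc_ambient_of_dispatch_cusp {ι : Type*} (W : ι → ValuationSubring F)
    (P1 : R[X]) (t0 t2 : R) (hu : IsUnit (P1.eval t2)) {j j1 h : F}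
    (hj1 : j1 * (j - algebraMap R F t0) = 1)
    (hh : h * aeval j1 P1 = (j1 - algebraMap R F t2) ^ (P1.natDegree + 1))
    (hne : j1 ≠ algebraMap R F t2) {B2 : Subalgebra R F} {Bj Bji : Subring F}
    [IsFractionRing Bj F] [IsNoetherianRing Bj] [IsIntegrallyClosed Bj]
    [IsFractionRing Bji F] [IsNoetherianRing Bji] [IsIntegrallyClosed Bji]
    (hB2 : IsChartRing R h⁻¹ B2.toSubring)
    (hBj : IsChartRing R j Bj) (hBji : IsChartRing R j⁻¹ Bji)
    (q : R) (hq : (Ideal.span {q}).IsMaximal)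
    (hW2 : ∀ i, ∀ b : B2, (b : F) ∈ W i) (hqW : ∀ i, algebraMap R F q ∈ (W i).nonunits)
    (vertj : Finset (HtOne Bj)) (hWj : ∀ i, ∃ p ∈ vertj, V1 F p = W i)
    (vertji : Finset (HtOne Bji)) (hWji : ∀ i, ∃ p ∈ vertji, V1 F p = W i)
    (B12 : Subalgebra R F) (hle : B2 ≤ B12) {m : ℕ} (hm : m ≠ 0)
    {u : F} (hu0 : u ≠ 0) (hu12 : u⁻¹ ∈ B12) (hrc : ∀ y : F, y ^ m ∈ B12 → y ∈ B12)
    (M : Submodule R F) (hM : ∀ f : F, f ∈ B12 → f ^ m * u ∈ B2 → f ∈ M)
    (rad : AddSubgroup F) (hrad : ∀ z : F, z ∈ B12 → (∀ i, z ∈ (W i).nonunits) → z ∈ rad)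
    (hallj : ∀ 𝔫 : Ideal Bj, 𝔫.IsMaximal →
      ∃ g ∈ (⊤ : Subring F), g ^ m * u ∈ Bj ∧ LocAt (V1 (B := Bj) F) Bj ⊤ vertj 𝔫 g)
    (hallji : ∀ 𝔫 : Ideal Bji, 𝔫.IsMaximal → hBji.toRingHom q ∈ 𝔫 → hBji.gen ∈ 𝔫 →
      ∃ g ∈ (⊤ : Subring F), g ^ m * u ∈ Bji ∧ LocAt (V1 (B := Bji) F) Bji ⊤ vertji 𝔫 g) :
    ∀ 𝔫 : Ideal B2, 𝔫.IsMaximal →
      ∃ g ∈ M, ∃ a b : B2, a ∉ 𝔫 ∧ b ∉ 𝔫 ∧ (a : F) * g - (b : F) ∈ rad := by
  have hWj' : ∀ i, ∀ b : Bj, (b : F) ∈ W i := by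
    intro i b
    obtain ⟨p, -, hp⟩ := hWj i
    rw [← hp]
    exact algebraMap_mem_V1 p b
  have hWji' : ∀ i, ∀ b : Bji, (b : F) ∈ W i := by
    intro i b
    obtain ⟨p, -, hp⟩ := hWji i
    rw [← hp]
    exact algebraMap_mem_V1 p b
  exact hloc_ambient_of_j_frames_cusp W P1 t0 t2 hu hj1 hh hne hB2 hBj hBji q hq hW2 hWj' hWji'
    hqW B12 hle hm hu0 hu12 hrc M hM rad hrad
    (fun _ n' _ hn' _ _ _ => hlocj_of_hall W vertj hWj n' (hallj n' hn'))
    (fun _ n' _ hn' _ hqn' _ hgen => hlocj_of_hall W vertji hWji n' (hallji n' hn' hqn' hgen))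

end Fermat.Agent.GL.Frame.JFrameCusp
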