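/-
GATE-L / (R1) of the H5 arm (helper47): the local contracts `hallj`, `hallji` of helper56
`H5Inst.h5_inst` from the (A1) classification and the TYPED producers.

* `hall_of_classify` (frame `Bj`): the dichotomy of `Classify.classify` at every closed point of the
  special fibre + a type I producer at the ORDINARY points (`s ∉ 𝔫`, a unique vertical prime through
  `𝔫`) + a type III producer at the SUPERSINGULAR points (`s ∈ 𝔫`, all vertical primes through `𝔫`,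
  node below) ⟹ (LOC) at every maximal ideal, in the `hall_of_dispatch` conclusion shape;
* `hall_cusp_of_atMostOne` (frame `Bji`, points with `1/j ∈ 𝔫`): `CuspPoints.atMostOne_of_cusp`
  + a type I producer ⟹ (LOC) at the cuspidal points;
* `hallji_of_cusp` : the FULL `hallji` binder of `h5_inst` (every maximal ideal of `Bji`) from
  `hallj` (all of `Bj`) and `hallji` at the cuspidal points only (a non-cuspidal closed point of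
  `Bji` on the special fibre is a closed point of `Bj` with the same local ring).
-/
import Fermat.Agent.GL.Frame.JFrameCusp
import Fermat.Agent.GL.Frame.ClassifyInst

set_option autoImplicit false
set_option linter.unusedSectionVars false

namespace Fermat.Agent.GL.Frame.HallOfClassify

open Fermat.Agent.GL Fermat.Agent.GL.KrullFrame Fermat.Agent.GL.Frame.HeightOne
  Fermat.Agent.GL.LocGlue Fermat.Agent.GL.ChartChange Fermat.Agent.GL.Frame.JFrameAdapter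
  Fermat.Agent.GL.Frame.JFrameDispatch Fermat.Agent.GL.Frame.JFrameCusp
  Fermat.Agent.GL.Frame.ClassifyInst

section Frame

variable {F : Type*} [Field F] {Bf : Subring F} [IsFractionRing Bf F]
  [IsNoetherianRing Bf] [IsIntegrallyClosed Bf]

/-- **(LOC) on the frame `Bj` from the classification and the typed producers.**
`vert` parametrised by `f : Fin 3 → HtOne Bf` (helper80 `exists_frame`), `s = pH(j)`,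
`Q 𝔫` = "`𝔫` lies over a node of the lower level". -/
theorem hall_of_classify (vert : Finset (HtOne Bf)) {q : Bf} (hq0 : q ≠ 0)
    (hvert : ∀ 𝔭 : HtOne Bf, q ∈ 𝔭.1 → 𝔭 ∈ vert) (hqv : ∀ j ∈ vert, q ∈ j.1)
    (f : Fin 3 → HtOne Bf) (hf : ∀ p, p ∈ vert ↔ ∃ i, f i = p) (hinj : Function.Injective f)
    (s : Bf) (Q : Ideal Bf → Prop)
    (hdich : ∀ 𝔫 : Ideal Bf, 𝔫.IsMaximal → q ∈ 𝔫 →
      (s ∈ 𝔫 ∧ (f 0).1 ≤ 𝔫 ∧ (f 1).1 ≤ 𝔫 ∧ (f 2).1 ≤ 𝔫 ∧ Q 𝔫) ∨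
      (s ∉ 𝔫 ∧ ¬ ((f 0).1 ≤ 𝔫 ∧ (f 1).1 ≤ 𝔫) ∧ ¬ ((f 1).1 ≤ 𝔫 ∧ (f 2).1 ≤ 𝔫) ∧
        ¬ ((f 0).1 ≤ 𝔫 ∧ (f 2).1 ≤ 𝔫)))
    {m : ℕ} (hm : m ≠ 0) {u : F}
    (hI : ∀ 𝔫 : Ideal Bf, 𝔫.IsMaximal → q ∈ 𝔫 → s ∉ 𝔫 → ∀ 𝔭₀ ∈ vert, 𝔭₀.1 ≤ 𝔫 →
      (∀ j ∈ vert, j ≠ 𝔭₀ → ¬ j.1 ≤ 𝔫) →
      ∃ g ∈ (⊤ : Subring F), g ^ m * u ∈ Bf ∧ LocAt (V1 (B := Bf) F) Bf ⊤ vert 𝔫 g)
    (hIII : ∀ 𝔫 : Ideal Bf, 𝔫.IsMaximal → q ∈ 𝔫 → s ∈ 𝔫 → (∀ p ∈ vert, p.1 ≤ 𝔫) → Q 𝔫 →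
      ∃ g ∈ (⊤ : Subring F), g ^ m * u ∈ Bf ∧ LocAt (V1 (B := Bf) F) Bf ⊤ vert 𝔫 g)
    (𝔫 : Ideal Bf) (h𝔫 : 𝔫.IsMaximal) :
    ∃ g ∈ (⊤ : Subring F), g ^ m * u ∈ Bf ∧ LocAt (V1 (B := Bf) F) Bf ⊤ vert 𝔫 g := by
  refine hall_of_dispatch vert hq0 hvert hqv hm ?_ ?_ 𝔫 h𝔫
  · intro 𝔫 h𝔫 𝔭₀ h𝔭₀ h𝔭𝔫 huniq
    have hq𝔫 : q ∈ 𝔫 := h𝔭𝔫 (hqv 𝔭₀ h𝔭₀)
    have hs : s ∉ 𝔫 := not_ss_of_unique_vert vert f hf hinj 𝔫 s (Q 𝔫) (hdich 𝔫 h𝔫 hq𝔫) 𝔭₀ h𝔭₀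
      huniq
    exact hI 𝔫 h𝔫 hq𝔫 hs 𝔭₀ h𝔭₀ h𝔭𝔫 huniq
  · intro 𝔫 h𝔫 i hi j hj hij hi𝔫 hj𝔫
    have hq𝔫 : q ∈ 𝔫 := hi𝔫 (hqv i hi)
    obtain ⟨hs, hall, hQ⟩ := ss_of_two_vert vert f hf 𝔫 s (Q 𝔫) (hdich 𝔫 h𝔫 hq𝔫) i j hi hj hij
      hi𝔫 hj𝔫
    exact hIII 𝔫 h𝔫 hq𝔫 hs hall hQ

/-- **(LOC) at the cuspidal points of the frame `Bji`**: at most one vertical prime through the
point (`CuspPoints.atMostOne_of_cusp`) + a type I producer. -/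
theorem hall_cusp_of_atMostOne (vert : Finset (HtOne Bf)) {q : Bf} (hq0 : q ≠ 0)
    (hvert : ∀ 𝔭 : HtOne Bf, q ∈ 𝔭.1 → 𝔭 ∈ vert)
    (f : Fin 3 → HtOne Bf) (hf : ∀ p, p ∈ vert ↔ ∃ i, f i = p)
    {m : ℕ} {u : F} (𝔫 : Ideal Bf) (h𝔫 : 𝔫.IsMaximal) (hq𝔫 : q ∈ 𝔫)
    (hone : ¬ ((f 0).1 ≤ 𝔫 ∧ (f 1).1 ≤ 𝔫) ∧ ¬ ((f 1).1 ≤ 𝔫 ∧ (f 2).1 ≤ 𝔫) ∧
      ¬ ((f 0).1 ≤ 𝔫 ∧ (f 2).1 ≤ 𝔫))
    (hI : ∀ 𝔭₀ ∈ vert, 𝔭₀.1 ≤ 𝔫 → (∀ j ∈ vert, j ≠ 𝔭₀ → ¬ j.1 ≤ 𝔫) →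
      ∃ g ∈ (⊤ : Subring F), g ^ m * u ∈ Bf ∧ LocAt (V1 (B := Bf) F) Bf ⊤ vert 𝔫 g) :
    ∃ g ∈ (⊤ : Subring F), g ^ m * u ∈ Bf ∧ LocAt (V1 (B := Bf) F) Bf ⊤ vert 𝔫 g := by
  have := h𝔫.isPrime
  obtain ⟨𝔭₀, h𝔭₀, h𝔭𝔫, h⟩ := LocDispatch.typeI_or_triple vert hq0 hvert 𝔫 hq𝔫
  rcases h with h | ⟨j, hj, hne, hj𝔫⟩
  · exact hI 𝔭₀ h𝔭₀ h𝔭𝔫 h
  · exfalso
    obtain ⟨h01, h12, h02⟩ := hone
    have hd : (False ∧ (f 0).1 ≤ 𝔫 ∧ (f 1).1 ≤ 𝔫 ∧ (f 2).1 ≤ 𝔫 ∧ True) ∨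
        (¬ False ∧ ¬ ((f 0).1 ≤ 𝔫 ∧ (f 1).1 ≤ 𝔫) ∧ ¬ ((f 1).1 ≤ 𝔫 ∧ (f 2).1 ≤ 𝔫) ∧
          ¬ ((f 0).1 ≤ 𝔫 ∧ (f 2).1 ≤ 𝔫)) := Or.inr ⟨not_false, h01, h12, h02⟩
    obtain ⟨i, rfl⟩ := (hf j).1 hj
    obtain ⟨i', rfl⟩ := (hf 𝔭₀).1 h𝔭₀
    have hii : i ≠ i' := fun h => hne (by rw [h])
    rcases hd with ⟨hF, -⟩ | ⟨-, h01, h12, h02⟩
    · exact hF
    · fin_cases i <;> fin_cases i' <;> first
        | exact hii rfl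
        | exact h01 ⟨hj𝔫, h𝔭𝔫⟩
        | exact h01 ⟨h𝔭𝔫, hj𝔫⟩
        | exact h12 ⟨hj𝔫, h𝔭𝔫⟩
        | exact h12 ⟨h𝔭𝔫, hj𝔫⟩
        | exact h02 ⟨hj𝔫, h𝔭𝔫⟩
        | exact h02 ⟨h𝔭𝔫, hj𝔫⟩

end Frame

section Two

variable {R F : Type*} [CommRing R] [Field F] [Algebra R F]

/-- **the full `hallji` binder of `H5Inst.h5_inst` from the cuspidal points.**  `hallj` on the whole
frame `Bj`, `hallji` only at the maximal ideals of `Bji` containing `q` and `1/j`. -/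
theorem hallji_of_cusp {ι : Type*} (W : ι → ValuationSubring F) {j : F} {Bj Bji : Subring F}
    [IsFractionRing Bj F] [IsNoetherianRing Bj] [IsIntegrallyClosed Bj]
    [IsFractionRing Bji F] [IsNoetherianRing Bji] [IsIntegrallyClosed Bji]
    (hBj : IsChartRing R j Bj) (hBji : IsChartRing R j⁻¹ Bji)
    (q : R) (hq : (Ideal.span {q}).IsMaximal)
    (vertj : Finset (HtOne Bj)) (hWj : ∀ i, ∃ p ∈ vertj, V1 F p = W i)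
    (vertji : Finset (HtOne Bji)) (hWji : ∀ i, ∃ p ∈ vertji, V1 F p = W i)
    (hWji' : ∀ p ∈ vertji, ∃ i, V1 F p = W i)
    (hqv : ∀ p ∈ vertji, hBji.toRingHom q ∈ p.1)
    {m : ℕ} (hm : m ≠ 0) {u : F} (hu0 : u ≠ 0)
    (hallj : ∀ 𝔫 : Ideal Bj, 𝔫.IsMaximal →
      ∃ g ∈ (⊤ : Subring F), g ^ m * u ∈ Bj ∧ LocAt (V1 (B := Bj) F) Bj ⊤ vertj 𝔫 g)
    (hcusp : ∀ 𝔫 : Ideal Bji, 𝔫.IsMaximal → hBji.toRingHom q ∈ 𝔫 → hBji.gen ∈ 𝔫 →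
      ∃ g ∈ (⊤ : Subring F), g ^ m * u ∈ Bji ∧ LocAt (V1 (B := Bji) F) Bji ⊤ vertji 𝔫 g)
    (𝔫 : Ideal Bji) (h𝔫 : 𝔫.IsMaximal) :
    ∃ g ∈ (⊤ : Subring F), g ^ m * u ∈ Bji ∧ LocAt (V1 (B := Bji) F) Bji ⊤ vertji 𝔫 g := by
  have hWj' : ∀ i, ∀ b : Bj, (b : F) ∈ W i := by
    intro i b
    obtain ⟨p, -, hp⟩ := hWj i
    rw [← hp]
    exact algebraMap_mem_V1 p b
  have hWjib : ∀ i, ∀ b : Bji, (b : F) ∈ W i := by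
    intro i b
    obtain ⟨p, -, hp⟩ := hWji i
    rw [← hp]
    exact algebraMap_mem_V1 p b
  by_cases hq𝔫 : hBji.toRingHom q ∈ 𝔫
  · -- on the special fibre: shape (2) from `hlocji_of_cusp` with `B2 := Bji`, `n := 𝔫`
    obtain ⟨g, ⟨c, hgc⟩, a, b, ha, hb, hab⟩ :=
      hlocji_of_cusp (B2 := Bji) hBji hBj hBji q hq hm hu0 {z : F | ∀ i, z ∈ (W i).nonunits}
        (mul_mem_vertRad W hWj') (mul_mem_vertRad W hWjib)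
        (fun _ n' _ hn' _ _ _ => hlocj_of_hall W vertj hWj n' (hallj n' hn'))
        (fun _ n' _ hn' _ hqn' _ hgen => hlocj_of_hall W vertji hWji n' (hcusp n' hn' hqn' hgen))
        𝔫 𝔫 h𝔫 h𝔫 hq𝔫 hq𝔫 rfl
    refine ⟨g, Subring.mem_top _, hgc ▸ c.2, a, b, ha, hb, Subring.mem_top _, fun p hp => ?_⟩
    obtain ⟨i, hi⟩ := hWji' p hp
    rw [hi]
    exact hab i
  · -- off the special fibre
    refine ⟨0, Subring.mem_top _, ?_, ?_⟩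
    · rw [zero_pow hm, zero_mul]
      exact Bji.zero_mem
    · exact loc_trivial ⊤ le_top vertji 𝔫 hq𝔫
        (fun p hp => (algebraMap_mem_nonunits_V1_iff p (hBji.toRingHom q)).2 (hqv p hp))

end Two

end Fermat.Agent.GL.Frame.HallOfClassify
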