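/-
GATE-L / HORIZ-DIV, file 4 (helper11): the `hord` binder of helper47's `LocTypeI.exists_locAt` /
`Kummer.exists_kummer_datum_of_ufd` in the EXACT shape available in the (H5) arm.

Input  = the divisor hypothesis of `ChainAbs.k0UnitGateQ_of_chain'` (H5):
           `∀ P : Place Kb (FK N), (m : ℤ) ∣ P.ord (toFN0 A N u)`     (`τ := toFN0 A N`),
         a frame ring `Bf : Subring K₀(X₀(N))` (noetherian, integrally closed, `Frac = K₀(X₀(N))`)
         containing `R = R0 A`, and a height-one prime `𝔭` of `Bf` with `q ∉ 𝔭` (horizontal).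
Output = `∃ z ≠ 0, UnitAt 𝔭 (u * z ^ m)`.

(`K₀ ⊆ (Bf)_𝔭` from `R ⊆ Bf` and `q⁻¹ ∈ (Bf)_𝔭`; then `HorizHord.hord_horizontal`.)
-/
import Fermat.Agent.GL.Frame.HorizHord
import Fermat.Agent.GL.Val.CuspK0

set_option autoImplicit false
set_option linter.unusedSectionVars false

noncomputable section

namespace Fermat.Agent.GL.Frame.HorizHordTop

open ModularCurve AlgebraicCurve
open Fermat.Agent.GL.KrullHeightOne Fermat.Agent.GL.Frame.HeightOne Fermat.Agent.GL.Frame.Kummer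
open Fermat.Agent.GL.Val.GaussK0 Fermat.Agent.GL.Val.SecondK0 Fermat.Agent.GL.Val.CuspK0
open Fermat.Agent.GL.Local.InertiaField
open Fermat.Agent.GJ.KumGroup
open Fermat.Agent.GL.Frame.HorizHord
open Fermat.Agent.Common_helper32

variable (A : ValuationSubring Qb) {q : ℕ} (hq : q.Prime) (hA : (q : Qb) ∈ A.nonunits)
  (N : ℕ) [NeZero N]

/-- helper45's `mapK0Bar` and helper26's `toFN0` agree (same proof as helper67's
`mapK0Bar_eq_toFN0`, restated here to avoid importing the table files). -/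
theorem mapK0Bar_eq_toFN0' (x : modularFunctionFieldFullC (K0 A) N) :
    mapK0Bar A N x = toFN0 A N x := Subtype.ext rfl

include hq hA in
/-- `K₀ ⊆ (Bf)_𝔭` at a horizontal height-one prime of a frame ring containing `R`. -/
theorem algebraMap_K0_mem_V1 {Bf : Subring (modularFunctionFieldFullC (K0 A) N)}
    [IsFractionRing Bf (modularFunctionFieldFullC (K0 A) N)] [IsNoetherianRing Bf]
    [IsIntegrallyClosed Bf]
    (hR : ∀ c : K0 A, c ∈ R0 A →
      algebraMap (K0 A) (modularFunctionFieldFullC (K0 A) N) c ∈ Bf)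
    (𝔭 : HtOne Bf) (hq𝔭 : (q : Bf) ∉ 𝔭.1) (c : K0 A) :
    algebraMap (K0 A) (modularFunctionFieldFullC (K0 A) N) c ∈
      V1 (modularFunctionFieldFullC (K0 A) N) 𝔭 := by
  have h1 : ∀ c : K0 A, c ∈ R0 A →
      algebraMap (K0 A) (modularFunctionFieldFullC (K0 A) N) c ∈
        V1 (modularFunctionFieldFullC (K0 A) N) 𝔭 := by
    intro c hc
    have h := algebraMap_mem_V1 (F := modularFunctionFieldFullC (K0 A) N) 𝔭
      (⟨algebraMap (K0 A) (modularFunctionFieldFullC (K0 A) N) c, hR c hc⟩ : Bf)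
    exact h
  refine algebraMap_K0_mem_of_baseRing A hq hA
    (algebraMap (K0 A) (modularFunctionFieldFullC (K0 A) N))
    (V1 (modularFunctionFieldFullC (K0 A) N) 𝔭) h1 ?_ c
  have h := inv_algebraMap_mem_V1 (F := modularFunctionFieldFullC (K0 A) N) 𝔭 hq𝔭
  rw [map_natCast] at h
  exact h

include hq hA in
/-- **`hord` at a horizontal height-one prime, (H5)-shape.** -/
theorem hord_of_dvd_ord {Bf : Subring (modularFunctionFieldFullC (K0 A) N)}
    [IsFractionRing Bf (modularFunctionFieldFullC (K0 A) N)] [IsNoetherianRing Bf]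
    [IsIntegrallyClosed Bf]
    (hR : ∀ c : K0 A, c ∈ R0 A →
      algebraMap (K0 A) (modularFunctionFieldFullC (K0 A) N) c ∈ Bf)
    (m : ℕ) {u : modularFunctionFieldFullC (K0 A) N} (hu0 : u ≠ 0)
    (hdiv : ∀ P : Place Kb (FK N), (m : ℤ) ∣ P.ord (toFN0 A N u))
    (𝔭 : HtOne Bf) (hq𝔭 : (q : Bf) ∉ 𝔭.1) :
    ∃ z : modularFunctionFieldFullC (K0 A) N, z ≠ 0 ∧ UnitAt 𝔭 (u * z ^ m) := by
  have hK0 := algebraMap_K0_mem_V1 A hq hA N hR 𝔭 hq𝔭
  have hu : Units.map (mapK0Bar A N : _ →* FK N) (Units.mk0 u hu0) ∈ pDivUnits Kb (FK N) m := by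
    intro P
    show (m : ℤ) ∣ P.ord (mapK0Bar A N u)
    rw [mapK0Bar_eq_toFN0']
    exact hdiv P
  exact hord_horizontal A N m (Units.mk0 u hu0) hu 𝔭 hK0

include hq hA in
/-- the same as the `hord` binder of `LocTypeI.exists_locAt` VERBATIM: `vert` any set of
height-one primes containing all those through `q`. -/
theorem hord_binder {Bf : Subring (modularFunctionFieldFullC (K0 A) N)}
    [IsFractionRing Bf (modularFunctionFieldFullC (K0 A) N)] [IsNoetherianRing Bf]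
    [IsIntegrallyClosed Bf]
    (hR : ∀ c : K0 A, c ∈ R0 A →
      algebraMap (K0 A) (modularFunctionFieldFullC (K0 A) N) c ∈ Bf)
    (vert : Finset (HtOne Bf)) (hvert : ∀ 𝔭 : HtOne Bf, (q : Bf) ∈ 𝔭.1 → 𝔭 ∈ vert)
    (m : ℕ) {u : modularFunctionFieldFullC (K0 A) N} (hu0 : u ≠ 0)
    (hdiv : ∀ P : Place Kb (FK N), (m : ℤ) ∣ P.ord (toFN0 A N u)) (𝔫 : Ideal Bf) :
    ∀ 𝔭 : HtOne Bf, 𝔭 ∉ vert → 𝔭.1 ≤ 𝔫 →
      ∃ z : modularFunctionFieldFullC (K0 A) N, z ≠ 0 ∧ UnitAt 𝔭 (u * z ^ m) :=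
  fun 𝔭 h𝔭 _ => hord_of_dvd_ord A hq hA N hR m hu0 hdiv 𝔭 (fun h => h𝔭 (hvert 𝔭 h))

end Fermat.Agent.GL.Frame.HorizHordTop
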