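/-
GATE-L / L5-I ASSEMBLY, GLOBAL series form (helper84): `hval` of helper47's
`LocTypeI.exists_locAt(_q)` at EVERY point of the vertical prime `𝔭₀` of a frame `B` on which the
old copies are GLOBAL (the finite `j`-frame: ARITH-INT gives `IC R[j] = IC R[j_q] = IC R[j_{q²}]`),
in the shapes of helper15 `OldTriplesK0` / `RedInC`:

* `ρ : B →+* Λ` the (Laurent-series valued) reduction along `𝔭₀`, `ρ b = 0 ↔ b ∈ 𝔭₀`;
* `D` Dedekind (`CRing M' A`), `ψ : D →+* Λ` injective (`cVal`, `cVal3`);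
* `hin  : ∀ f : B, ∃ c : D, ρ f = ψ c`   (`RedInC`: `rd_i(B3K0) ⊆ range cVal`);
* `hout : ∀ c : D, ∃ f : B, ρ f = ψ c`   (`old0K0 / old2K0`: the old lifts).

Then `B ⧸ 𝔭₀ ≃ D`, so `hval` holds at every prime `𝔫 ⊇ 𝔭₀`
(`VertPrimeHtOne.hval_of_isDedekindDomain_htOne`).

`ringHomOfRange` : the ring hom `rd : B →+* D` with `ψ ∘ rd = ρ` cut out by `hin`.
-/
import Fermat.Agent.GL.Frame.VertPrimeHtOne

set_option autoImplicit false
set_option linter.unusedSectionVars false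

namespace Fermat.Agent.GL.Frame.HvalGlobalSeries

open Fermat.Agent.GL.Frame.HeightOne

section Hom

variable {B D Λ : Type*} [CommRing B] [CommRing D] [CommRing Λ]

/-- the ring hom `rd : B →+* D` with `ψ (rd f) = ρ f`, for `ψ` injective and `ρ B ⊆ ψ D`. -/
noncomputable def ringHomOfRange (ρ : B →+* Λ) (ψ : D →+* Λ) (hψ : Function.Injective ψ)
    (hin : ∀ f : B, ∃ c : D, ρ f = ψ c) : B →+* D where
  toFun f := (hin f).choose
  map_one' := hψ (by rw [← (hin 1).choose_spec, map_one, map_one])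
  map_mul' x y := hψ (by
    rw [← (hin (x * y)).choose_spec, map_mul, map_mul, ← (hin x).choose_spec,
      ← (hin y).choose_spec])
  map_zero' := hψ (by rw [← (hin 0).choose_spec, map_zero, map_zero])
  map_add' x y := hψ (by
    rw [← (hin (x + y)).choose_spec, map_add, map_add, ← (hin x).choose_spec,
      ← (hin y).choose_spec])

theorem map_ringHomOfRange (ρ : B →+* Λ) (ψ : D →+* Λ) (hψ : Function.Injective ψ)
    (hin : ∀ f : B, ∃ c : D, ρ f = ψ c) (f : B) :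
    ψ (ringHomOfRange ρ ψ hψ hin f) = ρ f := ((hin f).choose_spec).symm

theorem ringHomOfRange_surjective (ρ : B →+* Λ) (ψ : D →+* Λ) (hψ : Function.Injective ψ)
    (hin : ∀ f : B, ∃ c : D, ρ f = ψ c) (hout : ∀ c : D, ∃ f : B, ρ f = ψ c) :
    Function.Surjective (ringHomOfRange ρ ψ hψ hin) := by
  intro c
  obtain ⟨f, hf⟩ := hout c
  exact ⟨f, hψ ((map_ringHomOfRange ρ ψ hψ hin f).trans hf)⟩

theorem ringHomOfRange_eq_zero_iff (ρ : B →+* Λ) (ψ : D →+* Λ) (hψ : Function.Injective ψ)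
    (hin : ∀ f : B, ∃ c : D, ρ f = ψ c) (f : B) :
    ringHomOfRange ρ ψ hψ hin f = 0 ↔ ρ f = 0 := by
  rw [← map_ringHomOfRange ρ ψ hψ hin f]
  exact (map_eq_zero_iff ψ hψ).symm

end Hom

variable {B : Type*} [CommRing B] [IsDomain B] [IsNoetherianRing B] [IsIntegrallyClosed B]

/-- **`hval` at every point of a component with GLOBAL old copies, series form.** -/
theorem hval_of_global_series {Λ D : Type*} [CommRing Λ] [CommRing D] [IsDedekindDomain D]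
    (𝔫 : Ideal B) [𝔫.IsPrime] (𝔭₀ : HtOne B) (h𝔭𝔫 : 𝔭₀.1 ≤ 𝔫)
    (ρ : B →+* Λ) (hker : ∀ a : B, ρ a = 0 ↔ a ∈ 𝔭₀.1)
    (ψ : D →+* Λ) (hψ : Function.Injective ψ)
    (hin : ∀ f : B, ∃ c : D, ρ f = ψ c) (hout : ∀ c : D, ∃ f : B, ρ f = ψ c) (a b : B) :
    ∃ c s : B, s ∉ 𝔫 ∧ (s * a - c * b ∈ 𝔭₀.1 ∨ s * b - c * a ∈ 𝔭₀.1) :=
  VertPrimeHtOne.hval_of_isDedekindDomain_htOne 𝔫 (ringHomOfRange ρ ψ hψ hin)
    (ringHomOfRange_surjective ρ ψ hψ hin hout)
    (fun a => (ringHomOfRange_eq_zero_iff ρ ψ hψ hin a).trans (hker a)) h𝔭𝔫 a b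

end Fermat.Agent.GL.Frame.HvalGlobalSeries
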