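import Fermat.Agent.GL.Frame.ClassifyC5B3
import Fermat.Agent.GL.Fibre.RedInC
import Fermat.Agent.GL.Val.B3ChartK0
import Fermat.Agent.GL.Val.ResK0Top

/-!
# GATE-L / (A1) classification: (C5) at `B3K0`, UNCONDITIONAL (helper42)

`ClassifyC5B3.hpi_alpha_resHom` needed ONE hypothesis
`hB3 : ∀ x0 : B3K0, rdK2 x0 ∈ Set.range (cVal M' A)` (K-RED for `w₂` at the level `M' q q`).
It is now a theorem:

* (INT)  `x0 ∈ B3K0 ⟹ x0` integral over `R₀[j]`      — helper75 `B3ChartK0.isIntegral_of_mem_B3K0`;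
* (RES1) `red₁ (RwK0 A N) ⊆ FresBar M' A`              — helper75 `ResK0Top.coeffMap_red_mem_FresBar`
  (+ helper45 `SecondK0.coe_red1K0`), bridged here to helper15's `rhoK1` (`rhoK1_mem_FresBar`);
* helper15 `RedInC.exists_cVal_eq_rdK2` : (INT) + (RES1) ⟹ `rdK2 x0 ∈ cVal C`.

Results: `rhoK1_mem_FresBar` (= `hres1` of `RedInC`), `isIntegral_B3K0` (= `hint` of `RedInC` at
`Rb := R0 A`), `hB3_rdK1`, `hB3_rdK2`, and
**`hpi_alpha_B3K0_final` / `hpi_alpha_resHom_final`** = `hpiα` of helper47's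
`ClassifyInst.classify_val` VERBATIM at `A := BRingK0 M' q A hq`, `B := B3K0 M' q A hQ`,
`α := alphaK0`, `nα := q`, `P2 := P2B3K0`, with NO geometric hypothesis left.
-/

set_option autoImplicit false
set_option linter.style.haveILetI false
set_option linter.unusedSectionVars false

noncomputable section

namespace Fermat.Agent.GL.Frame.ClassifyC5

open HahnSeries ModularCurve IsLocalRing
open Fermat.Agent.S24 Fermat.Agent.S24_helper62 Fermat.Agent.S24_helper82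
open Fermat.Agent.GJ.J1 Fermat.Agent.GJ.J1.Val Fermat.Agent.GJ.J3 Fermat.Agent.GJ.HN
open Fermat.Agent.GK.AL Fermat.Agent.GK.QS
open Fermat.Agent.GL.AL Fermat.Agent.GL.W3
open Fermat.Agent.GL.Val.GaussK0 Fermat.Agent.GL.Val.SecondK0 Fermat.Agent.GL.Val.SecondK0Hall
open Fermat.Agent.GL.BRingK0 Fermat.Agent.GL.Table.K0 Fermat.Agent.GL.OldTriples
open Fermat.Agent.GL.OldTriplesK0 Fermat.Agent.GL.RedInC Fermat.Agent.GL.Val.DegBase

variable (A : ValuationSubring Kbar) {q : ℕ} [hqF : Fact q.Prime] [NeZero q] (M' : ℕ) [NeZero M']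
  (hQ : HallDvd (q ^ 2) (M' * q * q)) (hq : ExactDvd q (M' * q))
  (hqM : ¬ q ∣ M') (hA : A.LiesOverPrime q) (h2 : q = 2 → 3 ∣ M') (h3 : q = 3 → 2 ∣ M')

local notation "kA" => IsLocalRing.ResidueField A
local notation "FQ" => modularFunctionFieldFullC (K0 A) (M' * q * q)
local notation "Fq" => modularFunctionFieldFullC (K0 A) (M' * q)

include hqM hA in
/-- **(RES1)** in the shape of helper15's `RedInC`: the reduction `rhoK1` of the WHOLE valuation ring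
`RwK0 A (M' q q)` takes values in `FresBar M' A = k(X₀(M'))`. -/
theorem rhoK1_mem_FresBar (x : RwK0 A (M' * q * q)) : rhoK1 M' q A x ∈ FresBar M' A := by
  rw [rhoK1_apply, coe_red1K0 A (M' * q * q) x.1 x.2]
  exact Fermat.Agent.GL.Val.ResK0Top.coeffMap_red_mem_FresBar A hqF.out
    (Fermat.Agent.GL.Val.B3ChartK0.level_eq) hqM hA ⟨x.1, x.2⟩

include hqM hA in
/-- **(INT)** in the shape of helper15's `RedInC` at `Rb := R0 A`. -/
theorem isIntegral_B3K0 (x0 : B3K0 M' q A hQ) :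
    IsIntegral (Algebra.adjoin (R0 A) {jC (M' * q * q) (K0 A)}) (x0 : FQ) :=
  (Fermat.Agent.GL.Val.B3ChartK0.mem_B3K0_iff_isIntegral hqM hA).1 x0.2

theorem hRb_R0 : ∀ r : R0 A, ∃ a : R0 A,
    algebraMap (R0 A) FQ r = algebraMap (K0 A) FQ (a : K0 A) := fun r => ⟨r, rfl⟩

include hqM hA in
/-- **(hB3), first component, UNCONDITIONAL** -/
theorem hB3_rdK1 (x0 : B3K0 M' q A hQ) : rdK1 M' q A hQ x0 ∈ Set.range (cVal M' A) := by
  obtain ⟨c, hc⟩ := exists_cVal_eq_rdK1 M' q A hQ hqM (hRb_R0 A M')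
    (isIntegral_B3K0 A M' hQ hqM hA) (rhoK1_mem_FresBar A M' hqM hA) x0
  exact ⟨c, hc⟩

include hqM hA in
/-- **(hB3), second component, UNCONDITIONAL** = the hypothesis `hB3` of
`ClassifyC5B3.hpi_alpha_B3K0 / hpi_alpha_resHom`. -/
theorem hB3_rdK2 (x0 : B3K0 M' q A hQ) : rdK2 M' q A hQ x0 ∈ Set.range (cVal M' A) := by
  obtain ⟨c, hc⟩ := exists_cVal_eq_rdK2 M' q A hQ hqM hA (hRb_R0 A M')
    (isIntegral_B3K0 A M' hQ hqM hA) (rhoK1_mem_FresBar A M' hqM hA) x0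
  exact ⟨c, hc⟩

include hqM hA h2 h3 in
/-- **(C5) at `B3K0`, UNCONDITIONAL**: every `b ∈ B3K0` has `b^q ≡ alphaB3K0 a (mod P₂)` for some
`a ∈ BRingK0 M' q`. -/
theorem hpi_alpha_B3K0_final (b : B3K0 M' q A hQ) :
    ∃ a : BRingK0 M' q A hq, b ^ q - alphaB3K0 A M' hQ hq hqM a ∈ P2B3K0 A M' hQ :=
  hpi_alpha_B3K0 A M' hQ hq hqM hA h2 h3 (hB3_rdK2 A M' hQ hqM hA) b

include hqM hA h2 h3 in
/-- **(C5) = `hpiα` of helper47's `ClassifyInst.classify_val` VERBATIM, UNCONDITIONAL**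
(`A := BRingK0 M' q A hq`, `B := B3K0 M' q A hQ`, `α := alphaK0`, `nα := q`, `P2 := P2B3K0`),
for ANY proof `hαAB` of (C1). -/
theorem hpi_alpha_resHom_final
    (hαAB : ∀ a ∈ BRingK0 M' q A hq, (alphaK0 A (M' * q) q : Fq →+* FQ) a ∈ B3K0 M' q A hQ) :
    ∀ b : B3K0 M' q A hQ, ∃ a : BRingK0 M' q A hq,
      b ^ q - ClassifyInst.resHom (alphaK0 A (M' * q) q : Fq →+* FQ) (BRingK0 M' q A hq)
        (B3K0 M' q A hQ) hαAB a ∈ P2B3K0 A M' hQ :=
  hpi_alpha_resHom A M' hQ hq hqM hA h2 h3 (hB3_rdK2 A M' hQ hqM hA) hαAB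

end Fermat.Agent.GL.Frame.ClassifyC5
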