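import Fermat.Agent.GL.Frame.ClassifyC4K0
import Fermat.Agent.GL.Red.BRingChart

/-!
# GATE-L / (C4) `hTα` at `A := BRingK0 N' ℓ A h`, instance-free (helper65)

`ClassifyC4K0.hTα_K0` with `[IsIntegrallyClosed (BRingK0 N' ℓ A h)]` discharged by helper96's
`BRingChart.isIntegrallyClosed_BRingK0`, and the vertical primes `P'₁`, `P'₂` of `B'` in
"nonunits of `W_i`" form (`mem_P1K0_iff`; `BRingK0.mem_P2K0_iff` is helper96's).
-/

set_option autoImplicit false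
set_option linter.unusedSectionVars false
set_option linter.style.haveILetI false

noncomputable section

namespace Fermat.Agent.GL.Frame.ClassifyC4K0

open Polynomial IsDedekindDomain
open HahnSeries ModularCurve IsLocalRing
open Fermat.Agent.S28 Fermat.Agent.S24 Fermat.Agent.S24_helper62
open Fermat.Agent.GJ.J1 Fermat.Agent.GJ.J1.Val
open Fermat.Agent.GK.AL Fermat.Agent.GK.QS Fermat.Agent.GK.FrobGlue
open Fermat.Agent.GL.Val.GaussK0 Fermat.Agent.GL.Val.SecondK0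
open Fermat.Agent.GL.BRingK0 Fermat.Agent.GL.Thick Fermat.Agent.GL.BRingChart

variable {N' : ℕ} [NeZero N'] {ℓ : ℕ} [Fact ℓ.Prime] [NeZero ℓ]
variable {A : ValuationSubring Kbar} (h : ExactDvd ℓ (N' * ℓ))
variable (hℓN : ¬ ℓ ∣ N') (hA : A.LiesOverPrime ℓ)

/-- `P'₁ = {x0 ∈ B_R | w₁ x0 > 0}` (twin of helper96's `BRingK0.mem_P2K0_iff`) -/
theorem mem_P1K0_iff {x0 : BRingK0 N' ℓ A h} :
    x0 ∈ P1K0 (h := h) hℓN hA ↔
      (x0 : modularFunctionFieldFullC (K0 A) (N' * ℓ)) ∈ (RwK0 A (N' * ℓ)).nonunits :=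
  redC1K0_eq_zero_iff h hA hℓN

/-- **(C4) `hTα` at `A := BRingK0 N' ℓ A h`**, no instance hypothesis: only the rows of the
valuation table on the upper chart `B` and the completeness of its vertical primes are left. -/
theorem hTα_K0_inst (h2 : ℓ = 2 → 3 ∣ N') (h3 : ℓ = 3 → 2 ∣ N')
    {r : ℕ} (hr : r.Prime) (hrN : r ∣ N') (hr3 : r % 3 = 2) (hr4 : r % 4 = 3)
    {B : Type*} [CommRing B] [IsDomain B] [IsNoetherianRing B]
    (φ : BRingK0 N' ℓ A h →+* B) (hφ : Function.Injective φ) (hint : φ.IsIntegral)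
    (P1 P2 P3 : Ideal B) [P2.IsPrime]
    (hα1 : P1.comap φ = P1K0 (h := h) hℓN hA) (hα2 : P2.comap φ = P2K0 h hℓN hA)
    (hα3 : P3.comap φ = P1K0 (h := h) hℓN hA)
    (hvert : ∀ Q : Ideal B, Q.IsPrime → φ ((ℓ : ℕ) : BRingK0 N' ℓ A h) ∈ Q →
      P1 ≤ Q ∨ P2 ≤ Q ∨ P3 ≤ Q)
    (x2 : Ideal B) (hx2 : x2.IsPrime)
    (hnode : P1K0 (h := h) hℓN hA ⊔ P2K0 h hℓN hA ≤ x2.comap φ) : P2 ≤ x2 := by
  haveI := isIntegrallyClosed_BRingK0 h hA
  exact hTα_K0 h hℓN hA h2 h3 hr hrN hr3 hr4 φ hφ hint P1 P2 P3 hα1 hα2 hα3 hvert x2 hx2 hnode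

end Fermat.Agent.GL.Frame.ClassifyC4K0
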