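import Fermat.Agent.GL.Frame.ClassifyC5
import Fermat.Agent.GL.Fibre.OldTriplesK0
import Fermat.Agent.GL.Frame.ClassifyInst

/-!
# GATE-L / (A1) classification: (C1) + (C5) at helper15's chart ring `B3K0` (helper42)

`A_R := BRingK0 M' q A hq` (helper96; chart ring of the `j`-frame of level `M' q` over `R₀`),
`B_R := B3K0 M' q A hQ` (helper15; chart ring of the `j`-frame of level `M' q q` over `R₀`).

* `alphaK0_mem_B3K0` / `alphaB3K0 : A_R →+* B_R` : **(C1)** `π^*(A_R) ⊆ B_R`, the restriction of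
  `alphaK0` as a ring hom;
* `betaK0_mem_B3K0` / `betaB3K0 : A_R →+* B_R` : the same for `π'^* = betaK0`;
* `P2B3K0 : Ideal B_R` the centre of `w₂` on `B_R` (`= ker rdK2`);
* `hpi_alpha_B3K0` : **(C5)** `∀ b : B_R, ∃ a : A_R, b ^ q - alphaB3K0 a ∈ P2B3K0`, from the single
  hypothesis `hB3 : ∀ x0 : B_R, rdK2 x0 ∈ Set.range (cVal M' A)` (K-RED, helper15 `RedInC`).
-/

set_option autoImplicit false
set_option linter.style.haveILetI false
set_option linter.unusedSectionVars false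

noncomputable section

namespace Fermat.Agent.GL.Frame.ClassifyC5

open HahnSeries ModularCurve IsLocalRing
open Fermat.Agent.S24 Fermat.Agent.S24_helper62 Fermat.Agent.S24_helper82
open Fermat.Agent.GJ.J1 Fermat.Agent.GJ.J1.Val Fermat.Agent.GJ.J3 Fermat.Agent.GJ.HN
open Fermat.Agent.GK.AL Fermat.Agent.GK.QS
open Fermat.Agent.GL.AL Fermat.Agent.GL.W3
open Fermat.Agent.GL.Val.GaussK0 Fermat.Agent.GL.Val.SecondK0 Fermat.Agent.GL.Val.SecondK0Hall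
open Fermat.Agent.GL.BRingK0 Fermat.Agent.GL.Table.K0 Fermat.Agent.GL.OldTriples
open Fermat.Agent.GL.OldTriplesK0

variable (A : ValuationSubring Kbar) {q : ℕ} [hqF : Fact q.Prime] [NeZero q] (M' : ℕ) [NeZero M']
  (hQ : HallDvd (q ^ 2) (M' * q * q)) (hq : ExactDvd q (M' * q))
  (hqM : ¬ q ∣ M') (hA : A.LiesOverPrime q) (h2 : q = 2 → 3 ∣ M') (h3 : q = 3 → 2 ∣ M')

local notation "kA" => IsLocalRing.ResidueField A
local notation "FQ" => modularFunctionFieldFullC (K0 A) (M' * q * q)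
local notation "Fq" => modularFunctionFieldFullC (K0 A) (M' * q)

include hqM in
/-- **(C1) for `π^*`**: `alphaK0` maps the chart ring of level `M' q` into that of level `M' q q`. -/
theorem alphaK0_mem_B3K0 (a : BRingK0 M' q A hq) :
    alphaK0 A (M' * q) q (a : Fq) ∈ B3K0 M' q A hQ := by
  have hB : mapK0Bar A (M' * q) (a : Fq) ∈ BRing M' q A hq := a.2
  rw [mem_B3K0, mapK0Bar_alphaK0]
  exact ⟨regFin_alphaB (M' * q) q hB.1, (TableW.alphaB_mem_Rw1_iff M' A _).mpr hB.2.1,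
    (TableW.alphaB_mem_Rw2Q_iff M' A hQ hq _).mpr hB.2.2,
    (W3Table.alphaB_mem_Rw3_iff A hqF.out _).mpr hB.2.1⟩

include hqM in
/-- **(C1) for `π'^*`**: `betaK0` maps the chart ring of level `M' q` into that of level `M' q q`. -/
theorem betaK0_mem_B3K0 (a : BRingK0 M' q A hq) :
    betaK0 A (M' * q) q (a : Fq) ∈ B3K0 M' q A hQ := by
  have hB : mapK0Bar A (M' * q) (a : Fq) ∈ BRing M' q A hq := a.2
  rw [mem_B3K0, mapK0Bar_betaK0]
  exact ⟨regFin_betaB (M' * q) q hB.1, (TableW.betaB_mem_Rw1_iff M' A _).mpr hB.2.1,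
    (TableW.betaB_mem_Rw2Q_iff M' A hQ hq _).mpr hB.2.2,
    (W3Table.betaB_mem_Rw3_iff A hqF.out hqM _).mpr hB.2.2⟩

/-- **`π^*` on the chart rings** -/
def alphaB3K0 : BRingK0 M' q A hq →+* B3K0 M' q A hQ :=
  (((alphaK0 A (M' * q) q : Fq →+* FQ)).comp (BRingK0 M' q A hq).subtype).codRestrict
    (B3K0 M' q A hQ) (fun a => alphaK0_mem_B3K0 A M' hQ hq hqM a)

@[simp] theorem coe_alphaB3K0 (a : BRingK0 M' q A hq) :
    ((alphaB3K0 A M' hQ hq hqM a : B3K0 M' q A hQ) : FQ) = alphaK0 A (M' * q) q (a : Fq) := rfl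

/-- **`π'^*` on the chart rings** -/
def betaB3K0 : BRingK0 M' q A hq →+* B3K0 M' q A hQ :=
  (((betaK0 A (M' * q) q : Fq →+* FQ)).comp (BRingK0 M' q A hq).subtype).codRestrict
    (B3K0 M' q A hQ) (fun a => betaK0_mem_B3K0 A M' hQ hq hqM a)

@[simp] theorem coe_betaB3K0 (a : BRingK0 M' q A hq) :
    ((betaB3K0 A M' hQ hq hqM a : B3K0 M' q A hQ) : FQ) = betaK0 A (M' * q) q (a : Fq) := rfl

/-- the centre of `w₂` on the chart ring `B3K0` -/
def P2B3K0 : Ideal (B3K0 M' q A hQ) := RingHom.ker (rdK2 M' q A hQ)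

theorem mem_B3K0_Rw2 (b : B3K0 M' q A hQ) :
    (b : FQ) ∈ (redData2QK0 A (M' * q * q) hQ).Rw := (mem_B3K0_iff.1 b.2).2.2.1

theorem rdK2_eq_rho2Q (b : B3K0 M' q A hQ) :
    rdK2 M' q A hQ b = rho2Q A M' hQ (b : FQ) (mem_B3K0_Rw2 A M' hQ b) := rfl

theorem mem_P2B3K0_iff (b : B3K0 M' q A hQ) :
    b ∈ P2B3K0 A M' hQ ↔ (b : FQ) ∈ (redData2QK0 A (M' * q * q) hQ).Rw.nonunits := by
  rw [P2B3K0, RingHom.mem_ker, rdK2_eq_rho2Q, mem_nonunits_iff_rho2Q]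
  exact ⟨fun h => ⟨_, h⟩, fun ⟨_, h⟩ => h⟩

include hA h2 h3 in
/-- **(C5) at `B3K0`**: the centre of `w₂` on the chart ring of level `M' q q` is purely
inseparable over its contraction along `π^*` — the `hpiα` binder (`nα := q`) of
`Classify.triple_of_ss`, from K-RED (`hB3`). -/
theorem hpi_alpha_B3K0
    (hB3 : ∀ x0 : B3K0 M' q A hQ, rdK2 M' q A hQ x0 ∈ Set.range (cVal M' A)) :
    ∀ b : B3K0 M' q A hQ, ∃ a : BRingK0 M' q A hq,
      b ^ q - alphaB3K0 A M' hQ hq hqM a ∈ P2B3K0 A M' hQ := by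
  intro b
  obtain ⟨a, ha⟩ := exists_alphaK0_pow_sub_mem_nonunits A M' hQ hq hqM hA h2 h3 (b : FQ)
    (mem_B3K0_Rw2 A M' hQ b) (by rw [← rdK2_eq_rho2Q]; exact hB3 b)
  refine ⟨a, ?_⟩
  rw [mem_P2B3K0_iff]
  exact ha

include hqM in
/-- (C1) in the `∀ a ∈ A` form of helper47's `ClassifyInst.resHom`. -/
theorem alphaK0_mem_B3K0' :
    ∀ a ∈ BRingK0 M' q A hq, (alphaK0 A (M' * q) q : Fq →+* FQ) a ∈ B3K0 M' q A hQ :=
  fun a ha => alphaK0_mem_B3K0 A M' hQ hq hqM ⟨a, ha⟩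

include hqM in
theorem betaK0_mem_B3K0' :
    ∀ a ∈ BRingK0 M' q A hq, (betaK0 A (M' * q) q : Fq →+* FQ) a ∈ B3K0 M' q A hQ :=
  fun a ha => betaK0_mem_B3K0 A M' hQ hq hqM ⟨a, ha⟩

include hqM hA h2 h3 in
/-- **(C5) in the shape of helper47's `ClassifyInst.classify_val`**: `hpiα` with
`A := BRingK0 M' q A hq`, `B := B3K0 M' q A hQ`, `α := alphaK0`, `nα := q`, `P2 := P2B3K0`, for ANY
proof `hαAB` of (C1). -/
theorem hpi_alpha_resHom
    (hB3 : ∀ x0 : B3K0 M' q A hQ, rdK2 M' q A hQ x0 ∈ Set.range (cVal M' A))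
    (hαAB : ∀ a ∈ BRingK0 M' q A hq, (alphaK0 A (M' * q) q : Fq →+* FQ) a ∈ B3K0 M' q A hQ) :
    ∀ b : B3K0 M' q A hQ, ∃ a : BRingK0 M' q A hq,
      b ^ q - ClassifyInst.resHom (alphaK0 A (M' * q) q : Fq →+* FQ) (BRingK0 M' q A hq)
        (B3K0 M' q A hQ) hαAB a ∈ P2B3K0 A M' hQ := by
  intro b
  obtain ⟨a, ha⟩ := hpi_alpha_B3K0 A M' hQ hq hqM hA h2 h3 hB3 b
  exact ⟨a, ha⟩

end Fermat.Agent.GL.Frame.ClassifyC5
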