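/-
GATE-L / (A1) CLASSIFICATION, CONCRETE over `K₀` (helper47; claims key A1-K0).

Levels `N₀ = M' q` (`q ∥ N₀`) and `N = M' q q`, `A | q`, `K₀ = ℚ̄^{I_A}`, `R₀ = A ∩ K₀`.
`Aj := BRingK0 M' q A hq` (helper96: the chart ring of level `N₀` over `R₀`), `B` ANY subring of
`K₀(X₀(N))` (the frame `chartRing (R₀ A) (jK0 A N)` of helper80) with its three vertical primes
`P1 P2 P3` characterised through `w₁ = RwK0`, `w₂ = redData2QK0`, `w₃ = Rw3K0`;
`α = alphaK0`, `β = betaK0`.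

* `mem_P1K0_iff` : `P'₁ = ker red₁ = {w₁' > 0}` (twin of helper96 `mem_P2K0_iff`);
* `row_α1 … row_β3` : the five VALUATION rows of `ClassifyInst.classify_val` (helper67 `DegenK0`,
  `RowsK0W3`);
* `dichotomy_K0` : **`Classify.classify` at the concrete objects**: (C2) rows and (C3)
  (helper65 `NodeSS_K0`) plugged; the inputs (C1) `α Aj, β Aj ⊆ B` + integrality, (C4) `hTα`,
  (C5) `hpiα`, (C6) `hssβ` are hypotheses in the EXACT shapes of their landed producers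
  (helper87 `ArithInt`, helper30 `UniqueOver.hTalpha` / helper33 `hTα_of_thick_surjective`,
  helper42 `ClassifyC5.hpi_alpha`, helper30 `SsFrob.hssb_classify`).
-/
import Fermat.Agent.GL.Frame.ClassifyInst
import Fermat.Agent.GL.Frame.NodeSS_K0
import Fermat.Agent.GL.Table.RowsK0W3

set_option autoImplicit false
set_option linter.style.haveILetI false
set_option linter.unusedSectionVars false

noncomputable section

namespace Fermat.Agent.GL.Frame.ClassifyK0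

open HahnSeries ModularCurve IsLocalRing Polynomial
open Fermat.Agent.S24 Fermat.Agent.S24_helper62 Fermat.Agent.S24_helper82
open Fermat.Agent.GJ.J1 Fermat.Agent.GJ.J1.Val Fermat.Agent.GJ.HN
open Fermat.Agent.GK.AL Fermat.Agent.GK.QS Fermat.Agent.GK.FrobGlue Fermat.Agent.GL.AL
open Fermat.Agent.Common_helper32
open Fermat.Agent.GL.SmallQ
open Fermat.Agent.GL.Val.GaussK0 Fermat.Agent.GL.Val.SecondK0 Fermat.Agent.GL.Val.SecondK0Hall
open Fermat.Agent.GL.Val.ThirdK0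
open Fermat.Agent.GL.BRingK0 Fermat.Agent.GL.Table.K0 Fermat.Agent.GL.Thick
open Fermat.Agent.GL.Frame.ClassifyInst

variable (A : ValuationSubring Kbar) {q : ℕ} [Fact q.Prime] [NeZero q] (M' : ℕ) [NeZero M']
  (hQ : HallDvd (q ^ 2) (M' * q * q)) (hq : ExactDvd q (M' * q))
  (hqM : ¬ q ∣ M') (hA : A.LiesOverPrime q)

local notation "kA" => IsLocalRing.ResidueField A
local notation "FQ" => modularFunctionFieldFullC (K0 A) (M' * q * q)
local notation "Fq" => modularFunctionFieldFullC (K0 A) (M' * q)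

/-- `P'₁ = {x0 ∈ B_R | w₁' x0 > 0}` -/
theorem mem_P1K0_iff {x0 : BRingK0 M' q A hq} :
    x0 ∈ P1K0 (h := hq) hqM hA ↔ (x0 : Fq) ∈ (RwK0 A (M' * q)).nonunits := by
  rw [P1K0, RingHom.mem_ker, mem_nonunits_Rw1K0_iff]
  have hx1 : mapK0Bar A (M' * q) (x0 : Fq) ∈ (redDataBar (M' * q) A).Rw :=
    (toBRing M' q A hq x0).2.2.1
  constructor
  · intro h0
    have h1 : rho1 M' q A hq (toBRing M' q A hq x0) = 0 := by
      rw [← cVal_redC1K0 hq hqM hA, h0, map_zero]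
    rw [rho1_apply] at h1
    have h2 : (redDataBar (M' * q) A).red ⟨mapK0Bar A (M' * q) (x0 : Fq), hx1⟩ = 0 :=
      Subtype.ext h1
    have h3 := ((redDataBar (M' * q) A).red_eq_zero_iff _).1 h2
    rw [ValuationSubring.mem_nonunits_iff]
    exact (ValuationSubring.valuation_lt_one_iff _ _).1 h3
  · intro hn
    rw [ValuationSubring.mem_nonunits_iff] at hn
    have h3 : (⟨mapK0Bar A (M' * q) (x0 : Fq), hx1⟩ : (redDataBar (M' * q) A).Rw) ∈
        IsLocalRing.maximalIdeal (redDataBar (M' * q) A).Rw :=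
      (ValuationSubring.valuation_lt_one_iff _ _).2 hn
    have h2 := ((redDataBar (M' * q) A).red_eq_zero_iff _).2 h3
    refine cVal_injective M' A ?_
    rw [cVal_redC1K0, map_zero, rho1_apply]
    exact congrArg Subtype.val h2

/-! ### the five valuation rows (helper67 `DegenK0`, `RowsK0W3`) -/

local notation "αK" => ((alphaK0 A (M' * q) q : Fq →ₐ[K0 A] FQ) : Fq →+* FQ)
local notation "βK" => ((betaK0 A (M' * q) q : Fq →ₐ[K0 A] FQ) : Fq →+* FQ)

theorem row_α1 : (RwK0 A (M' * q * q)).comap αK = RwK0 A (M' * q) := by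
  ext x
  rw [ValuationSubring.mem_comap]
  exact alphaK0_mem_RwK0_iff A (M' * q) q x

theorem row_β1 : (RwK0 A (M' * q * q)).comap βK = RwK0 A (M' * q) := by
  ext x
  rw [ValuationSubring.mem_comap]
  exact betaK0_mem_RwK0_iff A (M' * q) q x

theorem row_α2 : (redData2QK0 A (M' * q * q) hQ).Rw.comap αK = (redData2K0 A (M' * q) hq).Rw :=
  comap_alphaK0_Rw2QK0 A M' hQ hq

theorem row_α3 : (Rw3K0 A (M' * q * q) q).comap αK = RwK0 A (M' * q) :=
  comap_alphaK0_Rw3K0 A Fact.out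

include hqM in
theorem row_β3 : (Rw3K0 A (M' * q * q) q).comap βK = (redData2K0 A (M' * q) hq).Rw :=
  comap_betaK0_Rw3K0 A Fact.out hqM

/-! ### the classification at the concrete objects -/

include hQ in
/-- **(A1) over `K₀`**: `Classify.classify` at `Aj := BRingK0 M' q A hq`, `B` the frame of level
`M' q q`, `φα φβ` the restrictions of `alphaK0`, `betaK0`, `s' := p̃(j')` the lifted supersingular
polynomial.  (C2) and (C3) are plugged; (C1) (C4) (C5) (C6) are hypotheses in the shapes of their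
landed producers. -/
theorem dichotomy_K0 (h2 : q = 2 → 3 ∣ M') (h3 : q = 3 → 2 ∣ M')
    {J' : Ideal (CRing M' A)} (hJ : fixIdeal (psiC M' q A hqM hA) ≤ J')
    (hJ' : BT M' q A hq = gluedAlg (psiC M' q A hqM hA) J')
    {p : (R0 A)[X]}
    (hp : p.map (resR0 A) = @ssPolyAll q _ kA _ (charP_residue A Fact.out hA))
    (B : Subring FQ)
    (hαAB : ∀ a ∈ BRingK0 M' q A hq, αK a ∈ B) (hβAB : ∀ a ∈ BRingK0 M' q A hq, βK a ∈ B)
    (P1 P2 P3 : Ideal B)
    (hP1 : ∀ b : B, b ∈ P1 ↔ (b : FQ) ∈ (RwK0 A (M' * q * q)).nonunits)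
    (hP2 : ∀ b : B, b ∈ P2 ↔ (b : FQ) ∈ (redData2QK0 A (M' * q * q) hQ).Rw.nonunits)
    (hP3 : ∀ b : B, b ∈ P3 ↔ (b : FQ) ∈ (Rw3K0 A (M' * q * q) q).nonunits)
    (hα : (resHom αK (BRingK0 M' q A hq) B hαAB).IsIntegral)
    (hTα : ∀ x2 : Ideal B, x2.IsPrime →
      P1K0 (h := hq) hqM hA ⊔ P2K0 hq hqM hA ≤
        x2.comap (resHom αK (BRingK0 M' q A hq) B hαAB) → P2 ≤ x2)
    (nα : ℕ) (hnα : 0 < nα)
    (hpiα : ∀ b : B, ∃ a : BRingK0 M' q A hq,
      b ^ nα - resHom αK (BRingK0 M' q A hq) B hαAB a ∈ P2)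
    (x : Ideal B) [hx : x.IsMaximal]
    (hssβ : resHom βK (BRingK0 M' q A hq) B hβAB
        (p.eval₂ (cstK0 M' q A hq) (jK0B M' q A hq)) ∈ x →
      resHom αK (BRingK0 M' q A hq) B hαAB
        (p.eval₂ (cstK0 M' q A hq) (jK0B M' q A hq)) ∈ x)
    (hbr : P1 ≤ x ∨ P2 ≤ x ∨ P3 ≤ x) :
    (resHom αK (BRingK0 M' q A hq) B hαAB
          (p.eval₂ (cstK0 M' q A hq) (jK0B M' q A hq)) ∈ x ∧
        P1 ≤ x ∧ P2 ≤ x ∧ P3 ≤ x ∧
        P1K0 (h := hq) hqM hA ⊔ P2K0 hq hqM hA ≤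
          x.comap (resHom αK (BRingK0 M' q A hq) B hαAB)) ∨
      (resHom αK (BRingK0 M' q A hq) B hαAB
          (p.eval₂ (cstK0 M' q A hq) (jK0B M' q A hq)) ∉ x ∧
        ¬ (P1 ≤ x ∧ P2 ≤ x) ∧ ¬ (P2 ≤ x ∧ P3 ≤ x) ∧ ¬ (P1 ≤ x ∧ P3 ≤ x)) := by
  obtain ⟨hs1, hs2⟩ := redC_ssLift (h := hq) hqM hA hp
  refine classify_val αK βK (BRingK0 M' q A hq) B hαAB hβAB
    (RwK0 A (M' * q)) (redData2K0 A (M' * q) hq).Rw
    (RwK0 A (M' * q * q)) (redData2QK0 A (M' * q * q) hQ).Rw (Rw3K0 A (M' * q * q) q)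
    (row_α1 A M') (row_α2 A M' hQ hq) (row_α3 A M') (row_β1 A M') (row_β3 A M' hq hqM)
    (P1K0 (h := hq) hqM hA) (P2K0 hq hqM hA)
    (fun a => mem_P1K0_iff A M' hq hqM hA) (fun a => mem_P2K0_iff hq hqM hA)
    P1 P2 P3 hP1 hP2 hP3 hα hTα nα hnα hpiα
    (p.eval₂ (cstK0 M' q A hq) (jK0B M' q A hq)) ?_ ?_ x hssβ hbr
  · intro x' _ hle
    exact ss_mem_of_le hqM hA h2 h3 hJ' hs1 x' (le_sup_left.trans hle) (le_sup_right.trans hle)
  · intro x' hx' hor hs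
    have := hx'.isPrime
    obtain ⟨h1, h2'⟩ := le_of_ss_mem hqM hA h2 h3 hJ hJ' hs1 hs2 x' hor hs
    exact sup_le h1 h2'

end Fermat.Agent.GL.Frame.ClassifyK0
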