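/-
GATE-L / (A1) CLASSIFICATION over `K₀`, ALL inputs plugged (helper47; claims key A1-K0-FULL).

`ClassifyK0.dichotomy_K0` at the frame `Bf = B3K0 M' q A hQ = chartRing (R₀ A) j` (helper75
`B3ChartK0`) of the level `N = M' q q`, with

* (C1) `α Aj, β Aj ⊆ Bf` : helper42 `ClassifyC5.alphaK0_mem_B3K0'`, `betaK0_mem_B3K0'`;
* `hα` : `Bf` is integral over `α Aj` (`isIntegral_resHom_alpha`, from helper75 (INT));
* (C4) `hTα` : helper65 `ClassifyC4K0.hTα_K0_inst` (aux prime `r ∣ M'`, `r % 3 = 2`, `r % 4 = 3`);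
* (C5) `hpiα` : helper42 `ClassifyC5.hpi_alpha_resHom` (K-RED `hB3`, helper15 `RedInC`);
* (C6) `hssβ` : helper30 `SsFrob.hssb_of_vert` + helper18 `KroneckerK0.kron_rows_of_centres`.

Output `dichotomy_frame` : the `hdich` binder of `HallOfClassify.hall_of_classify` /
helper11 `H5TypeI.hallj_typed` VERBATIM.
-/
import Fermat.Agent.GL.Frame.ClassifyK0
import Fermat.Agent.GL.Frame.ClassifyC5B3
import Fermat.Agent.GL.Frame.ClassifyC4K0Inst
import Fermat.Agent.GL.Frame.SsFrob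
import Fermat.Agent.GL.Table.KroneckerK0
import Fermat.Agent.GL.Val.B3ChartK0
import Fermat.Agent.GL.Frame.HallOfClassify

set_option autoImplicit false
set_option linter.style.haveILetI false
set_option linter.unusedSectionVars false

noncomputable section

namespace Fermat.Agent.GL.Frame.ClassifyK0Full

open HahnSeries ModularCurve IsLocalRing Polynomial
open Fermat.Agent.S24 Fermat.Agent.S24_helper62 Fermat.Agent.S24_helper82
open Fermat.Agent.GJ.J1 Fermat.Agent.GJ.J1.Val Fermat.Agent.GJ.HN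
open Fermat.Agent.GK.AL Fermat.Agent.GK.QS Fermat.Agent.GK.FrobGlue Fermat.Agent.GL.AL
open Fermat.Agent.Common_helper32
open Fermat.Agent.GL.SmallQ
open Fermat.Agent.GL.Val.GaussK0 Fermat.Agent.GL.Val.SecondK0 Fermat.Agent.GL.Val.SecondK0Hall
open Fermat.Agent.GL.Val.ThirdK0 Fermat.Agent.GL.Val.OrthK0
open Fermat.Agent.GL.BRingK0 Fermat.Agent.GL.Table.K0 Fermat.Agent.GL.Thick
open Fermat.Agent.GL.OldTriplesK0
open Fermat.Agent.GL.Frame.ClassifyInst Fermat.Agent.GL.Frame.ClassifyK0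
open Fermat.Agent.GL.Frame.HeightOne

/-! ### abstract: integrality over the image of a restricted field hom -/

section Abs

variable {F' F : Type*} [Field F'] [Field F]

/-- if `b` is a root of a monic polynomial over `F` all of whose coefficients are images under
`φ` of elements of the subring `A`, then `b` is integral over `resHom φ A B h`. -/
theorem isIntegralElem_resHom_of_monic (φ : F' →+* F) (A : Subring F') (B : Subring F)
    (h : ∀ a ∈ A, φ a ∈ B) (b : B) (P : F[X]) (hP : P.Monic) (hP0 : P.eval (b : F) = 0)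
    (hc : ∀ n, ∃ a : A, φ (a : F') = P.coeff n) :
    (resHom φ A B h).IsIntegralElem b := by
  have hl : P ∈ Polynomial.lifts (φ.comp A.subtype) := by
    rw [Polynomial.lifts_iff_coeff_lifts]
    intro n
    obtain ⟨a, ha⟩ := hc n
    exact ⟨a, ha⟩
  obtain ⟨Q, hQ, -, hQm⟩ := Polynomial.lifts_and_degree_eq_and_monic hl hP
  refine ⟨Q, hQm, ?_⟩
  apply Subtype.ext
  have e : (B.subtype).comp (resHom φ A B h) = φ.comp A.subtype := rfl
  have : ((Q.eval₂ (resHom φ A B h) b : B) : F) = (Q.map (φ.comp A.subtype)).eval (b : F) := by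
    rw [eval_map, ← e]
    exact Polynomial.hom_eval₂ Q (resHom φ A B h) B.subtype b
  rw [this, hQ, hP0]
  rfl

end Abs

/-! ### the concrete inputs at `Bf = B3K0` -/

variable (A : ValuationSubring Kbar) {q : ℕ} [Fact q.Prime] [NeZero q] (M' : ℕ) [NeZero M']
  (hQ : HallDvd (q ^ 2) (M' * q * q)) (hq : ExactDvd q (M' * q))
  (hqM : ¬ q ∣ M') (hA : A.LiesOverPrime q)

local notation "kA" => IsLocalRing.ResidueField A
local notation "FQ" => modularFunctionFieldFullC (K0 A) (M' * q * q)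
local notation "Fq" => modularFunctionFieldFullC (K0 A) (M' * q)
local notation "αK" => ((alphaK0 A (M' * q) q : Fq →ₐ[K0 A] FQ) : Fq →+* FQ)
local notation "βK" => ((betaK0 A (M' * q) q : Fq →ₐ[K0 A] FQ) : Fq →+* FQ)

/-- every element of `R₀[j] ⊆ K₀(X₀(M' q q))` is `α` of an element of the lower chart ring. -/
theorem exists_alpha_eq_of_mem_adjoin (c : FQ)
    (hc : c ∈ Algebra.adjoin (R0 A) {jK0 A (M' * q * q)}) :
    ∃ a : BRingK0 M' q A hq, αK (a : Fq) = c := by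
  induction hc using Algebra.adjoin_induction with
  | mem x hx =>
    rw [Set.mem_singleton_iff] at hx
    subst hx
    refine ⟨jK0B M' q A hq, ?_⟩
    rw [jK0_eq_jC]
    exact Fermat.Agent.GL.Table.KroneckerK0.alphaK0_jC A
  | algebraMap r =>
    refine ⟨cstK0 M' q A hq r, ?_⟩
    exact (alphaK0 A (M' * q) q).commutes (r : K0 A)
  | add x y _ _ hx hy =>
    obtain ⟨a, rfl⟩ := hx
    obtain ⟨b, rfl⟩ := hy
    exact ⟨a + b, by rw [Subring.coe_add, map_add]⟩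
  | mul x y _ _ hx hy =>
    obtain ⟨a, rfl⟩ := hx
    obtain ⟨b, rfl⟩ := hy
    exact ⟨a * b, by rw [Subring.coe_mul, map_mul]⟩

include hqM hA in
/-- **`hα`**: the upper chart ring `B3K0` is integral over `π^*` of the lower chart ring. -/
theorem isIntegral_resHom_alpha
    (hαAB : ∀ a ∈ BRingK0 M' q A hq, αK a ∈ B3K0 M' q A hQ) :
    (resHom αK (BRingK0 M' q A hq) (B3K0 M' q A hQ) hαAB).IsIntegral := by
  intro b
  have hb := Fermat.Agent.GL.Val.B3ChartK0.isIntegral_of_mem_B3K0 hqM hA (b : FQ) b.2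
  obtain ⟨P, hPm, hP0⟩ := hb
  refine isIntegralElem_resHom_of_monic αK (BRingK0 M' q A hq) (B3K0 M' q A hQ) hαAB b
    (P.map (algebraMap _ FQ)) (hPm.map _) ?_ ?_
  · rw [eval_map]
    exact hP0
  · intro n
    rw [coeff_map]
    exact exists_alpha_eq_of_mem_adjoin A M' hq _ (P.coeff n).2

/-! ### (C6) `hssβ` on a frame -/

/-- `π^*` and `π'^*` agree on the constants. -/
theorem resHom_beta_comp_cst (Bf : Subring FQ)
    (hαAB : ∀ a ∈ BRingK0 M' q A hq, αK a ∈ Bf) (hβAB : ∀ a ∈ BRingK0 M' q A hq, βK a ∈ Bf) :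
    (resHom βK (BRingK0 M' q A hq) Bf hβAB).comp (cstK0 M' q A hq) =
      (resHom αK (BRingK0 M' q A hq) Bf hαAB).comp (cstK0 M' q A hq) := by
  refine RingHom.ext fun a => Subtype.ext ?_
  exact ((betaK0 A (M' * q) q).commutes (a : K0 A)).trans
    ((alphaK0 A (M' * q) q).commutes (a : K0 A)).symm

/-- the uniformiser `q0` of `R₀` goes to the integer `q` of the frame. -/
theorem resHom_alpha_cst_q0 (Bf : Subring FQ)
    (hαAB : ∀ a ∈ BRingK0 M' q A hq, αK a ∈ Bf) :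
    resHom αK (BRingK0 M' q A hq) Bf hαAB (cstK0 M' q A hq (q0 A q)) = ((q : ℕ) : Bf) := by
  apply Subtype.ext
  have h1 : ((q0 A q : R0 A) : K0 A) = ((q : ℕ) : K0 A) := by
    apply ι0_injective A
    rw [ι0_q0, map_natCast]
  have h2 : ((resHom αK (BRingK0 M' q A hq) Bf hαAB (cstK0 M' q A hq (q0 A q)) : Bf) : FQ) =
      algebraMap (K0 A) FQ ((q0 A q : R0 A) : K0 A) :=
    (alphaK0 A (M' * q) q).commutes _
  rw [h2, h1, map_natCast, Subring.coe_natCast]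

include hQ hqM hA in
/-- **(C6)**: `hssβ` of `dichotomy_K0` at a prime `x` of the special fibre of ANY frame `Bf`
(helper30 `SsFrob.hssb_of_vert` + helper18 `KroneckerK0.kron_rows_of_centres`). -/
theorem hssb_frame {p : (R0 A)[X]}
    (hp : p.map (resR0 A) = @ssPolyAll q _ kA _ (charP_residue A Fact.out hA))
    (Bf : Subring FQ)
    (hαAB : ∀ a ∈ BRingK0 M' q A hq, αK a ∈ Bf) (hβAB : ∀ a ∈ BRingK0 M' q A hq, βK a ∈ Bf)
    (P1 P2 P3 : Ideal Bf)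
    (hP1 : ∀ b : Bf, (b : FQ) ∈ (RwK0 A (M' * q * q)).nonunits → b ∈ P1)
    (hP2 : ∀ b : Bf, (b : FQ) ∈ (redData2QK0 A (M' * q * q) hQ).Rw.nonunits → b ∈ P2)
    (hP3 : ∀ b : Bf, (b : FQ) ∈ (Rw3K0 A (M' * q * q) q).nonunits → b ∈ P3)
    (x : Ideal Bf) [hx : x.IsPrime] (hqx : ((q : ℕ) : Bf) ∈ x)
    (hbr : P1 ≤ x ∨ P2 ≤ x ∨ P3 ≤ x) :
    resHom βK (BRingK0 M' q A hq) Bf hβAB
        (p.eval₂ (cstK0 M' q A hq) (jK0B M' q A hq)) ∈ x →
      resHom αK (BRingK0 M' q A hq) Bf hαAB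
        (p.eval₂ (cstK0 M' q A hq) (jK0B M' q A hq)) ∈ x := by
  haveI : CharP kA q := charP_residue A Fact.out hA
  set φα := resHom αK (BRingK0 M' q A hq) Bf hαAB with hφα
  set φβ := resHom βK (BRingK0 M' q A hq) Bf hβAB with hφβ
  have ea : φα (p.eval₂ (cstK0 M' q A hq) (jK0B M' q A hq)) =
      (p.map (φα.comp (cstK0 M' q A hq))).eval (φα (jK0B M' q A hq)) := by
    rw [eval_map, Polynomial.hom_eval₂]
  have eb : φβ (p.eval₂ (cstK0 M' q A hq) (jK0B M' q A hq)) =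
      (p.map (φα.comp (cstK0 M' q A hq))).eval (φβ (jK0B M' q A hq)) := by
    rw [eval_map, Polynomial.hom_eval₂, hφβ, hφα, resHom_beta_comp_cst A M' hq Bf hαAB hβAB]
  rw [ea, eb]
  obtain ⟨h1, h2, h3⟩ := Fermat.Agent.GL.Table.KroneckerK0.kron_rows_of_centres A
    (Fact.out : q.Prime) hqM hA hQ hq P1 P2 P3 hP1 hP2 hP3 (φα (jK0B M' q A hq))
    (φβ (jK0B M' q A hq)) (Fermat.Agent.GL.Table.KroneckerK0.alphaK0_jC A) rfl
  have hxc : ∀ a : R0 A, resR0 A a = 0 → (φα.comp (cstK0 M' q A hq)) a ∈ x := by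
    intro a ha
    have hnu : ¬ IsUnit a := by
      intro hu
      have h0 := hu.map (resR0 A)
      rw [ha] at h0
      exact not_isUnit_zero h0
    obtain ⟨b, rfl⟩ := exists_eq_q0_mul A (Fact.out : q.Prime) hA a hnu
    rw [map_mul]
    apply Ideal.mul_mem_right
    rw [RingHom.comp_apply, hφα, resHom_alpha_cst_q0 A M' hq Bf hαAB]
    exact hqx
  exact (Fermat.Agent.GL.Frame.SsFrob.hssb_of_vert q P1 P2 P3 x hqx hbr
    (p.map (φα.comp (cstK0 M' q A hq)))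
    (Fermat.Agent.GL.Frame.SsFrob.coeff_pow_sub_mem_of_lift q (resR0 A)
      (φα.comp (cstK0 M' q A hq)) x hxc p hp)
    (φα (jK0B M' q A hq)) (φβ (jK0B M' q A hq)) h1 h2 h3).mp

/-! ### the dichotomy on the frame -/

section Frame

variable {Bf : Subring (modularFunctionFieldFullC (K0 A) (M' * q * q))}
  [IsFractionRing Bf (modularFunctionFieldFullC (K0 A) (M' * q * q))]
  [IsNoetherianRing Bf] [IsIntegrallyClosed Bf]

/-- every prime of the special fibre of the frame contains one of the vertical primes. -/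
theorem hbr_frame (f : Fin 3 → HtOne Bf) {qB : Bf} (hqB0 : qB ≠ 0)
    (hvert : ∀ 𝔭 : HtOne Bf, qB ∈ 𝔭.1 → ∃ i, f i = 𝔭)
    (x : Ideal Bf) [x.IsPrime] (hqx : qB ∈ x) :
    (f 0).1 ≤ x ∨ (f 1).1 ≤ x ∨ (f 2).1 ≤ x := by
  obtain ⟨𝔭, hq𝔭, h𝔭x⟩ := Fermat.Agent.GL.Frame.LocDispatch.exists_htOne_le hqB0 x hqx
  obtain ⟨i, rfl⟩ := hvert 𝔭 hq𝔭
  fin_cases i
  · exact Or.inl h𝔭x
  · exact Or.inr (Or.inl h𝔭x)
  · exact Or.inr (Or.inr h𝔭x)

include hqM in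
/-- (C1) on a frame equal to `B3K0`. -/
theorem alpha_mem_frame (hBf : ∀ x : FQ, x ∈ Bf ↔ x ∈ B3K0 M' q A hQ) :
    ∀ a ∈ BRingK0 M' q A hq, αK a ∈ Bf := fun a ha =>
  (hBf _).2 (Fermat.Agent.GL.Frame.ClassifyC5.alphaK0_mem_B3K0' A M' hQ hq hqM a ha)

include hqM in
theorem beta_mem_frame (hBf : ∀ x : FQ, x ∈ Bf ↔ x ∈ B3K0 M' q A hQ) :
    ∀ a ∈ BRingK0 M' q A hq, βK a ∈ Bf := fun a ha =>
  (hBf _).2 (Fermat.Agent.GL.Frame.ClassifyC5.betaK0_mem_B3K0' A M' hQ hq hqM a ha)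

include hQ hqM hA in
/-- **(A1) over `K₀`, everything plugged**: the `hdich` binder of
`HallOfClassify.hall_of_classify` (helper11 `H5TypeI.hallj_typed`, `H5Typed.h5_typed`) at the frame
`Bf = B3K0 = chartRing (R₀ A) j` of the level `M' q q`, with `s := π^*(p̃(j'))` and
`Q 𝔫 := "𝔫 lies over a node of the lower level"`.  Hypotheses left: the arithmetic of a good level
(`h2 h3`, the auxiliary prime `r`), K-N6 (`hJ hJ'` = helper65 `EtaInstK0Aux.exists_ideal_K0`), the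
lift `p` (`NodeSS_K0.exists_lift_ssPolyAll`), K-RED for `w₂` (`hB3`, helper15 `RedInC`), and the
frame data of helper80 `exists_frame` (`f`, `hf0 hf1 hf2`, `hvert`). -/
theorem dichotomy_frame (h2 : q = 2 → 3 ∣ M') (h3 : q = 3 → 2 ∣ M')
    {r : ℕ} (hr : r.Prime) (hrN : r ∣ M') (hr3 : r % 3 = 2) (hr4 : r % 4 = 3)
    {J' : Ideal (CRing M' A)} (hJ : fixIdeal (psiC M' q A hqM hA) ≤ J')
    (hJ' : BT M' q A hq = gluedAlg (psiC M' q A hqM hA) J')
    {p : (R0 A)[X]}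
    (hp : p.map (resR0 A) = @ssPolyAll q _ kA _ (charP_residue A Fact.out hA))
    (hB3 : ∀ x0 : B3K0 M' q A hQ, rdK2 M' q A hQ x0 ∈ Set.range (cVal M' A))
    (hBf : ∀ x : FQ, x ∈ Bf ↔ x ∈ B3K0 M' q A hQ)
    (hαAB : ∀ a ∈ BRingK0 M' q A hq, αK a ∈ Bf) (hβAB : ∀ a ∈ BRingK0 M' q A hq, βK a ∈ Bf)
    (f : Fin 3 → HtOne Bf)
    (hf0 : ∀ b : Bf, b ∈ (f 0).1 ↔ (b : FQ) ∈ (RwK0 A (M' * q * q)).nonunits)
    (hf1 : ∀ b : Bf, b ∈ (f 1).1 ↔ (b : FQ) ∈ (redData2QK0 A (M' * q * q) hQ).Rw.nonunits)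
    (hf2 : ∀ b : Bf, b ∈ (f 2).1 ↔ (b : FQ) ∈ (Rw3K0 A (M' * q * q) q).nonunits)
    {qB : Bf} (hqB : (qB : FQ) = ((q : ℕ) : FQ))
    (hvert : ∀ 𝔭 : HtOne Bf, qB ∈ 𝔭.1 → ∃ i, f i = 𝔭)
    (𝔫 : Ideal Bf) (h𝔫 : 𝔫.IsMaximal) (hq𝔫 : qB ∈ 𝔫) :
    (resHom αK (BRingK0 M' q A hq) Bf hαAB
          (p.eval₂ (cstK0 M' q A hq) (jK0B M' q A hq)) ∈ 𝔫 ∧
        (f 0).1 ≤ 𝔫 ∧ (f 1).1 ≤ 𝔫 ∧ (f 2).1 ≤ 𝔫 ∧
        P1K0 (h := hq) hqM hA ⊔ P2K0 hq hqM hA ≤
          𝔫.comap (resHom αK (BRingK0 M' q A hq) Bf hαAB)) ∨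
      (resHom αK (BRingK0 M' q A hq) Bf hαAB
          (p.eval₂ (cstK0 M' q A hq) (jK0B M' q A hq)) ∉ 𝔫 ∧
        ¬ ((f 0).1 ≤ 𝔫 ∧ (f 1).1 ≤ 𝔫) ∧ ¬ ((f 1).1 ≤ 𝔫 ∧ (f 2).1 ≤ 𝔫) ∧
        ¬ ((f 0).1 ≤ 𝔫 ∧ (f 2).1 ≤ 𝔫)) := by
  obtain rfl : Bf = B3K0 M' q A hQ := Subring.ext hBf
  have hqBn : qB = ((q : ℕ) : B3K0 M' q A hQ) :=
    Subtype.ext (by rw [hqB, Subring.coe_natCast])
  have hqB0 : qB ≠ 0 := by
    intro h0
    have h1 : ((q : ℕ) : FQ) = 0 := by rw [← hqB, h0]; rfl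
    have h3' : ((q : ℕ) : K0 A) = 0 := by
      apply (algebraMap (K0 A) FQ).injective
      rw [map_natCast, h1, map_zero]
    exact (NeZero.ne q) (by exact_mod_cast h3')
  haveI := h𝔫
  have hbr := hbr_frame A M' f hqB0 hvert 𝔫 hq𝔫
  have hint := isIntegral_resHom_alpha A M' hQ hq hqM hA hαAB
  refine dichotomy_K0 A M' hQ hq hqM hA h2 h3 hJ hJ' hp (B3K0 M' q A hQ) hαAB hβAB
    (f 0).1 (f 1).1 (f 2).1 hf0 hf1 hf2 hint ?_ q (Fact.out : q.Prime).pos ?_ 𝔫 ?_ hbr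
  · intro x2 hx2 hnode
    refine Fermat.Agent.GL.Frame.ClassifyC4K0.hTα_K0_inst hq hqM hA h2 h3 hr hrN hr3 hr4
      (resHom αK (BRingK0 M' q A hq) (B3K0 M' q A hQ) hαAB)
      (resHom_injective αK (BRingK0 M' q A hq) (B3K0 M' q A hQ) hαAB) hint
      (f 0).1 (f 1).1 (f 2).1
      (comap_resHom_eq αK (BRingK0 M' q A hq) (B3K0 M' q A hQ) hαAB _ _ (row_α1 A M') _ hf0 _
        (fun a => mem_P1K0_iff A M' hq hqM hA))
      (comap_resHom_eq αK (BRingK0 M' q A hq) (B3K0 M' q A hQ) hαAB _ _ (row_α2 A M' hQ hq) _ hf1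
        _ (fun a => mem_P2K0_iff hq hqM hA))
      (comap_resHom_eq αK (BRingK0 M' q A hq) (B3K0 M' q A hQ) hαAB _ _ (row_α3 A M') _ hf2 _
        (fun a => mem_P1K0_iff A M' hq hqM hA))
      ?_ x2 hx2 hnode
    intro Q hQp hqQ
    haveI := hQp
    rw [map_natCast, ← hqBn] at hqQ
    exact hbr_frame A M' f hqB0 hvert Q hqQ
  · intro b
    obtain ⟨a, ha⟩ := Fermat.Agent.GL.Frame.ClassifyC5.hpi_alpha_resHom A M' hQ hq hqM hA h2 h3
      hB3 hαAB b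
    refine ⟨a, ?_⟩
    rw [hf1]
    exact (Fermat.Agent.GL.Frame.ClassifyC5.mem_P2B3K0_iff A M' hQ _).1 ha
  · rw [hqBn] at hq𝔫
    exact hssb_frame A M' hQ hq hqM hA hp (B3K0 M' q A hQ) hαAB hβAB (f 0).1 (f 1).1 (f 2).1
      (fun b hb => (hf0 b).2 hb) (fun b hb => (hf1 b).2 hb) (fun b hb => (hf2 b).2 hb) 𝔫 hq𝔫 hbr

end Frame

end Fermat.Agent.GL.Frame.ClassifyK0Full
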