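/-
GATE-L / FRAME-INST-A (helper80), part 5: ADAPTERS between the three spellings of "the integral
closure of `R[t]` in `F` as a subring of `F`" used on the H5 arm:

* helper80 `Inst.icRing R S` / `Inst.chartRing R t` (`GL/Frame/FrameInst.lean`);
* helper56 `(H5.icAlg R S).toSubring` (`GL/Final/H5Field.lean`);
* helper13 `ChartChange.IsChartRing R x B` (`GL/Frame/ChartChange.lean`).

They are the same subring (`rfl` resp. `Subring.ext`), so every instance / theorem of `FrameInst`
applies to all of them after a `rw` / `subst`.
-/
import Mathlib
import Fermat.Agent.GL.Frame.FrameInst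
import Fermat.Agent.GL.Final.H5Field

set_option autoImplicit false
set_option linter.unusedSectionVars false

namespace Fermat.Agent.GL.Frame.InstAdapt

open Fermat.Agent.GL.Frame.Inst Fermat.Agent.GL.Final.H5 Fermat.Agent.GL.ChartChange

variable {R F : Type*} [CommRing R] [Field F] [Algebra R F]

/-- helper56's `icAlg` is helper80's `icRing`. -/
theorem toSubring_icAlg (S : Set F) : (icAlg R S).toSubring = icRing R S := rfl

theorem mem_icAlg_iff_mem_icRing (S : Set F) (z : F) : z ∈ icAlg R S ↔ z ∈ icRing R S := Iff.rfl

/-- a chart ring in helper13's sense is helper80's `chartRing`. -/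
theorem eq_chartRing_of_isChartRing {x : F} {B : Subring F} (hB : IsChartRing R x B) :
    B = chartRing R x :=
  Subring.ext fun f => hB f

theorem isChartRing_chartRing (x : F) : IsChartRing R x (chartRing R x) := fun _ => Iff.rfl

/-! ### the three instances of `FrameInst` (A1) in `icAlg` / `IsChartRing` language -/

section Instances

open IntermediateField

variable {R K F : Type*} [CommRing R] [IsDomain R] [Field K] [Field F]
  [Algebra R K] [IsFractionRing R K] [Algebra K F] [Algebra R F] [IsScalarTower R K F]
  [IsNoetherianRing R] [UniqueFactorizationMonoid R]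
  (t : F) (ht : Transcendental R t)
  [FiniteDimensional K⟮t⟯ F] [Algebra.IsSeparable K⟮t⟯ F]

include K ht in
theorem isNoetherianRing_icAlg : IsNoetherianRing ↥(icAlg R {t}).toSubring :=
  isNoetherianRing_chartRing (K := K) t ht

include K ht in
theorem isIntegrallyClosed_icAlg : IsIntegrallyClosed ↥(icAlg R {t}).toSubring :=
  isIntegrallyClosed_chartRing (K := K) t ht

include K ht in
theorem isFractionRing_icAlg : IsFractionRing ↥(icAlg R {t}).toSubring F :=
  isFractionRing_chartRing (K := K) t ht

include K ht in
/-- the three instances for ANY chart ring in helper13's sense. -/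
theorem instances_of_isChartRing {B : Subring F} (hB : IsChartRing R t B) :
    IsNoetherianRing B ∧ IsIntegrallyClosed B ∧ IsFractionRing B F := by
  obtain rfl := eq_chartRing_of_isChartRing hB
  exact ⟨isNoetherianRing_chartRing (K := K) t ht, isIntegrallyClosed_chartRing (K := K) t ht,
    isFractionRing_chartRing (K := K) t ht⟩

end Instances

end Fermat.Agent.GL.Frame.InstAdapt
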