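/-
GATE-L / CHART-FIN (helper8; statement of helper56 3118): the recipe chart `h` of
`ChartExists.exists_chart` is transcendental over the constants and the function field is finite
over `L₀(h)` and over `L₀(h⁻¹)`.

`L₀` a field, `F ⊇ L₀` a field, `j ∈ F` transcendental with `F` finite over `L₀(j)`,
`j₁ (j - c₀) = 1`, `h P(j₁) = (j₁ - c₂)^(deg P + 1)` with `P` monic: then `j₁` is a root of the
MONIC polynomial `(X - c₂)^(d+1) - h P(X)` over `L₀(h)`, so `j₁` and `j = c₀ + 1/j₁` are integral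
over `L₀(h)`, `F` is finite over `L₀(h)(j) ⊇ L₀(j)`, hence over `L₀(h)`; and `h` algebraic over `L₀`
would make `j` algebraic.

* `finiteDimensional_of_isIntegral` : `j` integral over `L₀(h)`, `F` finite over `L₀(j)` ⟹ `F`
  finite over `L₀(h)`;
* `transcendental_of_finiteDimensional` : then `h` is transcendental if `j` is;
* `isIntegral_recipe` : `j₁`, `j` are integral over `L₀(h)`;
* `chart_fin` : helper56's statement VERBATIM;
* `chart_fin_hfin` : the `hfin` binder of helper56 `H5Inst.h5_inst` VERBATIM.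
-/
import Mathlib

set_option autoImplicit false

open Polynomial IntermediateField

namespace Fermat.Agent.GL.Frame.ChartFin

variable {L0 F : Type*} [Field L0] [Field F] [Algebra L0 F]

/-- `j` integral over `L₀(h)` and `F` finite over `L₀(j)` ⟹ `F` finite over `L₀(h)`. -/
theorem finiteDimensional_of_isIntegral {h j : F} (hjE : IsIntegral L0⟮h⟯ j)
    [FiniteDimensional L0⟮j⟯ F] : FiniteDimensional L0⟮h⟯ F := by
  -- the tower `L₀(h) ⊆ L₀(h)(j) ⊆ F`
  have h1 : FiniteDimensional L0⟮h⟯ (L0⟮h⟯⟮j⟯) := adjoin.finiteDimensional hjE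
  have hle : L0⟮j⟯ ≤ (L0⟮h⟯⟮j⟯).restrictScalars L0 := by
    rw [adjoin_simple_le_iff]
    exact mem_adjoin_simple_self L0⟮h⟯ j
  let φ : L0⟮j⟯ →+* L0⟮h⟯⟮j⟯ :=
    { toFun := fun x => ⟨(x : F), hle x.2⟩
      map_one' := rfl
      map_mul' := fun _ _ => rfl
      map_zero' := rfl
      map_add' := fun _ _ => rfl }
  let _ : Algebra L0⟮j⟯ (L0⟮h⟯⟮j⟯) := φ.toAlgebra
  have : IsScalarTower L0⟮j⟯ (L0⟮h⟯⟮j⟯) F := IsScalarTower.of_algebraMap_eq (fun _ => rfl)
  have h2 : Module.Finite (L0⟮h⟯⟮j⟯) F :=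
    Module.Finite.of_restrictScalars_finite L0⟮j⟯ (L0⟮h⟯⟮j⟯) F
  exact Module.Finite.trans (L0⟮h⟯⟮j⟯) F

/-- if `F` is finite over `L₀(h)` and contains a transcendental element, `h` is transcendental. -/
theorem transcendental_of_finiteDimensional {h j : F} (hj : Transcendental L0 j)
    [FiniteDimensional L0⟮h⟯ F] : Transcendental L0 h := by
  intro halg
  have h1 : FiniteDimensional L0 L0⟮h⟯ := adjoin.finiteDimensional halg.isIntegral
  have h2 : FiniteDimensional L0 F := Module.Finite.trans L0⟮h⟯ F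
  exact hj (Algebra.IsAlgebraic.isAlgebraic j)

/-- `L₀(h⁻¹) = L₀(h)` -/
theorem adjoin_inv_eq (h : F) : L0⟮h⁻¹⟯ = L0⟮h⟯ := by
  apply le_antisymm
  · rw [adjoin_simple_le_iff]
    exact inv_mem (mem_adjoin_simple_self L0 h)
  · rw [adjoin_simple_le_iff]
    have := inv_mem (mem_adjoin_simple_self L0 h⁻¹)
    rwa [inv_inv] at this

/-- the recipe relation makes `j₁` and `j` integral over `L₀(h)`. -/
theorem isIntegral_recipe {j j1 h : F} (c0 c2 : L0) (P : L0[X]) (_hP : P.Monic)
    (hj1 : j1 * (j - algebraMap L0 F c0) = 1)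
    (hh : h * aeval j1 P = (j1 - algebraMap L0 F c2) ^ (P.natDegree + 1)) :
    IsIntegral L0⟮h⟯ j1 ∧ IsIntegral L0⟮h⟯ j := by
  set E := L0⟮h⟯ with hE
  set hE' : E := ⟨h, mem_adjoin_simple_self L0 h⟩ with hhE
  set P' : E[X] := P.map (algebraMap L0 E) with hP'
  set Q : E[X] := (X - C (algebraMap L0 E c2)) ^ (P.natDegree + 1) - C hE' * P' with hQ
  have hdegP' : P'.natDegree = P.natDegree := natDegree_map _
  have hdeg1 : ((X - C (algebraMap L0 E c2)) ^ (P.natDegree + 1) : E[X]).Monic :=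
    (monic_X_sub_C _).pow _
  have hdeg2 : (C hE' * P').degree < ((X - C (algebraMap L0 E c2)) ^ (P.natDegree + 1)).degree := by
    rw [degree_pow, degree_X_sub_C, nsmul_one]
    calc (C hE' * P').degree ≤ P'.degree := by
          rw [degree_mul]
          calc (C hE').degree + P'.degree ≤ 0 + P'.degree :=
                add_le_add degree_C_le le_rfl
            _ = P'.degree := zero_add _
      _ ≤ (P'.natDegree : WithBot ℕ) := degree_le_natDegree
      _ = (P.natDegree : WithBot ℕ) := by rw [hdegP']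
      _ < ((P.natDegree + 1 : ℕ) : WithBot ℕ) := by exact_mod_cast Nat.lt_succ_self _
  have hQmon : Q.Monic := hdeg1.sub_of_left hdeg2
  have hQ0 : aeval j1 Q = 0 := by
    rw [hQ, map_sub, map_pow, map_sub, aeval_X, aeval_C, map_mul, aeval_C, hP',
      aeval_map_algebraMap]
    have e1 : algebraMap E F (algebraMap L0 E c2) = algebraMap L0 F c2 :=
      (IsScalarTower.algebraMap_apply L0 E F c2).symm
    have e2 : algebraMap E F hE' = h := rfl
    rw [e1, e2, hh, sub_self]
  have hint1 : IsIntegral E j1 := ⟨Q, hQmon, hQ0⟩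
  refine ⟨hint1, ?_⟩
  have hj1ne : j1 ≠ 0 := left_ne_zero_of_mul_eq_one hj1
  have hjeq : j = algebraMap E F (algebraMap L0 E c0) + j1⁻¹ := by
    have e1 : algebraMap E F (algebraMap L0 E c0) = algebraMap L0 F c0 :=
      (IsScalarTower.algebraMap_apply L0 E F c0).symm
    rw [e1]
    field_simp
    linear_combination hj1
  rw [hjeq]
  have hinv : IsIntegral E j1⁻¹ :=
    (isAlgebraic_iff_isIntegral.mpr hint1).inv.isIntegral
  exact isIntegral_algebraMap.add hinv

/-- **CHART-FIN** (helper56 3118, VERBATIM). -/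
theorem chart_fin {j j1 h : F} (c0 c2 : L0) (P : L0[X]) (hP : P.Monic)
    (hj : Transcendental L0 j) [FiniteDimensional L0⟮j⟯ F]
    (hj1 : j1 * (j - algebraMap L0 F c0) = 1)
    (hh : h * Polynomial.aeval j1 P = (j1 - algebraMap L0 F c2) ^ (P.natDegree + 1))
    (_hP0 : Polynomial.aeval j1 P ≠ 0) (_hne : j1 ≠ algebraMap L0 F c2) :
    Transcendental L0 h ∧ FiniteDimensional L0⟮h⟯ F ∧ Transcendental L0 h⁻¹ ∧
      FiniteDimensional L0⟮h⁻¹⟯ F := by
  have hfin : FiniteDimensional L0⟮h⟯ F :=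
    finiteDimensional_of_isIntegral (isIntegral_recipe c0 c2 P hP hj1 hh).2
  have htr : Transcendental L0 h := transcendental_of_finiteDimensional hj
  have hfin' : FiniteDimensional L0⟮h⁻¹⟯ F := by
    rw [adjoin_inv_eq]
    exact hfin
  refine ⟨htr, hfin, ?_, hfin'⟩
  intro halg
  apply htr
  have := halg.inv
  rwa [inv_inv] at this

/-- **the `hfin` binder of helper56 `H5Inst.h5_inst`, VERBATIM** (there `R := ↥A`, `A` a valuation
subring of `K := L₀`): recipe data over a subring `R` of the constants. -/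
theorem chart_fin_hfin {R : Type*} [CommRing R] [Algebra R L0] [Algebra R F] [IsScalarTower R L0 F]
    {j : F} (hjt : Transcendental L0 j) [FiniteDimensional L0⟮j⟯ F] :
    ∀ (t0 t2 : R) (P1 : R[X]) (h : F), P1.Monic →
      j - algebraMap R F t0 ≠ 0 → aeval (j - algebraMap R F t0)⁻¹ P1 ≠ 0 →
      h * aeval (j - algebraMap R F t0)⁻¹ P1 =
        ((j - algebraMap R F t0)⁻¹ - algebraMap R F t2) ^ (P1.natDegree + 1) →
      (j - algebraMap R F t0)⁻¹ ≠ algebraMap R F t2 →
      Transcendental L0 h ∧ FiniteDimensional L0⟮h⟯ F ∧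
        Transcendental L0 h⁻¹ ∧ FiniteDimensional L0⟮h⁻¹⟯ F := by
  intro t0 t2 P1 h hP1 hw0 hP10 hh hne
  have e0 : algebraMap R F t0 = algebraMap L0 F (algebraMap R L0 t0) :=
    IsScalarTower.algebraMap_apply R L0 F t0
  have e2 : algebraMap R F t2 = algebraMap L0 F (algebraMap R L0 t2) :=
    IsScalarTower.algebraMap_apply R L0 F t2
  have eP : ∀ x : F, aeval x (P1.map (algebraMap R L0)) = aeval x P1 :=
    fun x => aeval_map_algebraMap L0 x P1
  have hdeg : (P1.map (algebraMap R L0)).natDegree = P1.natDegree :=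
    hP1.natDegree_map (algebraMap R L0)
  refine chart_fin (j := j) (j1 := (j - algebraMap R F t0)⁻¹) (algebraMap R L0 t0)
    (algebraMap R L0 t2) (P1.map (algebraMap R L0)) (hP1.map _) hjt ?_ ?_ ?_ ?_
  · rw [← e0]
    exact inv_mul_cancel₀ hw0
  · rw [eP, hdeg, ← e2]
    exact hh
  · rw [eP]
    exact hP10
  · rw [← e2]
    exact hne

end Fermat.Agent.GL.Frame.ChartFin
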