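import Fermat.Agent.GL.Frame.CuspPoints
import Fermat.Agent.GL.Frame.ClassifyK0
import Fermat.Agent.GL.Frame.ArithInt
import Fermat.Agent.GL.Frame.ArithInf
import Fermat.Agent.GL.Frame.ChartChange
import Fermat.Agent.GL.Table.KroneckerK0Low
import Fermat.Agent.GL.Val.ResW3K0
import Fermat.Agent.GL.Fibre.OldTriplesK0
import Fermat.Agent.GL.Frame.HeightOneFrame

/-!
# GATE-L / HONE-K0 (helper42): cuspidal points of the `1/j`-frame lie on at most one component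

helper47's `CuspPoints.atMostOne_of_cusp` CONCRETE over `K₀`:
`F := K₀(X₀(M' q q))`, `F' := K₀(X₀(M' q))`, `α β := alphaK0 betaK0`,
`W₁ W₂ W₃ := RwK0 / (redData2QK0).Rw / Rw3K0` (level `M' q q`),
`W₁' W₂' := RwK0 / (redData2K0).Rw` (level `M' q`), `j := jC (M' q q) K₀`, `qq := q`.

* `atMostOne_cusp_K0` : for ANY subring `B` of `F`, integrally closed in `F`, containing `R₀`,
  contained in the three valuation rings, ANY ideals `P_i ⊇ B ∩ 𝔪(W_i)` and ANY prime `𝔫` of `B`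
  with `1/j ∈ 𝔪_𝔫` (local form `hj hjm`): no two of `P₁ P₂ P₃` lie below `𝔫`;
* `atMostOne_cusp_K0_gen` : the same with `1/j = g ∈ 𝔫` for an element `g : B`;
* `hone_K0` : **the `hone` binder of helper11's `h5_typed` / `hallji_typed`**, for a chart ring
  `hBji : IsChartRing (R0 A) j⁻¹ Bji` (`j = jC N K₀` or `jK0 A N`): `hBji.gen ∈ 𝔫 ⟹` the three
  negations at `P_k` (any ideals cut out by the nonunits of `W_k`).

No hypothesis beyond `q` prime, `q ∤ M'`, `A` over `q`.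
Inputs: helper87 `ArithInt` (hA2) / `ArithInf` (hI2), helper47 `ClassifyK0.row_*` (the five rows),
`KroneckerK0Low` (hj1' hj2' r1 r2), helper45 `isGaussChart_jK0 / _2Q / _3` (`B ≤ W_i`).
-/

set_option autoImplicit false
set_option linter.style.haveILetI false
set_option linter.unusedSectionVars false

noncomputable section

namespace Fermat.Agent.GL.Frame.CuspPointsK0

open HahnSeries ModularCurve IsLocalRing
open Fermat.Agent.S24 Fermat.Agent.S24_helper62 Fermat.Agent.S24_helper82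
open Fermat.Agent.GJ.J1 Fermat.Agent.GJ.J1.Val
open Fermat.Agent.GK.AL Fermat.Agent.GL.AL
open Fermat.Agent.GK.Val.GaussBase Fermat.Agent.GL.Val.DegBase
open Fermat.Agent.GL.Val.GaussK0 Fermat.Agent.GL.Val.SecondK0 Fermat.Agent.GL.Val.SecondK0Hall
open Fermat.Agent.GL.Val.ThirdK0 Fermat.Agent.GL.Val.OrthK0
open Fermat.Agent.GL.Table.K0 Fermat.Agent.GL.Table.KroneckerK0Low
open Fermat.Agent.GL.Frame.Chart Fermat.Agent.GL.Frame.ClassifyInst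
open Fermat.Agent.Common_helper32

variable (A : ValuationSubring Kbar) {q : ℕ} [hqF : Fact q.Prime] [NeZero q] (M' : ℕ) [NeZero M']
  (hQ : HallDvd (q ^ 2) (M' * q * q)) (hq : ExactDvd q (M' * q))
  (hqM : ¬ q ∣ M') (hA : A.LiesOverPrime q)

local notation "FQ" => modularFunctionFieldFullC (K0 A) (M' * q * q)
local notation "Fq" => modularFunctionFieldFullC (K0 A) (M' * q)
local notation "αK" => ((alphaK0 A (M' * q) q : Fq →ₐ[K0 A] FQ) : Fq →+* FQ)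
local notation "βK" => ((betaK0 A (M' * q) q : Fq →ₐ[K0 A] FQ) : Fq →+* FQ)

/-! ### generators along `α`, `β` -/

theorem q_dvd_top : q ∣ M' * q * q := dvd_mul_left q (M' * q)

/-- `β j' = j_q` at the top level -/
theorem betaK0_jK0 :
    betaK0 A (M' * q) q (jK0 A (M' * q)) = genC (K0 A) (R0 A) (M' * q * q) (q_dvd_top M') := by
  apply Subtype.ext
  rw [coe_betaC, coe_genC, jK0_eq_jC, coe_jC]

/-- `α j' = j` at the top level -/
theorem alphaK0_jK0 :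
    alphaK0 A (M' * q) q (jK0 A (M' * q)) = jC (M' * q * q) (K0 A) := by
  rw [jK0_eq_jC]
  exact alphaC_jC (K0 A)

/-- the constants `R₀` inside `K₀(X₀(N))`, as a subring -/
def constR0 (N : ℕ) [NeZero N] : Subring (modularFunctionFieldFullC (K0 A) N) :=
  (algebraMap (R0 A) (modularFunctionFieldFullC (K0 A) N)).range

theorem alphaK0_constR0 : ∀ r ∈ constR0 A (M' * q), αK r ∈ constR0 A (M' * q * q) := by
  rintro _ ⟨r, rfl⟩
  exact ⟨r, ((alphaK0 A (M' * q) q).commutes (r : K0 A)).symm⟩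

theorem betaK0_constR0 : ∀ r ∈ constR0 A (M' * q), βK r ∈ constR0 A (M' * q * q) := by
  rintro _ ⟨r, rfl⟩
  exact ⟨r, ((betaK0 A (M' * q) q).commutes (r : K0 A)).symm⟩

/-! ### the cuspidal points -/

include hq hqM hA in
/-- **(A1) at the cuspidal points, CONCRETE over `K₀`** (local form): `1/j ∈ 𝔪_𝔫` ⟹ at most one of
the three vertical components passes through `𝔫`. -/
theorem atMostOne_cusp_K0 {B : Subring FQ} (hIC : IsIC B)
    (hR : ∀ r : R0 A, algebraMap (R0 A) FQ r ∈ B)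
    (hB1 : B ≤ (RwK0 A (M' * q * q)).toSubring)
    (hB2 : B ≤ (redData2QK0 A (M' * q * q) hQ).Rw.toSubring)
    (hB3 : B ≤ (Rw3K0 A (M' * q * q) q).toSubring)
    (P1 P2 P3 : Ideal B)
    (hP1 : ∀ b : B, (b : FQ) ∈ (RwK0 A (M' * q * q)).nonunits → b ∈ P1)
    (hP2 : ∀ b : B, (b : FQ) ∈ (redData2QK0 A (M' * q * q) hQ).Rw.nonunits → b ∈ P2)
    (hP3 : ∀ b : B, (b : FQ) ∈ (Rw3K0 A (M' * q * q) q).nonunits → b ∈ P3)
    (𝔫 : Ideal B) [𝔫.IsPrime]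
    (hj : (jC (M' * q * q) (K0 A))⁻¹ ∈ locSubring B 𝔫)
    (hjm : (⟨(jC (M' * q * q) (K0 A))⁻¹, hj⟩ : locSubring B 𝔫) ∈ locMax B 𝔫) :
    ¬ (P1 ≤ 𝔫 ∧ P2 ≤ 𝔫) ∧ ¬ (P2 ≤ 𝔫 ∧ P3 ≤ 𝔫) ∧ ¬ (P1 ≤ 𝔫 ∧ P3 ≤ 𝔫) := by
  have hqp : q.Prime := hqF.out
  have hj'0 : jK0 A (M' * q) ≠ 0 := by
    have := Fermat.Agent.GJ.J1.Select.ne_algebraMap_of_isGaussChart (isGaussChart_jK0 A (M' * q)) 0
    rwa [map_zero] at this
  have hj0 : jC (M' * q * q) (K0 A) ≠ 0 := by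
    rw [← alphaK0_jK0 A M']
    exact fun h0 => hj'0 (alphaC_injective (K0 A) (M' * q) q (by rw [h0, map_zero]))
  have hjq0 : genC (K0 A) (R0 A) (M' * q * q) (q_dvd_top M') ≠ 0 := by
    rw [← betaK0_jK0 A M']
    exact fun h0 => hj'0 (betaC_injective (K0 A) (M' * q) q (by rw [h0, map_zero]))
  have hRB : constR0 A (M' * q * q) ≤ B := by
    rintro _ ⟨r, rfl⟩
    exact hR r
  -- the five rows, in nonunits form
  have rα11 : ∀ z ∈ (RwK0 A (M' * q)).nonunits, αK z ∈ (RwK0 A (M' * q * q)).nonunits :=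
    fun z hz => (mem_nonunits_iff_of_comap αK _ _ (ClassifyK0.row_α1 A M') z).1 hz
  have rα13 : ∀ z ∈ (RwK0 A (M' * q)).nonunits, αK z ∈ (Rw3K0 A (M' * q * q) q).nonunits :=
    fun z hz => (mem_nonunits_iff_of_comap αK _ _ (ClassifyK0.row_α3 A M') z).1 hz
  have rα22 : ∀ z ∈ (redData2K0 A (M' * q) hq).Rw.nonunits,
      αK z ∈ (redData2QK0 A (M' * q * q) hQ).Rw.nonunits :=
    fun z hz => (mem_nonunits_iff_of_comap αK _ _ (ClassifyK0.row_α2 A M' hQ hq) z).1 hz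
  have rβ11 : ∀ z ∈ (RwK0 A (M' * q)).nonunits, βK z ∈ (RwK0 A (M' * q * q)).nonunits :=
    fun z hz => (mem_nonunits_iff_of_comap βK _ _ (ClassifyK0.row_β1 A M') z).1 hz
  have rβ23 : ∀ z ∈ (redData2K0 A (M' * q) hq).Rw.nonunits,
      βK z ∈ (Rw3K0 A (M' * q * q) q).nonunits :=
    fun z hz => (mem_nonunits_iff_of_comap βK _ _ (ClassifyK0.row_β3 A M' hq hqM) z).1 hz
  -- ARITH-INT and (I2)
  have hA2 : IsIntegral (Subring.closure ((constR0 A (M' * q * q) : Set FQ) ∪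
      {genC (K0 A) (R0 A) (M' * q * q) (q_dvd_top M')})) (jC (M' * q * q) (K0 A)) := by
    rw [← genC_one_eq_jC (M' * q * q) (K0 A) (R0 A)]
    exact Fermat.Agent.GL.Frame.ArithInt.isIntegral_closure_union_genC (M' * q * q) (R0 A)
      (one_dvd _) (q_dvd_top M') _
  have hI2 : IsIntegral (Subring.closure ((constR0 A (M' * q) : Set Fq) ∪
      {(jK0 A (M' * q))⁻¹})) (genC (K0 A) (R0 A) (M' * q) hq.dvd * (jK0 A (M' * q))⁻¹ ^ q) :=
    Fermat.Agent.GL.Frame.ArithInf.isIntegral_closure_union_inv_genC (M' * q) (R0 A) hq.dvd _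
  exact CuspPoints.atMostOne_of_cusp B 𝔫 hIC (constR0 A (M' * q * q)) hRB
    (RwK0 A (M' * q * q)) (redData2QK0 A (M' * q * q) hQ).Rw (Rw3K0 A (M' * q * q) q)
    hB1 hB2 hB3 P1 P2 P3 hP1 hP2 hP3
    (RwK0 A (M' * q)) (redData2K0 A (M' * q) hq).Rw αK βK rα11 rα13 rα22 rβ11 rβ23
    (constR0 A (M' * q)) (alphaK0_constR0 A M') (betaK0_constR0 A M')
    (alphaK0_jK0 A M') (betaK0_jK0 A M') hj0 hjq0 hA2 hj hjm q hqp.one_lt hI2
    (jK0_inv_mem_RwK0 A (M' * q)) (jK0_inv_mem_Rw2K0 A (M' * q) hq)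
    (kronLow_w1 A (M' * q) hqp hA hq.dvd) (kronLow_w2 A (M' * q) hA hq)

include hq hqM hA in
/-- the same with `1/j = g` for an element `g ∈ 𝔫` of `B`. -/
theorem atMostOne_cusp_K0_gen {B : Subring FQ} (hIC : IsIC B)
    (hR : ∀ r : R0 A, algebraMap (R0 A) FQ r ∈ B)
    (hB1 : B ≤ (RwK0 A (M' * q * q)).toSubring)
    (hB2 : B ≤ (redData2QK0 A (M' * q * q) hQ).Rw.toSubring)
    (hB3 : B ≤ (Rw3K0 A (M' * q * q) q).toSubring)
    (P1 P2 P3 : Ideal B)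
    (hP1 : ∀ b : B, (b : FQ) ∈ (RwK0 A (M' * q * q)).nonunits → b ∈ P1)
    (hP2 : ∀ b : B, (b : FQ) ∈ (redData2QK0 A (M' * q * q) hQ).Rw.nonunits → b ∈ P2)
    (hP3 : ∀ b : B, (b : FQ) ∈ (Rw3K0 A (M' * q * q) q).nonunits → b ∈ P3)
    (𝔫 : Ideal B) [𝔫.IsPrime] (g : B) (hg : (g : FQ) = (jC (M' * q * q) (K0 A))⁻¹)
    (hgn : g ∈ 𝔫) :
    ¬ (P1 ≤ 𝔫 ∧ P2 ≤ 𝔫) ∧ ¬ (P2 ≤ 𝔫 ∧ P3 ≤ 𝔫) ∧ ¬ (P1 ≤ 𝔫 ∧ P3 ≤ 𝔫) := by
  have hj : (jC (M' * q * q) (K0 A))⁻¹ ∈ locSubring B 𝔫 := hg ▸ le_locSubring B 𝔫 g.2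
  have hjm : (⟨(jC (M' * q * q) (K0 A))⁻¹, hj⟩ : locSubring B 𝔫) ∈ locMax B 𝔫 := by
    have h1 := (coe_mem_locMax_iff B 𝔫 g).2 hgn
    have e : (⟨(jC (M' * q * q) (K0 A))⁻¹, hj⟩ : locSubring B 𝔫) =
        ⟨(g : FQ), le_locSubring B 𝔫 g.2⟩ := Subtype.ext hg.symm
    rw [e]; exact h1
  exact atMostOne_cusp_K0 A M' hQ hq hqM hA hIC hR hB1 hB2 hB3 P1 P2 P3 hP1 hP2 hP3 𝔫 hj hjm

/-! ### chart rings of the `1/j`-frame -/

/-- a valuation subring is integrally closed in its field (subring form) -/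
theorem valuationSubring_closed {F : Type*} [Field F] (W : ValuationSubring F) (f : F)
    (hf : IsIntegral W.toSubring f) : f ∈ W.toSubring := by
  have h1 : IsIntegral W f := hf
  obtain ⟨y, hy⟩ := IsIntegrallyClosed.algebraMap_eq_of_integral (R := W) h1
  rw [← hy]
  exact y.2

/-- the constants `R₀` lie in the three valuation rings of the top level -/
theorem algebraMap_R0_mem (r : R0 A) :
    algebraMap (R0 A) FQ r ∈ RwK0 A (M' * q * q) ∧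
      algebraMap (R0 A) FQ r ∈ (redData2QK0 A (M' * q * q) hQ).Rw ∧
      algebraMap (R0 A) FQ r ∈ Rw3K0 A (M' * q * q) q := by
  have h := Fermat.Agent.GL.OldTriplesK0.mem_B3K0_iff.1
    (Fermat.Agent.GL.OldTriplesK0.algebraMap_mem_B3K0 M' q A hQ r)
  exact ⟨h.2.1, h.2.2.1, h.2.2.2⟩

include hA in
/-- `1/j` lies in the three valuation rings of the top level -/
theorem jC_inv_mem_top :
    (jC (M' * q * q) (K0 A))⁻¹ ∈ RwK0 A (M' * q * q) ∧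
      (jC (M' * q * q) (K0 A))⁻¹ ∈ (redData2QK0 A (M' * q * q) hQ).Rw ∧
      (jC (M' * q * q) (K0 A))⁻¹ ∈ Rw3K0 A (M' * q * q) q := by
  rw [← jK0_eq_jC]
  exact ⟨(Fermat.Agent.GJ.J1.Select.isGaussChart_inv (isGaussChart_jK0 A (M' * q * q))).1,
    (Fermat.Agent.GJ.J1.Select.isGaussChart_inv (isGaussChart_jK0_2Q A (M' * q * q) hQ)).1,
    (Fermat.Agent.GJ.J1.Select.isGaussChart_inv
      (Fermat.Agent.GL.Val.ResW3K0.isGaussChart_jK0_3 A hqF.out hA)).1⟩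

include hA in
/-- the chart ring of the `1/j`-frame lies in the three valuation rings -/
theorem chartRing_inv_le {Bji : Subring FQ}
    (hBji : ChartChange.IsChartRing (R0 A) (jC (M' * q * q) (K0 A))⁻¹ Bji) :
    Bji ≤ (RwK0 A (M' * q * q)).toSubring ∧
      Bji ≤ (redData2QK0 A (M' * q * q) hQ).Rw.toSubring ∧
      Bji ≤ (Rw3K0 A (M' * q * q) q).toSubring := by
  obtain ⟨h1, h2, h3⟩ := jC_inv_mem_top A M' hQ hA
  exact ⟨hBji.le_of_closed _ (fun r => (algebraMap_R0_mem A M' hQ r).1) h1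
      (valuationSubring_closed _),
    hBji.le_of_closed _ (fun r => (algebraMap_R0_mem A M' hQ r).2.1) h2
      (valuationSubring_closed _),
    hBji.le_of_closed _ (fun r => (algebraMap_R0_mem A M' hQ r).2.2) h3
      (valuationSubring_closed _)⟩

include hq hqM hA in
/-- **`hone` of helper11's `h5_typed` / `hallji_typed`, CONCRETE over `K₀`**: on the chart ring
`Bji` of the `1/j`-frame of `K₀(X₀(M' q q))`, a prime `𝔫 ∋ 1/j` lies on at most one of the three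
vertical components (`P_k` ANY ideals containing `Bji ∩ 𝔪(W_k)`, e.g. `(f k).1`). -/
theorem hone_K0 {Bji : Subring FQ}
    (hBji : ChartChange.IsChartRing (R0 A) (jC (M' * q * q) (K0 A))⁻¹ Bji)
    (P1 P2 P3 : Ideal Bji)
    (hP1 : ∀ b : Bji, (b : FQ) ∈ (RwK0 A (M' * q * q)).nonunits → b ∈ P1)
    (hP2 : ∀ b : Bji, (b : FQ) ∈ (redData2QK0 A (M' * q * q) hQ).Rw.nonunits → b ∈ P2)
    (hP3 : ∀ b : Bji, (b : FQ) ∈ (Rw3K0 A (M' * q * q) q).nonunits → b ∈ P3)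
    (𝔫 : Ideal Bji) [𝔫.IsPrime] (hgen : hBji.gen ∈ 𝔫) :
    ¬ (P1 ≤ 𝔫 ∧ P2 ≤ 𝔫) ∧ ¬ (P2 ≤ 𝔫 ∧ P3 ≤ 𝔫) ∧ ¬ (P1 ≤ 𝔫 ∧ P3 ≤ 𝔫) := by
  obtain ⟨hB1, hB2, hB3⟩ := chartRing_inv_le A M' hQ hA hBji
  exact atMostOne_cusp_K0_gen A M' hQ hq hqM hA (fun z hz => hBji.closed z hz)
    hBji.algebraMap_mem hB1 hB2 hB3 P1 P2 P3 hP1 hP2 hP3 𝔫 hBji.gen rfl hgen

include hq hqM hA in
/-- the same for the chart `OrthK0.jK0 A (M' q q)` (helper8 `H5SideK0` convention). -/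
theorem hone_K0_jK0 {Bji : Subring FQ}
    (hBji : ChartChange.IsChartRing (R0 A) (jK0 A (M' * q * q))⁻¹ Bji)
    (P1 P2 P3 : Ideal Bji)
    (hP1 : ∀ b : Bji, (b : FQ) ∈ (RwK0 A (M' * q * q)).nonunits → b ∈ P1)
    (hP2 : ∀ b : Bji, (b : FQ) ∈ (redData2QK0 A (M' * q * q) hQ).Rw.nonunits → b ∈ P2)
    (hP3 : ∀ b : Bji, (b : FQ) ∈ (Rw3K0 A (M' * q * q) q).nonunits → b ∈ P3)
    (𝔫 : Ideal Bji) [𝔫.IsPrime] (hgen : hBji.gen ∈ 𝔫) :
    ¬ (P1 ≤ 𝔫 ∧ P2 ≤ 𝔫) ∧ ¬ (P2 ≤ 𝔫 ∧ P3 ≤ 𝔫) ∧ ¬ (P1 ≤ 𝔫 ∧ P3 ≤ 𝔫) := by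
  have hBji' : ChartChange.IsChartRing (R0 A) (jC (M' * q * q) (K0 A))⁻¹ Bji := by
    rw [← jK0_eq_jC]; exact hBji
  have e : hBji'.gen = hBji.gen := Subtype.ext (by
    show (jC (M' * q * q) (K0 A))⁻¹ = (jK0 A (M' * q * q))⁻¹
    rw [jK0_eq_jC])
  exact hone_K0 A M' hQ hq hqM hA hBji' P1 P2 P3 hP1 hP2 hP3 𝔫 (e ▸ hgen)

/-! ### from the frame: `V1 F 𝔭 = W ⟹ Bji ∩ 𝔪(W) ⊆ 𝔭` (generic) -/

/-- the `hP_k` inputs from helper80's frame rows `V1 F (f k) = W k` (generic field; at the concrete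
field use it through helper8's `instAlgebraSubringFullC`). -/
theorem mem_of_V1_eq {F : Type*} [Field F] {B : Subring F} [IsFractionRing B F]
    [IsNoetherianRing B] [IsIntegrallyClosed B] (𝔭 : Fermat.Agent.GL.Frame.HeightOne.HtOne B)
    (W : ValuationSubring F) (h : Fermat.Agent.GL.Frame.HeightOne.V1 F 𝔭 = W) :
    ∀ b : B, (b : F) ∈ W.nonunits → b ∈ 𝔭.1 := by
  intro b hb
  rw [← h] at hb
  exact (Fermat.Agent.GL.Frame.HeightOne.algebraMap_mem_nonunits_V1_iff 𝔭 b).1 hb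

end Fermat.Agent.GL.Frame.CuspPointsK0
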