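/-
GATE-L / L5-I ASSEMBLY, residue-field form (helper84): `hval` of helper47's
`LocTypeI.exists_locAt` at a point `𝔫` of a chart ring `B ⊂ F` lying on the vertical prime `𝔭₀`,
from the data of ONE split row of the L3c table:

* `W = V1 F 𝔭₀` with its reduction `red : W →+* κ` (kernel = maximal ideal);
* a field embedding `δ : E →+* F` (`α` or `β`), a valuation subring `A'` of `E` with `δ A' ⊆ W`,
  its reduction `red' : A' →+* k'`, and the induced map of residue fields `ι : k' →+* κ`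
  (`ι (red' a) = red (δ a)`) which is ONTO (`f = 1`: helper66 `split_rows_abs`, first conjuncts);
* a chart ring `B'' ⊆ A'` of the lower level whose old copy `δ B''` lies in `B_𝔫`
  (`OldContraction.exists_chart_le_locSubring`) and whose reduction is a Dedekind subring `D'` of
  `k'` with `Frac D' = k'` (helper96 `redC1K0_surjective` onto `CRing N' A`).

No residue isomorphism has to be constructed by the caller: `ρh := red ∘ (B_𝔫 ⊆ W)`,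
`e := RingEquiv.ofBijective ι`.
-/
import Fermat.Agent.GL.Frame.HvalOfOldDedekind

set_option autoImplicit false
set_option linter.unusedSectionVars false

namespace Fermat.Agent.GL.Frame.HvalOfRelRed

open IsLocalRing Fermat.Agent.GL.Frame.Chart Fermat.Agent.GL.Frame.OldCopies
  Fermat.Agent.GL.Frame.OldCopiesLoc Fermat.Agent.GL.Frame.OldContraction
  Fermat.Agent.GL.Frame.HeightOne Fermat.Agent.GL.Frame.HvalOfOldDedekind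

variable {F E : Type*} [Field F] [Field E] {B : Subring F} [IsFractionRing B F]
  [IsNoetherianRing B] [IsIntegrallyClosed B]

/-- the local ring `B_𝔫` lies in the valuation ring of every height-one prime `𝔭₀ ≤ 𝔫`. -/
theorem locSubring_le_V1 (𝔫 : Ideal B) [𝔫.IsPrime] (𝔭₀ : HtOne B) (h𝔭𝔫 : 𝔭₀.1 ≤ 𝔫) {z : F}
    (hz : z ∈ locSubring B 𝔫) : z ∈ V1 F 𝔭₀ := by
  obtain ⟨a, s, hs, h⟩ := hz
  refine (mem_V1_iff 𝔭₀).2 ⟨s, fun hmem => hs (h𝔭𝔫 hmem), a, ?_⟩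
  rw [Algebra.smul_def, mul_comm]
  exact h.symm

/-- the reduction along `𝔭₀` restricted to the local ring `B_𝔫`. -/
noncomputable def rhoLoc {κ : Type*} [Field κ] (𝔫 : Ideal B) [𝔫.IsPrime] (𝔭₀ : HtOne B)
    (h𝔭𝔫 : 𝔭₀.1 ≤ 𝔫) (red : V1 F 𝔭₀ →+* κ) : locSubring B 𝔫 →+* κ :=
  red.comp (Subring.inclusion (fun _ hz => locSubring_le_V1 𝔫 𝔭₀ h𝔭𝔫 hz :
    locSubring B 𝔫 ≤ (V1 F 𝔭₀).toSubring))

theorem rhoLoc_apply {κ : Type*} [Field κ] (𝔫 : Ideal B) [𝔫.IsPrime] (𝔭₀ : HtOne B)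
    (h𝔭𝔫 : 𝔭₀.1 ≤ 𝔫) (red : V1 F 𝔭₀ →+* κ) (z : locSubring B 𝔫) :
    rhoLoc 𝔫 𝔭₀ h𝔭𝔫 red z = red ⟨z, locSubring_le_V1 𝔫 𝔭₀ h𝔭𝔫 z.2⟩ := rfl

/-- `hker` of `hval_of_old` for `rhoLoc`. -/
theorem rhoLoc_eq_zero_iff {κ : Type*} [Field κ] (𝔫 : Ideal B) [𝔫.IsPrime] (𝔭₀ : HtOne B)
    (h𝔭𝔫 : 𝔭₀.1 ≤ 𝔫) (red : V1 F 𝔭₀ →+* κ)
    (hred : ∀ x : V1 F 𝔭₀, red x = 0 ↔ (x : F) ∈ (V1 F 𝔭₀).nonunits) (a : B) :
    rhoLoc 𝔫 𝔭₀ h𝔭𝔫 red (incl B 𝔫 a) = 0 ↔ a ∈ 𝔭₀.1 := by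
  rw [rhoLoc_apply, hred]
  exact algebraMap_mem_nonunits_V1_iff 𝔭₀ a

/-- **`hval` at a type I / II point from ONE split row.** -/
theorem hval_of_relRed {k' κ : Type*} [Field k'] [Field κ] (𝔫 : Ideal B) [𝔫.IsPrime]
    (𝔭₀ : HtOne B) (h𝔭𝔫 : 𝔭₀.1 ≤ 𝔫)
    (red : V1 F 𝔭₀ →+* κ) (hred : ∀ x : V1 F 𝔭₀, red x = 0 ↔ (x : F) ∈ (V1 F 𝔭₀).nonunits)
    (δ : E →+* F) (A' : ValuationSubring E) (hA' : ∀ a ∈ A', δ a ∈ V1 F 𝔭₀)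
    (red' : A' →+* k') (ι : k' →+* κ)
    (hι : ∀ a : A', ι (red' a) = red ⟨δ a, hA' a a.2⟩) (hιsurj : Function.Surjective ι)
    (B'' : Subring E) (hB''A : ∀ b ∈ B'', b ∈ A') (hδ : ∀ b ∈ B'', δ b ∈ locSubring B 𝔫)
    (D' : Subring k') [IsDedekindDomain D']
    (hfrac : ∀ φ : k', ∃ a b : D', (b : k') ≠ 0 ∧ φ * b = a)
    (hρD : ∀ (f : E) (hf : f ∈ B''), red' ⟨f, hB''A f hf⟩ ∈ D')
    (hsurj : ∀ d ∈ D', ∃ (f : E) (hf : f ∈ B''), red' ⟨f, hB''A f hf⟩ = d) (a b : B) :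
    ∃ c s : B, s ∉ 𝔫 ∧ (s * a - c * b ∈ 𝔭₀.1 ∨ s * b - c * a ∈ 𝔭₀.1) := by
  set e : k' ≃+* κ := RingEquiv.ofBijective ι ⟨ι.injective, hιsurj⟩ with he
  set ρ' : B'' →+* k' :=
    red'.comp (Subring.inclusion (fun b hb => hB''A b hb : B'' ≤ A'.toSubring)) with hρ'
  refine hval_of_old_dedekind 𝔫 𝔭₀ h𝔭𝔫 (rhoLoc 𝔫 𝔭₀ h𝔭𝔫 red)
    (rhoLoc_eq_zero_iff 𝔫 𝔭₀ h𝔭𝔫 red hred) B'' δ hδ ρ' e ?_ D' hfrac ?_ ?_ a b
  · intro f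
    rw [rhoLoc_apply]
    exact (hι ⟨f, hB''A f f.2⟩).symm
  · intro f
    exact hρD f f.2
  · intro d hd
    obtain ⟨f, hf, h⟩ := hsurj d hd
    exact ⟨⟨f, hf⟩, h⟩

end Fermat.Agent.GL.Frame.HvalOfRelRed
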