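/-
GATE-L / L5-I ASSEMBLY, SERIES form (helper84): `hval` of helper47's `LocTypeI.exists_locAt` at a
point `𝔫` of a chart ring `B ⊂ F` lying on the vertical prime `𝔭₀`, when ALL reductions are
compared inside ONE big field `Λ` (in the instance: `Λ = k((t))`, the Laurent series in which the
GATE-K / GATE-L reductions `rho1`, `rho2`, `cVal`, `coeffMap (resMapK0 A) ∘ red` take their values).
No residue FIELD of a valuation ring, no residue isomorphism and no valuation subring of a residue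
field occurs in the hypotheses:

* `ρΛ : B_𝔫 →+* Λ` the reduction along `𝔭₀` (`hker : ρΛ b = 0 ↔ b ∈ 𝔭₀` on `B`);
* `D` a Dedekind domain (`CRing N' A`), `ψ : D →+* Λ` injective (`cVal`, or `cVal` followed by
  `t ↦ t^N` on the third component);
* `B'' ⊆ F'` a chart ring of the lower level with `δ B'' ⊆ B_𝔫` (`OldContraction`), and
  `ρD : B'' →+* D` ONTO (J1-SURJ over `R`: helper96 `redC1K0_surjective`), `hrow : ρΛ (δ f) = ψ (ρD f)`;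
* `hrange` (`f = 1`): every `ρΛ b`, `b ∈ B`, is a quotient `ψ c / ψ d`.

The proof is direct: `ρΛ a / ρΛ b` is a quotient of two elements of `D`; the local ring of `D` at the
point `P` below `𝔫` is a valuation ring, so the quotient or its inverse is `ψ c₀ / ψ s₀`, `s₀ ∉ P`;
lift `c₀ s₀` to `B''`, push them to `B_𝔫` by `δ` and clear denominators.
-/
import Fermat.Agent.GL.Frame.HvalOfRelRed

set_option autoImplicit false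
set_option linter.unusedSectionVars false

namespace Fermat.Agent.GL.Frame.HvalOfSeries

open Fermat.Agent.GL.Frame.Chart Fermat.Agent.GL.Frame.OldCopiesLoc
  Fermat.Agent.GL.Frame.OldContraction Fermat.Agent.GL.Frame.HeightOne
  Fermat.Agent.GL.Frame.HvalOfOldDedekind Fermat.Agent.GL.Frame.HvalOfRelRed

variable {F F' : Type*} [Field F] [Field F'] {B : Subring F} [IsFractionRing B F]
  [IsNoetherianRing B] [IsIntegrallyClosed B]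

/-- **`hval` at a type I / II point, series form.** -/
theorem hval_of_series {Λ : Type*} [Field Λ] {D : Type*} [CommRing D] [IsDedekindDomain D]
    (𝔫 : Ideal B) [𝔫.IsPrime] (𝔭₀ : HtOne B) (h𝔭𝔫 : 𝔭₀.1 ≤ 𝔫)
    (ρΛ : locSubring B 𝔫 →+* Λ) (hker : ∀ a : B, ρΛ (incl B 𝔫 a) = 0 ↔ a ∈ 𝔭₀.1)
    (B'' : Subring F') (δ : F' →+* F) (hδ : ∀ b ∈ B'', δ b ∈ locSubring B 𝔫)
    (ρD : B'' →+* D) (hsurj : Function.Surjective ρD)
    (ψ : D →+* Λ) (hψ : Function.Injective ψ)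
    (hrow : ∀ f : B'', ρΛ ⟨δ f, hδ f f.2⟩ = ψ (ρD f))
    (hrange : ∀ a : B, ∃ c d : D, d ≠ 0 ∧ ρΛ (incl B 𝔫 a) * ψ d = ψ c)
    (a b : B) :
    ∃ c s : B, s ∉ 𝔫 ∧ (s * a - c * b ∈ 𝔭₀.1 ∨ s * b - c * a ∈ 𝔭₀.1) := by
  -- the kernel of `ρΛ` lies in the maximal ideal of `B_𝔫`
  have hkerloc : ∀ x : locSubring B 𝔫, ρΛ x = 0 → x ∈ locMax B 𝔫 := by
    intro x hx
    obtain ⟨a', s', hs', hxs⟩ := x.2
    have h1 : x * incl B 𝔫 s' = incl B 𝔫 a' := Subtype.ext hxs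
    have h2 : ρΛ (incl B 𝔫 a') = 0 := by rw [← h1, map_mul, hx, zero_mul]
    exact (mem_locMax_iff_of_eq B 𝔫 hs' hxs).mpr (h𝔭𝔫 ((hker a').mp h2))
  have hkx : RingHom.ker ρD ≤ contrOld B 𝔫 B'' δ hδ := by
    intro f hf
    rw [mem_contrOld]
    apply hkerloc
    rw [hrow f, (RingHom.mem_ker).mp hf, map_zero]
  set P : Ideal D := (contrOld B 𝔫 B'' δ hδ).map ρD with hPdef
  have hPprime : P.IsPrime := Ideal.map_isPrime_of_surjective hsurj hkx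
  obtain ⟨c1, d1, hd1, h1⟩ := hrange a
  obtain ⟨c2, d2, hd2, h2⟩ := hrange b
  have hψd1 : ψ d1 ≠ 0 := fun h0 => hd1 (hψ (h0.trans (map_zero ψ).symm))
  have hψd2 : ψ d2 ≠ 0 := fun h0 => hd2 (hψ (h0.trans (map_zero ψ).symm))
  obtain ⟨c₀, s₀, hs₀, h⟩ := exists_mul_eq_mul_of_isDedekindDomain P (c1 * d2) (c2 * d1)
  obtain ⟨s', hs'⟩ := hsurj s₀
  obtain ⟨c', hc'⟩ := hsurj c₀
  have hs'x : s' ∉ contrOld B 𝔫 B'' δ hδ := fun hmem =>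
    hs₀ (hs' ▸ Ideal.mem_map_of_mem ρD hmem)
  obtain ⟨a₁, t₁, ht₁, e₁⟩ := hδ s' s'.2
  obtain ⟨a₂, t₂, ht₂, e₂⟩ := hδ c' c'.2
  have ha₁ : a₁ ∉ 𝔫 := by
    intro hmem
    apply hs'x
    rw [mem_contrOld]
    exact (mem_locMax_iff_of_eq B 𝔫 (z := ⟨δ s', hδ s' s'.2⟩) ht₁ e₁).mpr hmem
  have hs𝔫 : a₁ * t₂ ∉ 𝔫 := fun hmem =>
    (Ideal.IsPrime.mem_or_mem ‹_› hmem).elim ha₁ ht₂
  -- the reductions of `a₁`, `a₂`
  have hr₁ : ρΛ (incl B 𝔫 a₁) = ψ s₀ * ρΛ (incl B 𝔫 t₁) := by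
    have : (⟨δ s', hδ s' s'.2⟩ : locSubring B 𝔫) * incl B 𝔫 t₁ = incl B 𝔫 a₁ := Subtype.ext e₁
    rw [← this, map_mul, hrow s', hs']
  have hr₂ : ρΛ (incl B 𝔫 a₂) = ψ c₀ * ρΛ (incl B 𝔫 t₂) := by
    have : (⟨δ c', hδ c' c'.2⟩ : locSubring B 𝔫) * incl B 𝔫 t₂ = incl B 𝔫 a₂ := Subtype.ext e₂
    rw [← this, map_mul, hrow c', hc']
  refine ⟨a₂ * t₁, a₁ * t₂, hs𝔫, ?_⟩
  rcases h with h | h
  · -- `s₀ c1 d2 = c₀ c2 d1`: `ψ s₀ ρΛ a = ψ c₀ ρΛ b`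
    left
    have hkey : ψ s₀ * ρΛ (incl B 𝔫 a) = ψ c₀ * ρΛ (incl B 𝔫 b) := by
      have e : ψ s₀ * ρΛ (incl B 𝔫 a) * (ψ d1 * ψ d2)
          = ψ c₀ * ρΛ (incl B 𝔫 b) * (ψ d1 * ψ d2) := by
        calc ψ s₀ * ρΛ (incl B 𝔫 a) * (ψ d1 * ψ d2)
            = ψ s₀ * (ρΛ (incl B 𝔫 a) * ψ d1) * ψ d2 := by ring
          _ = ψ (s₀ * (c1 * d2)) := by rw [h1, map_mul, map_mul]; ring
          _ = ψ (c₀ * (c2 * d1)) := by rw [h]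
          _ = ψ c₀ * (ρΛ (incl B 𝔫 b) * ψ d2) * ψ d1 := by rw [h2, map_mul, map_mul]; ring
          _ = ψ c₀ * ρΛ (incl B 𝔫 b) * (ψ d1 * ψ d2) := by ring
      exact mul_right_cancel₀ (mul_ne_zero hψd1 hψd2) e
    rw [← hker]
    simp only [map_sub, map_mul]
    rw [hr₁, hr₂]
    calc ψ s₀ * ρΛ (incl B 𝔫 t₁) * ρΛ (incl B 𝔫 t₂) * ρΛ (incl B 𝔫 a)
          - ψ c₀ * ρΛ (incl B 𝔫 t₂) * ρΛ (incl B 𝔫 t₁) * ρΛ (incl B 𝔫 b)
        = ρΛ (incl B 𝔫 t₁) * ρΛ (incl B 𝔫 t₂)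
            * (ψ s₀ * ρΛ (incl B 𝔫 a) - ψ c₀ * ρΛ (incl B 𝔫 b)) := by ring
      _ = 0 := by rw [hkey, sub_self, mul_zero]
  · right
    have hkey : ψ s₀ * ρΛ (incl B 𝔫 b) = ψ c₀ * ρΛ (incl B 𝔫 a) := by
      have e : ψ s₀ * ρΛ (incl B 𝔫 b) * (ψ d1 * ψ d2)
          = ψ c₀ * ρΛ (incl B 𝔫 a) * (ψ d1 * ψ d2) := by
        calc ψ s₀ * ρΛ (incl B 𝔫 b) * (ψ d1 * ψ d2)
            = ψ s₀ * (ρΛ (incl B 𝔫 b) * ψ d2) * ψ d1 := by ring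
          _ = ψ (s₀ * (c2 * d1)) := by rw [h2, map_mul, map_mul]; ring
          _ = ψ (c₀ * (c1 * d2)) := by rw [h]
          _ = ψ c₀ * (ρΛ (incl B 𝔫 a) * ψ d1) * ψ d2 := by rw [h1, map_mul, map_mul]; ring
          _ = ψ c₀ * ρΛ (incl B 𝔫 a) * (ψ d1 * ψ d2) := by ring
      exact mul_right_cancel₀ (mul_ne_zero hψd1 hψd2) e
    rw [← hker]
    simp only [map_sub, map_mul]
    rw [hr₁, hr₂]
    calc ψ s₀ * ρΛ (incl B 𝔫 t₁) * ρΛ (incl B 𝔫 t₂) * ρΛ (incl B 𝔫 b)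
          - ψ c₀ * ρΛ (incl B 𝔫 t₂) * ρΛ (incl B 𝔫 t₁) * ρΛ (incl B 𝔫 a)
        = ρΛ (incl B 𝔫 t₁) * ρΛ (incl B 𝔫 t₂)
            * (ψ s₀ * ρΛ (incl B 𝔫 b) - ψ c₀ * ρΛ (incl B 𝔫 a)) := by ring
      _ = 0 := by rw [hkey, sub_self, mul_zero]

/-- **`hval` at a type I / II point, series form, from the reduction of the valuation ring**
`W = V1 F 𝔭₀` (`red : W →+* κ` with kernel the non-units, `θ : κ →+* Λ` the embedding of the residue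
field in the big field).  `hrow`, `hrange` are asked for EVERY membership proof, so the caller never
has to match proof terms. -/
theorem hval_of_series_val {κ Λ : Type*} [Field κ] [Field Λ] {D : Type*} [CommRing D]
    [IsDedekindDomain D] (𝔫 : Ideal B) [𝔫.IsPrime] (𝔭₀ : HtOne B) (h𝔭𝔫 : 𝔭₀.1 ≤ 𝔫)
    (W : ValuationSubring F) (hW : V1 F 𝔭₀ = W) (red : W →+* κ)
    (hred : ∀ x : W, red x = 0 ↔ (x : F) ∈ W.nonunits) (θ : κ →+* Λ)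
    (B'' : Subring F') (δ : F' →+* F) (hδ : ∀ b ∈ B'', δ b ∈ locSubring B 𝔫)
    (ρD : B'' →+* D) (hsurj : Function.Surjective ρD)
    (ψ : D →+* Λ) (hψ : Function.Injective ψ)
    (hrow : ∀ (f : B'') (h : δ f ∈ W), θ (red ⟨δ f, h⟩) = ψ (ρD f))
    (hrange : ∀ (a : B) (h : (a : F) ∈ W), ∃ c d : D, d ≠ 0 ∧ θ (red ⟨a, h⟩) * ψ d = ψ c)
    (a b : B) :
    ∃ c s : B, s ∉ 𝔫 ∧ (s * a - c * b ∈ 𝔭₀.1 ∨ s * b - c * a ∈ 𝔭₀.1) := by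
  subst hW
  refine hval_of_series 𝔫 𝔭₀ h𝔭𝔫 (θ.comp (rhoLoc 𝔫 𝔭₀ h𝔭𝔫 red)) ?_ B'' δ hδ ρD hsurj ψ hψ ?_ ?_ a b
  · intro a'
    rw [RingHom.comp_apply, map_eq_zero_iff θ θ.injective]
    exact rhoLoc_eq_zero_iff 𝔫 𝔭₀ h𝔭𝔫 red hred a'
  · intro f
    rw [RingHom.comp_apply, rhoLoc_apply]
    exact hrow f _
  · intro a'
    obtain ⟨c, d, hd, h⟩ := hrange a' (algebraMap_mem_V1 𝔭₀ a')
    exact ⟨c, d, hd, h⟩

end Fermat.Agent.GL.Frame.HvalOfSeries
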