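/-
GATE-L / L5-I at the CUSPIDAL points, abstract wrapper (helper84): `hval` of helper47's
`LocTypeI.exists_locAt(_q)` at a point `𝔫` of the frame `B = IC R[1/j]` with `1/j ∈ 𝔫`, lying on the
vertical prime `𝔭₀`, from the old copy of the chart at infinity `B'' = IC R'[1/j'']` of a lower
level along a degeneracy map `δ` which is only LOCALLY defined at the cusps (`δ j'' = jδ`, `j`
integral over `R[jδ]`: ARITH-INT).

= `OldContraction.old_inf_le` (⟹ `δ B'' ⊆ B_𝔫`) + `HvalOfSeries.hval_of_series_val`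
(series-valued reduction `red : W →+* Λ` on the valuation ring `W = V1 F 𝔭₀`).
-/
import Fermat.Agent.GL.Frame.HvalOfSeries

set_option autoImplicit false
set_option linter.unusedSectionVars false

namespace Fermat.Agent.GL.Frame.HvalCuspAbs

open Fermat.Agent.GL.Frame.Chart Fermat.Agent.GL.Frame.OldCopiesLoc
  Fermat.Agent.GL.Frame.OldContraction Fermat.Agent.GL.Frame.HeightOne
  Fermat.Agent.GL.Frame.HvalOfSeries

variable {F F'' : Type*} [Field F] [Field F''] {B : Subring F} [IsFractionRing B F]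
  [IsNoetherianRing B] [IsIntegrallyClosed B]

/-- an element of `𝔫` lies in the maximal ideal of `B_𝔫`. -/
theorem mem_locMax_of_mem (𝔫 : Ideal B) [𝔫.IsPrime] {z : F} (hzB : z ∈ B)
    (hz : (⟨z, hzB⟩ : B) ∈ 𝔫) :
    ∃ hz' : z ∈ locSubring B 𝔫, (⟨z, hz'⟩ : locSubring B 𝔫) ∈ locMax B 𝔫 := by
  refine ⟨le_locSubring B 𝔫 hzB, ?_⟩
  refine (mem_locMax_iff_of_eq B 𝔫 (z := ⟨z, le_locSubring B 𝔫 hzB⟩) (a := ⟨z, hzB⟩) (s := 1)
    (one_not_mem_of_prime B 𝔫) ?_).mpr hz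
  simp

/-- **`hval` at a cuspidal point.** -/
theorem hval_cusp {Λ : Type*} [Field Λ] {D : Type*} [CommRing D] [IsDedekindDomain D]
    (hIC : IsIC B) (R : Subring F) (hRB : R ≤ B) {j jδ : F} (hj0 : j ≠ 0) (hjδ0 : jδ ≠ 0)
    (hint : IsIntegral (Subring.closure ((R : Set F) ∪ {jδ})) j)
    (𝔫 : Ideal B) [𝔫.IsPrime] (hjB : j⁻¹ ∈ B) (hj𝔫 : (⟨j⁻¹, hjB⟩ : B) ∈ 𝔫)
    (𝔭₀ : HtOne B) (h𝔭𝔫 : 𝔭₀.1 ≤ 𝔫)
    (W : ValuationSubring F) (hW : V1 F 𝔭₀ = W) (red : W →+* Λ)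
    (hred : ∀ x : W, red x = 0 ↔ (x : F) ∈ W.nonunits)
    (δ : F'' →+* F) {j'' : F''} (hδj : δ j'' = jδ) (R' : Subring F'') (hR' : ∀ r ∈ R', δ r ∈ R)
    (B'' : Subring F'')
    (hB'' : ∀ b ∈ B'', IsIntegral (Subring.closure ((R' : Set F'') ∪ {j''⁻¹})) b)
    (ρD : B'' →+* D) (hsurj : Function.Surjective ρD)
    (ψ : D →+* Λ) (hψ : Function.Injective ψ)
    (hrow : ∀ (f : B'') (h : δ f ∈ W), red ⟨δ f, h⟩ = ψ (ρD f))
    (hrange : ∀ (a : B) (h : (a : F) ∈ W), ∃ c d : D, d ≠ 0 ∧ red ⟨a, h⟩ * ψ d = ψ c)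
    (a b : B) :
    ∃ c s : B, s ∉ 𝔫 ∧ (s * a - c * b ∈ 𝔭₀.1 ∨ s * b - c * a ∈ 𝔭₀.1) := by
  obtain ⟨hj, hjm⟩ := mem_locMax_of_mem 𝔫 hjB hj𝔫
  have hδ : ∀ b ∈ B'', δ b ∈ locSubring B 𝔫 := fun b hb =>
    (old_inf_le B 𝔫 hIC R hRB hj0 hjδ0 hint hj hjm δ hδj R' hR').2 b (hB'' b hb)
  exact hval_of_series_val 𝔫 𝔭₀ h𝔭𝔫 W hW red hred (RingHom.id Λ) B'' δ hδ ρD hsurj ψ hψ
    (fun f h => hrow f h) (fun a h => hrange a h) a b

end Fermat.Agent.GL.Frame.HvalCuspAbs
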