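/-
GATE-L / FRAME-INST-A (helper80), part 4: functoriality of the chart rings and of their vertical
primes (inputs (C1)(C2) of helper47's classification, board 3016).

`φ : F' →+* F` a homomorphism of fields over `R` (the degeneracy maps `alphaK0`, `betaK0`).

* `map_mem_icRing` : `φ(S') ⊆ icRing R S ⟹ φ(icRing R S') ⊆ icRing R S`
  (`φ t' = t` or `φ t'` integral over `R[t]` ⟹ `φ(B'_{t'}) ⊆ B_t`);
* `mapIc` : the induced ring homomorphism `icRing R S' →+* icRing R S`;
* `comap_htOne_eq` : a membership ROW `φ x ∈ W ↔ x ∈ W'` between valuation subrings turns into the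
  comap equality `𝔭.comap φ = 𝔭'` of the height-one primes with `B_𝔭 = W`, `B'_𝔭' = W'`;
* `mem_nonunits_iff_of_row` : the same for the maximal ideals of the valuation subrings.
-/
import Mathlib
import Fermat.Agent.GL.Frame.FrameInst

set_option autoImplicit false
set_option linter.unusedSectionVars false

namespace Fermat.Agent.GL.Frame.InstMap

open Fermat.Agent.GL.Frame.HeightOne Fermat.Agent.GL.Frame.Inst

variable {R F' F : Type*} [CommRing R] [Field F'] [Field F] [Algebra R F'] [Algebra R F]
  (φ : F' →+* F)

/-- a membership row between valuation subrings passes to the maximal ideals. -/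
theorem mem_nonunits_iff_of_row {W : ValuationSubring F} {W' : ValuationSubring F'}
    (hrow : ∀ x : F', φ x ∈ W ↔ x ∈ W') (x : F') : φ x ∈ W.nonunits ↔ x ∈ W'.nonunits := by
  rw [ValuationSubring.mem_nonunits_iff_or, ValuationSubring.mem_nonunits_iff_or, ← map_inv₀,
    hrow, map_eq_zero]

section Ic

variable (hφ : ∀ r : R, φ (algebraMap R F' r) = algebraMap R F r)

include hφ in
/-- **functoriality of the integral closures** `icRing R S`. -/
theorem map_mem_icRing {S' : Set F'} {S : Set F} (hS : ∀ x ∈ S', φ x ∈ icRing R S) {z : F'}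
    (hz : z ∈ icRing R S') : φ z ∈ icRing R S := by
  have hadj : ∀ a ∈ Algebra.adjoin R S', φ a ∈ icRing R S := by
    intro a ha
    induction ha using Algebra.adjoin_induction with
    | mem x hx => exact hS x hx
    | algebraMap r =>
      rw [hφ]
      exact algebraMap_mem_icRing R S r
    | add x y _ _ hx hy =>
      rw [map_add]
      exact add_mem hx hy
    | mul x y _ _ hx hy =>
      rw [map_mul]
      exact mul_mem hx hy
  apply mem_icRing_of_isIntegral
  rw [mem_icRing] at hz
  let ψ : Algebra.adjoin R S' →+* icRing R S :=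
    { toFun := fun a => ⟨φ a.1, hadj a.1 a.2⟩
      map_one' := Subtype.ext (map_one φ)
      map_mul' := fun a b => Subtype.ext (map_mul φ a.1 b.1)
      map_zero' := Subtype.ext (map_zero φ)
      map_add' := fun a b => Subtype.ext (map_add φ a.1 b.1) }
  exact IsIntegral.map_of_comp_eq ψ φ (RingHom.ext fun a => rfl) hz

include hφ in
/-- the chart `t'` goes to (something integral over) the chart `t`. -/
theorem map_mem_chartRing {t' : F'} {t : F} (ht : φ t' ∈ chartRing R t) {z : F'}
    (hz : z ∈ chartRing R t') : φ z ∈ chartRing R t :=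
  map_mem_icRing φ hφ (fun x hx => by rw [Set.mem_singleton_iff.1 hx]; exact ht) hz

end Ic

/-- the homomorphism induced by `φ` between two subrings. -/
def mapSub (B' : Subring F') (B : Subring F) (hB : ∀ z ∈ B', φ z ∈ B) : B' →+* B :=
  φ.restrict B' B hB

@[simp]
theorem coe_mapSub (B' : Subring F') (B : Subring F) (hB : ∀ z ∈ B', φ z ∈ B) (b : B') :
    ((mapSub φ B' B hB b : B) : F) = φ (b : F') := rfl

/-- **a membership row is a comap equality of height-one primes**: if `B_𝔭 = W`, `B'_𝔭' = W'` and
`φ x ∈ W ↔ x ∈ W'` then `𝔭.comap φ = 𝔭'`. -/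
theorem comap_htOne_eq {B' : Subring F'} {B : Subring F}
    [IsFractionRing B' F'] [IsNoetherianRing B'] [IsIntegrallyClosed B']
    [IsFractionRing B F] [IsNoetherianRing B] [IsIntegrallyClosed B]
    (hB : ∀ z ∈ B', φ z ∈ B) (p : HtOne B) (p' : HtOne B')
    {W : ValuationSubring F} {W' : ValuationSubring F'} (hp : V1 F p = W) (hp' : V1 F' p' = W')
    (hrow : ∀ x : F', φ x ∈ W ↔ x ∈ W') : p.1.comap (mapSub φ B' B hB) = p'.1 := by
  ext b
  rw [Ideal.mem_comap, ← algebraMap_mem_nonunits_V1_iff (F := F) p,
    ← algebraMap_mem_nonunits_V1_iff (F := F') p', hp, hp']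
  exact mem_nonunits_iff_of_row φ hrow (b : F')

/-- a prime of `B` lying over a height-one localisation: contraction of `≤`. -/
theorem comap_le_comap {B' : Subring F'} {B : Subring F} (hB : ∀ z ∈ B', φ z ∈ B)
    {P Q : Ideal B} (h : P ≤ Q) : P.comap (mapSub φ B' B hB) ≤ Q.comap (mapSub φ B' B hB) :=
  Ideal.comap_mono h

end Fermat.Agent.GL.Frame.InstMap
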