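/-
GATE-L / HKER-ADAPTER (helper47; claims key HKER-ADAPTER): the five `hker` binders of helper36
`TripleBuildPoints.buildOfPoints` / helper40 `buildK0` from the (A1) classification.

A closed point `n` of the special fibre of the chart ring `B = chartRing (R₀ A) j` of level
`N = M' q q` at which the lifted supersingular polynomial `s(j)` vanishes lies on ALL THREE
vertical components (`upper_vert_le`, from `ClassifyK0Full.dichotomy_frame` and helper28's
`exists_frame_three`); a prime `n'` of the special fibre of the chart ring `B'` of level `M' q` with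
`s(j') ∈ n'` lies on BOTH vertical components (`lower_vert_le`, from helper65
`NodeSS_K0.le_of_ss_mem` and the two-component frame `exists_frame_two`).

`hker_upper`, `hker_lower` : the same at helper40's `BK0 A N`, `jB A N`, `PtType` (non-units form);
`ssPts_K0` : **helper40's `BuildInstPts.SsPts A hq hqM hA s`** (the ONLY residual hypothesis of
`buildK0` / `setupK0Pts`) at a good level, for any lift `s` of `ssPolyAll` along `residue R₀`.
-/
import Fermat.Agent.GL.Frame.ClassifyK0Full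
import Fermat.Agent.GL.Frame.ClassifyC5Final
import Fermat.Agent.GL.Reg.TripleRegInst
import Fermat.Agent.GL.Thick.HasseMapAll
import Fermat.Agent.GL.Final.BuildInst
import Fermat.Agent.GL.Final.TriplePoints
import Fermat.Agent.GL.Final.BuildInstPts

set_option autoImplicit false
set_option linter.style.haveILetI false
set_option linter.unusedSectionVars false

noncomputable section

namespace Fermat.Agent.GL.Frame.ClassifyK0Ker

open HahnSeries ModularCurve IsLocalRing Polynomial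
open Fermat.Agent.S24 Fermat.Agent.S24_helper62 Fermat.Agent.S24_helper82
open Fermat.Agent.GJ.J1 Fermat.Agent.GJ.J1.Val Fermat.Agent.GJ.HN
open Fermat.Agent.GK.AL Fermat.Agent.GK.QS Fermat.Agent.GK.FrobGlue Fermat.Agent.GL.AL
open Fermat.Agent.Common_helper32
open Fermat.Agent.GL.SmallQ
open Fermat.Agent.GL.Val.GaussK0 Fermat.Agent.GL.Val.SecondK0 Fermat.Agent.GL.Val.SecondK0Hall
open Fermat.Agent.GL.Val.ThirdK0 Fermat.Agent.GL.Val.OrthK0 Fermat.Agent.GL.Val.DegBase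
open Fermat.Agent.GL.BRingK0 Fermat.Agent.GL.Table.K0 Fermat.Agent.GL.Thick
open Fermat.Agent.GL.OldTriplesK0
open Fermat.Agent.GL.Frame.ClassifyInst Fermat.Agent.GL.Frame.ClassifyK0
open Fermat.Agent.GL.Frame.ClassifyK0Full
open Fermat.Agent.GL.Frame.HeightOne Fermat.Agent.GL.Frame.Inst

set_option synthInstance.maxHeartbeats 400000

variable (A : ValuationSubring Kbar) {q : ℕ} [Fact q.Prime] [NeZero q] (M' : ℕ) [NeZero M']
  (hQ : HallDvd (q ^ 2) (M' * q * q)) (hq : ExactDvd q (M' * q))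
  (hqM : ¬ q ∣ M') (hA : A.LiesOverPrime q)

local notation "kA" => IsLocalRing.ResidueField A
local notation "FQ" => modularFunctionFieldFullC (K0 A) (M' * q * q)
local notation "Fq" => modularFunctionFieldFullC (K0 A) (M' * q)
local notation "αK" => ((alphaK0 A (M' * q) q : Fq →ₐ[K0 A] FQ) : Fq →+* FQ)
local notation "βK" => ((betaK0 A (M' * q) q : Fq →ₐ[K0 A] FQ) : Fq →+* FQ)
local notation "BQ" => chartRing (R0 A) (jC (M' * q * q) (K0 A))
local notation "Bq" => chartRing (R0 A) (jC (M' * q) (K0 A))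

/-- the constants `R₀ → K₀(X₀(N))`, as an explicit ring hom -/
abbrev cF (N : ℕ) : R0 A →+* modularFunctionFieldFullC (K0 A) N :=
  (algebraMap (K0 A) (modularFunctionFieldFullC (K0 A) N)).comp (R0 A).subtype

/-- the underlying element of `π^*(s(j'))` is `s(j)` at the top level. -/
theorem coe_resHom_alpha_ss (s : (R0 A)[X]) (Bf : Subring FQ)
    (hαAB : ∀ a ∈ BRingK0 M' q A hq, αK a ∈ Bf) :
    ((resHom αK (BRingK0 M' q A hq) Bf hαAB
        (s.eval₂ (cstK0 M' q A hq) (jK0B M' q A hq)) : Bf) : FQ) =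
      s.eval₂ (cF A (M' * q * q)) (jC (M' * q * q) (K0 A)) := by
  rw [coe_resHom]
  have e1 : (((s.eval₂ (cstK0 M' q A hq) (jK0B M' q A hq) : BRingK0 M' q A hq)) : Fq) =
      s.eval₂ (cF A (M' * q)) (jC (M' * q) (K0 A)) :=
    Polynomial.hom_eval₂ s (cstK0 M' q A hq) (BRingK0 M' q A hq).subtype (jK0B M' q A hq)
  rw [e1, Polynomial.hom_eval₂]
  have e2 : (αK).comp (cF A (M' * q)) = cF A (M' * q * q) :=
    RingHom.ext fun a => (alphaK0 A (M' * q) q).commutes (a : K0 A)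
  have e3 : αK (jC (M' * q) (K0 A)) = jC (M' * q * q) (K0 A) :=
    Fermat.Agent.GL.Table.KroneckerK0.alphaK0_jC A
  rw [e2, e3]

/-! ### the upper level `N = M' q q` -/

/-- a lift of `ssPolyAll` along `residue R₀` is a lift along `resR0 = resMapK0 ∘ residue`. -/
theorem map_resR0_of_map_residue [CharP (IsLocalRing.ResidueField (R0 A)) q] {s : (R0 A)[X]}
    (hs : s.map (IsLocalRing.residue (R0 A)) = ssPolyAll q (IsLocalRing.ResidueField (R0 A))) :
    s.map (resR0 A) = @ssPolyAll q _ kA _ (charP_residue A Fact.out hA) := by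
  haveI : CharP kA q := charP_residue A Fact.out hA
  have e : s.map (resR0 A) = (s.map (IsLocalRing.residue (R0 A))).map (resMapK0 A) := by
    rw [Polynomial.map_map]
    rfl
  rw [e, hs]
  exact ssPolyAll_map q (resMapK0 A)

include hQ hq hqM hA in
/-- **supersingular points of the upper level lie on all three components.**
`n` a closed point of `B = chartRing (R₀ A) j` (level `M' q q`) with `q ∈ n` and `s(j) ∈ n`, `s` a
lift of `ssPolyAll`: the centres of `w₁ w₂ w₃` on `B` lie in `n`, and `n` lies over a node of the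
lower level. -/
theorem upper_vert_le (h2 : q = 2 → 3 ∣ M') (h3 : q = 3 → 2 ∣ M')
    {r : ℕ} (hr : r.Prime) (hrN : r ∣ M') (hr3 : r % 3 = 2) (hr4 : r % 4 = 3)
    {s : (R0 A)[X]}
    (hs : s.map (resR0 A) = @ssPolyAll q _ kA _ (charP_residue A Fact.out hA))
    (n : Ideal BQ) (hn : n.IsMaximal)
    {qB : BQ} (hqB : (qB : FQ) = ((q : ℕ) : FQ)) (hqn : qB ∈ n)
    {sB : BQ} (hsB : (sB : FQ) = s.eval₂ (cF A (M' * q * q)) (jC (M' * q * q) (K0 A)))
    (hsn : sB ∈ n) :
    (∀ b : BQ, (b : FQ) ∈ (RwK0 A (M' * q * q)).nonunits → b ∈ n) ∧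
      (∀ b : BQ, (b : FQ) ∈ (redData2QK0 A (M' * q * q) hQ).Rw.nonunits → b ∈ n) ∧
      (∀ b : BQ, (b : FQ) ∈ (Rw3K0 A (M' * q * q) q).nonunits → b ∈ n) := by
  have hqp : q.Prime := Fact.out
  have hN : M' * q * q = M' * q ^ 2 := by ring
  haveI := isDiscreteValuationRing_R0 A hqp hA
  obtain ⟨i1, i2, i3, hqB0, f, hf1, hf2, hf3⟩ :=
    Fermat.Agent.GL.TripleRegInst.exists_frame_three A (M' * q * q) hqp hN hqM hA hQ
  haveI := i1
  haveI := i2
  haveI := i3
  obtain ⟨J', hJ, hJ', -⟩ := exists_ideal_K0 hq hqM hA h2 h3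
  have hBf : ∀ x : FQ, x ∈ BQ ↔ x ∈ B3K0 M' q A hQ := fun x => by
    rw [Fermat.Agent.GL.Val.B3ChartK0.B3K0_eq_chartRing hqM hA]
  have hαAB := alpha_mem_frame A M' hQ hq hqM hBf
  have hβAB := beta_mem_frame A M' hQ hq hqM hBf
  have hqBe : qB = baseB (jC (M' * q * q) (K0 A)) (q0 A q) := by
    apply Subtype.ext
    rw [hqB]
    have h1 : ((q0 A q : R0 A) : K0 A) = ((q : ℕ) : K0 A) :=
      ι0_injective A (by rw [ι0_q0, map_natCast])
    show _ = algebraMap (K0 A) FQ ((q0 A q : R0 A) : K0 A)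
    rw [h1, map_natCast]
  have hvert : ∀ 𝔭 : HtOne BQ, qB ∈ 𝔭.1 → ∃ i, f i = 𝔭 := by
    intro 𝔭 h𝔭
    rw [hqBe] at h𝔭
    exact (hf2 𝔭).1 ((mem_vertFinset hqB0 𝔭).2 h𝔭)
  have hsBe : resHom αK (BRingK0 M' q A hq) BQ hαAB
      (s.eval₂ (cstK0 M' q A hq) (jK0B M' q A hq)) = sB :=
    Subtype.ext ((coe_resHom_alpha_ss A M' hq s BQ hαAB).trans hsB.symm)
  have hd := dichotomy_frame A M' hQ hq hqM hA h2 h3 hr hrN hr3 hr4 hJ hJ' hs
    (Fermat.Agent.GL.Frame.ClassifyC5.hB3_rdK2 A M' hQ hqM hA) hBf hαAB hβAB f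
    (hf3 0) (hf3 1) (hf3 2) hqB hvert n hn hqn
  rw [hsBe] at hd
  rcases hd with ⟨-, h0, h1, h2', -⟩ | ⟨hns, -⟩
  · exact ⟨fun b hb => h0 ((hf3 0 b).2 hb), fun b hb => h1 ((hf3 1 b).2 hb),
      fun b hb => h2' ((hf3 2 b).2 hb)⟩
  · exact absurd hsn hns

/-! ### the lower level `N₀ = M' q` -/

include hA in
/-- **the two-component `j`-frame of level `M' q` over `R₀`** : helper80 `exists_frame_self` fed
with helper75's NOEXT at `q ∥ N` (as in helper96 `mem_chartRing_jC_iff_two`). -/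
theorem exists_frame_two :
    ∃ (_ : IsNoetherianRing Bq) (_ : IsIntegrallyClosed Bq) (_ : IsFractionRing Bq Fq)
      (hqB : baseB (jC (M' * q) (K0 A)) (q0 A q) ≠ 0) (f : Fin 2 → HtOne Bq),
      (∀ p, p ∈ vertFinset hqB ↔ ∃ i, f i = p) ∧
      (∀ b : Bq, b ∈ (f 0).1 ↔ (b : Fq) ∈ (RwK0 A (M' * q)).nonunits) ∧
      (∀ b : Bq, b ∈ (f 1).1 ↔ (b : Fq) ∈ (redData2K0 A (M' * q) hq).Rw.nonunits) := by
  have hqp : q.Prime := Fact.out
  have := Fermat.Agent.GL.BRingChart.isScalarTower_R0 A (M' * q)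
  have := isDiscreteValuationRing_R0 A hqp hA
  have := Fermat.Agent.GL.BRingChart.finiteDimensional_jC A (M' * q)
  have := Fermat.Agent.GL.BRingChart.isSeparable_jC A (M' * q)
  obtain ⟨i1, i2, i3, hqB, f, -, hf2, hf3, -⟩ :=
    Fermat.Agent.GL.Frame.InstVal.exists_frame_self (A := R0 A) (irreducible_q0 A hqp hA)
      (Fermat.Agent.GL.Val.L1eLower.W2 A (M' * q) hq)
      (fun i => by
        fin_cases i
        · exact Fermat.Agent.GL.Val.L1eAsmK0.over_Rw1K0 A hqp hA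
        · exact fun a => ((redData2K0 A (M' * q) hq).mem_A_iff a).symm)
      (j := jC (M' * q) (K0 A))
      (fun i => by
        have := Fermat.Agent.GL.Val.L1eLower.isGaussAt_W2 A (M' * q) hq i
        rwa [Fermat.Agent.GL.Val.OrthK0.jK0_eq_jC] at this)
      (fun V hV hG => by
        rcases Fermat.Agent.GL.Val.L1eJC.exists_eq_W2_of_isGaussAt_jC A (M' * q) hq hA hV hG with
          h1 | h1
        · exact ⟨0, h1⟩
        · exact ⟨1, h1⟩)
  exact ⟨i1, i2, i3, hqB, f, hf2, hf3 0, hf3 1⟩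

include hqM hA in
/-- **supersingular points of the lower level are nodes.**  `n'` a prime of
`B' = chartRing (R₀ A) j'` (level `M' q`) with `q ∈ n'` and `s(j') ∈ n'`, `s` a lift of
`ssPolyAll`: the centres of `w₁'` and `w₂'` on `B'` lie in `n'`. -/
theorem lower_vert_le (h2 : q = 2 → 3 ∣ M') (h3 : q = 3 → 2 ∣ M')
    {s : (R0 A)[X]}
    (hs : s.map (resR0 A) = @ssPolyAll q _ kA _ (charP_residue A Fact.out hA))
    (n' : Ideal Bq) [hn' : n'.IsPrime]
    {qB : Bq} (hqB : (qB : Fq) = ((q : ℕ) : Fq)) (hqn : qB ∈ n')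
    {sB : Bq} (hsB : (sB : Fq) = s.eval₂ (cF A (M' * q)) (jC (M' * q) (K0 A)))
    (hsn : sB ∈ n') :
    (∀ b : Bq, (b : Fq) ∈ (RwK0 A (M' * q)).nonunits → b ∈ n') ∧
      (∀ b : Bq, (b : Fq) ∈ (redData2K0 A (M' * q) hq).Rw.nonunits → b ∈ n') := by
  have hqp : q.Prime := Fact.out
  haveI := isDiscreteValuationRing_R0 A hqp hA
  obtain ⟨i1, i2, i3, hqB0, f, hf2, hf30, hf31⟩ := exists_frame_two A M' hq hA
  haveI := i1
  haveI := i2
  haveI := i3
  have hqBe : qB = baseB (jC (M' * q) (K0 A)) (q0 A q) := by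
    apply Subtype.ext
    rw [hqB]
    have h1 : ((q0 A q : R0 A) : K0 A) = ((q : ℕ) : K0 A) :=
      ι0_injective A (by rw [ι0_q0, map_natCast])
    show _ = algebraMap (K0 A) Fq ((q0 A q : R0 A) : K0 A)
    rw [h1, map_natCast]
  have hqBn : qB ≠ 0 := hqBe ▸ hqB0
  obtain ⟨𝔭, hq𝔭, h𝔭n⟩ := Fermat.Agent.GL.Frame.LocDispatch.exists_htOne_le hqBn n' hqn
  rw [hqBe] at hq𝔭
  obtain ⟨i, rfl⟩ := (hf2 𝔭).1 ((mem_vertFinset hqB0 𝔭).2 hq𝔭)
  set e : BRingK0 M' q A hq ≃+* Bq := Fermat.Agent.GL.BRingChart.bRingK0Equiv hq hA with he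
  have hcoe : ∀ y : BRingK0 M' q A hq, ((e y : Bq) : Fq) = (y : Fq) := fun y => rfl
  set x' : Ideal (BRingK0 M' q A hq) := n'.comap (e : BRingK0 M' q A hq →+* Bq) with hx'
  haveI : x'.IsPrime := Ideal.comap_isPrime _ _
  have hor : P1K0 (h := hq) hqM hA ≤ x' ∨ P2K0 hq hqM hA ≤ x' := by
    fin_cases i
    · left
      intro y hy
      rw [hx', Ideal.mem_comap]
      apply h𝔭n
      show (e y) ∈ (f 0).1
      rw [hf30, hcoe]
      exact (mem_P1K0_iff A M' hq hqM hA).1 hy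
    · right
      intro y hy
      rw [hx', Ideal.mem_comap]
      apply h𝔭n
      show (e y) ∈ (f 1).1
      rw [hf31, hcoe]
      exact (mem_P2K0_iff hq hqM hA).1 hy
  obtain ⟨J', hJ, hJ', -⟩ := exists_ideal_K0 hq hqM hA h2 h3
  obtain ⟨hs1, hs2⟩ := redC_ssLift (h := hq) hqM hA hs
  have hs' : s.eval₂ (cstK0 M' q A hq) (jK0B M' q A hq) ∈ x' := by
    rw [hx', Ideal.mem_comap]
    have e1 : (e : BRingK0 M' q A hq →+* Bq) (s.eval₂ (cstK0 M' q A hq) (jK0B M' q A hq)) =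
        sB := by
      apply Subtype.ext
      rw [hsB]
      exact Polynomial.hom_eval₂ s (cstK0 M' q A hq) (BRingK0 M' q A hq).subtype
        (jK0B M' q A hq)
    rw [e1]
    exact hsn
  obtain ⟨h1, h2'⟩ := le_of_ss_mem hqM hA h2 h3 hJ hJ' hs1 hs2 x' hor hs'
  refine ⟨fun b hb => ?_, fun b hb => ?_⟩
  · have hb' : e.symm b ∈ P1K0 (h := hq) hqM hA :=
      (mem_P1K0_iff A M' hq hqM hA).2 (by
        have : ((e.symm b : BRingK0 M' q A hq) : Fq) = (b : Fq) := rfl
        rw [this]; exact hb)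
    have := h1 hb'
    rw [hx', Ideal.mem_comap] at this
    simpa using this
  · have hb' : e.symm b ∈ P2K0 hq hqM hA :=
      (mem_P2K0_iff hq hqM hA).2 (by
        have : ((e.symm b : BRingK0 M' q A hq) : Fq) = (b : Fq) := rfl
        rw [this]; exact hb)
    have := h2' hb'
    rw [hx', Ideal.mem_comap] at this
    simpa using this

/-! ### the `hker` binders of `buildOfPoints` (helper36) at helper40's `BK0`, `jB` -/

section Wrap

open Fermat.Agent.GL.BuildInst Fermat.Agent.GL.Final.TriplePoints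

attribute [local instance 2000] instAlgR0FullC instAlgBK0FullC instAlgR0BK0

include hA in
/-- the integer `q` lies in every point of the special fibre. -/
theorem q_mem_ptIdeal (N : ℕ) [NeZero N] {s : (R0 A)[X]}
    (n : PtType (RingHom.ker (IsLocalRing.residue (R0 A))) (jB A N) s) :
    algebraMap (R0 A) (BK0 A N) (q0 A q) ∈ ptIdeal n := by
  apply algebraMap_mem_ptIdeal n
  rw [RingHom.mem_ker, IsLocalRing.residue_eq_zero_iff, IsLocalRing.mem_maximalIdeal,
    mem_nonunits_iff]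
  have hqp : q.Prime := Fact.out
  exact (irreducible_q0 A hqp hA).not_isUnit

theorem coe_algebraMap_q0 (N : ℕ) [NeZero N] :
    ((algebraMap (R0 A) (BK0 A N) (q0 A q) : BK0 A N) : modularFunctionFieldFullC (K0 A) N) =
      ((q : ℕ) : modularFunctionFieldFullC (K0 A) N) := by
  have h1 : ((q0 A q : R0 A) : K0 A) = ((q : ℕ) : K0 A) :=
    ι0_injective A (by rw [ι0_q0, map_natCast])
  show algebraMap (K0 A) (modularFunctionFieldFullC (K0 A) N) ((q0 A q : R0 A) : K0 A) = _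
  rw [h1, map_natCast]

theorem coe_aeval_jB (N : ℕ) [NeZero N] (s : (R0 A)[X]) :
    ((aeval (jB A N) s : BK0 A N) : modularFunctionFieldFullC (K0 A) N) =
      s.eval₂ (cF A N) (jC N (K0 A)) := by
  rw [aeval_def]
  exact Polynomial.hom_eval₂ s (algebraMap (R0 A) (BK0 A N)) (BK0 A N).subtype (jB A N)

include hQ hq hqM hA in
/-- **`hker1 hker2 hker3`** of `buildOfPoints` at `B := BK0 A (M' q q)`, `t := jB`, in the
reduction-free form. -/
theorem hker_upper (h2 : q = 2 → 3 ∣ M') (h3 : q = 3 → 2 ∣ M')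
    {r : ℕ} (hr : r.Prime) (hrN : r ∣ M') (hr3 : r % 3 = 2) (hr4 : r % 4 = 3)
    {s : (R0 A)[X]}
    (hs : s.map (resR0 A) = @ssPolyAll q _ kA _ (charP_residue A Fact.out hA))
    (n : PtType (RingHom.ker (IsLocalRing.residue (R0 A))) (jB A (M' * q * q)) s) :
    (∀ b : BK0 A (M' * q * q), (b : FQ) ∈ (RwK0 A (M' * q * q)).nonunits → b ∈ ptIdeal n) ∧
      (∀ b : BK0 A (M' * q * q),
        (b : FQ) ∈ (redData2QK0 A (M' * q * q) hQ).Rw.nonunits → b ∈ ptIdeal n) ∧
      (∀ b : BK0 A (M' * q * q), (b : FQ) ∈ (Rw3K0 A (M' * q * q) q).nonunits → b ∈ ptIdeal n) :=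
  upper_vert_le A M' hQ hq hqM hA h2 h3 hr hrN hr3 hr4 hs (ptIdeal n) (ptIdeal_isMaximal n)
    (coe_algebraMap_q0 A (M' * q * q)) (q_mem_ptIdeal A hA (M' * q * q) n)
    (coe_aeval_jB A (M' * q * q) s) (aeval_mem_ptIdeal n)

include hq hqM hA in
/-- **`hker1' hker2'`** of `buildOfPoints` at `B' := BK0 A (M' q)`, `t' := jB`, in the
reduction-free form. -/
theorem hker_lower (h2 : q = 2 → 3 ∣ M') (h3 : q = 3 → 2 ∣ M')
    {s : (R0 A)[X]}
    (hs : s.map (resR0 A) = @ssPolyAll q _ kA _ (charP_residue A Fact.out hA))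
    (n' : PtType (RingHom.ker (IsLocalRing.residue (R0 A))) (jB A (M' * q)) s) :
    (∀ b : BK0 A (M' * q), (b : Fq) ∈ (RwK0 A (M' * q)).nonunits → b ∈ ptIdeal n') ∧
      (∀ b : BK0 A (M' * q),
        (b : Fq) ∈ (redData2K0 A (M' * q) hq).Rw.nonunits → b ∈ ptIdeal n') :=
  haveI := (ptIdeal_isMaximal n').isPrime
  lower_vert_le A M' hq hqM hA h2 h3 hs (ptIdeal n')
    (coe_algebraMap_q0 A (M' * q)) (q_mem_ptIdeal A hA (M' * q) n')
    (coe_aeval_jB A (M' * q) s) (aeval_mem_ptIdeal n')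

end Wrap

/-! ### helper40's `SsPts` -/

section SsPts

open Fermat.Agent.GL.BuildInst Fermat.Agent.GL.BuildInstPts Fermat.Agent.GL.Final.TriplePoints
open Fermat.Agent.GL.Final.RowsInst

attribute [local instance 2000] instAlgR0FullC instAlgBK0FullC instAlgR0BK0

/-- **the residual hypothesis `SsPts` of helper40's `buildK0` / `setupK0Pts`** at a good level:
`q = 2 → 3 ∣ M'`, `q = 3 → 2 ∣ M'`, an auxiliary prime `r ∣ M'` with `r % 3 = 2`, `r % 4 = 3`,
and `s` ANY lift of `ssPolyAll` along `residue R₀`. -/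
theorem ssPts_K0 (A : ValuationSubring Kbar) {M' q : ℕ} [NeZero q] [NeZero M'] (hq : q.Prime)
    (hqM : ¬ q ∣ M') (hA : (q : Kbar) ∈ A.nonunits)
    (h2 : q = 2 → 3 ∣ M') (h3 : q = 3 → 2 ∣ M')
    {r : ℕ} (hr : r.Prime) (hrN : r ∣ M') (hr3 : r % 3 = 2) (hr4 : r % 4 = 3)
    (s : (R0 A)[X])
    (hs : s.map (IsLocalRing.residue (R0 A)) =
      @ssPolyAll q ⟨hq⟩ (IsLocalRing.ResidueField (R0 A)) _ (charP_k0 A hq hA)) :
    SsPts A hq hqM hA s := by
  haveI : Fact q.Prime := ⟨hq⟩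
  haveI : CharP (IsLocalRing.ResidueField (R0 A)) q := charP_k0 A hq hA
  have hs' := map_resR0_of_map_residue A hA hs
  have hE := Fermat.Agent.GL.W3Table.exactDvd_level hq hqM
  have hQ := Fermat.Agent.GL.AL.hallDvd_sq M' hq hqM
  refine ⟨hs, fun n b hb => ?_, fun n b hb => ?_, fun n b hb => ?_, fun n' b hb => ?_,
    fun n' b hb => ?_⟩
  · exact (hker_upper A M' hQ hE hqM hA h2 h3 hr hrN hr3 hr4 hs' n).1 b hb
  · exact (hker_upper A M' hQ hE hqM hA h2 h3 hr hrN hr3 hr4 hs' n).2.1 b hb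
  · exact (hker_upper A M' hQ hE hqM hA h2 h3 hr hrN hr3 hr4 hs' n).2.2 b hb
  · exact (hker_lower A M' hE hqM hA h2 h3 hs' n').1 b hb
  · exact (hker_lower A M' hE hqM hA h2 h3 hs' n').2 b hb

end SsPts

end Fermat.Agent.GL.Frame.ClassifyK0Ker
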