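/-
GATE-L / J-FRAME ADAPTER, part 3 (helper11): helper28's `CechKummer.exists_section_ambient` with its
`hloc` binder discharged by `JFrameAdapter.hloc_ambient_of_j_frames`, i.e. the CECH-KUMMER section
`s ∈ B1 ∩ M`, `s - 1 ∈ rad` from the LOCAL producers on the two standard frames of the `j`-line
(`hlocj`, `hlocji`: output shape of `JFrameLoc.hloc_typeI` / `hloc_typeIII`).  Pure composition
(compiled plug test); all other binders are those of `exists_section_ambient` VERBATIM.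
-/
import Fermat.Agent.GL.Frame.JFrameAdapter
import Fermat.Agent.GL.Lattice.CechAmbient

set_option autoImplicit false

namespace Fermat.Agent.GL.Frame.JFrameCech

open Fermat.Agent.GL.Frame.JFrameAdapter Fermat.Agent.GL.ChartChange Polynomial

/-- **CECH-KUMMER section from the local producers on the `j`-frames.** -/
theorem exists_section_of_j_frames {R0 F : Type*} [CommRing R0] [Field F] [Algebra R0 F] [IsNoetherianRing R0]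
    (B12 B1 B2 : Subalgebra R0 F) (h1 : B1 ≤ B12) (h2 : B2 ≤ B12)
    (M : Submodule R0 F) (hM12 : ∀ f ∈ M, f ∈ B12) (hM : ∀ b ∈ B2, ∀ f ∈ M, b * f ∈ M)
    (q0 : R0) (rad : AddSubgroup F)
    (hradmul : ∀ b ∈ B12, ∀ x ∈ rad, b * x ∈ rad) (hqrad : algebraMap R0 F q0 ∈ rad)
    (e : ℕ)
    (hrade : ∀ f : Fin e → F, (∀ i, f i ∈ rad) → ∃ z ∈ B12, ∏ i, f i = algebraMap R0 F q0 * z)
    (m m'' : ℕ) (hN : ((1 + m * m'' : ℕ) : F) ∈ rad)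
    (u : F) (hu : u ∈ B1) (hu1 : u - 1 ∈ rad) (hum : ∀ f ∈ M, f ^ m * u ∈ B2)
    (h hinv : F) (hh : h * hinv = 1) (hh1 : h ∈ B1) (hh2 : hinv ∈ B2)
    {ι ι' : Type*} [Finite ι] (e1 : ι → F) (f : ι' → F) (he1 : ∀ i, e1 i ∈ B1)
    (hB1 : ∀ x ∈ B1, x ∈ Submodule.span R0 {y | ∃ (k : ℕ) (i : ι), y = h ^ k * e1 i})
    (hf : ∀ j, f j ∈ M)
    (hMspan : ∀ y ∈ M, y ∈ Submodule.span R0 {y | ∃ (k : ℕ) (j : ι'), y = hinv ^ k * f j})
    (a' : ℕ) (ha' : ∀ j, h ^ a' * f j ∈ B1)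
    (hB : ∀ z ∈ B12, ∃ (n : ℕ), ∃ y ∈ M, z = h ^ n * y)
    -- my inputs
    {κ : Type*} (W : κ → ValuationSubring F)
    (P1 : R0[X]) (t0 t2 : R0) (hu' : IsUnit (P1.eval t2)) {j j1 : F}
    (hj1 : j1 * (j - algebraMap R0 F t0) = 1)
    (hh' : h * aeval j1 P1 = (j1 - algebraMap R0 F t2) ^ (P1.natDegree + 1))
    (hne : j1 ≠ algebraMap R0 F t2) {Bj Bji : Subring F}
    (hB2 : IsChartRing R0 h⁻¹ B2.toSubring)
    (hBj : IsChartRing R0 j Bj) (hBji : IsChartRing R0 j⁻¹ Bji)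
    (hq : (Ideal.span {q0}).IsMaximal)
    (hW2 : ∀ i, ∀ b : B2, (b : F) ∈ W i) (hWj : ∀ i, ∀ b : Bj, (b : F) ∈ W i)
    (hWji : ∀ i, ∀ b : Bji, (b : F) ∈ W i) (hqW : ∀ i, algebraMap R0 F q0 ∈ (W i).nonunits)
    (hm : m ≠ 0) (hu0 : u ≠ 0) (hu12 : u⁻¹ ∈ B12) (hrc : ∀ y : F, y ^ m ∈ B12 → y ∈ B12)
    (hMM : ∀ f : F, f ∈ B12 → f ^ m * u ∈ B2 → f ∈ M)
    (hrad : ∀ z : F, z ∈ B12 → (∀ i, z ∈ (W i).nonunits) → z ∈ rad)
    (hlocj : ∀ (n : Ideal B2.toSubring) (n' : Ideal Bj), n.IsMaximal → n'.IsMaximal →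
      hB2.toRingHom q0 ∈ n → hBj.toRingHom q0 ∈ n' → locSet Bj n' = locSet B2.toSubring n →
      ∃ g : F, (∃ c : Bj, g ^ m * u = (c : F)) ∧
        ∃ a b : Bj, a ∉ n' ∧ b ∉ n' ∧ ∀ i, (a : F) * g - (b : F) ∈ (W i).nonunits)
    (hlocji : ∀ (n : Ideal B2.toSubring) (n' : Ideal Bji), n.IsMaximal → n'.IsMaximal →
      hB2.toRingHom q0 ∈ n → hBji.toRingHom q0 ∈ n' → locSet Bji n' = locSet B2.toSubring n →
      ∃ g : F, (∃ c : Bji, g ^ m * u = (c : F)) ∧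
        ∃ a b : Bji, a ∉ n' ∧ b ∉ n' ∧ ∀ i, (a : F) * g - (b : F) ∈ (W i).nonunits) :
    ∃ s, s ∈ B1 ∧ s ∈ M ∧ s - 1 ∈ rad :=
  Fermat.Agent.GL.CechKummer.exists_section_ambient B12 B1 B2 h1 h2 M hM12 hM q0 rad hradmul hqrad e
    hrade m m'' hN u hu hu1 hum h hinv hh hh1 hh2 e1 f he1 hB1 hf hMspan a' ha' hB
    (hloc_ambient_of_j_frames W P1 t0 t2 hu' hj1 hh' hne hB2 hBj hBji q0 hq hW2 hWj hWji hqW B12 h2
      hm hu0 hu12 hrc M hMM rad hrad hlocj hlocji)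

end Fermat.Agent.GL.Frame.JFrameCech
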