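/-
GATE-L / FRAME, divisibility by the vertical parameter (helper90), on top of helper80's
`GL/Frame/FrameInst.lean`.

Context = `FrameInst` verbatim: `R` a noetherian UFD, `K = Frac R`, `F ⊇ K`, `t ∈ F` a chart,
`q ∈ R` prime, `W : ι → ValuationSubring F` the list of ALL Gauss extensions (`hW` + `hnoext`,
i.e. L1e in the chart `t`).

* `div_mem_chartRing` : `z ∈ B_t`, `z / q ∈ W i` for all `i` ⟹ `z / q ∈ B_t`
  (`B_t = ⋂ V1`; the vertical `V1` are the `W i`, at the horizontal ones `q` is a unit).
  This is the hypothesis `hdiv` of helper47 `FibrePoints.vRad_pow_le` VERBATIM.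
* `div_mem_overlapRing` : the same for `B12 = icRing R {t, t⁻¹} = B_t[1/t]`.
* `prod_div_mem_of_valuation_le` : in ONE valuation ring `V`, a product of `e` non-units, each of
  value `≤ v π`, divided by `c` with `v π ^ e ≤ v c`, stays in `V`.
* `exists_prod_eq_mul_chartRing` / `exists_prod_eq_mul_overlapRing` : a product of `e` elements of
  the vertical radical is `q` times an element of the ring (the `(FR2)` of the H5 arm).
-/
import Mathlib
import Fermat.Agent.GL.Frame.FrameInst

set_option autoImplicit false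
set_option linter.unusedSectionVars false

open Polynomial IntermediateField

namespace Fermat.Agent.GL.Frame.Div

open Fermat.Agent.GL.KrullHeightOne Fermat.Agent.GL.Frame.HeightOne Fermat.Agent.GL.Frame.Vertical
open Fermat.Agent.GL.IntClosureSplit Fermat.Agent.GL.Frame.Inst

/-! ### one valuation ring -/

section OneVal

variable {F : Type*} [Field F]

/-- a product of `e` elements of value `≤ v π` has value `≤ v π ^ e`. -/
theorem valuation_prod_le (V : ValuationSubring F) (π : F) {e : ℕ} (f : Fin e → F)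
    (hf : ∀ k, V.valuation (f k) ≤ V.valuation π) :
    V.valuation (∏ k, f k) ≤ V.valuation π ^ e := by
  rw [map_prod]
  calc ∏ k, V.valuation (f k) ≤ ∏ _k : Fin e, V.valuation π :=
        Finset.prod_le_prod' fun k _ => hf k
    _ = V.valuation π ^ e := by rw [Finset.prod_const, Finset.card_univ, Fintype.card_fin]

/-- **in one valuation ring**: `e` elements of value `≤ v π` multiply into `c V` as soon as
`v π ^ e ≤ v c`. -/
theorem prod_div_mem_of_valuation_le (V : ValuationSubring F) (π c : F) (hc : c ≠ 0) {e : ℕ}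
    (hπc : V.valuation π ^ e ≤ V.valuation c) (f : Fin e → F)
    (hf : ∀ k, V.valuation (f k) ≤ V.valuation π) : (∏ k, f k) / c ∈ V := by
  rw [← ValuationSubring.valuation_le_one_iff, map_div₀]
  have hc0 : V.valuation c ≠ 0 := (Valuation.ne_zero_iff _).2 hc
  rw [div_le_one₀ (zero_lt_iff.2 hc0)]
  exact (valuation_prod_le V π f hf).trans hπc

/-- the same with the ramification index `e₀ ≤ e`: `v π ^ e₀ = v c`, `v π ≤ 1`. -/
theorem prod_div_mem_of_ram (V : ValuationSubring F) (π c : F) (hc : c ≠ 0) {e₀ e : ℕ}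
    (he : e₀ ≤ e) (hπ1 : V.valuation π ≤ 1) (hπc : V.valuation π ^ e₀ = V.valuation c)
    (f : Fin e → F) (hf : ∀ k, V.valuation (f k) ≤ V.valuation π) : (∏ k, f k) / c ∈ V := by
  refine prod_div_mem_of_valuation_le V π c hc ?_ f hf
  rw [← hπc]
  exact pow_le_pow_right_of_le_one' hπ1 he

end OneVal

/-! ### the chart ring -/

section ChartRing

variable {R K F : Type*} [CommRing R] [IsDomain R] [Field K] [Field F]
  [Algebra R K] [IsFractionRing R K] [Algebra K F] [Algebra R F] [IsScalarTower R K F]
  [IsNoetherianRing R] [UniqueFactorizationMonoid R]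
  (t : F) (ht : Transcendental R t) {q : R} (hq : Prime q)

variable [IsNoetherianRing (chartRing R t)] [IsIntegrallyClosed (chartRing R t)]
  [IsFractionRing (chartRing R t) F]

variable {ι : Type*} (W : ι → ValuationSubring F) (hW : ∀ i, IsGaussExt q t (W i))
  (hnoext : ∀ V : ValuationSubring F, IsGaussExt q t V → ∃ i, W i ≤ V)

include K ht hq hW hnoext in
/-- **`hdiv` for the chart ring**: `z ∈ B_t` and `z / q ∈ W i` for all `i` ⟹ `z / q ∈ B_t`. -/
theorem div_mem_chartRing (hqB : baseB t q ≠ 0) {z : F} (hz : z ∈ chartRing R t)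
    (hzW : ∀ i, z / algebraMap R F q ∈ W i) : z / algebraMap R F q ∈ chartRing R t := by
  have key : z / algebraMap R F q ∈ (algebraMap (chartRing R t) F).range := by
    rw [mem_range_iff_forall_valSub]
    intro 𝔭 hp h1
    let p : HtOne (chartRing R t) := ⟨𝔭, hp, h1⟩
    show z / algebraMap R F q ∈ V1 F p
    by_cases hqp : baseB t q ∈ p.1
    · obtain ⟨i, hi⟩ := exists_eq_of_mem_vertFinset (K := K) t ht hq W hW hnoext hqB
        ((mem_vertFinset hqB p).2 hqp)
      rw [hi]
      exact hzW i
    · rw [div_eq_mul_inv]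
      exact (V1 F p).mul_mem _ _ (mem_V1_of_mem_chartRing t p hz)
        (inv_base_mem_V1_of_not_mem t hqp)
  obtain ⟨b, hb⟩ := key
  rw [← hb]
  exact b.2

include K ht hq hW hnoext in
/-- `hdiv` in the quantified form of helper47 `FibrePoints.vRad_pow_le`. -/
theorem hdiv_chartRing (hqB : baseB t q ≠ 0) :
    ∀ z ∈ chartRing R t, (∀ i, z / algebraMap R F q ∈ W i) →
      z / algebraMap R F q ∈ chartRing R t :=
  fun _ hz hzW => div_mem_chartRing (K := K) t ht hq W hW hnoext hqB hz hzW

include K ht hq hW hnoext in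
/-- **`hdiv` for the overlap ring** `B12 = icRing R {t, t⁻¹} = B_t[1/t]` (`t` a unit of every
`W i`: only `t ∈ W i` is used). -/
theorem div_mem_overlapRing (hqB : baseB t q ≠ 0) (htW : ∀ i, t ∈ W i) {z : F}
    (hz : z ∈ overlapRing R t) (hzW : ∀ i, z / algebraMap R F q ∈ W i) :
    z / algebraMap R F q ∈ overlapRing R t := by
  obtain ⟨n, hn⟩ := exists_pow_mul_mem_chartRing t hz
  have ht0 : t ≠ 0 := by
    intro h
    apply ht
    rw [h]
    exact ⟨X, X_ne_zero, by simp⟩
  have h1 : t ^ n * z / algebraMap R F q ∈ chartRing R t := by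
    refine div_mem_chartRing (K := K) t ht hq W hW hnoext hqB hn fun i => ?_
    rw [mul_div_assoc]
    exact (W i).mul_mem _ _ (pow_mem (htW i) n) (hzW i)
  have h2 : z / algebraMap R F q = (t⁻¹) ^ n * (t ^ n * z / algebraMap R F q) := by
    rw [mul_div_assoc, ← mul_assoc, ← mul_pow, inv_mul_cancel₀ ht0, one_pow, one_mul]
  rw [h2]
  exact (overlapRing R t).mul_mem (pow_mem (inv_mem_overlapRing t) n)
    (chartRing_le_overlapRing t h1)

include K ht hq hW hnoext in
theorem hdiv_overlapRing (hqB : baseB t q ≠ 0) (htW : ∀ i, t ∈ W i) :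
    ∀ z ∈ overlapRing R t, (∀ i, z / algebraMap R F q ∈ W i) →
      z / algebraMap R F q ∈ overlapRing R t :=
  fun _ hz hzW => div_mem_overlapRing (K := K) t ht hq W hW hnoext hqB htW hz hzW

/-! ### (FR2): products of `e` elements of the vertical radical -/

include K ht hq hW hnoext in
/-- **(FR2), product form, chart ring**: if in every `W i` any `e` non-units multiply into
`q W i`, then a product of `e` elements of `B_t` which are non-units of every `W i` is `q` times an
element of `B_t`. -/
theorem exists_prod_eq_mul_chartRing (hqB : baseB t q ≠ 0) {e : ℕ}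
    (hram : ∀ i, ∀ f : Fin e → F, (∀ k, f k ∈ (W i).nonunits) →
      (∏ k, f k) / algebraMap R F q ∈ W i)
    (f : Fin e → F) (hfB : ∀ k, f k ∈ chartRing R t) (hfW : ∀ k i, f k ∈ (W i).nonunits) :
    ∃ z ∈ chartRing R t, ∏ k, f k = algebraMap R F q * z := by
  have hq0 : algebraMap R F q ≠ 0 := fun h =>
    hqB (Subtype.ext (by rw [coe_baseB, h]; rfl))
  refine ⟨(∏ k, f k) / algebraMap R F q, ?_, by rw [mul_div_cancel₀ _ hq0]⟩
  exact div_mem_chartRing (K := K) t ht hq W hW hnoext hqB
    (Subring.prod_mem _ fun k _ => hfB k) fun i => hram i f fun k => hfW k i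

include K ht hq hW hnoext in
/-- **(FR2), product form, overlap ring.** -/
theorem exists_prod_eq_mul_overlapRing (hqB : baseB t q ≠ 0) (htW : ∀ i, t ∈ W i) {e : ℕ}
    (hram : ∀ i, ∀ f : Fin e → F, (∀ k, f k ∈ (W i).nonunits) →
      (∏ k, f k) / algebraMap R F q ∈ W i)
    (f : Fin e → F) (hfB : ∀ k, f k ∈ overlapRing R t) (hfW : ∀ k i, f k ∈ (W i).nonunits) :
    ∃ z ∈ overlapRing R t, ∏ k, f k = algebraMap R F q * z := by
  have hq0 : algebraMap R F q ≠ 0 := fun h =>
    hqB (Subtype.ext (by rw [coe_baseB, h]; rfl))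
  refine ⟨(∏ k, f k) / algebraMap R F q, ?_, by rw [mul_div_cancel₀ _ hq0]⟩
  exact div_mem_overlapRing (K := K) t ht hq W hW hnoext hqB htW
    (Subring.prod_mem _ fun k _ => hfB k) fun i => hram i f fun k => hfW k i

end ChartRing

end Fermat.Agent.GL.Frame.Div
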