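/-
GATE-L / CHART-INST-K0, UNCONDITIONAL (helper8): helper75's `L1eThm` (L1e is a theorem) plugged
into `ChartInstK0.exists_chart_W3`.

At `N = M' q²`, `A | q`: every `u ∈ K₀(X₀(N))` which is a unit at `w₁, w₂, w₃` has a recipe chart
`h` (data `t₀ t₂ : R₀`, `P₁ : R₀[X]` monic, `j₁ (j - t₀) = 1`, `h P₁(j₁) = (j₁ - t₂)^(deg P₁ + 1)`)
with `j, u, u⁻¹` integral over `R₀[h]`.  No hypothesis beyond the level data.

* `exists_chart_W3_thm`  : chart `j = OrthK0.jK0 A N`;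
* `exists_chart_W3_thm_jC` : chart `j = jC N (K0 A)` (= `GaussAtK0.jK0 A N`).
-/
import Fermat.Agent.GL.Val.L1eThm
import Fermat.Agent.GL.Frame.ChartInstK0

set_option autoImplicit false

noncomputable section

namespace Fermat.Agent.GL.Frame.ChartInstK0

open Polynomial
open HahnSeries ModularCurve IsLocalRing IntermediateField Module
open Fermat.Agent.GJ.J1 Fermat.Agent.GJ.J1.Val
open Fermat.Agent.GK.AL Fermat.Agent.GL.AL Fermat.Agent.GK.MultiVal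
open Fermat.Agent.GL.Val.GaussK0 Fermat.Agent.GL.Val.SecondK0 Fermat.Agent.GL.Val.SecondK0Hall
open Fermat.Agent.GL.Val.OrthK0 Fermat.Agent.GL.Val.ThirdK0 Fermat.Agent.GL.W3
open Fermat.Agent.GL.Val.DegBase
open Fermat.Agent.GL.MultiVal Fermat.Agent.GL.MultiVal.GaussBaseJ Fermat.Agent.GL.GaussAt
open Fermat.Agent.GL.Val.L1eAsmK0
open Fermat.Agent.Common_helper32

variable (A : ValuationSubring Qb) {N : ℕ} [NeZero N] {q M' : ℕ} [NeZero M']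
  (hq : q.Prime) (hN : N = M' * q ^ 2) (hqM : ¬ q ∣ M')
  (hA : A.LiesOverPrime q) (h : HallDvd (q ^ 2) N)

local notation "F₀" => modularFunctionFieldFullC (K0 A) N

include hq hN hqM hA in
/-- **CHART-INST-K0, unconditional.** -/
theorem exists_chart_W3_thm {u : F₀} (hu : ∀ i, u ∈ W3 A h i) (hu' : ∀ i, u⁻¹ ∈ W3 A h i) :
    ∃ (t0 t2 : R0 A) (P1 : (R0 A)[X]) (j1 h' : F₀), P1.Monic ∧ IsUnit (P1.eval t2) ∧
      j1 * (jK0 A N - algebraMap (R0 A) F₀ t0) = 1 ∧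
      h' * aeval j1 P1 = (j1 - algebraMap (R0 A) F₀ t2) ^ (P1.natDegree + 1) ∧
      j1 ≠ algebraMap (R0 A) F₀ t2 ∧ h' ≠ 0 ∧
      IsIntegral (Algebra.adjoin (R0 A) {h'}) (jK0 A N) ∧
      IsIntegral (Algebra.adjoin (R0 A) {h'}) u ∧
      IsIntegral (Algebra.adjoin (R0 A) {h'}) u⁻¹ := by
  have hq2 : q ^ 2 * 1 ∣ N := by rw [mul_one, hN]; exact dvd_mul_left _ _
  have : NeZero (q ^ 2 * 1) := ⟨by rw [mul_one]; exact pow_ne_zero 2 hq.ne_zero⟩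
  exact exists_chart_W3 A hq hN hqM hA h (one_dvd M') hq2 (one_dvd N)
    (fun _ hV hj => Fermat.Agent.GL.Val.L1eThm.exists_eq_of_isGaussAt A hq hN hqM hA h hV hj)
    hu hu'

include hq hN hqM hA in
/-- the same on the chart `jC N (K0 A)` (helper90's `GaussAtK0.jK0`). -/
theorem exists_chart_W3_thm_jC {u : F₀} (hu : ∀ i, u ∈ W3 A h i) (hu' : ∀ i, u⁻¹ ∈ W3 A h i) :
    ∃ (t0 t2 : R0 A) (P1 : (R0 A)[X]) (j1 h' : F₀), P1.Monic ∧ IsUnit (P1.eval t2) ∧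
      j1 * (jC N (K0 A) - algebraMap (R0 A) F₀ t0) = 1 ∧
      h' * aeval j1 P1 = (j1 - algebraMap (R0 A) F₀ t2) ^ (P1.natDegree + 1) ∧
      j1 ≠ algebraMap (R0 A) F₀ t2 ∧ h' ≠ 0 ∧
      IsIntegral (Algebra.adjoin (R0 A) {h'}) (jC N (K0 A)) ∧
      IsIntegral (Algebra.adjoin (R0 A) {h'}) u ∧
      IsIntegral (Algebra.adjoin (R0 A) {h'}) u⁻¹ := by
  have := exists_chart_W3_thm A hq hN hqM hA h hu hu'
  rwa [jK0_eq_jC] at this

end Fermat.Agent.GL.Frame.ChartInstK0
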