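/-
GATE-L / BRANCH-POINT `hval` PRODUCER (helper35; requested by helper31 GRAPH RULING 3 (1)(b) and
helper90 3064): the ONLY non-formal input `hval` of helper90's `GL/Frame/BranchPoint.lean`
(`locSub ρ χ` is a valuation subring of `κ`) FROM a Dedekind domain.

`ρ : B →+* κ`, `χ : B →+* k`, `hker : ρ b = 0 → χ b = 0` (helper90's setting); `C` a Dedekind domain
with `Frac C = κ` such that

* `hC : ∀ c : C, algebraMap C κ c ∈ locSub ρ χ`   (`C ⊆ ρ(B)` localised at the point — e.g. `C ⊆ ρ(B)`: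
  old-lift surjectivity; only needed LOCALLY at the point);
* `hne : ∃ c : C, c ≠ 0 ∧ ev ρ χ (algebraMap C κ c) = 0`   (the point is a closed point of `Spec C`).

`hval_of_dedekind` : `∀ y : κ, y ∈ locSub ρ χ ∨ y⁻¹ ∈ locSub ρ χ`.
[`ψ := ev ∘ algebraMap : C →+* k`, `ker ψ ≠ ⊥`; `C_{ker ψ}` is a DVR (`PointBranch.ptVal`) and
`C_{ker ψ} ⊆ locSub ρ χ` because elements of `C` of non-zero value are units of `locSub ρ χ`.]

`locSub_eq_ptVal` : if moreover `ρ(B) ⊆ C` (`hB : ∀ b, ∃ c : C, ρ b = algebraMap C κ c`), then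
`locSub ρ χ = ptVal κ ψ` as sets and `ev ρ χ = ptEv ψ` on it: helper90's branch IS the point branch.
-/
import Fermat.Agent.GL.Frame.BranchPoint
import Fermat.Agent.GL.Chain.PointBranch

set_option autoImplicit false
set_option linter.unusedSectionVars false

namespace Fermat.Agent.GL.BranchPoint

open Fermat.Agent.GL.PointBranch

variable {B κ k : Type*} [CommRing B] [Field κ] [Field k]
  {ρ : B →+* κ} {χ : B →+* k} (hker : ∀ b, ρ b = 0 → χ b = 0)
  {C : Type*} [CommRing C] [IsDedekindDomain C] [Algebra C κ] [IsFractionRing C κ]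
  (hC : ∀ c : C, algebraMap C κ c ∈ locSub ρ χ)

/-- the point of `Spec C` cut out by the branch: `c ↦ ev ρ χ (algebraMap C κ c)`. -/
noncomputable def ptOf : C →+* k where
  toFun c := ev ρ χ (algebraMap C κ c)
  map_one' := by rw [map_one]; exact ev_one hker
  map_mul' a b := by rw [map_mul]; exact ev_mul hker (hC a) (hC b)
  map_zero' := by rw [map_zero]; exact ev_zero hker
  map_add' a b := by rw [map_add]; exact ev_add hker (hC a) (hC b)

theorem ptOf_apply (c : C) : ptOf hker hC c = ev ρ χ (algebraMap C κ c) := rfl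

theorem ker_ptOf_ne_bot (hne : ∃ c : C, c ≠ 0 ∧ ev ρ χ (algebraMap C κ c) = 0) :
    RingHom.ker (ptOf hker hC) ≠ ⊥ := by
  obtain ⟨c, hc0, hc⟩ := hne
  intro h
  have : c ∈ RingHom.ker (ptOf hker hC) := (RingHom.mem_ker).2 hc
  rw [h] at this
  exact hc0 ((Ideal.mem_bot).1 this)

/-- the DVR of the point is contained in `locSub ρ χ`. -/
theorem ptVal_le_locSub (hne : ∃ c : C, c ≠ 0 ∧ ev ρ χ (algebraMap C κ c) = 0) {y : κ}
    (hy : y ∈ ptVal κ (ptOf hker hC) (ker_ptOf_ne_bot hker hC hne)) : y ∈ locSub ρ χ := by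
  obtain ⟨s, hs, a, ha⟩ := (mem_ptVal_iff (ptOf hker hC) (ker_ptOf_ne_bot hker hC hne)).1 hy
  have hsi : (algebraMap C κ s)⁻¹ ∈ locSub ρ χ := inv_mem_of_ev_ne_zero hker (hC s) hs
  have hs0 : algebraMap C κ s ≠ 0 := by
    intro h0
    apply hs
    rw [ptOf_apply, h0]
    exact ev_zero hker
  have : y = algebraMap C κ a * (algebraMap C κ s)⁻¹ := by
    rw [ha, Algebra.smul_def]
    field_simp
  rw [this]
  exact (locSub ρ χ).mul_mem (hC a) hsi

include hker hC in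
/-- **`hval` of `BranchPoint.locVal` from a Dedekind domain.** -/
theorem hval_of_dedekind (hne : ∃ c : C, c ≠ 0 ∧ ev ρ χ (algebraMap C κ c) = 0) (y : κ) :
    y ∈ locSub ρ χ ∨ y⁻¹ ∈ locSub ρ χ := by
  rcases (ptVal κ (ptOf hker hC) (ker_ptOf_ne_bot hker hC hne)).mem_or_inv_mem y with h | h
  · exact Or.inl (ptVal_le_locSub hker hC hne h)
  · exact Or.inr (ptVal_le_locSub hker hC hne h)

/-- if moreover `ρ(B) ⊆ C`, helper90's branch ring is the DVR of the point. -/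
theorem mem_locSub_iff_mem_ptVal (hne : ∃ c : C, c ≠ 0 ∧ ev ρ χ (algebraMap C κ c) = 0)
    (hB : ∀ b : B, ∃ c : C, ρ b = algebraMap C κ c) (y : κ) :
    y ∈ locSub ρ χ ↔ y ∈ ptVal κ (ptOf hker hC) (ker_ptOf_ne_bot hker hC hne) := by
  refine ⟨fun hy => ?_, ptVal_le_locSub hker hC hne⟩
  obtain ⟨a, s, hs, e⟩ := hy
  obtain ⟨ca, hca⟩ := hB a
  obtain ⟨cs, hcs⟩ := hB s
  refine (mem_ptVal_iff _ _).2 ⟨cs, ?_, ca, ?_⟩
  · rw [ptOf_apply, ← hcs, ev_map hker]
    exact hs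
  · rw [Algebra.smul_def, ← hca, ← hcs, ← e, mul_comm]

/-- … and the evaluations agree. -/
theorem ev_eq_ptEv (hne : ∃ c : C, c ≠ 0 ∧ ev ρ χ (algebraMap C κ c) = 0) {y : κ}
    (hy : y ∈ ptVal κ (ptOf hker hC) (ker_ptOf_ne_bot hker hC hne)) :
    ptEv (ptOf hker hC) (ker_ptOf_ne_bot hker hC hne) ⟨y, hy⟩ = ev ρ χ y := by
  obtain ⟨s, hs, a, ha⟩ := (mem_ptVal_iff (ptOf hker hC) (ker_ptOf_ne_bot hker hC hne)).1 hy
  have h1 := ptEv_mul_eq (ptOf hker hC) (ker_ptOf_ne_bot hker hC hne) hy ha.symm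
  have hyl : y ∈ locSub ρ χ := ptVal_le_locSub hker hC hne hy
  have h2 : ev ρ χ y * ptOf hker hC s = ptOf hker hC a := by
    rw [ptOf_apply, ptOf_apply, ← ev_mul hker hyl (hC s), ha, Algebra.smul_def, mul_comm]
  rw [← h2] at h1
  exact mul_right_cancel₀ hs h1

end Fermat.Agent.GL.BranchPoint
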