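/-
GATE-L / CHART (A3) bridge (helper13): the two landed presentations of the chart-change node,
helper8 `GL/Frame/Chart.lean` (`locSubring`, `contr`, `IsSmallestIC`) and helper13
`GL/Frame/ChartChange.lean` (`locSet`, `IsChartRing`), are the same objects.

* `coe_locSubring` : `(Chart.locSubring B 𝔫 : Set F) = ChartChange.locSet B 𝔫`;
* `locSet_eq_of_locSubring_eq` and `loc_transport_locSubring` : (C3) TRANSPORT of the local
  condition (LOC) of `CechKummer.exists_section` along an equality of `locSubring`s;
* `isSmallestIC_of_isChartRing` : `IsChartRing R x B` gives helper8's `IsSmallestIC`;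
* `hint_of_isChartRing` : the hypothesis `hint` of `Chart.contr_isMaximal` (the residue field of a
  closed point over `q` is integral over the base), PROVED for chart rings, in the exact binder
  shape (`R0 := (algebraMap R F).range`);
* `contr_isMaximal_of_isChartRing` : hence the contraction of a closed point over `q` is a closed
  point.
-/
import Fermat.Agent.GL.Frame.Chart
import Fermat.Agent.GL.Frame.ChartChange

set_option autoImplicit false

namespace Fermat.Agent.GL.ChartBridge

open Fermat.Agent.GL.Frame.Chart Fermat.Agent.GL.ChartChange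

variable {F : Type*} [Field F]

theorem coe_locSubring (B : Subring F) (𝔫 : Ideal B) [𝔫.IsPrime] :
    ((locSubring B 𝔫 : Subring F) : Set F) = locSet B 𝔫 := by
  ext z
  constructor
  · rintro ⟨a, s, hs, h⟩
    exact ⟨s, a, hs, by rw [mul_comm]; exact h⟩
  · rintro ⟨s, t, hs, h⟩
    exact ⟨t, s, hs, by rw [mul_comm]; exact h⟩

theorem locSet_eq_of_locSubring_eq {A A' : Subring F} {P : Ideal A} {P' : Ideal A'} [P.IsPrime]
    [P'.IsPrime] (h : locSubring A' P' = locSubring A P) : locSet A' P' = locSet A P := by
  rw [← coe_locSubring, ← coe_locSubring, h]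

theorem locSubring_eq_of_locSet_eq {A A' : Subring F} {P : Ideal A} {P' : Ideal A'} [P.IsPrime]
    [P'.IsPrime] (h : locSet A' P' = locSet A P) : locSubring A' P' = locSubring A P := by
  apply SetLike.coe_injective
  rw [coe_locSubring, coe_locSubring, h]

/-- **(C3) TRANSPORT of (LOC)** along an equality of local rings in helper8's language. -/
theorem loc_transport_locSubring {A A' : Subring F} {P : Ideal A} {P' : Ideal A'} [P.IsPrime]
    [P'.IsPrime] (h : locSubring A' P' = locSubring A P) (r : Set F)
    (hr : ∀ (s : A) (z : F), z ∈ r → (s : F) * z ∈ r) {g : F}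
    (hg : ∃ a' b' : A', a' ∉ P' ∧ b' ∉ P' ∧ (a' : F) * g - (b' : F) ∈ r) :
    ∃ a b : A, a ∉ P ∧ b ∉ P ∧ (a : F) * g - (b : F) ∈ r :=
  loc_transport (locSet_eq_of_locSubring_eq h) r hr hg

section Base

variable {R : Type*} [CommRing R] [Algebra R F] {x : F} {B : Subring F}

theorem isSmallestIC_of_isChartRing (hB : IsChartRing R x B) :
    IsSmallestIC (insert x (Set.range (algebraMap R F))) B :=
  isSmallestIC_of_forall_mem_iff x B hB

theorem range_le_of_isChartRing (hB : IsChartRing R x B) : (algebraMap R F).range ≤ B := by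
  rintro _ ⟨r, rfl⟩
  exact hB.algebraMap_mem r

/-- the hypothesis `hint` of `Chart.contr_isMaximal`, proved: at a closed point `𝔫` of a chart
ring over `q`, `(q)` maximal in `R`, every element satisfies a monic polynomial over the image of
`R` modulo `𝔫`. -/
theorem hint_of_isChartRing (hB : IsChartRing R x B) (q : R) (hq : (Ideal.span {q}).IsMaximal)
    (𝔫 : Ideal B) [𝔫.IsMaximal] (hq𝔫 : hB.toRingHom q ∈ 𝔫)
    (hR0B : (algebraMap R F).range ≤ B) (b : B) :
    ∃ p : Polynomial (algebraMap R F).range, p.Monic ∧
      Polynomial.eval₂ (Subring.inclusion hR0B) b p ∈ 𝔫 := by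
  obtain ⟨p, hp, hpb⟩ := hB.exists_monic_eval_mem q hq 𝔫 hq𝔫 b
  refine ⟨p.map (algebraMap R F).rangeRestrict, hp.map _, ?_⟩
  rw [Polynomial.eval₂_map]
  have : (Subring.inclusion hR0B).comp (algebraMap R F).rangeRestrict = hB.toRingHom :=
    RingHom.ext (fun r => Subtype.ext rfl)
  rw [this]
  exact hpb

/-- closed points over `q` contract to closed points. -/
theorem contr_isMaximal_of_isChartRing (hB : IsChartRing R x B) (q : R)
    (hq : (Ideal.span {q}).IsMaximal) (𝔫 : Ideal B) [𝔫.IsMaximal] (hq𝔫 : hB.toRingHom q ∈ 𝔫)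
    (B' : Subring F) (hRB' : ∀ r : R, algebraMap R F r ∈ B') (h : B' ≤ locSubring B 𝔫) :
    (contr B B' 𝔫 h).IsMaximal := by
  have hR0B := range_le_of_isChartRing hB
  have hR0B' : (algebraMap R F).range ≤ B' := by
    rintro _ ⟨r, rfl⟩
    exact hRB' r
  exact contr_isMaximal B B' 𝔫 h (algebraMap R F).range hR0B hR0B'
    (hint_of_isChartRing hB q hq 𝔫 hq𝔫 hR0B)

end Base

end Fermat.Agent.GL.ChartBridge
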