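/-
GATE-L / FRAME, abstract TRIPLE lemma (helper83; board 2729 (A1)(i), 2745 `Triple.lean`).

Pure commutative algebra.  `B' → B` an injective INTEGRAL extension of domains, `B'` integrally
closed (so going-down holds), `B` noetherian.  `x'` an ideal of `B'` (a closed point of the lower
frame), `P'` a prime of `B'` (a vertical prime through `x'`) which is LOCALLY PRINCIPAL at `x'` with
generator `y`, and `P` a prime of `B` which is the UNIQUE prime over `P'`.

* `eq_of_mem_minimalPrimes` (T1') : every minimal prime `Q` of `y B` contained in a prime `x` whose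
  contraction lies in `x'` equals `P` ("`π^* y` lies in no other height-one prime of `O_x`").
* `le_of_under_le` / `le_of_comap_eq` (T1) : every prime `x` of `B` over `x'` contains `P`.
* `eq_of_comap_eq`, `existsUnique_isMaximal_comap_eq` (T2) : if the maximal ideals of `B` containing
  `P` are separated by their contractions ("`C₂ → C'₂` is injective on points") then EXACTLY one
  maximal ideal of `B` lies over the maximal ideal `x'`; `le_of_le_isMaximal`: it contains every
  prime of `B` having a point over `x'` (all branches over the node pass through the triple point).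
* `semilocal_principal` (T4) : the semilocal form of (T3) = the hypothesis `hloc` of helper47's
  `GL/Frame/Triple.lean` (`le_of_comap_eq`, `existsUnique_over`).
* `principalAt_of_unramified` (T3) : if moreover `B` is integrally closed and `y` generates
  `P B_P` (`e = 1`) then `P` is principal at `x` with the SAME generator `y`
  (the transfer `P₂ O_x = α(y) O_x` of REG from the node to the triple point).
-/
import Mathlib
import Fermat.Agent.GL.Alg.KrullHeightOne

set_option autoImplicit false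

namespace Fermat.Agent.GL.Frame.TripleAbs

open Fermat.Agent.GL

/-- `P` is principal at `x` with generator `y`: `y ∈ P` and `P R_x = y R_x`, fraction-free. -/
def PrincipalAt {R : Type*} [CommRing R] (P x : Ideal R) (y : R) : Prop :=
  y ∈ P ∧ ∀ a ∈ P, ∃ s, s ∉ x ∧ ∃ c, s * a = c * y

theorem PrincipalAt.mono {R : Type*} [CommRing R] {P x z : Ideal R} {y : R}
    (h : PrincipalAt P x y) (hzx : z ≤ x) : PrincipalAt P z y :=
  ⟨h.1, fun a ha => by
    obtain ⟨s, hs, c, hc⟩ := h.2 a ha
    exact ⟨s, fun hsz => hs (hzx hsz), c, hc⟩⟩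

section Triple

variable {B' B : Type*} [CommRing B'] [CommRing B] [IsDomain B'] [IsDomain B] [Algebra B' B]
  [FaithfulSMul B' B] [Algebra.IsIntegral B' B] [IsIntegrallyClosed B'] [IsNoetherianRing B]

/-- **(T1')**: a minimal prime of `y B` inside a prime `x` contracting into `x'` is `P`. -/
theorem eq_of_mem_minimalPrimes {x' P' : Ideal B'} [P'.IsPrime] {y : B'} (hy0 : y ≠ 0)
    (hprin : PrincipalAt P' x' y) {P : Ideal B}
    (huniq : ∀ Q : Ideal B, Q.IsPrime → Q.comap (algebraMap B' B) = P' → Q = P)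
    {x : Ideal B} (hx : x.comap (algebraMap B' B) ≤ x')
    {Q : Ideal B} (hQ : Q ∈ (Ideal.span {algebraMap B' B y}).minimalPrimes) (hQx : Q ≤ x) :
    Q = P := by
  have hQp : Q.IsPrime := hQ.1.1
  have hyQ : algebraMap B' B y ∈ Q := hQ.1.2 (Ideal.subset_span rfl)
  have hQ'p : (Q.comap (algebraMap B' B)).IsPrime := Ideal.comap_isPrime _ _
  have hQ'x' : Q.comap (algebraMap B' B) ≤ x' := (Ideal.comap_mono hQx).trans hx
  have hyQ' : y ∈ Q.comap (algebraMap B' B) := hyQ
  have hP'Q' : P' ≤ Q.comap (algebraMap B' B) := by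
    intro a ha
    obtain ⟨s, hs, c, hc⟩ := hprin.2 a ha
    have hsa : s * a ∈ Q.comap (algebraMap B' B) := by
      rw [hc]; exact Ideal.mul_mem_left _ c hyQ'
    rcases hQ'p.mem_or_mem hsa with h | h
    · exact absurd (hQ'x' h) hs
    · exact h
  apply huniq Q hQp
  by_contra hne
  have hlt : P' < Q.comap (algebraMap B' B) := lt_of_le_of_ne hP'Q' (Ne.symm hne)
  have : Q.LiesOver (Q.comap (algebraMap B' B)) := ⟨rfl⟩
  obtain ⟨Q1, hQ1lt, hQ1p, hQ1over⟩ :=
    Ideal.exists_ideal_lt_liesOver_of_lt (p := P') (q := Q.comap (algebraMap B' B)) Q hlt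
  have hQ1ne : Q1 ≠ ⊥ := by
    rintro rfl
    have h1 : y ∈ (⊥ : Ideal B).under B' := by rw [← hQ1over.over]; exact hprin.1
    have h2 : algebraMap B' B y = 0 := by simpa [Ideal.under, Ideal.mem_comap] using h1
    exact hy0 ((map_eq_zero_iff _ (FaithfulSMul.algebraMap_injective B' B)).mp h2)
  have hbot : (⊥ : Ideal B) < Q1 := bot_lt_iff_ne_bot.mpr hQ1ne
  have h1 : Q.height ≤ 1 := Ideal.height_le_one_of_isPrincipal_of_mem_minimalPrimes _ Q hQ
  have h2 : (⊥ : Ideal B).height + 1 ≤ Q1.height :=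
    Ideal.height_add_one_le_of_lt_of_isPrime hbot
  have h3 : Q1.height + 1 ≤ Q.height := Ideal.height_add_one_le_of_lt_of_isPrime hQ1lt
  have h4 : (1 : ℕ∞) + 1 ≤ 1 := by
    calc (1 : ℕ∞) + 1 ≤ ((⊥ : Ideal B).height + 1) + 1 := by
          gcongr; exact le_add_self
      _ ≤ Q1.height + 1 := by gcongr
      _ ≤ Q.height := h3
      _ ≤ 1 := h1
  exact absurd h4 (by decide)

/-- **(T1)**: a prime `x` of `B` containing `y` whose contraction lies in `x'` contains `P`. -/
theorem le_of_under_le {x' P' : Ideal B'} [P'.IsPrime] {y : B'} (hy0 : y ≠ 0)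
    (hprin : PrincipalAt P' x' y) {P : Ideal B}
    (huniq : ∀ Q : Ideal B, Q.IsPrime → Q.comap (algebraMap B' B) = P' → Q = P)
    {x : Ideal B} [x.IsPrime] (hx : x.comap (algebraMap B' B) ≤ x')
    (hyx : algebraMap B' B y ∈ x) : P ≤ x := by
  have hle : Ideal.span {algebraMap B' B y} ≤ x := (Ideal.span_singleton_le_iff_mem _).2 hyx
  obtain ⟨Q, hQ, hQx⟩ := Ideal.exists_minimalPrimes_le hle
  rw [← eq_of_mem_minimalPrimes hy0 hprin huniq hx hQ hQx]
  exact hQx

/-- **(T1)**, standard form: a prime `x` of `B` lying over `x' ⊇ P'` contains `P`. -/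
theorem le_of_comap_eq {x' P' : Ideal B'} [P'.IsPrime] (hP'x' : P' ≤ x') {y : B'} (hy0 : y ≠ 0)
    (hprin : PrincipalAt P' x' y) {P : Ideal B}
    (huniq : ∀ Q : Ideal B, Q.IsPrime → Q.comap (algebraMap B' B) = P' → Q = P)
    {x : Ideal B} [x.IsPrime] (hx : x.comap (algebraMap B' B) = x') : P ≤ x := by
  refine le_of_under_le hy0 hprin huniq hx.le ?_
  have : y ∈ x.comap (algebraMap B' B) := by rw [hx]; exact hP'x' hprin.1
  exact this

/-- **(T2)**: at most one maximal ideal of `B` lies over `x'`. -/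
theorem eq_of_comap_eq {x' P' : Ideal B'} [P'.IsPrime] (hP'x' : P' ≤ x') {y : B'} (hy0 : y ≠ 0)
    (hprin : PrincipalAt P' x' y) {P : Ideal B}
    (huniq : ∀ Q : Ideal B, Q.IsPrime → Q.comap (algebraMap B' B) = P' → Q = P)
    (hinj : ∀ x₁ x₂ : Ideal B, x₁.IsMaximal → x₂.IsMaximal → P ≤ x₁ → P ≤ x₂ →
      x₁.comap (algebraMap B' B) = x₂.comap (algebraMap B' B) → x₁ = x₂)
    {x₁ x₂ : Ideal B} (h₁ : x₁.IsMaximal) (h₂ : x₂.IsMaximal)
    (e₁ : x₁.comap (algebraMap B' B) = x') (e₂ : x₂.comap (algebraMap B' B) = x') : x₁ = x₂ := by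
  have := h₁.isPrime
  have := h₂.isPrime
  exact hinj x₁ x₂ h₁ h₂ (le_of_comap_eq hP'x' hy0 hprin huniq e₁)
    (le_of_comap_eq hP'x' hy0 hprin huniq e₂) (e₁.trans e₂.symm)

/-- **(T2)**: EXACTLY one maximal ideal of `B` lies over the maximal ideal `x'`. -/
theorem existsUnique_isMaximal_comap_eq {x' P' : Ideal B'} [x'.IsMaximal] [P'.IsPrime]
    (hP'x' : P' ≤ x') {y : B'} (hy0 : y ≠ 0)
    (hprin : PrincipalAt P' x' y) {P : Ideal B}
    (huniq : ∀ Q : Ideal B, Q.IsPrime → Q.comap (algebraMap B' B) = P' → Q = P)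
    (hinj : ∀ x₁ x₂ : Ideal B, x₁.IsMaximal → x₂.IsMaximal → P ≤ x₁ → P ≤ x₂ →
      x₁.comap (algebraMap B' B) = x₂.comap (algebraMap B' B) → x₁ = x₂) :
    ∃! x : Ideal B, x.IsMaximal ∧ x.comap (algebraMap B' B) = x' := by
  have hker : RingHom.ker (algebraMap B' B) ≤ x' := by
    rw [(RingHom.injective_iff_ker_eq_bot _).mp (FaithfulSMul.algebraMap_injective B' B)]
    exact bot_le
  obtain ⟨x, hxm, hx⟩ := Ideal.exists_ideal_over_maximal_of_isIntegral (S := B) x' hker
  refine ⟨x, ⟨hxm, hx⟩, fun z hz => ?_⟩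
  exact eq_of_comap_eq hP'x' hy0 hprin huniq hinj hz.1 hxm hz.2 hx

/-- every prime of `B` contained in SOME maximal ideal over `x'` is contained in the given one. -/
theorem le_of_le_isMaximal {x' P' : Ideal B'} [P'.IsPrime] (hP'x' : P' ≤ x') {y : B'}
    (hy0 : y ≠ 0) (hprin : PrincipalAt P' x' y) {P : Ideal B}
    (huniq : ∀ Q : Ideal B, Q.IsPrime → Q.comap (algebraMap B' B) = P' → Q = P)
    (hinj : ∀ x₁ x₂ : Ideal B, x₁.IsMaximal → x₂.IsMaximal → P ≤ x₁ → P ≤ x₂ →
      x₁.comap (algebraMap B' B) = x₂.comap (algebraMap B' B) → x₁ = x₂)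
    {x : Ideal B} (hxm : x.IsMaximal) (hx : x.comap (algebraMap B' B) = x')
    {Q z : Ideal B} (hzm : z.IsMaximal) (hz : z.comap (algebraMap B' B) = x') (hQz : Q ≤ z) :
    Q ≤ x := by
  rw [← eq_of_comap_eq hP'x' hy0 hprin huniq hinj hzm hxm hz hx]
  exact hQz

end Triple

section Unramified

variable {B' B : Type*} [CommRing B'] [CommRing B] [IsDomain B'] [IsDomain B] [Algebra B' B]
  [FaithfulSMul B' B] [Algebra.IsIntegral B' B] [IsIntegrallyClosed B'] [IsNoetherianRing B]
  [IsIntegrallyClosed B]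

/-- **(T3)**: if `y` generates `P B_P` (`e = 1`) then `P` is principal at every prime `x ⊇ P`
contracting into `x'`, with the SAME generator `y`. -/
theorem principalAt_of_unramified {x' P' : Ideal B'} [P'.IsPrime] {y : B'} (hy0 : y ≠ 0)
    (hprin : PrincipalAt P' x' y) {P : Ideal B} [P.IsPrime]
    (huniq : ∀ Q : Ideal B, Q.IsPrime → Q.comap (algebraMap B' B) = P' → Q = P)
    (he : PrincipalAt P P (algebraMap B' B y))
    {x : Ideal B} [x.IsPrime] (hx : x.comap (algebraMap B' B) ≤ x') :
    PrincipalAt P x (algebraMap B' B y) := by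
  refine ⟨he.1, fun a ha => ?_⟩
  set Y : B := algebraMap B' B y with hY
  have hY0 : Y ≠ 0 := fun h =>
    hy0 ((map_eq_zero_iff _ (FaithfulSMul.algebraMap_injective B' B)).mp h)
  let F := FractionRing B
  let O := Localization.AtPrime x
  have : IsIntegrallyClosed O := isIntegrallyClosed_of_isLocalization O x.primeCompl
    x.primeCompl_le_nonZeroDivisors
  have hYF : algebraMap B F Y ≠ 0 := fun h =>
    hY0 ((map_eq_zero_iff _ (IsFractionRing.injective B F)).mp h)
  -- the element `t = a / Y` of `F`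
  set t : F := algebraMap B F a / algebraMap B F Y with ht
  have hYt : algebraMap B F Y * t = algebraMap B F a := by
    rw [ht, mul_comm, div_mul_cancel₀ _ hYF]
  have key : t ∈ (algebraMap O F).range := by
    refine KrullHeightOne.mem_range_of_forall_heightOne (B := O) (F := F) t fun 𝔮 h𝔮 h1 => ?_
    have := h𝔮
    have hQp : (𝔮.comap (algebraMap B O)).IsPrime := Ideal.comap_isPrime _ _
    have hQx : 𝔮.comap (algebraMap B O) ≤ x := by
      intro b hb
      by_contra hbx
      have hu : IsUnit (algebraMap B O b) :=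
        IsLocalization.map_units O (⟨b, hbx⟩ : x.primeCompl)
      exact h𝔮.ne_top (Ideal.eq_top_of_isUnit_mem _ hb hu)
    have hQ1 : (𝔮.comap (algebraMap B O)).height = 1 := by
      have := IsLocalization.height_under x.primeCompl 𝔮
      rw [Ideal.under] at this
      rw [this, h1]
    by_cases hPQ : 𝔮.comap (algebraMap B O) = P
    · obtain ⟨s, hs, c, hc⟩ := he.2 a ha
      refine ⟨algebraMap B O s, fun h => hs (hPQ ▸ h), algebraMap B O c, ?_⟩
      rw [Algebra.smul_def, ← IsScalarTower.algebraMap_apply, ← IsScalarTower.algebraMap_apply]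
      have h2 : algebraMap B F s * algebraMap B F a = algebraMap B F c * algebraMap B F Y := by
        rw [← map_mul, ← map_mul, hc]
      rw [ht, ← mul_div_assoc, h2, mul_div_assoc, div_self hYF, mul_one]
    · have hYQ : Y ∉ 𝔮.comap (algebraMap B O) := by
        intro hYQ
        have hmin := KrullHeightOne.mem_minimalPrimes_span_of_height_one hY0
          (𝔮.comap (algebraMap B O)) hQ1 hYQ
        exact hPQ (eq_of_mem_minimalPrimes hy0 hprin huniq hx hmin hQx)
      refine ⟨algebraMap B O Y, hYQ, algebraMap B O a, ?_⟩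
      rw [Algebra.smul_def, ← IsScalarTower.algebraMap_apply, ← IsScalarTower.algebraMap_apply,
        hYt]
  obtain ⟨o, ho⟩ := key
  obtain ⟨⟨b, s⟩, hbs⟩ := IsLocalization.mk'_surjective x.primeCompl o
  have hbs' : IsLocalization.mk' O b s = o := hbs
  refine ⟨s, s.2, b, ?_⟩
  have h1 := IsLocalization.mk'_spec O b s
  rw [hbs'] at h1
  have h2 := congrArg (algebraMap O F) h1
  rw [map_mul, ho, ← IsScalarTower.algebraMap_apply, ← IsScalarTower.algebraMap_apply] at h2
  -- `t * s = b` in `F`, so `s * a = b * Y`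
  apply IsFractionRing.injective B F
  rw [map_mul, map_mul, ← hYt, ← h2]
  ring

/-- **(T4)**: the SEMILOCAL form of (T3), with multipliers from `B' ∖ x'`: exactly the hypothesis
`hloc` of helper47's `Frame.le_of_comap_eq` / `Frame.existsUnique_over` (`GL/Frame/Triple.lean`). -/
theorem semilocal_principal {x' P' : Ideal B'} [x'.IsPrime] [P'.IsPrime] {y : B'} (hy0 : y ≠ 0)
    (hprin : PrincipalAt P' x' y) {P : Ideal B} [P.IsPrime]
    (huniq : ∀ Q : Ideal B, Q.IsPrime → Q.comap (algebraMap B' B) = P' → Q = P)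
    (he : PrincipalAt P P (algebraMap B' B y)) :
    ∀ z ∈ P, ∃ s : B', s ∉ x' ∧ ∃ b : B, algebraMap B' B s * z = algebraMap B' B y * b := by
  intro z hz
  let I : Ideal B :=
    { carrier := {r | ∃ b, r * z = algebraMap B' B y * b}
      zero_mem' := ⟨0, by simp⟩
      add_mem' := by
        rintro r r' ⟨b, hb⟩ ⟨b', hb'⟩
        exact ⟨b + b', by rw [add_mul, hb, hb', mul_add]⟩
      smul_mem' := by
        rintro c r ⟨b, hb⟩
        exact ⟨c * b, by rw [smul_eq_mul, mul_assoc, hb]; ring⟩ }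
  by_contra hcon
  push Not at hcon
  have hI : I.comap (algebraMap B' B) ≤ x' := by
    intro s hs
    by_contra hsx
    obtain ⟨b, hb⟩ := hs
    exact hcon s hsx b hb
  obtain ⟨Q, hIQ, hQp, hQ⟩ := Ideal.exists_ideal_over_prime_of_isIntegral x' I hI
  obtain ⟨s, hs, c, hc⟩ := (principalAt_of_unramified hy0 hprin huniq he (x := Q) hQ.le).2 z hz
  exact hs (hIQ ⟨c, by rw [hc, mul_comm]⟩)

end Unramified

end Fermat.Agent.GL.Frame.TripleAbs
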