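/-
GATE-L / (A1) CLASSIFICATION, producers of the abstract inputs (helper47).

Inputs `hTα`, `hpiα` of `ClassifySS.triple_of_ss` / `Classify.three_of_two` reduced to what the
concrete owners have:

* `hpi_of_frob_row` : (C5) `∀ b, ∃ a, b ^ n - φ a ∈ P2` from the Frobenius row
  `ρ (φ a) = (ρ' a) ^ n` (TableW (T3): `red₂ (α x) = (red₂' x) ^ q`) and
  `ρ B ⊆ ρ' A` (J1-SURJ over `R` at the lower level: `red₂'(A)` is the full coordinate ring).
* `huniq_of_rows` : (C4b) `P2` is the ONLY prime of `B` over `P2'`, from the table (`P1`, `P3` lie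
  over `P1' ≠ P2'`), completeness of the list of vertical primes (every prime containing `q`
  contains one of `P1 P2 P3`) and incomparability in the integral extension.
* `hT_of_reg` : (C4) `hTα` from REG at the nodes of the lower level (`P2'` locally principal at
  every two-branch point, helper28 `EtaThick`) + `huniq` via helper83 `TripleAbs.le_of_comap_eq`.
-/
import Fermat.Agent.GL.Frame.TripleAbs
import Fermat.Agent.GL.Frame.ClassifySS

set_option autoImplicit false

namespace Fermat.Agent.GL.Frame.Classify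

open Fermat.Agent.GL.Frame.TripleAbs

section Frob

variable {A B κ : Type*} [CommRing A] [CommRing B] [CommRing κ]

/-- **(C5)** pure inseparability of `P2` over its image from the Frobenius row. -/
theorem hpi_of_frob_row (φ : A →+* B) (P2 : Ideal B) (ρ : B →+* κ)
    (hker : ∀ b, ρ b = 0 → b ∈ P2) (ρ' : A →+* κ) (n : ℕ)
    (hrow : ∀ a, ρ (φ a) = ρ' a ^ n) (hsub : ∀ b : B, ∃ a : A, ρ b = ρ' a) (b : B) :
    ∃ a : A, b ^ n - φ a ∈ P2 := by
  obtain ⟨a, ha⟩ := hsub b
  refine ⟨a, hker _ ?_⟩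
  rw [map_sub, map_pow, hrow, ha, sub_self]

end Frob

section Uniq

variable {A B : Type*} [CommRing A] [CommRing B]

/-- **(C4b)** `P2` is the only prime of `B` over `P2'`. -/
theorem huniq_of_rows (φ : A →+* B) (hint : φ.IsIntegral)
    (P1' P2' : Ideal A) (hne : ¬ P1' ≤ P2') (P1 P2 P3 : Ideal B) [P2.IsPrime]
    (hα1 : P1.comap φ = P1') (hα2 : P2.comap φ = P2') (hα3 : P3.comap φ = P1')
    (q : A) (hq : q ∈ P2')
    (hvert : ∀ Q : Ideal B, Q.IsPrime → φ q ∈ Q → P1 ≤ Q ∨ P2 ≤ Q ∨ P3 ≤ Q)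
    (Q : Ideal B) (hQ : Q.IsPrime) (hQ' : Q.comap φ = P2') : Q = P2 := by
  have hqQ : φ q ∈ Q := by
    have : q ∈ Q.comap φ := hQ' ▸ hq
    exact this
  have h2 : P2 ≤ Q := by
    rcases hvert Q hQ hqQ with h | h | h
    · exact absurd (hQ' ▸ hα1 ▸ Ideal.comap_mono h) hne
    · exact h
    · exact absurd (hQ' ▸ hα3 ▸ Ideal.comap_mono h) hne
  -- incomparability
  by_contra hne'
  have hlt : P2 < Q := lt_of_le_of_ne h2 (Ne.symm hne')
  let _ := φ.toAlgebra
  have hint' : Algebra.IsIntegral A B := ⟨hint⟩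
  obtain ⟨x, hxQ, hxP⟩ := SetLike.exists_of_lt hlt
  have h3 : P2.comap (algebraMap A B) < Q.comap (algebraMap A B) :=
    Ideal.comap_lt_comap_of_integral_mem_sdiff (R := A) h2 (x := x) ⟨hxQ, hxP⟩
      (Algebra.IsIntegral.isIntegral x)
  have h4 : P2.comap φ < Q.comap φ := h3
  rw [hα2, hQ'] at h4
  exact lt_irrefl _ h4

end Uniq

section HT

variable {A B : Type*} [CommRing A] [CommRing B] [IsDomain A] [IsDomain B] [Algebra A B]
  [FaithfulSMul A B] [Algebra.IsIntegral A B] [IsIntegrallyClosed A] [IsNoetherianRing B]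

/-- **(C4)** every prime of `B` over a two-branch point of `A` contains `P2`. -/
theorem hT_of_reg (P1' P2' : Ideal A) [P2'.IsPrime] (P2 : Ideal B)
    (hreg : ∀ x' : Ideal A, x'.IsPrime → P1' ⊔ P2' ≤ x' → ∃ y : A, y ≠ 0 ∧ PrincipalAt P2' x' y)
    (huniq : ∀ Q : Ideal B, Q.IsPrime → Q.comap (algebraMap A B) = P2' → Q = P2)
    (x2 : Ideal B) (hx2 : x2.IsPrime) (hnode : P1' ⊔ P2' ≤ x2.comap (algebraMap A B)) :
    P2 ≤ x2 := by
  obtain ⟨y, hy0, hprin⟩ := hreg _ (Ideal.comap_isPrime _ x2) hnode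
  exact TripleAbs.le_of_comap_eq (le_sup_right.trans hnode) hy0 hprin huniq rfl

end HT

end Fermat.Agent.GL.Frame.Classify
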