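/-
GATE-L / (A1) CLASSIFICATION, input (C4) `hTα` in CONSUMABLE abstract form (helper33; helper47 3016
(3) (C4), helper31 3071 (3)).

`ClassifyInputs.hT_of_reg` asks for `PrincipalAt P2' x' y` at every two-branch point `x'` of the
lower chart `A`; helper28's `EtaInst.exists_thick_K0` / `EtaReg.exists_lift_pow_eq` deliver the
THICKNESS datum `y ∈ P2'`, `y ^ n = g * c`, `c ∉ x'` together with `∀ z ∈ P2', g ∣ z ^ n`.

* `principalAt_of_pow` : the fraction-free pow trick: in an integrally closed domain the thickness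
  datum gives `PrincipalAt P2' x' y` (witness `s = c`), no localisation.
* `hreg_of_thick` : the hypothesis `hreg` of `hT_of_reg` from the thickness datum at every
  two-branch point, the point being given through a reduction `rd1 : A →+* C` and a maximal ideal
  `P` of `C` (`c ∈ x' → rd1 c ∈ P`) as in `EtaReg.map_eq_span_singleton_at_node`.
* `hpt_of_surjective` : the point dictionary `hpt` from `rd1` surjective onto a Dedekind domain.
* `hTα_of_thick` (`hTα_of_thick_surjective`) : `hTα` of `ClassifySS.classify` / `Classify.three_of_two` VERBATIM (ring-hom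
  form `φ : A →+* B`), from the thickness data + the table rows + completeness of the vertical
  primes (`huniq_of_rows`).

Mathlib + `ClassifyInputs.lean` only.
-/
import Fermat.Agent.GL.Frame.ClassifyInputs

set_option autoImplicit false

namespace Fermat.Agent.GL.Frame.ClassifyC4

open Fermat.Agent.GL.Frame.TripleAbs Fermat.Agent.GL.Frame.Classify

section Pow

variable {A : Type*} [CommRing A] [IsDomain A] [IsIntegrallyClosed A]

/-- **fraction-free pow trick**: `y ∈ P`, `y ^ n = g * c`, `c ∉ x`, and `g ∣ z ^ n` for all `z ∈ P`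
⟹ `P` is principal at `x` with generator `y` (`c * z ∈ y A` for every `z ∈ P`). -/
theorem principalAt_of_pow {P x : Ideal A} {g y c : A} {n : ℕ} (hn : n ≠ 0)
    (hdiv : ∀ z ∈ P, g ∣ z ^ n) (hy : y ∈ P) (hyc : y ^ n = g * c) (hc : c ∉ x) :
    PrincipalAt P x y := by
  refine ⟨hy, fun a ha => ⟨c, hc, ?_⟩⟩
  obtain ⟨d, hd⟩ := hdiv a ha
  by_cases hy0 : y = 0
  · -- degenerate case: `g * c = 0`, `c ≠ 0`, so `g = 0` and `a = 0`
    have hc0 : c ≠ 0 := fun h0 => hc (h0 ▸ x.zero_mem)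
    have hg0 : g = 0 := by
      have h1 : g * c = 0 := by rw [← hyc, hy0, zero_pow hn]
      exact (mul_eq_zero.1 h1).resolve_right hc0
    have ha0 : a = 0 := by
      have h1 : a ^ n = 0 := by rw [hd, hg0, zero_mul]
      exact pow_eq_zero_iff hn |>.1 h1
    exact ⟨0, by rw [ha0, mul_zero, zero_mul]⟩
  · -- `t := c * a / y` satisfies `t ^ n = c ^ (n - 1) * d ∈ A`
    let K := FractionRing A
    have hinj : Function.Injective (algebraMap A K) := IsFractionRing.injective A K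
    have hyK : algebraMap A K y ≠ 0 := fun h0 => hy0 (hinj (by rw [h0, map_zero]))
    have hg0 : g ≠ 0 := by
      rintro rfl
      rw [zero_mul] at hyc
      exact hy0 (pow_eq_zero_iff hn |>.1 hyc)
    have hgK : algebraMap A K g ≠ 0 := fun h0 => hg0 (hinj (by rw [h0, map_zero]))
    set t : K := algebraMap A K c * algebraMap A K a / algebraMap A K y with ht
    have htn : t ^ n = algebraMap A K (c ^ (n - 1) * d) := by
      have h1 : algebraMap A K y ^ n = algebraMap A K g * algebraMap A K c := by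
        rw [← map_pow, hyc, map_mul]
      have h2 : algebraMap A K a ^ n = algebraMap A K g * algebraMap A K d := by
        rw [← map_pow, hd, map_mul]
      have hcn : algebraMap A K c ^ n = algebraMap A K c ^ (n - 1) * algebraMap A K c := by
        rw [← pow_succ, Nat.sub_add_cancel (Nat.pos_of_ne_zero hn)]
      rw [ht, div_pow, mul_pow, h1, h2, map_mul, map_pow, hcn]
      have hcK : algebraMap A K c ≠ 0 := by
        intro h0
        exact hc ((hinj (by rw [h0, map_zero]) : c = 0) ▸ x.zero_mem)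
      rw [div_eq_iff (mul_ne_zero hgK hcK)]
      ring
    have hint : IsIntegral A t := by
      refine ⟨Polynomial.X ^ n - Polynomial.C (c ^ (n - 1) * d),
        Polynomial.monic_X_pow_sub_C _ hn, ?_⟩
      rw [Polynomial.eval₂_sub, Polynomial.eval₂_pow, Polynomial.eval₂_X, Polynomial.eval₂_C, htn,
        sub_self]
    obtain ⟨b, hb⟩ := IsIntegrallyClosed.isIntegral_iff.1 hint
    refine ⟨b, hinj ?_⟩
    rw [map_mul, map_mul, hb, ht, div_mul_cancel₀ _ hyK]

end Pow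

section Reg

variable {A C : Type*} [CommRing A] [IsDomain A] [IsIntegrallyClosed A] [CommRing C]

/-- **`hreg` of `hT_of_reg` from the thickness data** (helper28 `EtaReg.exists_lift_pow_eq` at every
node `P ⊇ J` of `C`): every two-branch point `x'` of `A` is seen by a maximal ideal `P` of `C`
containing `J` (`hpt`), where the thickness identity holds (`hthick`). -/
theorem hreg_of_thick (rd1 : A →+* C) (P1' P2' : Ideal A) {J : Ideal C} {g : A} {n : ℕ}
    (hn : n ≠ 0) (hg0 : g ≠ 0) (hdiv : ∀ z ∈ P2', g ∣ z ^ n)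
    (hthick : ∀ P : Ideal C, P.IsMaximal → J ≤ P →
      ∃ y ∈ P2', ∃ c : A, y ^ n = g * c ∧ rd1 c ∉ P)
    (hpt : ∀ x' : Ideal A, x'.IsPrime → P1' ⊔ P2' ≤ x' →
      ∃ P : Ideal C, P.IsMaximal ∧ J ≤ P ∧ ∀ c ∈ x', rd1 c ∈ P)
    (x' : Ideal A) (hx' : x'.IsPrime) (hnode : P1' ⊔ P2' ≤ x') :
    ∃ y : A, y ≠ 0 ∧ PrincipalAt P2' x' y := by
  obtain ⟨P, hP, hJP, hxP⟩ := hpt x' hx' hnode
  obtain ⟨y, hy, c, hyc, hc⟩ := hthick P hP hJP
  have hcx : c ∉ x' := fun h => hc (hxP c h)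
  have hc0 : c ≠ 0 := fun h0 => hcx (h0 ▸ x'.zero_mem)
  have hy0 : y ≠ 0 := by
    rintro rfl
    rw [zero_pow hn] at hyc
    exact (mul_ne_zero hg0 hc0) hyc.symm
  exact ⟨y, hy0, principalAt_of_pow hn hdiv hy hyc hcx⟩

omit [IsDomain A] [IsIntegrallyClosed A] in
/-- **`hpt`**: if `rd1 : A →+* C` is surjective with kernel inside `P1'`, `C` is a Dedekind domain
and `0 ≠ J ⊆ rd1 (P2')`, every prime `x' ⊇ P1' + P2'` of `A` is seen by the maximal ideal
`P = rd1 (x')` of `C`, which contains `J`. -/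
theorem hpt_of_surjective [IsDedekindDomain C] (rd1 : A →+* C) (hsurj : Function.Surjective rd1)
    (P1' P2' : Ideal A) (hker : ∀ a, rd1 a = 0 → a ∈ P1') {J : Ideal C} (hJ0 : J ≠ ⊥)
    (hJ : ∀ a ∈ J, ∃ y ∈ P2', rd1 y = a)
    (x' : Ideal A) (hx' : x'.IsPrime) (hnode : P1' ⊔ P2' ≤ x') :
    ∃ P : Ideal C, P.IsMaximal ∧ J ≤ P ∧ ∀ c ∈ x', rd1 c ∈ P := by
  have hkerle : RingHom.ker rd1 ≤ x' := fun a ha => hnode (Ideal.mem_sup_left (hker a ha))
  have hprime : (x'.map rd1).IsPrime := Ideal.map_isPrime_of_surjective hsurj hkerle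
  have hJP : J ≤ x'.map rd1 := by
    intro a ha
    obtain ⟨y, hy, rfl⟩ := hJ a ha
    exact Ideal.mem_map_of_mem rd1 (hnode (Ideal.mem_sup_right hy))
  have hne : x'.map rd1 ≠ ⊥ := by
    intro h0
    exact hJ0 (le_bot_iff.1 (h0 ▸ hJP))
  exact ⟨x'.map rd1, hprime.isMaximal hne, hJP, fun c hc => Ideal.mem_map_of_mem rd1 hc⟩

end Reg

section HT

variable {A B C : Type*} [CommRing A] [CommRing B] [CommRing C] [IsDomain A] [IsDomain B]
  [IsIntegrallyClosed A] [IsNoetherianRing B]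

/-- **(C4) `hTα` VERBATIM** (ring-hom form): every prime of `B` over a two-branch point of `A`
contains `P2`.  Inputs: `φ` injective integral; the table rows; completeness of the vertical primes
of `B` over `q`; the thickness data of the lower level at every node. -/
theorem hTα_of_thick (φ : A →+* B) (hφ : Function.Injective φ) (hint : φ.IsIntegral)
    (P1' P2' : Ideal A) [P2'.IsPrime] (hne : ¬ P1' ≤ P2') (P1 P2 P3 : Ideal B) [P2.IsPrime]
    (hα1 : P1.comap φ = P1') (hα2 : P2.comap φ = P2') (hα3 : P3.comap φ = P1')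
    (q : A) (hq : q ∈ P2')
    (hvert : ∀ Q : Ideal B, Q.IsPrime → φ q ∈ Q → P1 ≤ Q ∨ P2 ≤ Q ∨ P3 ≤ Q)
    (rd1 : A →+* C) {J : Ideal C} {g : A} {n : ℕ}
    (hn : n ≠ 0) (hg0 : g ≠ 0) (hdiv : ∀ z ∈ P2', g ∣ z ^ n)
    (hthick : ∀ P : Ideal C, P.IsMaximal → J ≤ P →
      ∃ y ∈ P2', ∃ c : A, y ^ n = g * c ∧ rd1 c ∉ P)
    (hpt : ∀ x' : Ideal A, x'.IsPrime → P1' ⊔ P2' ≤ x' →
      ∃ P : Ideal C, P.IsMaximal ∧ J ≤ P ∧ ∀ c ∈ x', rd1 c ∈ P)
    (x2 : Ideal B) (hx2 : x2.IsPrime) (hnode : P1' ⊔ P2' ≤ x2.comap φ) : P2 ≤ x2 := by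
  let _ : Algebra A B := φ.toAlgebra
  have : FaithfulSMul A B := (faithfulSMul_iff_algebraMap_injective A B).2 hφ
  have : Algebra.IsIntegral A B := ⟨hint⟩
  have huniq : ∀ Q : Ideal B, Q.IsPrime → Q.comap (algebraMap A B) = P2' → Q = P2 :=
    fun Q hQ hQ' => huniq_of_rows φ hint P1' P2' hne P1 P2 P3 hα1 hα2 hα3 q hq hvert Q hQ hQ'
  exact hT_of_reg P1' P2' P2
    (fun x' hx' hnode' => hreg_of_thick rd1 P1' P2' hn hg0 hdiv hthick hpt x' hx' hnode')
    huniq x2 hx2 hnode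

/-- **(C4) `hTα`**, with `hpt` discharged: `rd1 : A →+* C` surjective onto a Dedekind domain with
kernel inside `P1'` and `0 ≠ J ⊆ rd1 (P2')` (`hJ` of `EtaReg.exists_lift_pow_eq`). -/
theorem hTα_of_thick_surjective [IsDedekindDomain C] (φ : A →+* B) (hφ : Function.Injective φ)
    (hint : φ.IsIntegral)
    (P1' P2' : Ideal A) [P2'.IsPrime] (hne : ¬ P1' ≤ P2') (P1 P2 P3 : Ideal B) [P2.IsPrime]
    (hα1 : P1.comap φ = P1') (hα2 : P2.comap φ = P2') (hα3 : P3.comap φ = P1')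
    (q : A) (hq : q ∈ P2')
    (hvert : ∀ Q : Ideal B, Q.IsPrime → φ q ∈ Q → P1 ≤ Q ∨ P2 ≤ Q ∨ P3 ≤ Q)
    (rd1 : A →+* C) (hsurj : Function.Surjective rd1) (hker : ∀ a, rd1 a = 0 → a ∈ P1')
    {J : Ideal C} (hJ0 : J ≠ ⊥) (hJ : ∀ a ∈ J, ∃ y ∈ P2', rd1 y = a) {g : A} {n : ℕ}
    (hn : n ≠ 0) (hg0 : g ≠ 0) (hdiv : ∀ z ∈ P2', g ∣ z ^ n)
    (hthick : ∀ P : Ideal C, P.IsMaximal → J ≤ P →
      ∃ y ∈ P2', ∃ c : A, y ^ n = g * c ∧ rd1 c ∉ P)
    (x2 : Ideal B) (hx2 : x2.IsPrime) (hnode : P1' ⊔ P2' ≤ x2.comap φ) : P2 ≤ x2 :=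
  hTα_of_thick φ hφ hint P1' P2' hne P1 P2 P3 hα1 hα2 hα3 q hq hvert rd1 hn hg0 hdiv hthick
    (hpt_of_surjective rd1 hsurj P1' P2' hker hJ0 hJ) x2 hx2 hnode

end HT

end Fermat.Agent.GL.Frame.ClassifyC4
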