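import Fermat.Agent.GL.Frame.ClassifyC4
import Fermat.Agent.GL.Frame.NodeSS_K0
import Fermat.Agent.GL.Reg.EtaInstK0Aux

/-!
# GATE-L / (A1) classification, input (C4) `hTα` CONCRETE at `A := BRingK0 N' ℓ A h` (helper65)

helper33's `ClassifyC4.hTα_of_thick_surjective` instantiated at the lower chart ring
`B' = BRingK0 N' ℓ A h` (level `N' ℓ` over `R = A ∩ K₀`), `C := CRing N' A`,
`rd1 := redC1K0` (onto, kernel `P1K0`), `P1' := P1K0`, `P2' := P2K0`, `g := etaBK0`, `n := 12`,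
`J := J'` — with `J'`, `hJ0`, `hJ`, `hdiv`, `hg0`, `hthick` ALL discharged by
`EtaInstK0Aux.exists_ideal_thick_K0` (auxiliary prime `r ∣ N'`, `r % 3 = 2`, `r % 4 = 3`).

By-products on `B'`:
* `isPrime_P1K0`, `isPrime_P2K0` : the two vertical primes are prime;
* `natCast_mem_P1K0`, `natCast_mem_P2K0` : `ℓ ∈ P'₁ ∩ P'₂`;
* `exists_mem_P1K0_notMem_P2K0`, `not_P1K0_le_P2K0` : `P'₁ ⊄ P'₂`
  (witness: a lift of `(0, pH(j~))`; `Ψ (pH(j~)) = pH(j~) ^ ℓ ∈ J'`);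
* **`hTα_K0`** : `hTα` of `ClassifySS.classify` / `Classify.three_of_two` VERBATIM at `A := B'`;
  the ONLY hypotheses left live on the upper chart `B`: `φ` injective integral, the three rows
  `hα1 hα2 hα3`, completeness `hvert` of the vertical primes over `ℓ`, and the instance
  `[IsIntegrallyClosed B']` (helper96 `BRingChart`).
-/

set_option autoImplicit false
set_option linter.unusedSectionVars false
set_option linter.style.haveILetI false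

noncomputable section

namespace Fermat.Agent.GL.Frame.ClassifyC4K0

open Polynomial IsDedekindDomain
open HahnSeries ModularCurve IsLocalRing
open Fermat.Agent.S28 Fermat.Agent.S24 Fermat.Agent.S24_helper62
open Fermat.Agent.GJ.J1 Fermat.Agent.GJ.J1.Val
open Fermat.Agent.GK.AL Fermat.Agent.GK.QS Fermat.Agent.GK.FrobGlue
open Fermat.Agent.GL.Val.GaussK0 Fermat.Agent.GL.Val.SecondK0
open Fermat.Agent.GL.BRingK0 Fermat.Agent.GL.EtaK0 Fermat.Agent.GL.Eta Fermat.Agent.GL.Thick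
open Fermat.Agent.GL.SmallQ
open Fermat.Agent.GL.EtaInstK0Aux

variable {N' : ℕ} [NeZero N'] {ℓ : ℕ} [Fact ℓ.Prime] [NeZero ℓ]
variable {A : ValuationSubring Kbar} (h : ExactDvd ℓ (N' * ℓ))
variable (hℓN : ¬ ℓ ∣ N') (hA : A.LiesOverPrime ℓ)

local notation "kA" => IsLocalRing.ResidueField A

/-! ### the two vertical primes of `B'` -/

instance isPrime_P1K0 : (P1K0 (h := h) hℓN hA).IsPrime :=
  RingHom.ker_isPrime (redC1K0 h hℓN hA)

instance isPrime_P2K0 : (P2K0 h hℓN hA).IsPrime :=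
  RingHom.ker_isPrime (redC2K0 h hℓN hA)

include hA in
/-- `ℓ = 0` in `C = CRing N' A` -/
theorem natCast_CRing_eq_zero : ((ℓ : ℕ) : CRing N' A) = 0 := by
  have : CharP kA ℓ := charP_residue A Fact.out hA
  have h1 : ((ℓ : ℕ) : CRing N' A) = algebraMap kA (CRing N' A) ((ℓ : ℕ) : kA) :=
    (map_natCast (algebraMap kA (CRing N' A)) ℓ).symm
  rw [h1, CharP.cast_eq_zero kA ℓ, map_zero]

/-- `ℓ ∈ P'₁` -/
theorem natCast_mem_P1K0 : ((ℓ : ℕ) : BRingK0 N' ℓ A h) ∈ P1K0 (h := h) hℓN hA := by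
  show redC1K0 h hℓN hA ((ℓ : ℕ) : BRingK0 N' ℓ A h) = 0
  rw [map_natCast, natCast_CRing_eq_zero hA]

/-- `ℓ ∈ P'₂` -/
theorem natCast_mem_P2K0 : ((ℓ : ℕ) : BRingK0 N' ℓ A h) ∈ P2K0 h hℓN hA := by
  rw [mem_P2K0, map_natCast, natCast_CRing_eq_zero hA]

/-- an element of `P'₁` outside `P'₂`: a lift of `(0, pH(j~))` -/
theorem exists_mem_P1K0_notMem_P2K0 {J' : Ideal (CRing N' A)}
    (hJ' : BT N' ℓ A h = gluedAlg (psiC N' ℓ A hℓN hA) J') :
    ∃ x0 : BRingK0 N' ℓ A h, x0 ∈ P1K0 (h := h) hℓN hA ∧ x0 ∉ P2K0 h hℓN hA := by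
  have hC : CharP kA ℓ := charP_residue A Fact.out hA
  set s : CRing N' A := aeval (jtC N' A) (ssPolyAll ℓ kA) with hs
  have hsJ : s ∈ J' := ssPolyAll_mem_ideal hℓN hA hJ'
  have hs0 : s ≠ 0 := aeval_jtC_ne_zero (N' := N') (A := A) (ssPolyAll_ne_zero ℓ kA)
  have hz : ((0, s) : CRing N' A × CRing N' A) ∈ gluedAlg (psiC N' ℓ A hℓN hA) J' := by
    rw [mk_mem_gluedAlg, zero_sub, neg_mem_iff, hs, psiC_ssPolyAll hℓN hA]
    exact Ideal.pow_mem_of_mem J' hsJ ℓ (Nat.pos_of_ne_zero (NeZero.ne ℓ))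
  obtain ⟨x0, e1, e2⟩ := exists_pairK0_eq h hℓN hA hJ' hz
  refine ⟨x0, e1, fun hx => hs0 ?_⟩
  rw [mem_P2K0] at hx
  rw [← show redC2K0 h hℓN hA x0 = s from e2, hx]

/-- `P'₁ ⊄ P'₂` -/
theorem not_P1K0_le_P2K0 {J' : Ideal (CRing N' A)}
    (hJ' : BT N' ℓ A h = gluedAlg (psiC N' ℓ A hℓN hA) J') :
    ¬ P1K0 (h := h) hℓN hA ≤ P2K0 h hℓN hA := by
  obtain ⟨x0, h1, h2⟩ := exists_mem_P1K0_notMem_P2K0 h hℓN hA hJ'
  exact fun hle => h2 (hle h1)

/-! ### (C4) -/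

/-- **(C4) `hTα` at `A := BRingK0 N' ℓ A h`**: every prime of the upper chart `B` over a
two-branch point of `B'` contains `P₂`.  All lower-level inputs (thickness one at the nodes,
K-N6 over `R`, the power trick) are discharged; the hypotheses are the rows of the valuation table
on `B` and the completeness of its vertical primes. -/
theorem hTα_K0 (h2 : ℓ = 2 → 3 ∣ N') (h3 : ℓ = 3 → 2 ∣ N')
    {r : ℕ} (hr : r.Prime) (hrN : r ∣ N') (hr3 : r % 3 = 2) (hr4 : r % 4 = 3)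
    [IsIntegrallyClosed (BRingK0 N' ℓ A h)]
    {B : Type*} [CommRing B] [IsDomain B] [IsNoetherianRing B]
    (φ : BRingK0 N' ℓ A h →+* B) (hφ : Function.Injective φ) (hint : φ.IsIntegral)
    (P1 P2 P3 : Ideal B) [P2.IsPrime]
    (hα1 : P1.comap φ = P1K0 (h := h) hℓN hA) (hα2 : P2.comap φ = P2K0 h hℓN hA)
    (hα3 : P3.comap φ = P1K0 (h := h) hℓN hA)
    (hvert : ∀ Q : Ideal B, Q.IsPrime → φ ((ℓ : ℕ) : BRingK0 N' ℓ A h) ∈ Q →
      P1 ≤ Q ∨ P2 ≤ Q ∨ P3 ≤ Q)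
    (x2 : Ideal B) (hx2 : x2.IsPrime)
    (hnode : P1K0 (h := h) hℓN hA ⊔ P2K0 h hℓN hA ≤ x2.comap φ) : P2 ≤ x2 := by
  haveI : IsDedekindDomain (CRing N' A) :=
    Fermat.Agent.GK.SS.Modular.isDedekindDomain_CRing N' ℓ A hA
  obtain ⟨J', -, hJ', hJ0, hlift, -, hdiv, hg0, hthick⟩ :=
    exists_ideal_thick_K0 h hℓN hA h2 h3 hr hrN hr3 hr4
  exact Fermat.Agent.GL.Frame.ClassifyC4.hTα_of_thick_surjective φ hφ hint
    (P1K0 (h := h) hℓN hA) (P2K0 h hℓN hA) (not_P1K0_le_P2K0 h hℓN hA hJ') P1 P2 P3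
    hα1 hα2 hα3 ((ℓ : ℕ) : BRingK0 N' ℓ A h) (natCast_mem_P2K0 h hℓN hA) hvert
    (redC1K0 h hℓN hA) (redC1K0_surjective h hℓN hA h2 h3) (fun a ha => ha)
    hJ0 hlift (n := 12) (by norm_num) hg0 hdiv hthick x2 hx2 hnode

end Fermat.Agent.GL.Frame.ClassifyC4K0
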