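import Fermat.Agent.GL.Red.BRingK0
import Fermat.Agent.GL.Table.DegenK0
import Fermat.Agent.GL.AL.TableW
import Fermat.Agent.GL.Val.SecondK0Hall
import Fermat.Agent.GK.QS.FrobTau
import Fermat.Agent.GK.QS.BTildeGal

/-!
# GATE-L / (A1) classification, concrete input (C5) `hpi_alpha` (helper42)

Board 3016 (3) (C5), 3071 (3).  Levels `N₀ = M' q` (`q ∥ N₀`) and `N = M' q q` (`q² ∥ N`), `A | q`,
`K₀ = ℚ̄^{I_A}`.  `w₂` = helper45's `redData2QK0 A N hQ` (restriction of helper54's `redData2Q`),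
`w₂'` = `redData2K0 A N₀ hq`, `π^* = alphaK0`.

The TRIPLE lemma (helper47 `Classify.le_of_unique`) needs: the vertical prime `P₂` of the chart `B`
of level `N` is *purely inseparable* over its contraction along `π^*`:

    `∀ b ∈ B, ∃ a ∈ A, b ^ q - π^* a ∈ P₂`.

* `hpi_of_row_surj`  : the abstract core (Mathlib only);
* `exists_redC2K0_eq` : `red₂' : B_R' → C` is surjective at level `N₀` (helper96 `BRingK0` +
  helper15 `right_mem_BT`);
* `exists_alphaK0_pow_sub_mem_nonunits` : **(C5) elementwise**: for `b ∈ K₀(X₀(N))` with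
  `w₂(b) ≥ 0` whose `w₂`-reduction lies in the coordinate ring `C = CRing M' A` of the good level
  (K-RED at level `N`, helper15 `RedInC` — the ONLY hypothesis), there is `a ∈ B_R' = BRingK0 M' q A hq`
  with `w₂(b^q - π^* a) > 0`.
  Proof: `c := red₂ b ∈ C`, `a` with `red₂' a = τ c` (`τ` = coefficientwise Frobenius), then by row
  (T3) `red₂ (π^* a) = (red₂' a)(X^q) = Ψ (τ c) = c ^ q = red₂ (b ^ q)`.
* `hpi_alpha` : the ring-level form, VERBATIM the `hpiα` binder of `Classify.triple_of_ss` /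
  `three_of_two`, for ANY subring `B` of `K₀(X₀(N))` inside `w₂` with K-RED and ANY ring map
  `φα : B_R' →+* B` restricting `alphaK0`, `P₂ = {b | w₂ b > 0}`.
-/

set_option autoImplicit false
set_option linter.style.haveILetI false
set_option linter.unusedSectionVars false

noncomputable section

namespace Fermat.Agent.GL.Frame.ClassifyC5

/-! ### The abstract core -/

section Abstract

variable {A B κ : Type*} [CommRing A] [CommRing B] [CommRing κ]

/-- **(C5), abstract**: if the reduction of `φ a` is `Ψ (rd' a)` (row) and every `(rd b)^n` is of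
the form `Ψ (rd' a)` (pure inseparability + surjectivity downstairs), then `b ^ n - φ a ∈ ker rd`
for a suitable `a`. -/
theorem hpi_of_row_surj (φ : A →+* B) (rd : B →+* κ) (rd' : A →+* κ) (Ψ : κ → κ) (n : ℕ)
    (hrow : ∀ a, rd (φ a) = Ψ (rd' a)) (hsurj : ∀ b, ∃ a, Ψ (rd' a) = rd b ^ n) :
    ∀ b : B, ∃ a : A, b ^ n - φ a ∈ RingHom.ker rd := by
  intro b
  obtain ⟨a, ha⟩ := hsurj b
  refine ⟨a, ?_⟩
  rw [RingHom.mem_ker, map_sub, map_pow, hrow, ha, sub_self]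

end Abstract

/-! ### The concrete statement -/

section Concrete

open HahnSeries ModularCurve IsLocalRing
open Fermat.Agent.S24 Fermat.Agent.S24_helper62 Fermat.Agent.S24_helper82
open Fermat.Agent.GJ.J1 Fermat.Agent.GJ.J1.Val Fermat.Agent.GJ.J3 Fermat.Agent.GJ.HN
open Fermat.Agent.GK.AL Fermat.Agent.GK.QS
open Fermat.Agent.GL.AL Fermat.Agent.GL.AL.TableW
open Fermat.Agent.GL.Val.GaussK0 Fermat.Agent.GL.Val.SecondK0 Fermat.Agent.GL.Val.SecondK0Hall
open Fermat.Agent.GL.BRingK0 Fermat.Agent.GL.Table.K0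

variable (A : ValuationSubring Kbar) {q : ℕ} [Fact q.Prime] [NeZero q] (M' : ℕ) [NeZero M']
  (hQ : HallDvd (q ^ 2) (M' * q * q)) (hq : ExactDvd q (M' * q))
  (hqM : ¬ q ∣ M') (hA : A.LiesOverPrime q) (h2 : q = 2 → 3 ∣ M') (h3 : q = 3 → 2 ∣ M')

local notation "kA" => IsLocalRing.ResidueField A

include hqM hA h2 h3 in
/-- **`red₂'` is onto the coordinate ring** at the level `M' q` over `K₀`. -/
theorem exists_redC2K0_eq (c : CRing M' A) :
    ∃ a : BRingK0 M' q A hq, redC2K0 hq hqM hA a = c := by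
  obtain ⟨a, -, ha⟩ := exists_pairK0_eq_of_mem_BT hq hqM hA (right_mem_BT M' q A hq hqM hA h2 h3 c)
  exact ⟨a, ha⟩

local notation "FQ" => modularFunctionFieldFullC (K0 A) (M' * q * q)
local notation "Fq" => modularFunctionFieldFullC (K0 A) (M' * q)

/-- the `w₂`-reduction of a `K₀`-rational function of level `M' q q`, as a Laurent series over the
residue field of `A` (computed over `ℚ̄`, helper54's `redData2Q`). -/
def rho2Q (b : FQ) (hb : b ∈ (redData2QK0 A (M' * q * q) hQ).Rw) : LaurentSeries kA :=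
  (((redData2Q (M' * q * q) A hQ).red
      ⟨mapK0Bar A (M' * q * q) b, (mem_Rw2QK0_iff A (M' * q * q) hQ b).1 hb⟩ :
    FresBar (M' * q * q) A) : LaurentSeries kA)

theorem rho2Q_eq_coeffMap (b : FQ) (hb : b ∈ (redData2QK0 A (M' * q * q) hQ).Rw) :
    rho2Q A M' hQ b hb = coeffMap (resMapK0 A)
      (((redData2QK0 A (M' * q * q) hQ).red ⟨b, hb⟩ : FresK0 A (M' * q * q)) :
        LaurentSeries (ResidueField (R0 A))) :=
  coe_red2QK0 A (M' * q * q) hQ b hb _

/-- `ρ₂` is multiplicative and additive (it is a ring hom on the valuation ring of `w₂`). -/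
theorem rho2Q_sub (b b' : FQ) (hb : b ∈ (redData2QK0 A (M' * q * q) hQ).Rw)
    (hb' : b' ∈ (redData2QK0 A (M' * q * q) hQ).Rw) :
    rho2Q A M' hQ (b - b') (sub_mem hb hb') = rho2Q A M' hQ b hb - rho2Q A M' hQ b' hb' := by
  rw [rho2Q_eq_coeffMap, rho2Q_eq_coeffMap, rho2Q_eq_coeffMap, ← map_sub]
  congr 1
  have : (⟨b - b', sub_mem hb hb'⟩ : (redData2QK0 A (M' * q * q) hQ).Rw) = ⟨b, hb⟩ - ⟨b', hb'⟩ := rfl
  rw [this, map_sub]
  rfl

theorem rho2Q_pow (b : FQ) (hb : b ∈ (redData2QK0 A (M' * q * q) hQ).Rw) (n : ℕ) :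
    rho2Q A M' hQ (b ^ n) (pow_mem hb n) = rho2Q A M' hQ b hb ^ n := by
  rw [rho2Q_eq_coeffMap, rho2Q_eq_coeffMap, ← map_pow]
  congr 1
  have : (⟨b ^ n, pow_mem hb n⟩ : (redData2QK0 A (M' * q * q) hQ).Rw) = ⟨b, hb⟩ ^ n := rfl
  rw [this, map_pow]
  rfl

/-- `w₂ x > 0` iff `ρ₂ x = 0`. -/
theorem mem_nonunits_iff_rho2Q (b : FQ) :
    b ∈ (redData2QK0 A (M' * q * q) hQ).Rw.nonunits ↔
      ∃ hb : b ∈ (redData2QK0 A (M' * q * q) hQ).Rw, rho2Q A M' hQ b hb = 0 := by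
  rw [RedData_mem_nonunits_iff]
  refine exists_congr fun hb => ?_
  rw [rho2Q_eq_coeffMap]
  constructor
  · intro h0
    rw [h0]
    simp
  · intro h0
    apply Subtype.ext
    apply coeffMap_resMapK0_injective A
    rw [h0]
    simp

/-- **row (T3)** in `ρ`-form: `ρ₂ (π^* a) = (cVal (red₂' a))(X^q)` for `a ∈ B_R'`. -/
theorem rho2Q_alphaK0 (a : BRingK0 M' q A hq)
    (ha : alphaK0 A (M' * q) q (a : Fq) ∈ (redData2QK0 A (M' * q * q) hQ).Rw) :
    rho2Q A M' hQ (alphaK0 A (M' * q) q (a : Fq)) ha =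
      qExpand kA q (cVal M' A (redC2K0 hq hqM hA a)) := by
  have hB := (mem_BRingK0_iff_map (x0 := (a : Fq))).1 a.2
  have h1 : mapK0Bar A (M' * q) (a : Fq) ∈ (redData2 (M' * q) A hq).Rw := hB.2.2
  have h3 : alphaB (M' * q) q (mapK0Bar A (M' * q) (a : Fq)) ∈
      (redData2Q (M' * q * q) A hQ).Rw := by
    rw [← mapK0Bar_alphaK0]
    exact (mem_Rw2QK0_iff A (M' * q * q) hQ _).1 ha
  have e1 : rho2Q A M' hQ (alphaK0 A (M' * q) q (a : Fq)) ha =
      (((redData2Q (M' * q * q) A hQ).red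
        ⟨alphaB (M' * q) q (mapK0Bar A (M' * q) (a : Fq)), h3⟩ : FresBar (M' * q * q) A) :
          LaurentSeries kA) := by
    have e0 : (⟨mapK0Bar A (M' * q * q) (alphaK0 A (M' * q) q (a : Fq)),
        (mem_Rw2QK0_iff A (M' * q * q) hQ _).1 ha⟩ : (redData2Q (M' * q * q) A hQ).Rw) =
        ⟨alphaB (M' * q) q (mapK0Bar A (M' * q) (a : Fq)), h3⟩ :=
      Subtype.ext (mapK0Bar_alphaK0 A (M' * q) q (a : Fq))
    show (((redData2Q (M' * q * q) A hQ).red _ : FresBar (M' * q * q) A) : LaurentSeries kA) = _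
    rw [e0]
  rw [e1, coe_red2Q_alphaB M' A hQ hq _ h1 h3, cVal_redC2K0, rho2_apply]
  rfl

include hqM hA h2 h3 in
/-- **(C5) elementwise.**  If the `w₂`-reduction of `b` lies in the coordinate ring `C` of the good
level (K-RED at level `M' q q`), then `b ^ q ≡ π^* a` modulo the centre of `w₂` for some `a` of
the chart ring `B_R'` of level `M' q`. -/
theorem exists_alphaK0_pow_sub_mem_nonunits (b : FQ)
    (hb : b ∈ (redData2QK0 A (M' * q * q) hQ).Rw)
    (hbC : rho2Q A M' hQ b hb ∈ Set.range (cVal M' A)) :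
    ∃ a : BRingK0 M' q A hq,
      b ^ q - alphaK0 A (M' * q) q (a : Fq) ∈ (redData2QK0 A (M' * q * q) hQ).Rw.nonunits := by
  obtain ⟨c, hc⟩ := hbC
  have hqp : q.Prime := Fact.out
  haveI : CharP kA q := charP_residue A hqp hA
  obtain ⟨a, ha⟩ :=
    exists_redC2K0_eq A M' hq hqM hA h2 h3 (coeffC M' q A hqM hA (frobenius kA q) c)
  refine ⟨a, ?_⟩
  have ha2 : (a : Fq) ∈ (redData2K0 A (M' * q) hq).Rw := (mem_BRingK0.1 a.2).2.2
  have hαa : alphaK0 A (M' * q) q (a : Fq) ∈ (redData2QK0 A (M' * q * q) hQ).Rw :=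
    (alphaK0_mem_Rw2QK0_iff A M' hQ hq _).2 ha2
  rw [mem_nonunits_iff_rho2Q]
  refine ⟨sub_mem (pow_mem hb q) hαa, ?_⟩
  rw [rho2Q_sub A M' hQ _ _ (pow_mem hb q) hαa, rho2Q_pow A M' hQ b hb,
    rho2Q_alphaK0 A M' hQ hq hqM hA a hαa,
    ha, cVal_coeffC, ← hc, ← QS.pow_char_eq_qExpand q, sub_self]

include hqM hA h2 h3 in
/-- **(C5) `hpi_alpha`, ring-level form** — VERBATIM the `hpiα` binder (`nα := q`) of helper47's
`Classify.triple_of_ss` / `three_of_two` / `le_of_unique`: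
`B` any subring of `K₀(X₀(M' q q))` contained in the valuation ring of `w₂` with K-RED (`hBC`),
`Aj` any subring of `K₀(X₀(M' q))` containing helper96's `B_R' = BRingK0 M' q A hq`,
`φα : Aj →+* B` any ring map restricting `π^* = alphaK0`, `P₂` the centre of `w₂` on `B`. -/
theorem hpi_alpha (B : Subring FQ) (Aj : Subring Fq)
    (hB2 : ∀ b ∈ B, b ∈ (redData2QK0 A (M' * q * q) hQ).Rw)
    (hBC : ∀ (b : FQ) (hb : b ∈ B), rho2Q A M' hQ b (hB2 b hb) ∈ Set.range (cVal M' A))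
    (hAj : BRingK0 M' q A hq ≤ Aj)
    (φα : Aj →+* B) (hφ : ∀ a : Aj, ((φα a : B) : FQ) = alphaK0 A (M' * q) q (a : Fq))
    (P2 : Ideal B)
    (hP2 : ∀ b : B, b ∈ P2 ↔ (b : FQ) ∈ (redData2QK0 A (M' * q * q) hQ).Rw.nonunits) :
    ∀ b : B, ∃ a : Aj, b ^ q - φα a ∈ P2 := by
  intro b
  obtain ⟨a, ha⟩ := exists_alphaK0_pow_sub_mem_nonunits A M' hQ hq hqM hA h2 h3 (b : FQ)
    (hB2 b b.2) (hBC b b.2)
  refine ⟨⟨(a : Fq), hAj a.2⟩, ?_⟩
  rw [hP2]
  have : ((b ^ q - φα ⟨(a : Fq), hAj a.2⟩ : B) : FQ) =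
      (b : FQ) ^ q - alphaK0 A (M' * q) q (a : Fq) := by
    push_cast
    rw [hφ]
  rw [this]
  exact ha

end Concrete

end Fermat.Agent.GL.Frame.ClassifyC5
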