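/-
GATE-L / (A1) over `K₀` at the FIXED integer lift (helper47; claims key A1-K0-INT).

`ClassifyK0Full.dichotomy_frame` with `p := (intSsPolyAll q).map (ℤ → R₀)` (helper63's fixed monic
lift; helper36's `sK0`), K-N6 (`exists_ideal_K0`) and K-RED (`hB3_rdK2`) discharged, and the
supersingular element written as `s = aeval jB (intSsPolyAll q)` for ANY presentation `jB : Bf` of
`j` — the `sB` of helper67 `Reg3BChartFeed.hreg3_BK0_of_S4` / helper93 `Reg3Dispatch` VERBATIM, so no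
congruence `p(j) ≡ pH(j) mod q` is needed by the consumers.

* `map_resR0_intSsPolyAll` : `hp` for the fixed lift;
* `resHom_alpha_ss_int` : `π^*(P̃(j')) = aeval jB P` in `Bf`, `P : ℤ[X]`;
* `dichotomy_frame_int` : the `hdich` binder of `hall_of_classify` / `hallj_typed` with
  `s := aeval jB (intSsPolyAll q)`, `Q 𝔫 := "𝔫 lies over a node of level M' q"`; hypotheses = good
  level arithmetic + aux prime + the frame data.
-/
import Fermat.Agent.GL.Frame.ClassifyK0Ker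

set_option autoImplicit false
set_option linter.style.haveILetI false
set_option linter.unusedSectionVars false

noncomputable section

namespace Fermat.Agent.GL.Frame.ClassifyK0Int

open HahnSeries ModularCurve IsLocalRing Polynomial
open Fermat.Agent.S24 Fermat.Agent.S24_helper62 Fermat.Agent.S24_helper82
open Fermat.Agent.GJ.J1 Fermat.Agent.GJ.J1.Val Fermat.Agent.GJ.HN
open Fermat.Agent.GK.AL Fermat.Agent.GK.QS Fermat.Agent.GK.FrobGlue Fermat.Agent.GL.AL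
open Fermat.Agent.Common_helper32
open Fermat.Agent.GL.SmallQ
open Fermat.Agent.GL.Val.GaussK0 Fermat.Agent.GL.Val.SecondK0 Fermat.Agent.GL.Val.SecondK0Hall
open Fermat.Agent.GL.Val.ThirdK0 Fermat.Agent.GL.Val.OrthK0 Fermat.Agent.GL.Val.DegBase
open Fermat.Agent.GL.BRingK0 Fermat.Agent.GL.Table.K0 Fermat.Agent.GL.Thick
open Fermat.Agent.GL.OldTriplesK0
open Fermat.Agent.GL.Frame.ClassifyInst Fermat.Agent.GL.Frame.ClassifyK0
open Fermat.Agent.GL.Frame.ClassifyK0Full Fermat.Agent.GL.Frame.ClassifyK0Ker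
open Fermat.Agent.GL.Frame.HeightOne

variable (A : ValuationSubring Kbar) {q : ℕ} [Fact q.Prime] [NeZero q] (M' : ℕ) [NeZero M']
  (hQ : HallDvd (q ^ 2) (M' * q * q)) (hq : ExactDvd q (M' * q))
  (hqM : ¬ q ∣ M') (hA : A.LiesOverPrime q)

local notation "kA" => IsLocalRing.ResidueField A
local notation "FQ" => modularFunctionFieldFullC (K0 A) (M' * q * q)
local notation "Fq" => modularFunctionFieldFullC (K0 A) (M' * q)
local notation "αK" => ((alphaK0 A (M' * q) q : Fq →ₐ[K0 A] FQ) : Fq →+* FQ)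

include hA in
/-- `hp` of `dichotomy_K0` / `dichotomy_frame` for the fixed integer lift. -/
theorem map_resR0_intSsPolyAll :
    ((intSsPolyAll q).map (Int.castRingHom (R0 A))).map (resR0 A) =
      @ssPolyAll q _ kA _ (charP_residue A Fact.out hA) := by
  haveI : CharP kA q := charP_residue A Fact.out hA
  exact intSsPolyAll_map_map q kA (resR0 A)

/-- `π^*(P̃(j')) = P(j)` in the frame, for an integer polynomial `P` and any presentation `jB`
of `j`. -/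
theorem resHom_alpha_ss_int (P : ℤ[X]) (Bf : Subring FQ)
    (hαAB : ∀ a ∈ BRingK0 M' q A hq, αK a ∈ Bf)
    {jB : Bf} (hjB : (jB : FQ) = jC (M' * q * q) (K0 A)) :
    resHom αK (BRingK0 M' q A hq) Bf hαAB
        ((P.map (Int.castRingHom (R0 A))).eval₂ (cstK0 M' q A hq) (jK0B M' q A hq)) =
      aeval jB P := by
  apply Subtype.ext
  rw [coe_resHom_alpha_ss, eval₂_map]
  have e1 : ((aeval jB P : Bf) : FQ) =
      P.eval₂ (Bf.subtype.comp (algebraMap ℤ Bf)) (jC (M' * q * q) (K0 A)) := by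
    rw [aeval_def, ← hjB]
    exact Polynomial.hom_eval₂ P (algebraMap ℤ Bf) Bf.subtype jB
  rw [e1]
  congr 1
  exact RingHom.ext_int _ _

section Frame

variable {Bf : Subring (modularFunctionFieldFullC (K0 A) (M' * q * q))}
  [IsFractionRing Bf (modularFunctionFieldFullC (K0 A) (M' * q * q))]
  [IsNoetherianRing Bf] [IsIntegrallyClosed Bf]

include hQ hqM hA in
/-- **(A1) over `K₀` at the fixed integer lift**: the `hdich` binder of
`HallOfClassify.hall_of_classify` / helper11 `hallj_typed` with `s := aeval jB (intSsPolyAll q)`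
(= `sB` of helper67/helper93's REG3 binders) and
`Q 𝔫 := P'₁ ⊔ P'₂ ≤ 𝔫.comap π^*` (`𝔫` lies over a node of level `M' q`). -/
theorem dichotomy_frame_int (h2 : q = 2 → 3 ∣ M') (h3 : q = 3 → 2 ∣ M')
    {r : ℕ} (hr : r.Prime) (hrN : r ∣ M') (hr3 : r % 3 = 2) (hr4 : r % 4 = 3)
    (hBf : ∀ x : FQ, x ∈ Bf ↔ x ∈ B3K0 M' q A hQ)
    (f : Fin 3 → HtOne Bf)
    (hf0 : ∀ b : Bf, b ∈ (f 0).1 ↔ (b : FQ) ∈ (RwK0 A (M' * q * q)).nonunits)
    (hf1 : ∀ b : Bf, b ∈ (f 1).1 ↔ (b : FQ) ∈ (redData2QK0 A (M' * q * q) hQ).Rw.nonunits)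
    (hf2 : ∀ b : Bf, b ∈ (f 2).1 ↔ (b : FQ) ∈ (Rw3K0 A (M' * q * q) q).nonunits)
    {qB : Bf} (hqB : (qB : FQ) = ((q : ℕ) : FQ))
    (hvert : ∀ 𝔭 : HtOne Bf, qB ∈ 𝔭.1 → ∃ i, f i = 𝔭)
    {jB : Bf} (hjB : (jB : FQ) = jC (M' * q * q) (K0 A))
    (𝔫 : Ideal Bf) (h𝔫 : 𝔫.IsMaximal) (hq𝔫 : qB ∈ 𝔫) :
    (aeval jB (intSsPolyAll q) ∈ 𝔫 ∧ (f 0).1 ≤ 𝔫 ∧ (f 1).1 ≤ 𝔫 ∧ (f 2).1 ≤ 𝔫 ∧
        P1K0 (h := hq) hqM hA ⊔ P2K0 hq hqM hA ≤
          𝔫.comap (resHom αK (BRingK0 M' q A hq) Bf (alpha_mem_frame A M' hQ hq hqM hBf))) ∨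
      (aeval jB (intSsPolyAll q) ∉ 𝔫 ∧
        ¬ ((f 0).1 ≤ 𝔫 ∧ (f 1).1 ≤ 𝔫) ∧ ¬ ((f 1).1 ≤ 𝔫 ∧ (f 2).1 ≤ 𝔫) ∧
        ¬ ((f 0).1 ≤ 𝔫 ∧ (f 2).1 ≤ 𝔫)) := by
  obtain ⟨J', hJ, hJ', -⟩ := exists_ideal_K0 hq hqM hA h2 h3
  have hd := dichotomy_frame A M' hQ hq hqM hA h2 h3 hr hrN hr3 hr4 hJ hJ'
    (map_resR0_intSsPolyAll A hA)
    (Fermat.Agent.GL.Frame.ClassifyC5.hB3_rdK2 A M' hQ hqM hA) hBf
    (alpha_mem_frame A M' hQ hq hqM hBf) (beta_mem_frame A M' hQ hq hqM hBf) f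
    hf0 hf1 hf2 hqB hvert 𝔫 h𝔫 hq𝔫
  rw [resHom_alpha_ss_int A M' hq (intSsPolyAll q) Bf (alpha_mem_frame A M' hQ hq hqM hBf) hjB]
    at hd
  exact hd

end Frame

end Fermat.Agent.GL.Frame.ClassifyK0Int
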