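/-
GATE-L / (A1) POINT CLASSIFICATION AT THE CUSPIDAL POINTS (helper47).

`Classify.lean` / `ClassifySS.lean` classify the points of the special fibre of the chart
`IC R[j]` through the lower level (`node ⟺ supersingular`, helper65 `NodesSS` + helper96 `BRingK0`,
both on the FINITE chart of the lower level).  The points of the chart `IC R[1/j]` with `1/j ∈ 𝔫`
(reductions of cusps; the horizontal part of `div u` may pass through them) are not covered: the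
degeneracy map `β` is only locally defined there (helper84 `OldContraction.old_inf_le`) and nothing
is known about the lower level on the chart `1/j'`.

Here: a cuspidal point lies on AT MOST ONE vertical component, by a SEPARATING FUNCTION.  At the
lower level put `s' = j'_q / j'^q`, `t' = (1/j')^(q²-1)`.  Then

    `s' ≡ 1` on `C1'` (row `j'_q ≡ j'^q`),   `s'^q ≡ t'` on `C2'` (row `j' ≡ j'_q^q`),

`s'` is integral over `R[1/j']` (pole orders at the cusps: `ord_c j_q ≥ q · ord_c j`) and `t'`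
vanishes at the cuspidal points.  Its two old copies `α s' = j_q/j^q`, `β s' = j_{q²}/j_q^q`
separate `C2` from `{C1, C3}`, resp. `C1` from `{C2, C3}` at every cuspidal point of level `q²M'`.

* `mem_of_le_of_mem_nonunits` : in a local subring `O ≤ W`, `W`-nonunits lie in the maximal ideal;
* `sep_local` : the separation argument in a local subring `O` of `F` (`O ≤ W i` = the component
  `i` passes through the point);
* `locSubring_le_of_le` : `P i ≤ 𝔫 ⟹ B_𝔫 ≤ W i`;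
* `atMostOne_of_sep` : frame form (`B` the chart, `P i` its vertical primes);
* `atMostOne_of_old` : from the lower level: `s' t' ∈ F'`, rows at `W1' W2'`, transport of
  nonunits along `α β : F' →+* F` (five implications, = helper67 `DegenK0` rows);
* `atMostOne_of_cusp` : **cuspidal points**: `1/j ∈ 𝔪_𝔫`, ARITH-INT (`j` integral over `R[j_q]`),
  `j'_q (1/j')^q` integral over `R'[1/j']`, rows `j'_q - j'^q ∈ 𝔪(W1')`, `j' - j'_q^q ∈ 𝔪(W2')`.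

Mathlib + helper8 `Chart` + helper84 `OldContraction` only.
-/
import Fermat.Agent.GL.Frame.OldContraction

set_option autoImplicit false

namespace Fermat.Agent.GL.Frame.CuspPoints

open Fermat.Agent.GL.Frame.Chart Fermat.Agent.GL.Frame.OldContraction

variable {F : Type*} [Field F]

/-- in a local subring `O ≤ W` the elements of `O` that are non-units of `W` lie in the maximal
ideal of `O`. -/
theorem mem_of_le_of_mem_nonunits (W : ValuationSubring F) (O : Subring F) (𝔪 : Ideal O)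
    (h𝔪 : ∀ z : O, z ∉ 𝔪 → ((z : F))⁻¹ ∈ O) (hle : O ≤ W.toSubring) (z : O)
    (hz : (z : F) ∈ W.nonunits) : z ∈ 𝔪 := by
  by_contra hcon
  have hinv : ((z : F))⁻¹ ∈ W := hle (h𝔪 z hcon)
  have h1 : W.valuation (z : F) < 1 := (W.mem_nonunits_iff).mp hz
  have h2 : W.valuation ((z : F))⁻¹ ≤ 1 := (W.valuation_le_one_iff _).mpr hinv
  have hz0 : (z : F) ≠ 0 := by
    intro h0
    apply hcon
    have : z = 0 := Subtype.ext (by simpa using h0)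
    rw [this]; exact 𝔪.zero_mem
  have h3 : W.valuation (z : F) * W.valuation ((z : F))⁻¹ = 1 := by
    rw [← map_mul, mul_inv_cancel₀ hz0, map_one]
  have h4 : W.valuation (z : F) * W.valuation ((z : F))⁻¹ < 1 := by
    calc W.valuation (z : F) * W.valuation ((z : F))⁻¹
        ≤ W.valuation (z : F) * 1 := mul_le_mul_right h2 _
      _ = W.valuation (z : F) := mul_one _
      _ < 1 := h1
  rw [h3] at h4
  exact lt_irrefl _ h4

/-- **separation in a local subring**: `sα` is `≡ 1` on the components `1, 3` and has `q`-th power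
`≡ tα` on the component `2`; `sβ` is `≡ 1` on `1` and has `q`-th power `≡ tβ` on `3`; `tα tβ`
vanish at the point.  Then at most one of the three components passes through the point. -/
theorem sep_local (W1 W2 W3 : ValuationSubring F) (O : Subring F) (𝔪 : Ideal O) [h𝔪p : 𝔪.IsPrime]
    (h𝔪 : ∀ z : O, z ∉ 𝔪 → ((z : F))⁻¹ ∈ O) (qq : ℕ)
    (sα sβ tα tβ : O) (htα : tα ∈ 𝔪) (htβ : tβ ∈ 𝔪)
    (hα1 : (sα : F) - 1 ∈ W1.nonunits) (hα3 : (sα : F) - 1 ∈ W3.nonunits)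
    (hα2 : (sα : F) ^ qq - tα ∈ W2.nonunits)
    (hβ1 : (sβ : F) - 1 ∈ W1.nonunits) (hβ3 : (sβ : F) ^ qq - tβ ∈ W3.nonunits) :
    ¬ (O ≤ W1.toSubring ∧ O ≤ W2.toSubring) ∧ ¬ (O ≤ W2.toSubring ∧ O ≤ W3.toSubring) ∧
      ¬ (O ≤ W1.toSubring ∧ O ≤ W3.toSubring) := by
  have h1 : (1 : O) ∉ 𝔪 := (Ideal.ne_top_iff_one 𝔪).mp h𝔪p.ne_top
  -- `s ≡ 1` ⟹ `s ∉ 𝔪`
  have unit_of : ∀ (W : ValuationSubring F) (s : O), O ≤ W.toSubring →
      (s : F) - 1 ∈ W.nonunits → s ∉ 𝔪 := by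
    intro W s hle hs hmem
    have h2 : s - 1 ∈ 𝔪 := mem_of_le_of_mem_nonunits W O 𝔪 h𝔪 hle (s - 1) (by push_cast; exact hs)
    have h3 : (1 : O) = s - (s - 1) := by ring
    exact h1 (h3 ▸ 𝔪.sub_mem hmem h2)
  -- `s^q ≡ t ∈ 𝔪` ⟹ `s ∈ 𝔪`
  have nonunit_of : ∀ (W : ValuationSubring F) (s t : O), O ≤ W.toSubring → t ∈ 𝔪 →
      (s : F) ^ qq - t ∈ W.nonunits → s ∈ 𝔪 := by
    intro W s t hle ht hs
    have h2 : s ^ qq - t ∈ 𝔪 :=
      mem_of_le_of_mem_nonunits W O 𝔪 h𝔪 hle (s ^ qq - t) (by push_cast; exact hs)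
    have h3 : s ^ qq = (s ^ qq - t) + t := by ring
    have h4 : s ^ qq ∈ 𝔪 := h3 ▸ 𝔪.add_mem h2 ht
    exact h𝔪p.mem_of_pow_mem qq h4
  refine ⟨fun ⟨h1', h2'⟩ => ?_, fun ⟨h2', h3'⟩ => ?_, fun ⟨h1', h3'⟩ => ?_⟩
  · exact unit_of W1 sα h1' hα1 (nonunit_of W2 sα tα h2' htα hα2)
  · exact unit_of W3 sα h3' hα3 (nonunit_of W2 sα tα h2' htα hα2)
  · exact unit_of W1 sβ h1' hβ1 (nonunit_of W3 sβ tβ h3' htβ hβ3)

section Frame

variable (B : Subring F) (𝔫 : Ideal B) [h𝔫 : 𝔫.IsPrime]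

/-- a vertical prime `P = B ∩ 𝔪(W)` through `𝔫` ⟹ `B_𝔫 ≤ W`. -/
theorem locSubring_le_of_le (W : ValuationSubring F) (hBW : B ≤ W.toSubring) (P : Ideal B)
    (hP : ∀ b : B, (b : F) ∈ W.nonunits → b ∈ P) (hle : P ≤ 𝔫) :
    locSubring B 𝔫 ≤ W.toSubring := by
  rintro z ⟨a, s, hs, hz⟩
  have hsW : (s : F) ∈ W := hBW s.2
  have hsu : (s : F) ∉ W.nonunits := fun h => hs (hle (hP s h))
  have hs1 : W.valuation (s : F) = 1 := by
    have h1 : W.valuation (s : F) ≤ 1 := (W.valuation_le_one_iff _).mpr hsW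
    have h2 : ¬ W.valuation (s : F) < 1 := fun h => hsu ((W.mem_nonunits_iff).mpr h)
    exact le_antisymm h1 (not_lt.mp h2)
  have ha : W.valuation (a : F) ≤ 1 := (W.valuation_le_one_iff _).mpr (hBW a.2)
  show z ∈ W
  rw [← W.valuation_le_one_iff]
  have : W.valuation z = W.valuation (a : F) := by
    rw [← hz, map_mul, hs1, mul_one]
  rw [this]; exact ha

/-- **frame form**: `B` the chart ring, `P i = B ∩ 𝔪(W i)` its vertical primes, `𝔫` a point; the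
separating functions are elements of the local ring `B_𝔫`. -/
theorem atMostOne_of_sep (W1 W2 W3 : ValuationSubring F)
    (hB1 : B ≤ W1.toSubring) (hB2 : B ≤ W2.toSubring) (hB3 : B ≤ W3.toSubring)
    (P1 P2 P3 : Ideal B)
    (hP1 : ∀ b : B, (b : F) ∈ W1.nonunits → b ∈ P1)
    (hP2 : ∀ b : B, (b : F) ∈ W2.nonunits → b ∈ P2)
    (hP3 : ∀ b : B, (b : F) ∈ W3.nonunits → b ∈ P3) (qq : ℕ)
    (sα sβ tα tβ : locSubring B 𝔫) (htα : tα ∈ locMax B 𝔫) (htβ : tβ ∈ locMax B 𝔫)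
    (hα1 : (sα : F) - 1 ∈ W1.nonunits) (hα3 : (sα : F) - 1 ∈ W3.nonunits)
    (hα2 : (sα : F) ^ qq - tα ∈ W2.nonunits)
    (hβ1 : (sβ : F) - 1 ∈ W1.nonunits) (hβ3 : (sβ : F) ^ qq - tβ ∈ W3.nonunits) :
    ¬ (P1 ≤ 𝔫 ∧ P2 ≤ 𝔫) ∧ ¬ (P2 ≤ 𝔫 ∧ P3 ≤ 𝔫) ∧ ¬ (P1 ≤ 𝔫 ∧ P3 ≤ 𝔫) := by
  obtain ⟨h12, h23, h13⟩ := sep_local W1 W2 W3 (locSubring B 𝔫) (locMax B 𝔫)
    (fun z hz => inv_mem_of_not_mem_locMax B 𝔫 hz) qq sα sβ tα tβ htα htβ hα1 hα3 hα2 hβ1 hβ3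
  refine ⟨fun ⟨h1, h2⟩ => h12 ⟨?_, ?_⟩, fun ⟨h2, h3⟩ => h23 ⟨?_, ?_⟩,
    fun ⟨h1, h3⟩ => h13 ⟨?_, ?_⟩⟩
  · exact locSubring_le_of_le B 𝔫 W1 hB1 P1 hP1 h1
  · exact locSubring_le_of_le B 𝔫 W2 hB2 P2 hP2 h2
  · exact locSubring_le_of_le B 𝔫 W2 hB2 P2 hP2 h2
  · exact locSubring_le_of_le B 𝔫 W3 hB3 P3 hP3 h3
  · exact locSubring_le_of_le B 𝔫 W1 hB1 P1 hP1 h1
  · exact locSubring_le_of_le B 𝔫 W3 hB3 P3 hP3 h3

variable {F' : Type*} [Field F']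

/-- **from the lower level**: `s' t' ∈ F'` with `s' ≡ 1` on `W1'`, `s'^q ≡ t'` on `W2'`; the old
copies `α s', β s'` lie in `B_𝔫`, the old copies `α t', β t'` in its maximal ideal; non-units are
transported along the table `α : W1, W3 ↦ W1'`, `W2 ↦ W2'`; `β : W1 ↦ W1'`, `W3 ↦ W2'`. -/
theorem atMostOne_of_old (W1 W2 W3 : ValuationSubring F)
    (hB1 : B ≤ W1.toSubring) (hB2 : B ≤ W2.toSubring) (hB3 : B ≤ W3.toSubring)
    (P1 P2 P3 : Ideal B)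
    (hP1 : ∀ b : B, (b : F) ∈ W1.nonunits → b ∈ P1)
    (hP2 : ∀ b : B, (b : F) ∈ W2.nonunits → b ∈ P2)
    (hP3 : ∀ b : B, (b : F) ∈ W3.nonunits → b ∈ P3)
    (W1' W2' : ValuationSubring F') (α β : F' →+* F)
    (rα11 : ∀ z ∈ W1'.nonunits, α z ∈ W1.nonunits) (rα13 : ∀ z ∈ W1'.nonunits, α z ∈ W3.nonunits)
    (rα22 : ∀ z ∈ W2'.nonunits, α z ∈ W2.nonunits)
    (rβ11 : ∀ z ∈ W1'.nonunits, β z ∈ W1.nonunits) (rβ23 : ∀ z ∈ W2'.nonunits, β z ∈ W3.nonunits)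
    (qq : ℕ) (s' t' : F') (hs1 : s' - 1 ∈ W1'.nonunits) (hs2 : s' ^ qq - t' ∈ W2'.nonunits)
    (hαs : α s' ∈ locSubring B 𝔫) (hβs : β s' ∈ locSubring B 𝔫)
    (hαt : ∃ h : α t' ∈ locSubring B 𝔫, (⟨α t', h⟩ : locSubring B 𝔫) ∈ locMax B 𝔫)
    (hβt : ∃ h : β t' ∈ locSubring B 𝔫, (⟨β t', h⟩ : locSubring B 𝔫) ∈ locMax B 𝔫) :
    ¬ (P1 ≤ 𝔫 ∧ P2 ≤ 𝔫) ∧ ¬ (P2 ≤ 𝔫 ∧ P3 ≤ 𝔫) ∧ ¬ (P1 ≤ 𝔫 ∧ P3 ≤ 𝔫) := by
  obtain ⟨hαt1, hαt2⟩ := hαt
  obtain ⟨hβt1, hβt2⟩ := hβt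
  have e1 : ∀ φ : F' →+* F, φ s' - 1 = φ (s' - 1) := fun φ => by rw [map_sub, map_one]
  have e2 : ∀ φ : F' →+* F, φ s' ^ qq - φ t' = φ (s' ^ qq - t') := fun φ => by
    rw [map_sub, map_pow]
  refine atMostOne_of_sep B 𝔫 W1 W2 W3 hB1 hB2 hB3 P1 P2 P3 hP1 hP2 hP3 qq
    ⟨α s', hαs⟩ ⟨β s', hβs⟩ ⟨α t', hαt1⟩ ⟨β t', hβt1⟩ hαt2 hβt2 ?_ ?_ ?_ ?_ ?_
  · show α s' - 1 ∈ W1.nonunits
    rw [e1]; exact rα11 _ hs1
  · show α s' - 1 ∈ W3.nonunits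
    rw [e1]; exact rα13 _ hs1
  · show α s' ^ qq - α t' ∈ W2.nonunits
    rw [e2]; exact rα22 _ hs2
  · show β s' - 1 ∈ W1.nonunits
    rw [e1]; exact rβ11 _ hs1
  · show β s' ^ qq - β t' ∈ W3.nonunits
    rw [e2]; exact rβ23 _ hs2

/-- **(A1) at the cuspidal points.**  `𝔫` a prime of the chart `B` (integrally closed in `F`,
`R ≤ B`) with `1/j ∈ 𝔪_𝔫`; `j = α j'`, `j_q = β j' = α j'_q`; ARITH-INT `j` integral over
`R[j_q]`; the separating function `s' = j'_q (1/j')^q` integral over `R'[1/j']`; the lower rows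
`j'_q - j'^q ∈ 𝔪(W1')`, `j' - j'_q^q ∈ 𝔪(W2')`, `1/j' ∈ W1', W2'`.  Then at most one vertical
component passes through `𝔫`. -/
theorem atMostOne_of_cusp (hB : IsIC B) (R : Subring F) (hRB : R ≤ B)
    (W1 W2 W3 : ValuationSubring F)
    (hB1 : B ≤ W1.toSubring) (hB2 : B ≤ W2.toSubring) (hB3 : B ≤ W3.toSubring)
    (P1 P2 P3 : Ideal B)
    (hP1 : ∀ b : B, (b : F) ∈ W1.nonunits → b ∈ P1)
    (hP2 : ∀ b : B, (b : F) ∈ W2.nonunits → b ∈ P2)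
    (hP3 : ∀ b : B, (b : F) ∈ W3.nonunits → b ∈ P3)
    (W1' W2' : ValuationSubring F') (α β : F' →+* F)
    (rα11 : ∀ z ∈ W1'.nonunits, α z ∈ W1.nonunits) (rα13 : ∀ z ∈ W1'.nonunits, α z ∈ W3.nonunits)
    (rα22 : ∀ z ∈ W2'.nonunits, α z ∈ W2.nonunits)
    (rβ11 : ∀ z ∈ W1'.nonunits, β z ∈ W1.nonunits) (rβ23 : ∀ z ∈ W2'.nonunits, β z ∈ W3.nonunits)
    (R' : Subring F') (hαR : ∀ r ∈ R', α r ∈ R) (hβR : ∀ r ∈ R', β r ∈ R)
    {j jq : F} {j' jq' : F'} (hαj : α j' = j) (hβj : β j' = jq) (hj0 : j ≠ 0) (hjq0 : jq ≠ 0)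
    (hA2 : IsIntegral (Subring.closure ((R : Set F) ∪ {jq})) j)
    (hj : j⁻¹ ∈ locSubring B 𝔫) (hjm : (⟨j⁻¹, hj⟩ : locSubring B 𝔫) ∈ locMax B 𝔫)
    (qq : ℕ) (hqq : 1 < qq)
    (hI2 : IsIntegral (Subring.closure ((R' : Set F') ∪ {j'⁻¹})) (jq' * j'⁻¹ ^ qq))
    (hj1' : j'⁻¹ ∈ W1') (hj2' : j'⁻¹ ∈ W2')
    (r1 : jq' - j' ^ qq ∈ W1'.nonunits) (r2 : j' - jq' ^ qq ∈ W2'.nonunits) :
    ¬ (P1 ≤ 𝔫 ∧ P2 ≤ 𝔫) ∧ ¬ (P2 ≤ 𝔫 ∧ P3 ≤ 𝔫) ∧ ¬ (P1 ≤ 𝔫 ∧ P3 ≤ 𝔫) := by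
  have hj'0 : j' ≠ 0 := by
    intro h0; rw [h0, map_zero] at hαj; exact hj0 hαj.symm
  -- the old copies along `α` (trivially `j` is integral over `R[j]`)
  have hAα : IsIntegral (Subring.closure ((R : Set F) ∪ {j})) j :=
    isIntegral_algebraMap (x := (⟨j, Subring.subset_closure (Or.inr rfl)⟩ :
      Subring.closure ((R : Set F) ∪ {j})))
  obtain ⟨⟨_, _⟩, hαint⟩ := old_inf_le B 𝔫 hB R hRB hj0 hj0 hAα hj hjm α hαj R' hαR
  obtain ⟨⟨hzq, hzqm⟩, hβint⟩ := old_inf_le B 𝔫 hB R hRB hj0 hjq0 hA2 hj hjm β hβj R' hβR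
  -- the separating function and `t' = (1/j')^(q²-1)`
  set s' : F' := jq' * j'⁻¹ ^ qq with hs'
  set t' : F' := j'⁻¹ ^ (qq * qq - 1) with ht'
  have hpos : 0 < qq * qq - 1 := by
    have : 4 ≤ qq * qq := by nlinarith
    omega
  have hs1 : s' - 1 ∈ W1'.nonunits := by
    have : s' - 1 = (jq' - j' ^ qq) * j'⁻¹ ^ qq := by
      rw [hs', sub_mul, inv_pow, mul_inv_cancel₀ (pow_ne_zero _ hj'0)]
    rw [this, W1'.mem_nonunits_iff, map_mul]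
    have h1 : W1'.valuation (jq' - j' ^ qq) < 1 := (W1'.mem_nonunits_iff).mp r1
    have h2 : W1'.valuation (j'⁻¹ ^ qq) ≤ 1 :=
      (W1'.valuation_le_one_iff _).mpr (W1'.pow_mem hj1' _)
    calc W1'.valuation (jq' - j' ^ qq) * W1'.valuation (j'⁻¹ ^ qq)
        ≤ W1'.valuation (jq' - j' ^ qq) * 1 := mul_le_mul_right h2 _
      _ = W1'.valuation (jq' - j' ^ qq) := mul_one _
      _ < 1 := h1
  have hs2 : s' ^ qq - t' ∈ W2'.nonunits := by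
    have hq2 : qq * qq = (qq * qq - 1) + 1 := by omega
    have : s' ^ qq - t' = -((j' - jq' ^ qq) * j'⁻¹ ^ (qq * qq)) := by
      rw [hs', ht', mul_pow, ← pow_mul]
      have h3 : j' * j'⁻¹ ^ (qq * qq) = j'⁻¹ ^ (qq * qq - 1) := by
        have h4 : j'⁻¹ ^ (qq * qq) = j'⁻¹ ^ (qq * qq - 1) * j'⁻¹ := by
          conv_lhs => rw [hq2, pow_succ]
        rw [h4, mul_comm j', mul_assoc, inv_mul_cancel₀ hj'0, mul_one]
      rw [sub_mul, h3]; ring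
    rw [this, W2'.mem_nonunits_iff, Valuation.map_neg, map_mul]
    have h1 : W2'.valuation (j' - jq' ^ qq) < 1 := (W2'.mem_nonunits_iff).mp r2
    have h2 : W2'.valuation (j'⁻¹ ^ (qq * qq)) ≤ 1 :=
      (W2'.valuation_le_one_iff _).mpr (W2'.pow_mem hj2' _)
    calc W2'.valuation (j' - jq' ^ qq) * W2'.valuation (j'⁻¹ ^ (qq * qq))
        ≤ W2'.valuation (j' - jq' ^ qq) * 1 := mul_le_mul_right h2 _
      _ = W2'.valuation (j' - jq' ^ qq) := mul_one _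
      _ < 1 := h1
  -- `α t'`, `β t'` lie in the maximal ideal
  have htmem : ∀ (φ : F' →+* F) (y : F) (hφ : φ j' = y) (hy : y⁻¹ ∈ locSubring B 𝔫),
      (⟨y⁻¹, hy⟩ : locSubring B 𝔫) ∈ locMax B 𝔫 →
      ∃ h : φ t' ∈ locSubring B 𝔫, (⟨φ t', h⟩ : locSubring B 𝔫) ∈ locMax B 𝔫 := by
    intro φ y hφ hy hym
    have e : φ t' = y⁻¹ ^ (qq * qq - 1) := by rw [ht', map_pow, map_inv₀, hφ]
    have hmem : (⟨y⁻¹, hy⟩ : locSubring B 𝔫) ^ (qq * qq - 1) ∈ locMax B 𝔫 :=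
      Ideal.pow_mem_of_mem _ hym _ hpos
    refine ⟨e ▸ (locSubring B 𝔫).pow_mem hy _, ?_⟩
    have : (⟨φ t', e ▸ (locSubring B 𝔫).pow_mem hy _⟩ : locSubring B 𝔫) =
        (⟨y⁻¹, hy⟩ : locSubring B 𝔫) ^ (qq * qq - 1) := Subtype.ext (by push_cast; exact e)
    rw [this]; exact hmem
  exact atMostOne_of_old B 𝔫 W1 W2 W3 hB1 hB2 hB3 P1 P2 P3 hP1 hP2 hP3 W1' W2' α β
    rα11 rα13 rα22 rβ11 rβ23 qq s' t' hs1 hs2 (hαint _ hI2) (hβint _ hI2)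
    (htmem α j hαj hj hjm) (htmem β jq hβj hzq hzqm)

end Frame

end Fermat.Agent.GL.Frame.CuspPoints
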