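/-
GATE-L / L6a FRAME, abstract part 1 (helper47): closed points of the special fibre of a chart ring.

`B ≤ F` a chart ring (functions on an affine chart of an arithmetic surface, integral at all the
vertical valuations), `W i` the finitely many vertical valuation rings, `q` the uniformiser of the
base.

* `inclW`, `vPrime`, `mem_vPrime_iff` : the vertical primes `P_i = B ∩ 𝔪(W i)`.
* `vRad`, `mem_vRad_iff`, `sub_one_mem_vRad` : the vertical radical `⨅ i, P_i`.
* `vRad_pow_le` : `vRad ^ e ≤ (q)` as soon as `𝔪(W i) ^ e ⊆ q W i` for all `i` and `B` is cut out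
  vertically by the `W i` (`z ∈ B`, `z / q ∈ W i` for all `i` ⟹ `z / q ∈ B`).
  [= the data `𝔯`, `e`, `h𝔯` of `CechKummer.exists_section`.]
* `vRad_le_of_mem` : a prime containing `q` contains `vRad`;
  `exists_branch` : ... hence contains some `P_i` (a BRANCH through the point).
* `exists_separator` : an element of `B` outside the point which vanishes on all the components
  NOT passing through the point; `separator_mul_mem_vRad`.

Mathlib only.
-/
import Mathlib

set_option autoImplicit false

namespace Fermat.Agent.GL.Frame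

variable {R F : Type*} [CommRing R] [Field F] [Algebra R F]
variable (B : Subalgebra R F) {ι : Type*} (W : ι → ValuationSubring F)
variable (hBW : ∀ i, ∀ b ∈ B, b ∈ W i)

/-- the inclusion of the chart ring into a vertical valuation ring. -/
def inclW (i : ι) : B →+* W i where
  toFun b := ⟨b.1, hBW i b.1 b.2⟩
  map_one' := rfl
  map_mul' _ _ := rfl
  map_zero' := rfl
  map_add' _ _ := rfl

@[simp] theorem coe_inclW (i : ι) (b : B) : ((inclW B W hBW i b : W i) : F) = (b : F) := rfl

/-- the vertical prime `P_i = B ∩ 𝔪(W i)`. -/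
def vPrime (i : ι) : Ideal B :=
  (IsLocalRing.maximalIdeal (W i)).comap (inclW B W hBW i)

instance vPrime_isPrime (i : ι) : (vPrime B W hBW i).IsPrime :=
  Ideal.comap_isPrime _ _

theorem mem_vPrime_iff (i : ι) (b : B) :
    b ∈ vPrime B W hBW i ↔ (b : F) ∈ (W i).nonunits := by
  unfold vPrime
  rw [Ideal.mem_comap, ← ValuationSubring.coe_mem_nonunits_iff]
  rfl

/-- the vertical radical. -/
def vRad : Ideal B := ⨅ i, vPrime B W hBW i

theorem mem_vRad_iff (b : B) : b ∈ vRad B W hBW ↔ ∀ i, (b : F) ∈ (W i).nonunits := by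
  unfold vRad
  rw [Ideal.mem_iInf]
  exact forall_congr' fun i => mem_vPrime_iff B W hBW i b

theorem vRad_le_vPrime (i : ι) : vRad B W hBW ≤ vPrime B W hBW i := iInf_le _ i

/-- `u ≡ 1` on every component ⟹ `u - 1` lies in the vertical radical. -/
theorem sub_one_mem_vRad {u : B} (hu : ∀ i, (u : F) - 1 ∈ (W i).nonunits) :
    u - 1 ∈ vRad B W hBW := by
  rw [mem_vRad_iff]
  intro i
  simpa using hu i

/-- **`vRad ^ e ⊆ (q)`.** -/
theorem vRad_pow_le (q : R) (hq0 : algebraMap R F q ≠ 0) (e : ℕ)
    (hqe : ∀ i, IsLocalRing.maximalIdeal (W i) ^ e ≤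
      Ideal.span {inclW B W hBW i (algebraMap R B q)})
    (hdiv : ∀ z ∈ B, (∀ i, z / algebraMap R F q ∈ W i) → z / algebraMap R F q ∈ B) :
    vRad B W hBW ^ e ≤ Ideal.span {algebraMap R B q} := by
  intro z hz
  have key : ∀ i, (z : F) / algebraMap R F q ∈ W i := by
    intro i
    have h1 : inclW B W hBW i z ∈ (vRad B W hBW ^ e).map (inclW B W hBW i) :=
      Ideal.mem_map_of_mem _ hz
    rw [Ideal.map_pow] at h1
    have h2 : (vRad B W hBW).map (inclW B W hBW i) ≤ IsLocalRing.maximalIdeal (W i) := by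
      rw [Ideal.map_le_iff_le_comap]
      exact vRad_le_vPrime B W hBW i
    have h3 := hqe i (Ideal.pow_right_mono h2 e h1)
    obtain ⟨c, hc⟩ := Ideal.mem_span_singleton'.mp h3
    have hc' : (c : F) * algebraMap R F q = (z : F) := by
      have := congrArg (fun w : W i => (w : F)) hc
      simpa using this
    have : (z : F) / algebraMap R F q = (c : F) := by
      rw [← hc', mul_div_assoc, div_self hq0, mul_one]
    rw [this]
    exact c.2
  have hzB := hdiv (z : F) z.2 key
  rw [Ideal.mem_span_singleton']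
  refine ⟨⟨(z : F) / algebraMap R F q, hzB⟩, ?_⟩
  apply Subtype.ext
  show (z : F) / algebraMap R F q * algebraMap R F q = (z : F)
  rw [div_mul_cancel₀ _ hq0]

/-- a prime of `B` containing `q` contains the vertical radical. -/
theorem vRad_le_of_mem (q : R) (e : ℕ)
    (hrad : vRad B W hBW ^ e ≤ Ideal.span {algebraMap R B q})
    (x : Ideal B) [x.IsPrime] (hqx : algebraMap R B q ∈ x) : vRad B W hBW ≤ x := by
  intro b hb
  have h1 : b ^ e ∈ Ideal.span {algebraMap R B q} := hrad (Ideal.pow_mem_pow hb e)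
  have h2 : b ^ e ∈ x := (Ideal.span_singleton_le_iff_mem (I := x)).mpr hqx h1
  exact Ideal.IsPrime.mem_of_pow_mem ‹_› e h2

/-- **a branch through every point of the fibre.** -/
theorem exists_branch [Finite ι] (q : R) (e : ℕ)
    (hrad : vRad B W hBW ^ e ≤ Ideal.span {algebraMap R B q})
    (x : Ideal B) [hx : x.IsPrime] (hqx : algebraMap R B q ∈ x) :
    ∃ i, vPrime B W hBW i ≤ x := by
  classical
  cases nonempty_fintype ι
  have h1 : vRad B W hBW ≤ x := vRad_le_of_mem B W hBW q e hrad x hqx
  have h2 : (Finset.univ : Finset ι).inf (vPrime B W hBW) ≤ x := by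
    refine le_trans ?_ h1
    unfold vRad
    rw [Finset.inf_univ_eq_iInf]
  obtain ⟨i, -, hi⟩ := (Ideal.IsPrime.inf_le' hx).mp h2
  exact ⟨i, hi⟩

/-- **separator**: an element outside `x` vanishing on every component not through `x`. -/
theorem exists_separator [Finite ι] (x : Ideal B) [hx : x.IsPrime] :
    ∃ c : B, c ∉ x ∧ ∀ j, ¬ vPrime B W hBW j ≤ x → c ∈ vPrime B W hBW j := by
  classical
  cases nonempty_fintype ι
  have key : ∀ j, ¬ vPrime B W hBW j ≤ x → ∃ c : B, c ∈ vPrime B W hBW j ∧ c ∉ x := by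
    intro j hj
    exact Set.not_subset.mp hj
  choose! c hc1 hc2 using key
  refine ⟨∏ j ∈ Finset.univ.filter (fun j => ¬ vPrime B W hBW j ≤ x), c j, ?_, ?_⟩
  · intro h
    rw [Ideal.IsPrime.prod_mem_iff] at h
    obtain ⟨j, hj, hjx⟩ := h
    exact hc2 j (Finset.mem_filter.mp hj).2 hjx
  · intro j hj
    have hmem : j ∈ Finset.univ.filter (fun j => ¬ vPrime B W hBW j ≤ x) :=
      Finset.mem_filter.mpr ⟨Finset.mem_univ _, hj⟩
    exact Ideal.mem_of_dvd _ (Finset.dvd_prod_of_mem _ hmem) (hc1 j hj)

/-- a separator times an element vanishing on all the branches through `x` lies in `vRad`. -/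
theorem separator_mul_mem_vRad (x : Ideal B) {c z : B}
    (hc : ∀ j, ¬ vPrime B W hBW j ≤ x → c ∈ vPrime B W hBW j)
    (hz : ∀ i, vPrime B W hBW i ≤ x → z ∈ vPrime B W hBW i) : c * z ∈ vRad B W hBW := by
  unfold vRad
  rw [Ideal.mem_iInf]
  intro i
  by_cases hi : vPrime B W hBW i ≤ x
  · exact Ideal.mul_mem_left _ _ (hz i hi)
  · exact Ideal.mul_mem_right _ _ (hc i hi)

end Fermat.Agent.GL.Frame
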