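/-
GATE-L / KUMMER-UFD (helper46; the `kummer_datum_of_ufd` item of helper47's FRAME plan 2745,
= the (LOC-gen)/REG_n input of STACK RULING 2 (2764 (2)) from factoriality).

`O` a UFD with fraction field `F`, `u : F` nonzero such that at every prime element `π` of `O`
the element `u` is a unit times an `m`-th power in the DVR `O_(π)`:

  (DIV π)  `∃ t a b, ¬ π ∣ a ∧ ¬ π ∣ b ∧ t ^ m * u * b = a`    (i.e. `m ∣ ord_π u`).

Then `u` is a unit of `O` times an `m`-th power: `∃ g ≠ 0, ∃ ε : Oˣ, g ^ m * u = ε`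
(`kummer_datum_of_ufd`).  Localisation corollary `exists_hloc_of_ufd`: if `O` is the
localisation of `B` at a prime `P`, this is the local input `hloc` of
`KummerMove.kummer_move` verbatim.
-/
import Mathlib

set_option autoImplicit false
set_option linter.unusedSectionVars false
set_option linter.unusedVariables false

namespace Fermat.Agent.GL.KummerUFD

variable {O : Type*} [CommRing O] [IsDomain O] [UniqueFactorizationMonoid O]

/-- (P): a nonzero element of a UFD all of whose prime multiplicities are divisible by `m` is a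
unit times an `m`-th power. -/
theorem exists_eq_unit_mul_pow {m : ℕ} (hm : m ≠ 0) (x : O) :
    x ≠ 0 → (∀ π : O, Prime π → m ∣ multiplicity π x) →
      ∃ (y : O) (ε : Oˣ), x = ε * y ^ m := by
  refine WellFounded.induction (C := fun x : O => x ≠ 0 →
    (∀ π : O, Prime π → m ∣ multiplicity π x) → ∃ (y : O) (ε : Oˣ), x = ε * y ^ m)
    (wellFounded_dvdNotUnit (α := O)) x ?_
  intro x ih hx0 hdiv
  by_cases hu : IsUnit x
  · obtain ⟨ε, rfl⟩ := hu
    exact ⟨1, ε, by rw [one_pow, mul_one]⟩
  obtain ⟨π, hπirr, hπx⟩ := WfDvdMonoid.exists_irreducible_factor hu hx0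
  have hπ : Prime π := UniqueFactorizationMonoid.irreducible_iff_prime.mp hπirr
  have hfin : FiniteMultiplicity π x := FiniteMultiplicity.of_prime_left hπ hx0
  have h1 : 1 ≤ multiplicity π x := hfin.le_multiplicity_of_pow_dvd (by rwa [pow_one])
  obtain ⟨j, hj⟩ := hdiv π hπ
  have hmle : m ≤ multiplicity π x := by
    rw [hj]
    have : 1 ≤ j := by
      rcases Nat.eq_zero_or_pos j with h0 | h0
      · rw [h0, mul_zero] at hj; omega
      · exact h0
    exact Nat.le_mul_of_pos_right m this
  have hpow : π ^ m ∣ x := dvd_trans (pow_dvd_pow π hmle) (pow_multiplicity_dvd π x)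
  obtain ⟨x', rfl⟩ := hpow
  have hx'0 : x' ≠ 0 := right_ne_zero_of_mul hx0
  have hπm : ¬ IsUnit (π ^ m) := fun h => hπ.not_isUnit ((isUnit_pow_iff hm).mp h)
  have hlt : DvdNotUnit x' (π ^ m * x') := ⟨hx'0, π ^ m, hπm, mul_comm _ _⟩
  have hdiv' : ∀ ρ : O, Prime ρ → m ∣ multiplicity ρ x' := by
    intro ρ hρ
    have hfinρ : FiniteMultiplicity ρ (π ^ m * x') := FiniteMultiplicity.of_prime_left hρ hx0
    have e1 := multiplicity_mul hρ hfinρ
    have e2 : multiplicity ρ (π ^ m) = m * multiplicity ρ π :=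
      (FiniteMultiplicity.of_prime_left hρ hπ.ne_zero).multiplicity_pow hρ
    have h := hdiv ρ hρ
    rw [e1, e2] at h
    exact (Nat.dvd_add_right (dvd_mul_right m _)).mp h
  obtain ⟨y, ε, hy⟩ := ih x' hlt hx'0 hdiv'
  exact ⟨π * y, ε, by rw [hy]; ring⟩

variable {F : Type*} [Field F] [Algebra O F] [IsFractionRing O F]

/-- **kummer_datum_of_ufd.** -/
theorem kummer_datum_of_ufd {m : ℕ} (hm : m ≠ 0) {u : F} (hu : u ≠ 0)
    (hdiv : ∀ π : O, Prime π → ∃ (t : F) (a b : O), ¬ π ∣ a ∧ ¬ π ∣ b ∧
      t ^ m * u * algebraMap O F b = algebraMap O F a) :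
    ∃ g : F, g ≠ 0 ∧ ∃ ε : Oˣ, g ^ m * u = algebraMap O F ε := by
  have hinj : Function.Injective (algebraMap O F) := IsFractionRing.injective O F
  obtain ⟨a, ⟨b, hb⟩, hrel, hab⟩ := IsFractionRing.exists_reduced_fraction (A := O) u
  have hb0 : b ≠ 0 := nonZeroDivisors.ne_zero hb
  have hbF : algebraMap O F b ≠ 0 := fun h => hb0 (hinj (by rw [h, map_zero]))
  have hu' : u = algebraMap O F a / algebraMap O F b := by
    rw [← hab, IsFractionRing.mk'_eq_div]
  have ha0 : a ≠ 0 := by
    rintro rfl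
    rw [map_zero, zero_div] at hu'
    exact hu hu'
  have haF : algebraMap O F a ≠ 0 := fun h => ha0 (hinj (by rw [h, map_zero]))
  -- all multiplicities of `a` and `b` are divisible by `m`
  have key : ∀ π : O, Prime π → m ∣ multiplicity π a ∧ m ∣ multiplicity π b := by
    intro π hπ
    obtain ⟨t, a', b', ha', hb', h⟩ := hdiv π hπ
    have ha'0 : a' ≠ 0 := fun h0 => ha' (h0 ▸ dvd_zero π)
    have hb'0 : b' ≠ 0 := fun h0 => hb' (h0 ▸ dvd_zero π)
    obtain ⟨c, d, hd, rfl⟩ := IsFractionRing.div_surjective (A := O) t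
    have hd0 : d ≠ 0 := nonZeroDivisors.ne_zero hd
    have hdF : algebraMap O F d ≠ 0 := fun h => hd0 (hinj (by rw [h, map_zero]))
    have hc0 : c ≠ 0 := by
      rintro rfl
      rw [map_zero, zero_div, zero_pow hm, zero_mul, zero_mul] at h
      exact ha'0 (hinj (by rw [← h, map_zero]))
    -- the equation in `O`
    have heq : c ^ m * a * b' = a' * b * d ^ m := by
      apply hinj
      simp only [map_mul, map_pow]
      rw [hu', div_pow] at h
      field_simp at h
      linear_combination h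
    have hL0 : c ^ m * a * b' ≠ 0 := mul_ne_zero (mul_ne_zero (pow_ne_zero _ hc0) ha0) hb'0
    have hR0 : a' * b * d ^ m ≠ 0 := heq ▸ hL0
    have fm : ∀ {z : O}, z ≠ 0 → FiniteMultiplicity π z := fun hz =>
      FiniteMultiplicity.of_prime_left hπ hz
    have mL : multiplicity π (c ^ m * a * b') =
        m * multiplicity π c + multiplicity π a + multiplicity π b' := by
      rw [multiplicity_mul hπ (fm hL0),
        multiplicity_mul hπ (fm (mul_ne_zero (pow_ne_zero _ hc0) ha0)),
        (fm hc0).multiplicity_pow hπ]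
    have mR : multiplicity π (a' * b * d ^ m) =
        multiplicity π a' + multiplicity π b + m * multiplicity π d := by
      rw [multiplicity_mul hπ (fm hR0), multiplicity_mul hπ (fm (mul_ne_zero ha'0 hb0)),
        (fm hd0).multiplicity_pow hπ]
    have za' : multiplicity π a' = 0 := multiplicity_eq_zero.mpr ha'
    have zb' : multiplicity π b' = 0 := multiplicity_eq_zero.mpr hb'
    have hsum : m * multiplicity π c + multiplicity π a =
        multiplicity π b + m * multiplicity π d := by
      have := congrArg (multiplicity π) heq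
      rw [mL, mR, za', zb'] at this
      omega
    -- coprimality: `π` does not divide both
    have hnot : ¬ (π ∣ a ∧ π ∣ b) := fun ⟨h1, h2⟩ => hπ.not_isUnit (hrel h1 h2)
    by_cases hπa : π ∣ a
    · have zb : multiplicity π b = 0 := multiplicity_eq_zero.mpr (fun h2 => hnot ⟨hπa, h2⟩)
      rw [zb, zero_add] at hsum
      refine ⟨?_, by rw [zb]; exact dvd_zero m⟩
      have h3 : m ∣ m * multiplicity π c + multiplicity π a := ⟨_, hsum⟩
      exact (Nat.dvd_add_right (dvd_mul_right m _)).mp h3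
    · have za : multiplicity π a = 0 := multiplicity_eq_zero.mpr hπa
      rw [za, add_zero] at hsum
      refine ⟨by rw [za]; exact dvd_zero m, ?_⟩
      have h3 : m ∣ multiplicity π b + m * multiplicity π d := ⟨_, hsum.symm⟩
      exact (Nat.dvd_add_left (dvd_mul_right m _)).mp h3
  obtain ⟨ya, εa, hya⟩ := exists_eq_unit_mul_pow hm a ha0 (fun π hπ => (key π hπ).1)
  obtain ⟨yb, εb, hyb⟩ := exists_eq_unit_mul_pow hm b hb0 (fun π hπ => (key π hπ).2)
  have hya0 : ya ≠ 0 := by
    rintro rfl
    rw [zero_pow hm, mul_zero] at hya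
    exact ha0 hya
  have hyb0 : yb ≠ 0 := by
    rintro rfl
    rw [zero_pow hm, mul_zero] at hyb
    exact hb0 hyb
  have hyaF : algebraMap O F ya ≠ 0 := fun h => hya0 (hinj (by rw [h, map_zero]))
  have hybF : algebraMap O F yb ≠ 0 := fun h => hyb0 (hinj (by rw [h, map_zero]))
  have hεbF : algebraMap O F (εb : O) ≠ 0 := fun h =>
    εb.ne_zero (hinj (by rw [h, map_zero]))
  refine ⟨algebraMap O F yb / algebraMap O F ya, div_ne_zero hybF hyaF, εa * εb⁻¹, ?_⟩
  have hinv : algebraMap O F ((εb⁻¹ : Oˣ) : O) = (algebraMap O F (εb : O))⁻¹ := by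
    apply eq_inv_of_mul_eq_one_left
    rw [← map_mul, ← Units.val_mul, inv_mul_cancel, Units.val_one, map_one]
  have hgoal : (algebraMap O F yb / algebraMap O F ya) ^ m * u =
      algebraMap O F (εa : O) * (algebraMap O F (εb : O))⁻¹ := by
    rw [hu', hya, hyb]
    simp only [map_mul, map_pow, div_pow]
    field_simp
  rw [hgoal, Units.val_mul, map_mul, hinv]

/-- localisation corollary: the local input `hloc` of `KummerMove.kummer_move`. -/
theorem exists_hloc_of_ufd {B : Type*} [CommRing B] (P : Ideal B) [P.IsPrime] [Algebra B O]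
    [IsLocalization.AtPrime O P] [Algebra B F] [IsScalarTower B O F]
    {m : ℕ} (hm : m ≠ 0) {u : F} (hu : u ≠ 0)
    (hdiv : ∀ π : O, Prime π → ∃ (t : F) (a b : O), ¬ π ∣ a ∧ ¬ π ∣ b ∧
      t ^ m * u * algebraMap O F b = algebraMap O F a) :
    ∃ g : F, ∃ a s : B, a ∉ P ∧ s ∉ P ∧
      g ^ m * u * algebraMap B F s = algebraMap B F a := by
  obtain ⟨g, -, ε, hε⟩ := kummer_datum_of_ufd hm hu hdiv
  obtain ⟨⟨a, s⟩, hmk⟩ := IsLocalization.mk'_surjective P.primeCompl (ε : O)
  have hmk' : IsLocalization.mk' O a s = (ε : O) := hmk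
  have ha : a ∈ P.primeCompl := by
    rw [← IsLocalization.AtPrime.isUnit_mk'_iff O P a s, hmk']
    exact ε.isUnit
  refine ⟨g, a, s, ha, s.2, ?_⟩
  have h1 := IsLocalization.mk'_spec O a s
  rw [hmk'] at h1
  have h2 := congrArg (algebraMap O F) h1
  rw [map_mul, ← IsScalarTower.algebraMap_apply, ← IsScalarTower.algebraMap_apply] at h2
  rw [hε]; exact h2

end Fermat.Agent.GL.KummerUFD
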