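/-
GATE-L / L6a FRAME, abstract part 2 (helper47): the TRIPLE lemma.

`A → B` an integral extension of chart rings (`A` = level `qM'r`, `B` = level `q²M'r`, the map is
`π^*` or `π'^*`), `x'` a closed point of `A` (a node of the lower level), `P` a vertical prime
of `B` (the component `C₂` for `π`, `C₁` for `π'`).

* `le_of_comap_eq` : if `P` is principal semilocally over `x'` with a generator `y` coming from
  `x'` (`∀ z ∈ P, ∃ s ∈ A ∖ x', s z ∈ y B`: this is REG(3) of BLUEPRINT v2), then EVERY prime of `B`
  lying over `x'` contains `P` (every point over the node lies on the component `P`).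
* `eq_of_pow_sub_mem` : if `B / P` is purely inseparable over `A / (P ∩ A)`
  (`∀ b, ∃ a, b ^ n - a ∈ P`), two primes containing `P` with the same contraction coincide
  (the component maps injectively on points).
* `existsUnique_over` : hence there is EXACTLY ONE maximal ideal `x` of `B` over `x'`.
* `le_of_comap_le` : and it lies on every component `Q` of `B` whose image passes through `x'`
  (`Q ∩ A ⊆ x'`): the unique point over a node is a TRIPLE point.
* `branch_dichotomy` : the point classification: a prime `x` of `B` containing two vertical primes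
  `Q₁ ≠ Q₂`-components whose images are DIFFERENT components `P'₁`, `P'₂` of `A` lies over a
  two-branch point of `A`.

Mathlib only.
-/
import Mathlib

set_option autoImplicit false

namespace Fermat.Agent.GL.Frame

variable {A B : Type*} [CommRing A] [CommRing B] [Algebra A B]

/-- every prime over `x'` contains the semilocally principal vertical prime `P`. -/
theorem le_of_comap_eq (x' : Ideal A) (P : Ideal B) (y : A) (hy : y ∈ x')
    (hloc : ∀ z ∈ P, ∃ s : A, s ∉ x' ∧ ∃ b : B, algebraMap A B s * z = algebraMap A B y * b)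
    (x : Ideal B) [x.IsPrime] (hx : x.comap (algebraMap A B) = x') : P ≤ x := by
  intro z hz
  obtain ⟨s, hs, b, hb⟩ := hloc z hz
  have hyx : algebraMap A B y ∈ x := by
    have : y ∈ x.comap (algebraMap A B) := hx ▸ hy
    exact this
  have hsx : algebraMap A B s ∉ x := by
    intro h
    apply hs
    rw [← hx]
    exact h
  have h1 : algebraMap A B s * z ∈ x := by
    rw [hb]
    exact x.mul_mem_right _ hyx
  exact (Ideal.IsPrime.mem_or_mem ‹_› h1).resolve_left hsx

/-- a component which is purely inseparable over its image maps injectively on points. -/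
theorem eq_of_pow_sub_mem (P : Ideal B) (n : ℕ) (hn : 0 < n)
    (hpi : ∀ b : B, ∃ a : A, b ^ n - algebraMap A B a ∈ P)
    (x1 x2 : Ideal B) [x1.IsPrime] [x2.IsPrime] (h1 : P ≤ x1) (h2 : P ≤ x2)
    (h : x1.comap (algebraMap A B) = x2.comap (algebraMap A B)) : x1 = x2 := by
  have key : ∀ (x x0 : Ideal B) [x.IsPrime] [x0.IsPrime], P ≤ x → P ≤ x0 →
      x.comap (algebraMap A B) = x0.comap (algebraMap A B) → x ≤ x0 := by
    intro x x0 _ _ hP hP0 hc b hb
    obtain ⟨a, ha⟩ := hpi b
    have h3 : algebraMap A B a ∈ x := by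
      have : algebraMap A B a = b ^ n - (b ^ n - algebraMap A B a) := by ring
      rw [this]
      exact x.sub_mem (Ideal.pow_mem_of_mem x hb n hn) (hP ha)
    have h4 : a ∈ x0.comap (algebraMap A B) := hc ▸ (show a ∈ x.comap (algebraMap A B) from h3)
    have h5 : b ^ n ∈ x0 := by
      have : b ^ n = (b ^ n - algebraMap A B a) + algebraMap A B a := by ring
      rw [this]
      exact x0.add_mem (hP0 ha) h4
    exact Ideal.IsPrime.mem_of_pow_mem ‹_› n h5
  exact le_antisymm (key x1 x2 h1 h2 h) (key x2 x1 h2 h1 h.symm)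

/-- **point classification, key step**: if a prime `x` of `B` contains two vertical primes
`Q₁`, `Q₂` whose contractions are the two components `P'₁`, `P'₂` of `A`, then `x ∩ A` contains
both components of `A` (it is a two-branch point = node of the lower level). -/
theorem comap_ge_of_branches (x : Ideal B) (Q1 Q2 : Ideal B) (h1 : Q1 ≤ x) (h2 : Q2 ≤ x) :
    Q1.comap (algebraMap A B) ⊔ Q2.comap (algebraMap A B) ≤ x.comap (algebraMap A B) :=
  sup_le (Ideal.comap_mono h1) (Ideal.comap_mono h2)

variable [Algebra.IsIntegral A B]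

/-- **TRIPLE, part 1**: exactly one maximal ideal of `B` lies over the node `x'`. -/
theorem existsUnique_over (hinj : Function.Injective (algebraMap A B))
    (x' : Ideal A) [x'.IsMaximal] (P : Ideal B) (y : A) (hy : y ∈ x')
    (hloc : ∀ z ∈ P, ∃ s : A, s ∉ x' ∧ ∃ b : B, algebraMap A B s * z = algebraMap A B y * b)
    (n : ℕ) (hn : 0 < n) (hpi : ∀ b : B, ∃ a : A, b ^ n - algebraMap A B a ∈ P) :
    ∃! x : Ideal B, x.IsMaximal ∧ x.comap (algebraMap A B) = x' := by
  have hker : RingHom.ker (algebraMap A B) ≤ x' := by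
    rw [(RingHom.injective_iff_ker_eq_bot _).mp hinj]
    exact bot_le
  obtain ⟨x, hxmax, hx⟩ := Ideal.exists_ideal_over_maximal_of_isIntegral x' hker
  refine ⟨x, ⟨hxmax, hx⟩, ?_⟩
  rintro x2 ⟨hx2max, hx2⟩
  have := hxmax.isPrime
  have := hx2max.isPrime
  exact eq_of_pow_sub_mem P n hn hpi x2 x (le_of_comap_eq x' P y hy hloc x2 hx2)
    (le_of_comap_eq x' P y hy hloc x hx) (hx2.trans hx.symm)

/-- **TRIPLE, part 2**: the unique point over `x'` lies on every component `Q` of `B` whose image
passes through `x'`. -/
theorem le_of_comap_le (x' : Ideal A) [x'.IsMaximal]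
    (x : Ideal B)
    (huniq : ∀ x2 : Ideal B, x2.IsMaximal → x2.comap (algebraMap A B) = x' → x2 = x)
    (Q : Ideal B) (hQ : Q.comap (algebraMap A B) ≤ x') : Q ≤ x := by
  obtain ⟨x2, hQx2, hx2p, hx2⟩ := Ideal.exists_ideal_over_prime_of_isIntegral x' Q hQ
  have hx2max : x2.IsMaximal :=
    Ideal.isMaximal_of_isIntegral_of_isMaximal_comap x2 (hx2.symm ▸ ‹x'.IsMaximal›)
  rw [← huniq x2 hx2max hx2]
  exact hQx2

end Fermat.Agent.GL.Frame
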