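import Fermat.Agent.GL.Frame.TripleAbs
import Fermat.Agent.GL.Frame.LocDispatch

/-!
# GATE-L / (A1) input (C4), the two producers (helper30; complements helper38 `ClassifyC4.lean`)

* `principalAt_of_map_eq_span` : the bridge from helper28's localisation form of REG at a node
  (`P · O'_{x'} = (y)`, `EtaThick.map_eq_span_singleton_at_node`) to helper83's fraction-free
  `TripleAbs.PrincipalAt P x' y`;
* `eq_of_comap_eq_vert` : **`P2` is the ONLY prime of `B` over `P2'`**, from Krull's principal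
  ideal theorem in `B`, the list `hvert` of the vertical height-one primes, the rows
  `P1 ∩ A = P1'`, `P2 ∩ A = P2'`, `P3 ∩ A = P1'`, `P1' ⊄ P2'` and incomparability;
* `hTalpha` : the hypothesis `hTα` of `ClassifySS.classify` from the two.
-/

set_option autoImplicit false

namespace Fermat.Agent.GL.Frame.UniqueOver

open Fermat.Agent.GL Fermat.Agent.GL.Frame.TripleAbs Fermat.Agent.GL.Frame.HeightOne
  Fermat.Agent.GL.Frame.LocDispatch

section Bridge

variable {A : Type*} [CommRing A]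

/-- **localisation form ⟹ fraction-free form** of "`P` is principal at `x'` with generator `y`" -/
theorem principalAt_of_map_eq_span (P x' : Ideal A) [x'.IsPrime] (O' : Type*) [CommRing O']
    [Algebra A O'] [IsLocalization.AtPrime O' x'] {y : A} (hy : y ∈ P)
    (h : P.map (algebraMap A O') = Ideal.span {algebraMap A O' y}) : PrincipalAt P x' y := by
  refine ⟨hy, fun a ha => ?_⟩
  have h1 : algebraMap A O' a ∈ Ideal.span {algebraMap A O' y} := by
    rw [← h]; exact Ideal.mem_map_of_mem _ ha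
  obtain ⟨z, hz⟩ := Ideal.mem_span_singleton'.mp h1
  obtain ⟨⟨b, t⟩, hbt⟩ := IsLocalization.surj x'.primeCompl z
  -- `z * t = b`, hence `t * a = b * y` in `O'`
  have h2 : algebraMap A O' ((t : A) * a) = algebraMap A O' (b * y) := by
    rw [map_mul, map_mul, ← hz, ← hbt]; ring
  obtain ⟨u, hu⟩ := (IsLocalization.eq_iff_exists x'.primeCompl O').mp h2
  refine ⟨(u : A) * t, ?_, (u : A) * b, ?_⟩
  · exact (x'.primeCompl.mul_mem u.2 t.2)
  · rw [mul_assoc, hu, mul_assoc]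

end Bridge

section Unique

variable {A B : Type*} [CommRing A] [CommRing B] [IsDomain B] [IsNoetherianRing B]
  [IsIntegrallyClosed B]

/-- **`P2` is the only prime of `B` over `P2'`.**  `q'` an element of `P2'` with nonzero image
(the uniformiser of the base), `hvert` the list of the height-one primes of `B` through it. -/
theorem eq_of_comap_eq_vert (φ : A →+* B) (hφ : φ.IsIntegral)
    (P1' P2' : Ideal A) (P1 P2 P3 : Ideal B) [hP2 : P2.IsPrime]
    (hα1 : P1.comap φ = P1') (hα2 : P2.comap φ = P2') (hα3 : P3.comap φ = P1')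
    (hnle : ¬ P1' ≤ P2') (q' : A) (hq'0 : φ q' ≠ 0) (hq' : q' ∈ P2')
    (hvert : ∀ 𝔭 : HtOne B, φ q' ∈ 𝔭.1 → 𝔭.1 = P1 ∨ 𝔭.1 = P2 ∨ 𝔭.1 = P3)
    (Q : Ideal B) (hQ : Q.IsPrime) (hQc : Q.comap φ = P2') : Q = P2 := by
  have hqQ : φ q' ∈ Q := by
    have : q' ∈ Q.comap φ := hQc ▸ hq'
    exact this
  obtain ⟨𝔭, hq𝔭, h𝔭Q⟩ := exists_htOne_le hq'0 Q hqQ
  have hcomap : 𝔭.1.comap φ ≤ P2' := hQc ▸ Ideal.comap_mono h𝔭Q
  have h𝔭2 : 𝔭.1 = P2 := by
    rcases hvert 𝔭 hq𝔭 with h | h | h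
    · exact absurd (hα1 ▸ h ▸ hcomap) hnle
    · exact h
    · exact absurd (hα3 ▸ h ▸ hcomap) hnle
  have hle : P2 ≤ Q := h𝔭2 ▸ h𝔭Q
  by_contra hne
  have hlt : P2 < Q := lt_of_le_of_ne hle (Ne.symm hne)
  letI := φ.toAlgebra
  have : Algebra.IsIntegral A B := ⟨hφ⟩
  have h := Ideal.IsIntegral.comap_lt_comap (R := A) hlt
  have e1 : P2.comap (algebraMap A B) = P2' := hα2
  have e2 : Q.comap (algebraMap A B) = P2' := hQc
  rw [e1, e2] at h
  exact lt_irrefl _ h

end Unique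

section HT

variable {A B : Type*} [CommRing A] [CommRing B] [IsDomain A] [IsDomain B] [IsIntegrallyClosed A]
  [IsNoetherianRing B] [IsIntegrallyClosed B]

/-- **`hTα` of `ClassifySS.classify`**: every prime of `B` (level `q²M'r`) whose contraction along
`φα` contains a node `P1' ⊔ P2'` of `A` (level `qM'r`) contains `P2`. -/
theorem hTalpha (φ : A →+* B) (hφ : φ.IsIntegral) (hinj : Function.Injective φ)
    (P1' P2' : Ideal A) [hP2' : P2'.IsPrime] (P1 P2 P3 : Ideal B) [hP2 : P2.IsPrime]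
    (hα1 : P1.comap φ = P1') (hα2 : P2.comap φ = P2') (hα3 : P3.comap φ = P1')
    (hnle : ¬ P1' ≤ P2') (q' : A) (hq'0 : q' ≠ 0) (hq' : q' ∈ P2')
    (hvert : ∀ 𝔭 : HtOne B, φ q' ∈ 𝔭.1 → 𝔭.1 = P1 ∨ 𝔭.1 = P2 ∨ 𝔭.1 = P3)
    (hnode : ∀ x' : Ideal A, x'.IsPrime → P1' ⊔ P2' ≤ x' → ∃ y : A, y ≠ 0 ∧ PrincipalAt P2' x' y)
    (x2 : Ideal B) (hx2 : x2.IsPrime) (hx : P1' ⊔ P2' ≤ x2.comap φ) : P2 ≤ x2 := by
  have hφq : φ q' ≠ 0 := fun h => hq'0 (hinj (h.trans (map_zero φ).symm))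
  have huniq : ∀ Q : Ideal B, Q.IsPrime → Q.comap φ = P2' → Q = P2 :=
    eq_of_comap_eq_vert φ hφ P1' P2' P1 P2 P3 hα1 hα2 hα3 hnle q' hφq hq' hvert
  obtain ⟨y, hy0, hprin⟩ := hnode (x2.comap φ) (Ideal.comap_isPrime φ x2) hx
  letI := φ.toAlgebra
  have : Algebra.IsIntegral A B := ⟨hφ⟩
  have : FaithfulSMul A B := (faithfulSMul_iff_algebraMap_injective A B).mpr hinj
  have hyx : algebraMap A B y ∈ x2 := by
    have : y ∈ x2.comap φ := hx (Ideal.mem_sup_right hprin.1)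
    exact this
  exact le_of_under_le (B' := A) (B := B) hy0 hprin (P := P2) huniq (x := x2)
    (le_refl (x2.comap (algebraMap A B))) hyx

end HT

end Fermat.Agent.GL.Frame.UniqueOver
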