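import Mathlib
import Fermat.Agent.GL.Alg.KrullHeightOne
import Fermat.Agent.GL.Local.KrullFrame

/-!
# GATE-L / L6a FRAME (helper9): the vertical primes of an integral closure

`A` an integrally closed domain (in use `A = R[1/h]`, `R` the unramified DVR), `π : A` a prime
element (in use `π = q`), `B` a noetherian integrally closed domain, integral over `A`
(in use `B = integralClosure A F_L`), `L = Frac B`.

* `under_eq_span_of_mem_minimalPrimes` : a minimal prime of `π B` lies over `(π)` (going-down).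
* `algebraMap_mem_nonunits_valSub_iff` : `B ∩ 𝔪(B_𝔭) = 𝔭`.
* `centre` : the centre on `B` of a valuation subring of `L` containing `B`.
* `exists_eq_vertSub` : NOEXT consumer — if every valuation subring of `L` containing `A` with
  centre `(π)` on `A` is one of the `W i`, then every vertical height-one valuation ring of `B`
  is one of the `W i`.
* `centre_mem_minimalPrimes`, `valSub_centre_le`, `minimalPrimes_eq_range_centre` : conversely each
  `W i ⊇ A` with centre `(π)` on `A` has centre on `B` a minimal prime of `π B`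
  (incomparability), and `{minimal primes of π B} = {centre (W i)}`.
* `radical_span_eq_iInf_centre`, `exists_centre_le` : `rad (π B) = ⋂ P_i`; every prime `𝔫 ∋ π`
  contains some `P_i` (the branch set of a closed point of the fibre is non-empty).
* `isFrame_heightOne` : helper46's `KrullFrame.IsFrame` for the family of ALL height-one
  localisations of `B`, with `over_iff : Over V 𝔫 v ↔ v ≤ 𝔫`.
* `exists_smul_mem_of_horizontal_of_vertical` : LOCAL membership test
  `f ∈ B_𝔫 ⟸ f ∈ B[1/π]` and `f ∈ B_𝔮` for the vertical primes `𝔮 ≤ 𝔫` only.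
* `exists_smul_mem_span_of_mem` : unmixedness at a one-branch point: if `𝔮` is the only vertical
  prime below `𝔫` and `π` generates `𝔮 B_𝔮` then `𝔮 B_𝔫 = π B_𝔫`.
-/

set_option autoImplicit false
set_option linter.unusedSectionVars false

namespace Fermat.Agent.GL.Frame.VertPrimes

open Fermat.Agent.GL.KrullHeightOne Fermat.Agent.GL.KrullFrame

/-! ### Going down: minimal primes of `π B` lie over `(π)` -/

section GoingDown

variable {A B : Type*} [CommRing A] [IsDomain A] [IsIntegrallyClosed A] [CommRing B] [IsDomain B]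
  [Algebra A B] [FaithfulSMul A B] [Algebra.IsIntegral A B]

/-- **a minimal prime of `π B` lies over `(π)`** -/
theorem under_eq_span_of_mem_minimalPrimes {π : A} (hπ : Prime π) {𝔮 : Ideal B}
    (h𝔮 : 𝔮 ∈ (Ideal.span {algebraMap A B π}).minimalPrimes) :
    𝔮.under A = Ideal.span {π} := by
  have hq : 𝔮.IsPrime := h𝔮.1.1
  have hp : (Ideal.span {π} : Ideal A).IsPrime := (Ideal.span_singleton_prime hπ.ne_zero).mpr hπ
  have hπq : algebraMap A B π ∈ 𝔮 := h𝔮.1.2 (Ideal.mem_span_singleton_self _)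
  have hle : Ideal.span {π} ≤ 𝔮.under A := by
    rw [Ideal.span_singleton_le_iff_mem]
    exact hπq
  by_contra hne
  have hlt : Ideal.span {π} < 𝔮.under A := lt_of_le_of_ne hle (Ne.symm hne)
  obtain ⟨P, hPQ, hPp, hPo⟩ := Algebra.HasGoingDown.exists_ideal_le_liesOver_of_lt 𝔮 hlt
  have hπP : algebraMap A B π ∈ P := by
    have : π ∈ P.under A := by
      rw [← hPo.over]
      exact Ideal.mem_span_singleton_self π
    exact this
  have hQP : 𝔮 ≤ P :=
    h𝔮.2 ⟨hPp, (Ideal.span_singleton_le_iff_mem _).mpr hπP⟩ hPQ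
  have hPeq : P = 𝔮 := le_antisymm hPQ hQP
  apply hne
  rw [← hPeq]
  exact hPo.over.symm

end GoingDown

/-! ### Valuation subrings of the height-one primes -/

section Val

variable {B L : Type*} [CommRing B] [IsDomain B] [Field L] [Algebra B L] [IsFractionRing B L]
  [IsNoetherianRing B] [IsIntegrallyClosed B]

/-- `B ∩ 𝔪(B_𝔭) = 𝔭` -/
theorem algebraMap_mem_nonunits_valSub_iff (𝔭 : Ideal B) [𝔭.IsPrime] (h1 : 𝔭.height = 1) (b : B) :
    algebraMap B L b ∈ (valSub (F := L) 𝔭 h1).nonunits ↔ b ∈ 𝔭 := by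
  rw [ValuationSubring.mem_nonunits_iff_or]
  constructor
  · rintro (h0 | hinv)
    · have : b = 0 := (map_eq_zero_iff _ (IsFractionRing.injective B L)).1 h0
      rw [this]
      exact 𝔭.zero_mem
    · by_contra hb
      apply hinv
      rw [mem_valSub_iff]
      refine ⟨b, hb, 1, ?_⟩
      have h0 : algebraMap B L b ≠ 0 := algebraMap_ne_zero_of_not_mem (F := L) 𝔭 hb
      rw [Algebra.smul_def, map_one, mul_inv_cancel₀ h0]
  · intro hb
    by_cases h0 : algebraMap B L b = 0
    · exact Or.inl h0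
    right
    intro hinv
    obtain ⟨s, hs, a, ha⟩ := (mem_valSub_iff 𝔭 h1).1 hinv
    apply hs
    have : s = b * a := by
      apply IsFractionRing.injective B L
      rw [map_mul, ha, Algebra.smul_def]
      field_simp
    rw [this]
    exact 𝔭.mul_mem_right _ hb

/-- the centre on `B` of a valuation subring of `L` containing `B` -/
def centre (O : ValuationSubring L) (hO : ∀ b : B, algebraMap B L b ∈ O) : Ideal B :=
  (IsLocalRing.maximalIdeal O).comap ((algebraMap B L).codRestrict O.toSubring hO)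

theorem mem_centre_iff {O : ValuationSubring L} {hO : ∀ b : B, algebraMap B L b ∈ O} {b : B} :
    b ∈ centre O hO ↔ algebraMap B L b ∈ O.nonunits := by
  rw [ValuationSubring.mem_nonunits_iff_exists_mem_maximalIdeal]
  constructor
  · intro h
    exact ⟨hO b, h⟩
  · rintro ⟨_, h⟩
    exact h

instance centre_isPrime (O : ValuationSubring L) (hO : ∀ b : B, algebraMap B L b ∈ O) :
    (centre O hO).IsPrime := by
  unfold centre
  exact Ideal.comap_isPrime _ _

theorem centre_valSub (𝔭 : Ideal B) [𝔭.IsPrime] (h1 : 𝔭.height = 1) :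
    centre (valSub (F := L) 𝔭 h1) (algebraMap_mem_valSub 𝔭 h1) = 𝔭 := by
  ext b
  rw [mem_centre_iff, algebraMap_mem_nonunits_valSub_iff]

/-- `B_𝔭 ⊆ O` for `𝔭` the centre of `O` -/
theorem valSub_le_of_centre_eq {O : ValuationSubring L} (hO : ∀ b : B, algebraMap B L b ∈ O)
    (𝔭 : Ideal B) [𝔭.IsPrime] (h1 : 𝔭.height = 1) (hc : centre O hO = 𝔭) :
    valSub (F := L) 𝔭 h1 ≤ O := by
  intro x hx
  obtain ⟨s, hs, a, ha⟩ := (mem_valSub_iff 𝔭 h1).1 hx
  have hs0 : algebraMap B L s ≠ 0 := algebraMap_ne_zero_of_not_mem (F := L) 𝔭 hs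
  have hsinv : (algebraMap B L s)⁻¹ ∈ O := by
    have : algebraMap B L s ∉ O.nonunits := fun h => hs (hc ▸ mem_centre_iff.mpr h)
    exact inv_mem_of_not_mem_nonunits this
  have : x = (algebraMap B L s)⁻¹ * algebraMap B L a := by
    rw [ha, Algebra.smul_def, ← mul_assoc, inv_mul_cancel₀ hs0, one_mul]
  rw [this]
  exact O.mul_mem _ _ hsinv (hO a)

/-- a valuation subring containing a DVR `B_𝔭` with the same centre is equal to it -/
theorem eq_valSub_of_centre_eq {O : ValuationSubring L} (hO : ∀ b : B, algebraMap B L b ∈ O)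
    (𝔭 : Ideal B) [𝔭.IsPrime] (h1 : 𝔭.height = 1) (hc : centre O hO = 𝔭) :
    O = valSub (F := L) 𝔭 h1 := by
  refine le_antisymm ?_ (valSub_le_of_centre_eq hO 𝔭 h1 hc)
  -- `O ≤ B_𝔭` : otherwise some `x ∈ O` has `x⁻¹ ∈ 𝔪(B_𝔭)`
  intro x hx
  by_contra hxv
  have hx0 : x ≠ 0 := fun h => hxv (h ▸ (valSub (F := L) 𝔭 h1).zero_mem)
  have hinv : x⁻¹ ∈ valSub (F := L) 𝔭 h1 :=
    ((valSub (F := L) 𝔭 h1).mem_or_inv_mem x).resolve_left hxv
  obtain ⟨s, hs, a, ha⟩ := (mem_valSub_iff 𝔭 h1).1 hinv
  have hs0 : algebraMap B L s ≠ 0 := algebraMap_ne_zero_of_not_mem (F := L) 𝔭 hs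
  -- `a = s x⁻¹`; `a ∈ 𝔭` since `x ∉ B_𝔭`
  have ha𝔭 : a ∈ 𝔭 := by
    by_contra ha𝔭
    apply hxv
    rw [mem_valSub_iff]
    refine ⟨a, ha𝔭, s, ?_⟩
    rw [Algebra.smul_def, ha, Algebra.smul_def]
    field_simp
  -- so `a ∈ 𝔪(O)`, `s = a x ∈ 𝔪(O)`, contradiction with `s ∉ 𝔭 = centre`
  have haO : algebraMap B L a ∈ O.nonunits := mem_centre_iff.mp (hc ▸ ha𝔭)
  have hsO : algebraMap B L s ∈ O.nonunits := by
    have e : algebraMap B L s = algebraMap B L a * x := by
      rw [ha, Algebra.smul_def]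
      field_simp
    rw [e, ValuationSubring.mem_nonunits_iff, map_mul]
    have h1' : O.valuation (algebraMap B L a) < 1 := haO
    have h2' : O.valuation x ≤ 1 := (O.valuation_le_one_iff x).mpr hx
    calc O.valuation (algebraMap B L a) * O.valuation x
        ≤ O.valuation (algebraMap B L a) * 1 := mul_le_mul' le_rfl h2'
      _ = O.valuation (algebraMap B L a) := mul_one _
      _ < 1 := h1'
  exact hs (hc ▸ mem_centre_iff.mpr hsO)

end Val

/-! ### Valuation subrings are integrally closed over any subring of the base -/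

section Integral

variable {A L : Type*} [CommRing A] [Field L] [Algebra A L]

/-- an element of `L` integral over `A ⊆ O` lies in the valuation subring `O` -/
theorem mem_of_isIntegral_of_forall_mem (O : ValuationSubring L)
    (hA : ∀ a : A, algebraMap A L a ∈ O) {x : L} (hx : IsIntegral A x) : x ∈ O := by
  obtain ⟨p, hp, hpx⟩ := hx
  let φ : A →+* O := (algebraMap A L).codRestrict O.toSubring hA
  have hcomp : (algebraMap O L).comp φ = algebraMap A L := by
    ext a
    rfl
  have hint : IsIntegral O x := by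
    refine ⟨p.map φ, hp.map φ, ?_⟩
    rw [Polynomial.eval₂_map, hcomp]
    exact hpx
  obtain ⟨y, hy⟩ := (IsIntegrallyClosed.isIntegral_iff (R := O) (K := L)).mp hint
  rw [← hy]
  exact y.2

end Integral

/-! ### The vertical valuations: NOEXT consumer and its converse -/

section Vert

variable {A B L : Type*} [CommRing A] [IsDomain A] [IsIntegrallyClosed A] [CommRing B] [IsDomain B]
  [Algebra A B] [FaithfulSMul A B] [Algebra.IsIntegral A B]
  [Field L] [Algebra B L] [IsFractionRing B L] [IsNoetherianRing B] [IsIntegrallyClosed B]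
  [Algebra A L] [IsScalarTower A B L]

/-- `O ⊇ A` has centre `(π)` on `A` -/
def HasCentre (π : A) (O : ValuationSubring L) : Prop :=
  (∀ a : A, algebraMap A L a ∈ O) ∧ ∀ a : A, algebraMap A L a ∈ O.nonunits ↔ π ∣ a

/-- a valuation subring containing `A` contains `B` -/
theorem algebraMap_mem_of_forall_base (O : ValuationSubring L)
    (hA : ∀ a : A, algebraMap A L a ∈ O) (b : B) : algebraMap B L b ∈ O := by
  refine mem_of_isIntegral_of_forall_mem O hA ?_
  have hb : IsIntegral A b := Algebra.IsIntegral.isIntegral b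
  exact hb.map (IsScalarTower.toAlgHom A B L)

theorem HasCentre.algebraMap_mem {π : A} {O : ValuationSubring L} (hO : HasCentre π O) (b : B) :
    algebraMap B L b ∈ O := algebraMap_mem_of_forall_base O hO.1 b

/-- the centre on `B` of a valuation subring with centre `(π)` on `A` -/
def HasCentre.centreB {π : A} {O : ValuationSubring L} (hO : HasCentre π O) : Ideal B :=
  centre O hO.algebraMap_mem

instance HasCentre.centreB_isPrime {π : A} {O : ValuationSubring L} (hO : HasCentre π O) :
    (hO.centreB (B := B)).IsPrime := centre_isPrime _ _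

theorem HasCentre.mem_centreB_iff {π : A} {O : ValuationSubring L} (hO : HasCentre π O) {b : B} :
    b ∈ hO.centreB ↔ algebraMap B L b ∈ O.nonunits := mem_centre_iff

theorem HasCentre.under_centreB {π : A} {O : ValuationSubring L} (hO : HasCentre π O) :
    (hO.centreB (B := B)).under A = Ideal.span {π} := by
  ext a
  rw [Ideal.under_def, Ideal.mem_comap, hO.mem_centreB_iff, ← IsScalarTower.algebraMap_apply,
    hO.2 a, Ideal.mem_span_singleton]

/-- the vertical height-one valuation rings of `B` have centre `(π)` on `A` -/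
theorem hasCentre_valSub {π : A} (hπ : Prime π) {𝔮 : Ideal B} [𝔮.IsPrime]
    (h𝔮 : 𝔮 ∈ (Ideal.span {algebraMap A B π}).minimalPrimes) (h1 : 𝔮.height = 1) :
    HasCentre π (valSub (F := L) 𝔮 h1) := by
  refine ⟨fun a => ?_, fun a => ?_⟩
  · rw [IsScalarTower.algebraMap_apply A B L]
    exact algebraMap_mem_valSub 𝔮 h1 _
  · rw [IsScalarTower.algebraMap_apply A B L, algebraMap_mem_nonunits_valSub_iff,
      ← Ideal.mem_span_singleton, ← under_eq_span_of_mem_minimalPrimes hπ h𝔮]
    exact Iff.rfl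

/-- **NOEXT consumer**: if every valuation subring of `L` with centre `(π)` on `A` is one of the
`W i`, then every vertical height-one valuation ring of `B` is one of the `W i`. -/
theorem exists_eq_valSub {π : A} (hπ : Prime π) {ι : Type*} (W : ι → ValuationSubring L)
    (hNoExt : ∀ O : ValuationSubring L, HasCentre π O → ∃ i, O = W i)
    {𝔮 : Ideal B} [𝔮.IsPrime] (h𝔮 : 𝔮 ∈ (Ideal.span {algebraMap A B π}).minimalPrimes)
    (h1 : 𝔮.height = 1) : ∃ i, valSub (F := L) 𝔮 h1 = W i :=
  hNoExt _ (hasCentre_valSub hπ h𝔮 h1)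

/-- `π ≠ 0` in `B` -/
theorem algebraMap_prime_ne_zero {π : A} (hπ : Prime π) : algebraMap A B π ≠ 0 := fun h =>
  hπ.ne_zero ((map_eq_zero_iff _ (FaithfulSMul.algebraMap_injective A B)).1 h)

/-- **converse (incomparability)**: the centre on `B` of a valuation subring with centre `(π)` on
`A` is a minimal prime of `π B`. -/
theorem HasCentre.centreB_mem_minimalPrimes {π : A} (hπ : Prime π) {O : ValuationSubring L}
    (hO : HasCentre π O) :
    hO.centreB ∈ (Ideal.span {algebraMap A B π}).minimalPrimes := by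
  have hπP : algebraMap A B π ∈ hO.centreB := by
    rw [hO.mem_centreB_iff, ← IsScalarTower.algebraMap_apply, hO.2]
  have hle : Ideal.span {algebraMap A B π} ≤ hO.centreB :=
    (Ideal.span_singleton_le_iff_mem _).mpr hπP
  obtain ⟨𝔮, h𝔮, h𝔮P⟩ := Ideal.exists_minimalPrimes_le hle
  have hq : 𝔮.IsPrime := h𝔮.1.1
  have hu : 𝔮.under A = Ideal.span {π} := under_eq_span_of_mem_minimalPrimes hπ h𝔮
  have heq : 𝔮 = hO.centreB := by
    by_contra hne
    have hlt : 𝔮 < hO.centreB := lt_of_le_of_ne h𝔮P hne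
    have := Ideal.IsIntegral.comap_lt_comap (R := A) hlt
    rw [← Ideal.under_def, ← Ideal.under_def, hu, hO.under_centreB] at this
    exact lt_irrefl _ this
  rw [← heq]
  exact h𝔮

theorem HasCentre.height_centreB {π : A} (hπ : Prime π) {O : ValuationSubring L}
    (hO : HasCentre π O) : (hO.centreB (B := B)).height = 1 :=
  height_eq_one_of_mem_minimalPrimes_span (algebraMap_prime_ne_zero hπ)
    (hO.centreB_mem_minimalPrimes hπ)

/-- a valuation subring with centre `(π)` on `A` IS the localisation of `B` at its centre -/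
theorem HasCentre.eq_valSub {π : A} (hπ : Prime π) {O : ValuationSubring L}
    (hO : HasCentre π O) :
    O = valSub (F := L) (hO.centreB (B := B)) (hO.height_centreB hπ) :=
  eq_valSub_of_centre_eq hO.algebraMap_mem _ _ rfl

variable {ι : Type*} (W : ι → ValuationSubring L)

/-- **`{minimal primes of π B} = {centres of the W i}`** under NOEXT -/
theorem minimalPrimes_eq_range_centreB {π : A} (hπ : Prime π) (hW : ∀ i, HasCentre π (W i))
    (hNoExt : ∀ O : ValuationSubring L, HasCentre π O → ∃ i, O = W i) :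
    (Ideal.span {algebraMap A B π}).minimalPrimes = Set.range fun i => (hW i).centreB := by
  ext 𝔮
  constructor
  · intro h𝔮
    have hq : 𝔮.IsPrime := h𝔮.1.1
    have h1 : 𝔮.height = 1 :=
      height_eq_one_of_mem_minimalPrimes_span (algebraMap_prime_ne_zero hπ) h𝔮
    obtain ⟨i, hi⟩ := exists_eq_valSub hπ W hNoExt h𝔮 h1
    refine ⟨i, ?_⟩
    ext b
    show b ∈ (hW i).centreB ↔ b ∈ 𝔮
    rw [(hW i).mem_centreB_iff, ← hi, algebraMap_mem_nonunits_valSub_iff]
  · rintro ⟨i, rfl⟩
    exact (hW i).centreB_mem_minimalPrimes hπ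

/-- **`rad (π B) = ⋂ P_i`** -/
theorem radical_span_eq_iInf_centreB {π : A} (hπ : Prime π) (hW : ∀ i, HasCentre π (W i))
    (hNoExt : ∀ O : ValuationSubring L, HasCentre π O → ∃ i, O = W i) :
    (Ideal.span {algebraMap A B π}).radical = ⨅ i, (hW i).centreB := by
  rw [← Ideal.sInf_minimalPrimes, minimalPrimes_eq_range_centreB W hπ hW hNoExt, sInf_range]

/-- **the branch set of a point of the fibre is non-empty** -/
theorem exists_centreB_le {π : A} (hπ : Prime π) (hW : ∀ i, HasCentre π (W i))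
    (hNoExt : ∀ O : ValuationSubring L, HasCentre π O → ∃ i, O = W i)
    (𝔫 : Ideal B) [𝔫.IsPrime] (h𝔫 : algebraMap A B π ∈ 𝔫) : ∃ i, (hW i).centreB ≤ 𝔫 := by
  have hle : Ideal.span {algebraMap A B π} ≤ 𝔫 := (Ideal.span_singleton_le_iff_mem _).mpr h𝔫
  obtain ⟨𝔮, h𝔮, h𝔮𝔫⟩ := Ideal.exists_minimalPrimes_le hle
  rw [minimalPrimes_eq_range_centreB W hπ hW hNoExt] at h𝔮
  obtain ⟨i, rfl⟩ := h𝔮
  exact ⟨i, h𝔮𝔫⟩

end Vert

/-! ### The Krull frame of all height-one primes -/

section FrameSec

variable {B L : Type*} [CommRing B] [IsDomain B] [Field L] [Algebra B L] [IsFractionRing B L]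
  [IsNoetherianRing B] [IsIntegrallyClosed B]

variable (B) in
/-- the height-one primes of `B` -/
abbrev HtOne : Type _ := {𝔭 : Ideal B // 𝔭.IsPrime ∧ 𝔭.height = 1}

/-- the valuation subring `B_𝔭` of a height-one prime -/
noncomputable def htOneVal (v : HtOne B) : ValuationSubring L :=
  haveI := v.2.1
  valSub (F := L) v.1 v.2.2

theorem mem_htOneVal_iff {v : HtOne B} {x : L} :
    x ∈ htOneVal (L := L) v ↔ ∃ s : B, s ∉ v.1 ∧ s • x ∈ (algebraMap B L).range := by
  haveI := v.2.1
  exact mem_valSub_iff v.1 v.2.2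

theorem algebraMap_mem_nonunits_htOneVal_iff {v : HtOne B} {b : B} :
    algebraMap B L b ∈ (htOneVal (L := L) v).nonunits ↔ b ∈ v.1 := by
  haveI := v.2.1
  exact algebraMap_mem_nonunits_valSub_iff v.1 v.2.2 b

/-- `v` lies over `𝔫` iff `𝔭_v ≤ 𝔫` -/
theorem over_htOneVal_iff (𝔫 : Ideal B) (v : HtOne B) :
    Over (htOneVal (L := L)) 𝔫 v ↔ v.1 ≤ 𝔫 := by
  unfold Over
  constructor
  · intro h s hs
    exact h s (algebraMap_mem_nonunits_htOneVal_iff.mpr hs)
  · intro h s hs
    exact h (algebraMap_mem_nonunits_htOneVal_iff.mp hs)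

/-- in a DVR `B_𝔭`, a power of an element of the maximal ideal kills any denominator -/
theorem exists_pow_mul_mem_htOneVal (v : HtOne B) {s : B} (hs : s ∈ v.1) (f : L) :
    ∃ n : ℕ, (algebraMap B L s) ^ n * f ∈ htOneVal (L := L) v := by
  haveI := v.2.1
  have hdvr : IsDiscreteValuationRing (locSub L v.1) := isDiscreteValuationRing_locSub v.1 v.2.2
  obtain ⟨a, t, ht, rfl⟩ := IsFractionRing.div_surjective (A := B) f
  have ht0 : t ≠ 0 := nonZeroDivisors.ne_zero ht
  have htL : algebraMap B L t ≠ 0 := fun h0 =>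
    ht0 ((map_eq_zero_iff _ (IsFractionRing.injective B L)).1 h0)
  -- elements of the DVR
  let sO : locSub L v.1 := ⟨algebraMap B L s, algebraMap_mem_locSub v.1 s⟩
  let tO : locSub L v.1 := ⟨algebraMap B L t, algebraMap_mem_locSub v.1 t⟩
  have htO : tO ≠ 0 := fun h => htL (congrArg Subtype.val h)
  obtain ⟨ϖ, hϖ⟩ := IsDiscreteValuationRing.exists_irreducible (locSub L v.1)
  -- `s` lies in the maximal ideal
  have hsm : sO ∈ IsLocalRing.maximalIdeal (locSub L v.1) := by
    rw [IsLocalRing.mem_maximalIdeal, mem_nonunits_iff]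
    intro hu
    obtain ⟨w, hw⟩ := hu.exists_right_inv
    have hwL : algebraMap B L s * (w : L) = 1 := congrArg Subtype.val hw
    obtain ⟨r, hr, c, hc⟩ := (mem_locSub_iff v.1).1 w.2
    have : r = s * c := by
      apply IsFractionRing.injective B L
      rw [map_mul, hc, Algebra.smul_def]
      calc algebraMap B L r = algebraMap B L r * (algebraMap B L s * (w : L)) := by
            rw [hwL, mul_one]
        _ = algebraMap B L s * (algebraMap B L r * (w : L)) := by ring
    exact hr (this ▸ v.1.mul_mem_right _ hs)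
  rw [hϖ.maximalIdeal_eq, Ideal.mem_span_singleton] at hsm
  obtain ⟨c, hc⟩ := hsm
  obtain ⟨n, u, hn⟩ := IsDiscreteValuationRing.eq_unit_mul_pow_irreducible htO hϖ
  refine ⟨n, ?_⟩
  -- `s^n / t = c^n u⁻¹`
  have key : sO ^ n = tO * (c ^ n * (↑u⁻¹ : locSub L v.1)) := by
    rw [hc, hn, mul_pow]
    calc ϖ ^ n * c ^ n = (↑u * ↑u⁻¹ : locSub L v.1) * (ϖ ^ n * c ^ n) := by
          rw [Units.mul_inv, one_mul]
      _ = _ := by ring
  have keyL : (algebraMap B L s) ^ n
      = algebraMap B L t * ((c ^ n * (↑u⁻¹ : locSub L v.1) : locSub L v.1) : L) := by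
    have := congrArg Subtype.val key
    simpa using this
  have : (algebraMap B L s) ^ n * (algebraMap B L a / algebraMap B L t)
      = ((c ^ n * (↑u⁻¹ : locSub L v.1) : locSub L v.1) : L) * algebraMap B L a := by
    rw [keyL]
    field_simp
  rw [this]
  exact (htOneVal (L := L) v).mul_mem _ _ (c ^ n * (↑u⁻¹ : locSub L v.1)).2
    (algebraMap_mem_valSub v.1 v.2.2 a)

/-- **helper46's Krull frame for the family of ALL height-one localisations of `B`.** -/
theorem isFrame_heightOne : IsFrame B (htOneVal (B := B) (L := L)) where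
  mem_range_iff f := by
    rw [mem_range_iff_forall_valSub]
    constructor
    · intro h v
      haveI := v.2.1
      exact h v.1 v.2.1 v.2.2
    · intro h 𝔭 hp h1
      exact h ⟨𝔭, hp, h1⟩
  finite_bad f := by
    obtain ⟨a, t, ht, rfl⟩ := IsFractionRing.div_surjective (A := B) f
    have ht0 : t ≠ 0 := nonZeroDivisors.ne_zero ht
    have hfin := finite_minimalPrimes_span t
    have hsub : {v : HtOne B | algebraMap B L a / algebraMap B L t ∉ htOneVal (L := L) v} ⊆
        (fun v : HtOne B => v.1) ⁻¹' (Ideal.span {t}).minimalPrimes := by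
      intro v hv
      haveI := v.2.1
      show v.1 ∈ (Ideal.span {t}).minimalPrimes
      refine mem_minimalPrimes_span_of_height_one ht0 v.1 v.2.2 ?_
      by_contra htv
      apply hv
      rw [mem_htOneVal_iff]
      refine ⟨t, htv, a, ?_⟩
      have htL : algebraMap B L t ≠ 0 := fun h0 =>
        ht0 ((map_eq_zero_iff _ (IsFractionRing.injective B L)).1 h0)
      rw [Algebra.smul_def]
      field_simp
    exact (hfin.preimage (Subtype.val_injective.injOn)).subset hsub
  rank_one v s hs f :=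
    exists_pow_mul_mem_htOneVal v (algebraMap_mem_nonunits_htOneVal_iff.mp hs) f

/-- **local membership test**: `f ∈ B_𝔫` as soon as `f ∈ B[1/π]` and `f ∈ B_𝔮` for the vertical
primes `𝔮` (minimal over `π`) BELOW `𝔫`. -/
theorem exists_smul_mem_of_horizontal_of_vertical {π : B} (hπ : π ≠ 0) (𝔫 : Ideal B) [𝔫.IsPrime]
    (f : L) (hhor : ∃ n : ℕ, π ^ n • f ∈ (algebraMap B L).range)
    (hver : ∀ 𝔮 ∈ (Ideal.span {π}).minimalPrimes, 𝔮 ≤ 𝔫 →
      ∃ s : B, s ∉ 𝔮 ∧ s • f ∈ (algebraMap B L).range) :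
    ∃ s : B, s ∉ 𝔫 ∧ s • f ∈ (algebraMap B L).range := by
  have hV := isFrame_heightOne (B := B) (L := L)
  have key : ∀ v : HtOne B, Over (htOneVal (L := L)) 𝔫 v → f ∈ htOneVal (L := L) v := by
    intro v hv
    haveI := v.2.1
    rw [over_htOneVal_iff] at hv
    rw [mem_htOneVal_iff]
    by_cases hπv : π ∈ v.1
    · exact hver v.1 (mem_minimalPrimes_span_of_height_one hπ v.1 v.2.2 hπv) hv
    · obtain ⟨n, hn⟩ := hhor
      exact ⟨π ^ n, fun h => hπv (v.2.1.mem_of_pow_mem n h), hn⟩
  obtain ⟨a, s, hs, h⟩ := (hV.exists_loc_iff 𝔫 f).mpr key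
  exact ⟨s, hs, a, by rw [Algebra.smul_def, h]⟩

end FrameSec

section Unmixed

variable {B : Type*} [CommRing B] [IsDomain B] [IsNoetherianRing B] [IsIntegrallyClosed B]

/-- **unmixedness at a one-branch point**: if `𝔮` is the only vertical prime below `𝔫` and `π`
generates `𝔮 B_𝔮` (`e = 1`), then `𝔮 B_𝔫 = π B_𝔫`. -/
theorem exists_mul_mem_span_of_mem (L : Type*) [Field L] [Algebra B L] [IsFractionRing B L]
    {π : B} (hπ : π ≠ 0) (𝔫 : Ideal B) [𝔫.IsPrime]
    {𝔮 : Ideal B} (huniq : ∀ 𝔮' ∈ (Ideal.span {π}).minimalPrimes, 𝔮' ≤ 𝔫 → 𝔮' = 𝔮)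
    (he : ∀ z ∈ 𝔮, ∃ s : B, s ∉ 𝔮 ∧ s * z ∈ Ideal.span {π}) {z : B} (hz : z ∈ 𝔮) :
    ∃ s : B, s ∉ 𝔫 ∧ s * z ∈ Ideal.span {π} := by
  have hπL : algebraMap B L π ≠ 0 := fun h0 =>
    hπ ((map_eq_zero_iff _ (IsFractionRing.injective B L)).1 h0)
  obtain ⟨s, hs, a, ha⟩ := exists_smul_mem_of_horizontal_of_vertical (L := L) hπ 𝔫
    (algebraMap B L z / algebraMap B L π)
    ⟨1, z, by rw [pow_one, Algebra.smul_def]; field_simp⟩
    (fun 𝔮' h𝔮' hle => by
      rw [huniq 𝔮' h𝔮' hle]
      obtain ⟨s, hs, hsz⟩ := he z hz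
      obtain ⟨b, hb⟩ := Ideal.mem_span_singleton'.mp hsz
      refine ⟨s, hs, b, ?_⟩
      rw [Algebra.smul_def, ← mul_div_assoc, ← map_mul, ← hb, map_mul]
      field_simp)
  refine ⟨s, hs, Ideal.mem_span_singleton'.mpr ⟨a, ?_⟩⟩
  apply IsFractionRing.injective B L
  rw [map_mul, map_mul, ha, Algebra.smul_def]
  field_simp

end Unmixed

end Fermat.Agent.GL.Frame.VertPrimes
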